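import Mathlib
import Fermat.Agent.DefRing.Burnside

/-!
# Bounding the image of a semisimple two-dimensional representation of a finite group

If most elements have (trace, determinant) in a set of size `m`, the image has at most `2 m⁴`
elements: choose four elements `g₁, …, g₄` separating the matrices of the image through
`h ↦ tr (gᵢ h)`; for at least half of the `h`, all `gᵢ h` are good.
-/

set_option autoImplicit false

namespace Fermat.Agent.DS

open Matrix

variable {G : Type*} [Group G] {k : Type*} [Field k]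

/-- Irreducibility of a two-dimensional matrix representation. -/
def Irr (M : G →* Matrix (Fin 2) (Fin 2) k) : Prop :=
  ∀ W : Submodule k (Fin 2 → k), (∀ g, ∀ x ∈ W, (M g).mulVec x ∈ W) → W = ⊥ ∨ W = ⊤

/-- Diagonal two-dimensional matrix representations. -/
def Dia (M : G →* Matrix (Fin 2) (Fin 2) k) : Prop :=
  ∃ χ₁ χ₂ : G →* k, ∀ g, M g = !![χ₁ g, 0; 0, χ₂ g]

theorem eigen_relation {X : Matrix (Fin 2) (Fin 2) k} {v : Fin 2 → k} (hv : v ≠ 0) {c : k}
    (h : X.mulVec v = c • v) : c ^ 2 - X.trace * c + X.det = 0 := by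
  have h0 := congrFun h 0
  have h1 := congrFun h 1
  simp only [Matrix.mulVec, dotProduct, Fin.sum_univ_two, Pi.smul_apply, smul_eq_mul] at h0 h1
  have hv' : v 0 ≠ 0 ∨ v 1 ≠ 0 := by
    by_contra hcon
    push Not at hcon
    apply hv
    ext i
    fin_cases i
    · exact hcon.1
    · exact hcon.2
  rw [Matrix.trace_fin_two, Matrix.det_fin_two]
  rcases hv' with hv' | hv'
  · refine (mul_eq_zero.mp (?_ : v 0 * _ = 0)).resolve_left hv'
    linear_combination (-c + X 1 1) * h0 + (-X 0 1) * h1
  · refine (mul_eq_zero.mp (?_ : v 1 * _ = 0)).resolve_left hv'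
    linear_combination (-X 1 0) * h0 + (-c + X 0 0) * h1

/-- Semisimplification. -/
theorem exists_ss (M : G →* Matrix (Fin 2) (Fin 2) k) :
    ∃ M' : G →* Matrix (Fin 2) (Fin 2) k, (Irr M' ∨ Dia M') ∧
      (∀ g, (M' g).trace = (M g).trace) ∧ (∀ g, (M' g).det = (M g).det) ∧
      ∀ g, M g = 1 → M' g = 1 := by
  classical
  by_cases hirr : Irr M
  · exact ⟨M, Or.inl hirr, fun _ => rfl, fun _ => rfl, fun _ h => h⟩
  unfold Irr at hirr
  push Not at hirr
  obtain ⟨W, hW, hW0, hW1⟩ := hirr
  obtain ⟨v, hvW, hv⟩ := (Submodule.ne_bot_iff W).mp hW0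
  have hspan : ∀ x ∈ W, ∃ c : k, x = c • v := by
    intro x hx
    have h1 : Module.finrank k W ≤ 1 := by
      have h2 : Module.finrank k W < 2 := by
        have := Submodule.finrank_lt (lt_top_iff_ne_top.mpr hW1).ne
        simpa using this
      omega
    obtain ⟨w, hw⟩ := finrank_le_one_iff.mp h1
    obtain ⟨c, hc⟩ := hw ⟨v, hvW⟩
    obtain ⟨d, hd⟩ := hw ⟨x, hx⟩
    have hc' : c • (w : Fin 2 → k) = v := congrArg Subtype.val hc
    have hd' : d • (w : Fin 2 → k) = x := congrArg Subtype.val hd
    have hc0 : c ≠ 0 := by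
      rintro rfl
      rw [zero_smul] at hc'
      exact hv hc'.symm
    refine ⟨d * c⁻¹, ?_⟩
    rw [← hc', ← hd', smul_smul, mul_assoc, inv_mul_cancel₀ hc0, mul_one]
  have hev : ∀ g, ∃ c : k, (M g).mulVec v = c • v := fun g => hspan _ (hW g v hvW)
  choose c hc using hev
  have hinj : ∀ {a b : k}, a • v = b • v → a = b := fun {a b} h => by
    rw [← sub_eq_zero, ← sub_smul] at h
    exact sub_eq_zero.mp ((smul_eq_zero.mp h).resolve_right hv)
  let χ₁ : G →* k :=
    { toFun := c
      map_one' := hinj (by rw [← hc, map_one, Matrix.one_mulVec, one_smul])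
      map_mul' := fun g h => hinj (by
        rw [← hc, map_mul, ← Matrix.mulVec_mulVec, hc h, Matrix.mulVec_smul, hc g, smul_smul,
          mul_comm]) }
  have hχ0 : ∀ g, c g ≠ 0 := fun g h0 => by
    have h1 : χ₁ (g * g⁻¹) = 1 := by rw [mul_inv_cancel, map_one]
    rw [map_mul] at h1
    have h2 : χ₁ g = 0 := h0
    rw [h2, zero_mul] at h1
    exact zero_ne_one h1
  let χ₂ : G →* k :=
    { toFun := fun g => (M g).det * (c g)⁻¹
      map_one' := by
        have : c 1 = 1 := χ₁.map_one
        rw [map_one, det_one, this, inv_one, mul_one]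
      map_mul' := fun g h => by
        have : c (g * h) = c g * c h := χ₁.map_mul g h
        rw [map_mul, det_mul, this, mul_inv]
        ring }
  refine ⟨{ toFun := fun g => !![χ₁ g, 0; 0, χ₂ g]
            map_one' := by rw [map_one, map_one, Matrix.one_fin_two]
            map_mul' := fun g h => by
              rw [map_mul, map_mul, Matrix.mul_fin_two]
              simp }, Or.inr ⟨χ₁, χ₂, fun g => rfl⟩, fun g => ?_, fun g => ?_, fun g hg => ?_⟩
  · have h := eigen_relation hv (hc g)
    simp only [MonoidHom.coe_mk, OneHom.coe_mk, Matrix.trace_fin_two_of]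
    change c g + (M g).det * (c g)⁻¹ = _
    field_simp [hχ0 g]
    linear_combination h
  · simp only [MonoidHom.coe_mk, OneHom.coe_mk, Matrix.det_fin_two_of]
    change c g * ((M g).det * (c g)⁻¹) - 0 * 0 = _
    field_simp [hχ0 g]
    ring
  · have h1 : c g = 1 := hinj (by rw [← hc, hg, Matrix.one_mulVec, one_smul])
    simp only [MonoidHom.coe_mk, OneHom.coe_mk]
    change !![c g, 0; 0, (M g).det * (c g)⁻¹] = 1
    rw [h1, hg, det_one, inv_one, mul_one, Matrix.one_fin_two]

/-- Four elements separate the image through traces. -/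
theorem exists_sep [IsAlgClosed k] (h2 : (2 : k) ≠ 0) (M : G →* Matrix (Fin 2) (Fin 2) k)
    (hss : Irr M ∨ Dia M) :
    ∃ g : Fin 4 → G, ∀ h h', (∀ i, (M (g i) * M h).trace = (M (g i) * M h').trace) →
      M h = M h' := by
  classical
  rcases hss with hirr | ⟨χ₁, χ₂, hM⟩
  · have hspan := Fermat.Agent.UDef.burnside_two M hirr
    obtain ⟨f, hf, hfs, -⟩ := Submodule.exists_fun_fin_finrank_span_eq k (Set.range M)
    have hfr : Module.finrank k (Submodule.span k (Set.range M)) = 4 := by
      rw [hspan, finrank_top, Module.finrank_matrix]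
      simp
    choose g hg using hf
    have e : Fin 4 ≃ Fin (Module.finrank k (Submodule.span k (Set.range M))) :=
      finCongr hfr.symm
    refine ⟨fun i => g (e i), fun h h' hh => ?_⟩
    have hall : ∀ Y ∈ Submodule.span k (Set.range f), (Y * (M h - M h')).trace = 0 := by
      intro Y hY
      induction hY using Submodule.span_induction with
      | mem x hx =>
        obtain ⟨i, rfl⟩ := hx
        have := hh (e.symm i)
        simp only [Equiv.apply_symm_apply, hg] at this
        rw [mul_sub, Matrix.trace_sub, this, sub_self]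
      | zero => rw [zero_mul, Matrix.trace_zero]
      | add x y _ _ hx hy => rw [add_mul, Matrix.trace_add, hx, hy, add_zero]
      | smul a x _ hx => rw [Matrix.smul_mul, Matrix.trace_smul, hx, smul_zero]
    rw [hfs, hspan] at hall
    rw [← sub_eq_zero]
    ext i j
    have := hall (Matrix.single j i 1) Submodule.mem_top
    rw [Matrix.trace_single_mul] at this
    simpa using this
  · by_cases hχ : ∀ g, χ₁ g = χ₂ g
    · refine ⟨fun _ => 1, fun h h' hh => ?_⟩
      have := hh 0
      rw [map_one, one_mul, one_mul, hM, hM, Matrix.trace_fin_two_of, Matrix.trace_fin_two_of,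
        ← hχ, ← hχ] at this
      have h3 : χ₁ h = χ₁ h' := by
        have h4 : (2 : k) * χ₁ h = 2 * χ₁ h' := by linear_combination this
        exact mul_left_cancel₀ h2 h4
      rw [hM, hM, ← hχ, ← hχ, h3]
    · push Not at hχ
      obtain ⟨g₁, hg₁⟩ := hχ
      refine ⟨fun i => if i = 0 then 1 else g₁, fun h h' hh => ?_⟩
      have e0 : (M 1 * M h).trace = (M 1 * M h').trace := hh 0
      have e1 : (M g₁ * M h).trace = (M g₁ * M h').trace := hh 1
      rw [map_one, one_mul, one_mul, hM, hM, Matrix.trace_fin_two_of,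
        Matrix.trace_fin_two_of] at e0
      rw [hM, hM, hM, Matrix.mul_fin_two, Matrix.mul_fin_two,
        Matrix.trace_fin_two_of, Matrix.trace_fin_two_of] at e1
      have h3 : χ₁ h = χ₁ h' := by
        have h4 : (χ₁ g₁ - χ₂ g₁) * χ₁ h = (χ₁ g₁ - χ₂ g₁) * χ₁ h' := by
          linear_combination e1 - χ₂ g₁ * e0
        exact mul_left_cancel₀ (sub_ne_zero.mpr hg₁) h4
      have h5 : χ₂ h = χ₂ h' := by linear_combination e0 - h3
      rw [hM, hM, h3, h5]

/-- **Image bound.** -/
theorem card_range_le [IsAlgClosed k] (h2 : (2 : k) ≠ 0) [Finite G]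
    (M : G →* Matrix (Fin 2) (Fin 2) k) (hss : Irr M ∨ Dia M) (S : Finset (k × k))
    (hB : 8 * Nat.card {g : G // ((M g).trace, (M g).det) ∉ S} ≤ Nat.card G) :
    Nat.card M.toHomUnits.range ≤ 2 * S.card ^ 4 := by
  classical
  have := Fintype.ofFinite G
  obtain ⟨g, hg⟩ := exists_sep h2 M hss
  let P : G → Prop := fun h => ((M h).trace, (M h).det) ∈ S
  let Good : Finset G := Finset.univ.filter fun h => ∀ i, P (g i * h)
  let B : Finset G := Finset.univ.filter fun h => ¬ P h
  have hBc : Nat.card {g : G // ((M g).trace, (M g).det) ∉ S} = B.card := by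
    rw [Nat.card_eq_fintype_card, Fintype.card_subtype]
  have hG : Nat.card G = Fintype.card G := Nat.card_eq_fintype_card
  rw [hBc, hG] at hB
  have hbad : (Finset.univ.filter fun h => ¬ ∀ i, P (g i * h)).card ≤ 4 * B.card := by
    have h1 : (Finset.univ.filter fun h => ¬ ∀ i, P (g i * h)) ⊆
        Finset.univ.biUnion fun i : Fin 4 => B.image fun b => (g i)⁻¹ * b := by
      intro h hh
      rw [Finset.mem_filter] at hh
      push Not at hh
      obtain ⟨-, i, hi⟩ := hh
      rw [Finset.mem_biUnion]
      refine ⟨i, Finset.mem_univ _, Finset.mem_image.mpr ⟨g i * h, ?_, by group⟩⟩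
      exact Finset.mem_filter.mpr ⟨Finset.mem_univ _, hi⟩
    refine (Finset.card_le_card h1).trans (Finset.card_biUnion_le.trans ?_)
    refine (Finset.sum_le_sum fun i _ => Finset.card_image_le).trans ?_
    simp
  have hsum : Good.card + (Finset.univ.filter fun h => ¬ ∀ i, P (g i * h)).card =
      Fintype.card G := by
    have h1 : (Finset.univ.filter fun h : G => ∀ i, P (g i * h)).card +
      (Finset.univ.filter fun h : G => ¬ ∀ i, P (g i * h)).card =
        (Finset.univ : Finset G).card := Finset.card_filter_add_card_filter_not _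
    exact h1
  have hGood : Fintype.card G ≤ 2 * Good.card := by omega
  -- fibres
  set R := M.toHomUnits with hR
  have hRM : ∀ h, ((R h : (Matrix (Fin 2) (Fin 2) k)ˣ) : Matrix (Fin 2) (Fin 2) k) = M h :=
    fun h => rfl
  have hcard : Nat.card R.range * Nat.card R.ker = Fintype.card G := by
    rw [← hG, ← Nat.card_congr (QuotientGroup.quotientKerEquivRange R).toEquiv]
    exact (Subgroup.card_eq_card_quotient_mul_card_subgroup R.ker).symm
  let Φ : G → (Fin 4 → k) := fun h i => (M (g i) * M h).trace
  have himg : Good.image Φ ⊆ Fintype.piFinset fun _ : Fin 4 => S.image Prod.fst := by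
    intro y hy
    obtain ⟨h, hh, rfl⟩ := Finset.mem_image.mp hy
    rw [Fintype.mem_piFinset]
    intro i
    have h1 := (Finset.mem_filter.mp hh).2 i
    exact Finset.mem_image.mpr ⟨_, h1, by simp only [Φ, map_mul]⟩
  have himgc : (Good.image Φ).card ≤ S.card ^ 4 := by
    refine (Finset.card_le_card himg).trans ?_
    rw [Fintype.card_piFinset, Finset.prod_const, Finset.card_univ, Fintype.card_fin]
    exact Nat.pow_le_pow_left Finset.card_image_le 4
  have hfib : ∀ y ∈ Good.image Φ, (Good.filter fun h => Φ h = y).card ≤ Nat.card R.ker := by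
    intro y hy
    obtain ⟨h₀, -, rfl⟩ := Finset.mem_image.mp hy
    have h1 : ∀ h ∈ Good.filter fun h => Φ h = Φ h₀, h₀⁻¹ * h ∈ R.ker := by
      intro h hh
      have h2 := (Finset.mem_filter.mp hh).2
      have h3 : M h = M h₀ := hg h h₀ fun i => congrFun h2 i
      rw [MonoidHom.mem_ker, map_mul, map_inv, inv_mul_eq_one]
      exact Units.ext h3.symm
    have h2 : Nat.card R.ker = (Finset.univ.filter fun h => h ∈ R.ker).card := by
      rw [Nat.card_eq_fintype_card, Fintype.card_subtype]
    rw [h2]
    refine Finset.card_le_card_of_injOn (fun h => h₀⁻¹ * h) (fun h hh => ?_)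
      (fun a _ b _ hab => mul_left_cancel hab)
    exact Finset.mem_coe.mpr (Finset.mem_filter.mpr ⟨Finset.mem_univ _, h1 h hh⟩)
  have hGk : Good.card ≤ Nat.card R.ker * S.card ^ 4 :=
    (Finset.card_le_mul_card_image Good _ hfib).trans (Nat.mul_le_mul_left _ himgc)
  have hkpos : 0 < Nat.card R.ker := Nat.card_pos
  have h1 : Nat.card R.range * Nat.card R.ker ≤ (2 * S.card ^ 4) * Nat.card R.ker := by
    rw [hcard]
    calc Fintype.card G ≤ 2 * Good.card := hGood
      _ ≤ 2 * (Nat.card R.ker * S.card ^ 4) := Nat.mul_le_mul_left _ hGk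
      _ = _ := by ring
  exact Nat.le_of_mul_le_mul_right h1 hkpos

end Fermat.Agent.DS
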