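import Mathlib
import Fermat.Agent.Density.Chebotarev
import Fermat.Prelude.Def_GaloisRep_Residual

/-!
# Finite level homomorphisms and algebraic integers modulo large primes
-/

set_option autoImplicit false

namespace Fermat.Agent.DS

local notation "ℚbar" => AlgebraicClosure ℚ
local notation "Γℚ" => AlgebraicClosure ℚ ≃ₐ[ℚ] AlgebraicClosure ℚ

/-- All algebraic integers. -/
abbrev Zb : Type := integralClosure ℤ ℂ

theorem minpoly_coeff_zero_ne_zero (x : Zb) (hx : x ≠ 0) : (minpoly ℤ x).coeff 0 ≠ 0 := by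
  intro h0
  have hint : IsIntegral ℤ x := Algebra.IsIntegral.isIntegral x
  have hm := minpoly.monic hint
  obtain ⟨q, hq⟩ : Polynomial.X ∣ minpoly ℤ x := Polynomial.X_dvd_iff.mpr h0
  have hqm : q.Monic := by
    rw [hq] at hm
    exact Polynomial.Monic.of_mul_monic_left Polynomial.monic_X hm
  have h1 : Polynomial.aeval x q = 0 := by
    have h2 := minpoly.aeval ℤ x
    rw [hq, map_mul, Polynomial.aeval_X] at h2
    exact (mul_eq_zero.mp h2).resolve_left hx
  have h3 := minpoly.min ℤ x hqm h1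
  rw [hq, Polynomial.degree_mul, Polynomial.degree_X] at h3
  have h4 : q ≠ 0 := hqm.ne_zero
  rw [Polynomial.degree_eq_natDegree h4] at h3
  have h5 : 1 + q.natDegree ≤ q.natDegree := by exact_mod_cast h3
  omega

theorem exists_bound (x : Zb) (hx : x ≠ 0) : ∃ n : ℕ, 0 < n ∧
    ∀ (k : Type) [Field k] (ℓ : ℕ) [CharP k ℓ] (φ : Zb →+* k), φ x = 0 → ℓ ∣ n := by
  refine ⟨((minpoly ℤ x).coeff 0).natAbs, ?_, ?_⟩
  · rw [Int.natAbs_pos]
    exact minpoly_coeff_zero_ne_zero x hx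
  · intro k _ ℓ _ φ hφ
    have h1 : Polynomial.aeval x (minpoly ℤ x) = 0 := minpoly.aeval ℤ x
    have h2 : Polynomial.aeval (φ x) (minpoly ℤ x) = 0 := by
      have h3 := congrArg φ h1
      rw [map_zero, Polynomial.aeval_def, Polynomial.hom_eval₂] at h3
      rw [Polynomial.aeval_def]
      convert h3 using 2
      exact RingHom.ext_int _ _
    rw [hφ, ← Polynomial.coeff_zero_eq_aeval_zero'] at h2
    have h3 : (((minpoly ℤ x).coeff 0 : ℤ) : k) = 0 := by simpa using h2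
    rw [CharP.intCast_eq_zero_iff k ℓ] at h3
    exact Int.natCast_dvd.mp h3

/-- An algebraic integer killed by reduction maps of infinitely many characteristics is zero. -/
theorem eq_zero_of_frequently (x : Zb)
    (h : ∀ B : ℕ, ∃ ℓ, B < ℓ ∧ ∃ (k : Type) (_ : Field k) (_ : CharP k ℓ) (φ : Zb →+* k), φ x = 0) :
    x = 0 := by
  by_contra hx
  obtain ⟨n, hn, h1⟩ := exists_bound x hx
  obtain ⟨ℓ, hℓ, k, _, _, φ, hφ⟩ := h n
  exact absurd (Nat.le_of_dvd hn (h1 k ℓ φ hφ)) (not_le.mpr hℓ)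

/-- Reduction maps of large characteristic are injective on finite sets. -/
theorem exists_injOn (T : Finset Zb) : ∃ B : ℕ, ∀ (k : Type) [Field k] (ℓ : ℕ) [CharP k ℓ]
    (φ : Zb →+* k), B < ℓ → ∀ x ∈ T, ∀ y ∈ T, φ x = φ y → x = y := by
  classical
  have h : ∀ q : Zb × Zb, ∃ n : ℕ, 0 < n ∧ (q.1 ≠ q.2 →
      ∀ (k : Type) [Field k] (ℓ : ℕ) [CharP k ℓ] (φ : Zb →+* k), φ (q.1 - q.2) = 0 → ℓ ∣ n) := by
    intro q
    by_cases hq : q.1 = q.2
    · exact ⟨1, one_pos, fun h => absurd hq h⟩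
    · obtain ⟨n, hn, h1⟩ := exists_bound (q.1 - q.2) (sub_ne_zero.mpr hq)
      exact ⟨n, hn, fun _ => h1⟩
  choose n hn0 hn using h
  refine ⟨(T ×ˢ T).sup n, fun k _ ℓ _ φ hℓ x hx y hy hxy => ?_⟩
  by_contra hne
  have h1 := hn (x, y) hne k ℓ φ (by rw [map_sub, hxy, sub_self])
  have h2 : n (x, y) ≤ (T ×ˢ T).sup n :=
    Finset.le_sup (f := n) (Finset.mem_product.mpr ⟨hx, hy⟩)
  exact absurd (Nat.le_of_dvd (hn0 _) h1) (not_le.mpr (lt_of_le_of_lt h2 hℓ))

/-- A homomorphism of finite level factors through a finite Galois group. -/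
theorem exists_factor {X : Type} [Monoid X] (M : Γℚ →* X)
    (hM : GaloisFactorsThroughFiniteLevel M) :
    ∃ (L : IntermediateField ℚ ℚbar) (_ : FiniteDimensional ℚ L) (_ : IsGalois ℚ L)
      (M' : (L ≃ₐ[ℚ] L) →* X), ∀ σ : Γℚ, M' (AlgEquiv.restrictNormalHom L σ) = M σ := by
  obtain ⟨L₀, hL₀, h⟩ := hM
  let L' : IntermediateField ℚ ℚbar := IntermediateField.normalClosure ℚ L₀ ℚbar
  have : FiniteDimensional ℚ L' := normalClosure.is_finiteDimensional ℚ L₀ ℚbar
  have : Normal ℚ L' := normalClosure.normal ℚ L₀ ℚbar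
  have : IsGalois ℚ L' := ⟨⟩
  have hle : L₀ ≤ L' := IntermediateField.le_normalClosure L₀
  have hsurj : Function.Surjective (AlgEquiv.restrictNormalHom (F := ℚ) (K₁ := ℚbar) L') :=
    AlgEquiv.restrictNormalHom_surjective _
  have hker : (AlgEquiv.restrictNormalHom (F := ℚ) (K₁ := ℚbar) L').ker ≤ M.toHomUnits.ker := by
    intro σ hσ
    rw [MonoidHom.mem_ker] at hσ ⊢
    refine Units.ext (h σ fun x hx => ?_)
    have h1 := AlgEquiv.restrictNormal_commutes σ L' ⟨x, hle hx⟩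
    have h2 : AlgEquiv.restrictNormal σ L' = 1 := hσ
    rw [h2] at h1
    exact h1.symm
  refine ⟨L', inferInstance, inferInstance,
    (Units.coeHom X).comp (MonoidHom.liftOfSurjective _ hsurj ⟨M.toHomUnits, hker⟩),
    fun σ => ?_⟩
  rw [MonoidHom.comp_apply]
  have h1 := MonoidHom.liftOfRightInverse_comp_apply
    (AlgEquiv.restrictNormalHom (F := ℚ) (K₁ := ℚbar) L') (Function.surjInv hsurj)
    (Function.rightInverse_surjInv hsurj) ⟨M.toHomUnits, hker⟩ σ
  change ((MonoidHom.liftOfSurjective _ hsurj ⟨M.toHomUnits, hker⟩ : _ →* Xˣ) _ : X) = M σ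
  rw [show (MonoidHom.liftOfSurjective _ hsurj ⟨M.toHomUnits, hker⟩ : _ →* Xˣ)
    (AlgEquiv.restrictNormalHom L' σ) = M.toHomUnits σ from h1]
  rfl

end Fermat.Agent.DS
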