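import Mathlib
import Fermat.Agent.DS.GroupBound
import Fermat.Agent.DS.Level

/-!
# The images of the mod `ℓ` representations are bounded
-/

set_option autoImplicit false

open Filter Topology

namespace Fermat.Agent.DS

open Fermat.Agent.Density.Crossing Fermat.Agent.Density.Chebotarev Matrix

local notation "ℚbar" => AlgebraicClosure ℚ
local notation "Γℚ" => AlgebraicClosure ℚ ≃ₐ[ℚ] AlgebraicClosure ℚ

/-- A mod `ℓ` representation with Frobenius traces `a p` and determinants `e p`. -/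
structure ModRep (N : ℕ) (a e : ℕ → Zb) (ℓ : ℕ) where
  /-- the coefficient field -/
  k : Type
  [fld : Field k]
  [alg : IsAlgClosed k]
  [chr : CharP k ℓ]
  /-- the reduction map -/
  φ : Zb →+* k
  /-- the representation -/
  M : Γℚ →* Matrix (Fin 2) (Fin 2) k
  level : GaloisFactorsThroughFiniteLevel M
  frob : ∀ p : ℕ, p.Prime → ¬ p ∣ N → p ≠ ℓ → ∀ A : ValuationSubring ℚbar, A.LiesOverPrime p →
    (∀ σ ∈ A.inertiaSubgroupIn ℚ, M σ = 1) ∧
    ∀ σ : Γℚ, A.IsFrobeniusAt σ p → (M σ).trace = φ (a p) ∧ (M σ).det = φ (e p)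

attribute [instance] ModRep.fld ModRep.alg ModRep.chr

/-- Semisimplification of mod `ℓ` representations. -/
theorem ModRep.exists_ss {N : ℕ} {a e : ℕ → Zb} {ℓ : ℕ} (R : ModRep N a e ℓ) :
    ∃ R' : ModRep N a e ℓ, Irr R'.M ∨ Dia R'.M := by
  obtain ⟨M', hss, htr, hdet, hker⟩ := Fermat.Agent.DS.exists_ss R.M
  exact ⟨{ k := R.k
           φ := R.φ
           M := M'
           level := by
             obtain ⟨L, hL, h⟩ := R.level
             exact ⟨L, hL, fun σ hσ => hker _ (h σ hσ)⟩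
           frob := fun p hp hpN hpℓ A hA =>
            ⟨fun σ hσ => hker _ ((R.frob p hp hpN hpℓ A hA).1 σ hσ), fun σ hσ => by
              rw [htr, hdet]
              exact (R.frob p hp hpN hpℓ A hA).2 σ hσ⟩ }, hss⟩

/-- The primes with `a p ∉ Y` have upper density at most `1 / 8`. -/
def SmallOutside (N : ℕ) (Y : Finset Zb) (a : ℕ → Zb) : Prop :=
  ∃ C : ℝ, ∀ s : ℝ, 1 < s → s ≤ 2 → ∀ P : Finset ℕ, (∀ p ∈ P, p.Prime ∧ ¬ p ∣ N ∧ a p ∉ Y) →
    ∑ p ∈ P, (p : ℝ) ^ (-s) ≤ (1 / 8) * Real.log (1 / (s - 1)) + C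

theorem trace_conj {G : Type*} [Group G] {k : Type*} [CommRing k]
    (M : G →* Matrix (Fin 2) (Fin 2) k) (g h : G) : (M (h * g * h⁻¹)).trace = (M g).trace := by
  rw [map_mul, Matrix.trace_mul_comm, ← map_mul]
  congr 2
  group

theorem det_conj {G : Type*} [Group G] {k : Type*} [CommRing k]
    (M : G →* Matrix (Fin 2) (Fin 2) k) (g h : G) : (M (h * g * h⁻¹)).det = (M g).det := by
  rw [map_mul, map_mul, det_mul, det_mul, mul_comm (M h).det, mul_assoc, ← det_mul, ← map_mul,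
    mul_inv_cancel, map_one, det_one, mul_one]

/-- Comparison of an analytic upper bound with a density. -/
theorem density_le (c C : ℝ) {F : ℝ → ℝ} {d : ℝ}
    (h1 : Tendsto (fun s : ℝ ↦ F s / Real.log (1 / (s - 1))) (𝓝[>] 1) (𝓝 d))
    (h2 : ∀ s : ℝ, 1 < s → s ≤ 2 → F s ≤ c * Real.log (1 / (s - 1)) + C) : d ≤ c := by
  have h3 : Tendsto (fun s : ℝ ↦ c + C / Real.log (1 / (s - 1))) (𝓝[>] 1) (𝓝 (c + 0)) :=
    tendsto_const_nhds.add (Fermat.Agent.FrobDensity.tendsto_log_atTop.const_div_atTop _)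
  rw [add_zero] at h3
  refine le_of_tendsto_of_tendsto h1 h3 ?_
  have h4 : ∀ᶠ s : ℝ in 𝓝[>] 1, s ≤ 2 := by
    refine mem_nhdsWithin_of_mem_nhds ?_
    exact Iic_mem_nhds (by norm_num)
  filter_upwards [self_mem_nhdsWithin, eventually_log_pos, h4] with s hs hlog hs2
  rw [div_le_iff₀ hlog, add_mul, div_mul_cancel₀ _ hlog.ne']
  exact h2 s hs hs2

theorem card_range_le_of_modRep (hA2 : CycloPrimeDensity.{0}) {N : ℕ} (hN : N ≠ 0)
    {a e : ℕ → Zb} (Y Z : Finset Zb) (hY : SmallOutside N Y a)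
    (hZ : ∀ p : ℕ, p.Prime → ¬ p ∣ N → e p ∈ Z) {ℓ : ℕ} (hℓ : ℓ.Prime) (hℓ2 : ℓ ≠ 2)
    (R : ModRep N a e ℓ) (hss : Irr R.M ∨ Dia R.M) :
    Nat.card R.M.toHomUnits.range ≤ 2 * (Y.card * Z.card) ^ 4 := by
  classical
  obtain ⟨L, hL, hLG, M', hM'⟩ := exists_factor R.M R.level
  have hsurj : Function.Surjective (AlgEquiv.restrictNormalHom (F := ℚ) (K₁ := ℚbar) L) :=
    AlgEquiv.restrictNormalHom_surjective _
  have h2 : (2 : R.k) ≠ 0 := by
    intro h
    have h' : ((2 : ℕ) : R.k) = 0 := by exact_mod_cast h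
    rw [CharP.cast_eq_zero_iff R.k ℓ] at h'
    exact hℓ2 ((Nat.prime_dvd_prime_iff_eq hℓ Nat.prime_two).mp h')
  have hss' : Irr M' ∨ Dia M' := by
    rcases hss with h | ⟨χ₁, χ₂, h⟩
    · left
      intro W hW
      refine h W fun σ x hx => ?_
      rw [← hM']
      exact hW _ x hx
    · right
      have hz : ∀ g, ∃ x y : R.k, M' g = !![x, 0; 0, y] := by
        intro g
        obtain ⟨σ, rfl⟩ := hsurj g
        rw [hM', h]
        exact ⟨_, _, rfl⟩
      have h00 : ∀ g, M' g = !![M' g 0 0, 0; 0, M' g 1 1] := by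
        intro g
        obtain ⟨x, y, hxy⟩ := hz g
        rw [hxy]
        simp
      refine ⟨{ toFun := fun g => M' g 0 0
                map_one' := by rw [map_one]; simp
                map_mul' := fun g h => by
                  rw [map_mul, h00 g, h00 h, Matrix.mul_fin_two]
                  simp },
              { toFun := fun g => M' g 1 1
                map_one' := by rw [map_one]; simp
                map_mul' := fun g h => by
                  rw [map_mul, h00 g, h00 h, Matrix.mul_fin_two]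
                  simp }, h00⟩
  let S : Finset (R.k × R.k) := (Y ×ˢ Z).image (Prod.map R.φ R.φ)
  have hS : S.card ≤ Y.card * Z.card := by
    refine Finset.card_image_le.trans ?_
    rw [Finset.card_product]
  let X : Set (L ≃ₐ[ℚ] L) := {g | ((M' g).trace, (M' g).det) ∉ S}
  have hX : ∀ g h : L ≃ₐ[ℚ] L, g ∈ X → h * g * h⁻¹ ∈ X := by
    intro g h hg
    change ((M' (h * g * h⁻¹)).trace, (M' (h * g * h⁻¹)).det) ∉ S
    rw [trace_conj, det_conj]
    exact hg
  have hden := tendsto_placePrimes hA2 (N * ℓ).primeFactors L hX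
  obtain ⟨C, hC⟩ := hY
  have hle : (Nat.card X : ℝ) / (Nat.card (L ≃ₐ[ℚ] L) : ℝ) ≤ 1 / 8 := by
    refine density_le (1 / 8) C hden fun s hs hs2 => ?_
    refine Real.tsum_le_of_sum_le (fun p => ?_) fun P => ?_
    · exact Set.indicator_nonneg (fun p _ => by positivity) p
    · rw [← Finset.sum_filter_of_ne (p := fun p => p ∈ placePrimes (N * ℓ).primeFactors L X)]
      · refine le_trans (le_of_eq ?_) (hC s hs hs2
          (P.filter fun p => p ∈ placePrimes (N * ℓ).primeFactors L X) ?_)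
        · refine Finset.sum_congr rfl fun p hp => ?_
          rw [Set.indicator_of_mem (Finset.mem_filter.mp hp).2]
        · intro p hp
          obtain ⟨hpp, hpS, A, σ, hA, hσ, hσX⟩ := (Finset.mem_filter.mp hp).2
          have hpdvd : ¬ p ∣ N * ℓ := by
            intro h
            exact hpS (Nat.mem_primeFactors.mpr ⟨hpp, h, mul_ne_zero hN hℓ.ne_zero⟩)
          have hpN : ¬ p ∣ N := fun h => hpdvd (h.mul_right ℓ)
          have hpℓ : p ≠ ℓ := by
            rintro rfl
            exact hpdvd (dvd_mul_left _ _)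
          refine ⟨hpp, hpN, fun haY => hσX ?_⟩
          have h5 : M' (AlgEquiv.restrictNormal σ L) = R.M σ := hM' σ
          obtain ⟨h6, h7⟩ := (R.frob p hpp hpN hpℓ A hA).2 σ hσ
          rw [h5, h6, h7]
          exact Finset.mem_image.mpr ⟨(a p, e p), Finset.mem_product.mpr ⟨haY, hZ p hpp hpN⟩, rfl⟩
      · intro p _ hne
        by_contra h
        exact hne (Set.indicator_of_notMem h _)
  have hG : 0 < Nat.card (L ≃ₐ[ℚ] L) := Nat.card_pos
  have hB : 8 * Nat.card {g : L ≃ₐ[ℚ] L // ((M' g).trace, (M' g).det) ∉ S} ≤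
      Nat.card (L ≃ₐ[ℚ] L) := by
    rw [div_le_iff₀ (by exact_mod_cast hG)] at hle
    have h5 : (8 : ℝ) * (Nat.card X : ℝ) ≤ (Nat.card (L ≃ₐ[ℚ] L) : ℝ) := by linarith
    exact_mod_cast h5
  have hfin := card_range_le h2 M' hss' S hB
  have hrange : R.M.toHomUnits.range = M'.toHomUnits.range := by
    ext u
    constructor
    · rintro ⟨σ, rfl⟩
      exact ⟨AlgEquiv.restrictNormalHom L σ, Units.ext (hM' σ)⟩
    · rintro ⟨g, rfl⟩
      obtain ⟨σ, rfl⟩ := hsurj g
      exact ⟨σ, Units.ext (hM' σ).symm⟩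
  rw [hrange]
  exact hfin.trans (Nat.mul_le_mul_left _ (Nat.pow_le_pow_left hS 4))

end Fermat.Agent.DS
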