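import Mathlib
import Fermat.Agent.DS.ImageBound
import Fermat.Agent.PseudoRep
import Fermat.Agent.FrobExists
import Fermat.Agent.InvolutionCyc

/-!
# From mod `ℓ` representations with bounded images to complex representations
-/

set_option autoImplicit false

open Filter Topology

namespace Fermat.Agent.DS

open Fermat.Agent.Density.Crossing Fermat.Agent.Density.Chebotarev Matrix
open Fermat.Agent.PseudoRep

local notation "ℚbar" => AlgebraicClosure ℚ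
local notation "Γℚ" => AlgebraicClosure ℚ ≃ₐ[ℚ] AlgebraicClosure ℚ

/-- Trace and determinant of a two-dimensional representation form a pseudo-representation. -/
theorem isPseudoRep_matrix {G : Type*} [Group G] {K : Type*} [CommRing K]
    (M : G →* Matrix (Fin 2) (Fin 2) K) :
    IsPseudoRep (fun g => (M g).trace) (Matrix.detMonoidHom.comp M) where
  map_one := by rw [map_one]; simp
  comm g h := by rw [map_mul, map_mul, Matrix.trace_mul_comm]
  mul g h := by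
    have h1 : (M h).det • M h⁻¹ = (M h).adjugate := by
      have h2 : M h⁻¹ * M h = 1 := by rw [← map_mul, inv_mul_cancel, map_one]
      have h3 : M h⁻¹ * (M h * (M h).adjugate) = (M h).adjugate := by
        rw [← mul_assoc, h2, one_mul]
      rw [Matrix.mul_adjugate, Matrix.mul_smul, mul_one] at h3
      exact h3
    have h4 : (M h).det * (M g * M h⁻¹).trace = (M g * (M h).adjugate).trace := by
      rw [← h1, Matrix.mul_smul, Matrix.trace_smul, smul_eq_mul]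
    simp only [map_mul, MonoidHom.comp_apply, Matrix.coe_detMonoidHom]
    rw [h4, Matrix.adjugate_fin_two]
    simp only [Matrix.trace_fin_two, Matrix.mul_apply, Fin.sum_univ_two, Matrix.cons_val',
      Matrix.cons_val_zero, Matrix.cons_val_one, Matrix.of_apply, Matrix.cons_val_fin_one]
    ring

/-- Eigenvalues of an element of finite order. -/
theorem exists_roots {k : Type} [Field k] [IsAlgClosed k] (φ : Zb →+* k) {E : ℕ} (hE : 0 < E)
    (X : Matrix (Fin 2) (Fin 2) k) (hX : X ^ E = 1) :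
    ∃ z w : Zb, z ^ E = 1 ∧ w ^ E = 1 ∧ X.trace = φ (z + w) ∧ X.det = φ (z * w) := by
  classical
  -- the roots of unity
  let ζ : Zb := ⟨Complex.exp (2 * Real.pi * Complex.I / E),
    (Complex.isPrimitiveRoot_exp E hE.ne').isIntegral hE⟩
  have hζ : IsPrimitiveRoot ζ E := by
    have h := Complex.isPrimitiveRoot_exp E hE.ne'
    exact IsPrimitiveRoot.of_map_of_injective (f := algebraMap Zb ℂ) h
      (FaithfulSMul.algebraMap_injective Zb ℂ)
  have hprod := Polynomial.X_pow_sub_one_eq_prod hE hζ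
  have hroot : ∀ α : k, α ^ E = 1 → ∃ z : Zb, z ^ E = 1 ∧ φ z = α := by
    intro α hα
    have h1 := congrArg (Polynomial.eval₂ φ α) hprod
    rw [Polynomial.eval₂_sub, Polynomial.eval₂_pow, Polynomial.eval₂_X, Polynomial.eval₂_one, hα,
      sub_self, Polynomial.eval₂_finsetProd] at h1
    obtain ⟨z, hz, hz0⟩ := Finset.prod_eq_zero_iff.mp h1.symm
    rw [Polynomial.eval₂_sub, Polynomial.eval₂_X, Polynomial.eval₂_C, sub_eq_zero] at hz0
    exact ⟨z, (Polynomial.mem_nthRootsFinset hE _).mp hz, hz0.symm⟩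
  -- an eigenvalue
  obtain ⟨α, hα⟩ := IsAlgClosed.exists_root X.charpoly
    (by rw [Matrix.charpoly_degree_eq_dim]; simp)
  have hα' : (Matrix.scalar (Fin 2) α - X).det = 0 := by
    rw [← Matrix.eval_charpoly]
    exact hα
  have hrel : ∀ β : k, (Matrix.scalar (Fin 2) β - X).det = 0 → β ^ E = 1 := by
    intro β hβ
    obtain ⟨v, hv, hv0⟩ := Matrix.exists_mulVec_eq_zero_iff.mpr hβ
    have h1 : X.mulVec v = β • v := by
      rw [Matrix.sub_mulVec, sub_eq_zero] at hv0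
      rw [← hv0]
      simp
    have h2 : ∀ n : ℕ, (X ^ n).mulVec v = β ^ n • v := by
      intro n
      induction n with
      | zero => simp
      | succ n ih =>
        rw [pow_succ, ← Matrix.mulVec_mulVec, h1, Matrix.mulVec_smul, ih, smul_smul, pow_succ,
          mul_comm]
    have h3 := h2 E
    rw [hX, Matrix.one_mulVec] at h3
    have h4 : (β ^ E - 1) • v = 0 := by rw [sub_smul, one_smul, ← h3, sub_self]
    exact sub_eq_zero.mp ((smul_eq_zero.mp h4).resolve_right hv)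
  have hquad : ∀ β : k, (Matrix.scalar (Fin 2) β - X).det = β ^ 2 - X.trace * β + X.det := by
    intro β
    rw [Matrix.det_fin_two, Matrix.trace_fin_two, Matrix.det_fin_two]
    simp
    ring
  obtain ⟨z, hz, hzα⟩ := hroot α (hrel α hα')
  have hβ : (Matrix.scalar (Fin 2) (X.trace - α) - X).det = 0 := by
    rw [hquad] at hα' ⊢
    linear_combination hα'
  obtain ⟨w, hw, hwβ⟩ := hroot _ (hrel _ hβ)
  refine ⟨z, w, hz, hw, ?_, ?_⟩
  · rw [map_add, hzα, hwβ]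
    ring
  · rw [map_mul, hzα, hwβ]
    rw [hquad] at hα'
    linear_combination hα'

/-- The function `σ ↦ (trace, determinant)` of the mod `ℓ` representations lifts to characteristic
zero, uniformly. -/
theorem exists_traces (hA2 : CycloPrimeDensity.{0}) {N : ℕ} (hN : N ≠ 0) {a e : ℕ → Zb} {E : ℕ}
    (hE : 0 < E)
    (hfam : ∀ B : ℕ, ∃ ℓ, B < ℓ ∧ ℓ.Prime ∧ ∃ R : ModRep N a e ℓ, ∀ σ, R.M σ ^ E = 1) :
    ∃ (t : Γℚ → Zb) (d : Γℚ →* Zb), IsPseudoRep t d ∧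
      (∃ L : IntermediateField ℚ ℚbar, FiniteDimensional ℚ L ∧
        ∀ σ : Γℚ, (∀ x ∈ L, σ x = x) → ∀ h, t (σ * h) = t h ∧ d (σ * h) = d h) ∧
      ∀ p : ℕ, p.Prime → ¬ p ∣ N → ∀ A : ValuationSubring ℚbar, A.LiesOverPrime p →
        (∀ σ ∈ A.inertiaSubgroupIn ℚ, ∀ h, t (σ * h) = t h) ∧
        ∀ σ : Γℚ, A.IsFrobeniusAt σ p → t σ = a p ∧ d σ = e p := by
  classical
  -- the finite set of possible values
  let Z : Finset Zb := Polynomial.nthRootsFinset E (1 : Zb)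
  let T : Finset (Zb × Zb) := (Z ×ˢ Z).image fun q => (q.1 + q.2, q.1 * q.2)
  have hT : ∀ {ℓ : ℕ} (R : ModRep N a e ℓ), (∀ σ, R.M σ ^ E = 1) → ∀ σ, ∃ q ∈ T,
      (R.M σ).trace = R.φ q.1 ∧ (R.M σ).det = R.φ q.2 := by
    intro ℓ R hR σ
    obtain ⟨z, w, hz, hw, h1, h2⟩ := exists_roots R.φ hE (R.M σ) (hR σ)
    exact ⟨(z + w, z * w), Finset.mem_image.mpr ⟨(z, w), Finset.mem_product.mpr
      ⟨(Polynomial.mem_nthRootsFinset hE _).mpr hz, (Polynomial.mem_nthRootsFinset hE _).mpr hw⟩,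
      rfl⟩, h1, h2⟩
  let U : Finset Zb := T.image Prod.fst ∪ T.image Prod.snd
  have hU1 : ∀ q ∈ T, q.1 ∈ U := fun q hq =>
    Finset.mem_union_left _ (Finset.mem_image_of_mem _ hq)
  have hU2 : ∀ q ∈ T, q.2 ∈ U := fun q hq =>
    Finset.mem_union_right _ (Finset.mem_image_of_mem _ hq)
  obtain ⟨B₀, hB₀⟩ := exists_injOn U
  -- the values at Frobenius elements
  have hap : ∀ p : ℕ, p.Prime → ¬ p ∣ N → (a p, e p) ∈ T := by
    intro p hp hpN
    obtain ⟨B, hB⟩ := exists_injOn (U ∪ {a p, e p})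
    obtain ⟨ℓ, hℓ, hℓp, R, hR⟩ := hfam (max B p)
    have hpℓ : p ≠ ℓ := (lt_of_le_of_lt (le_max_right B p) hℓ).ne
    obtain ⟨A, hA⟩ := FrobExists.exists_liesOverPrime ℚbar hp
    obtain ⟨σ, hσ⟩ := FrobExists.exists_isFrobeniusAt A hp hA
    obtain ⟨q, hq, h1, h2⟩ := hT R hR σ
    obtain ⟨h3, h4⟩ := (R.frob p hp hpN hpℓ A hA).2 σ hσ
    have hBℓ : B < ℓ := lt_of_le_of_lt (le_max_left B p) hℓ
    have h5 : a p = q.1 := hB R.k ℓ R.φ hBℓ _ (by simp) _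
      (Finset.mem_union_left _ (hU1 q hq)) (by rw [← h1, h3])
    have h6 : e p = q.2 := hB R.k ℓ R.φ hBℓ _ (by simp) _
      (Finset.mem_union_left _ (hU2 q hq)) (by rw [← h2, h4])
    rw [h5, h6]
    exact hq
  -- comparison of two members of the family
  have hcmp : ∀ {ℓ ℓ' : ℕ} (hℓ : ℓ.Prime) (hℓ' : ℓ'.Prime) (_ : B₀ < ℓ) (_ : B₀ < ℓ')
      (R : ModRep N a e ℓ) (R' : ModRep N a e ℓ'),
      ∀ σ, ∀ q ∈ T, (R.M σ).trace = R.φ q.1 → (R.M σ).det = R.φ q.2 →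
        (R'.M σ).trace = R'.φ q.1 ∧ (R'.M σ).det = R'.φ q.2 := by
    intro ℓ ℓ' hℓ hℓ' hBℓ hBℓ' R R' σ q hq h1 h2
    obtain ⟨L, hL, hRL⟩ := R.level
    obtain ⟨L', hL', hRL'⟩ := R'.level
    obtain ⟨p, hp, hpS, A, τ, hA, hτ, hτσ⟩ :=
      exists_frobenius_eq hA2 (L ⊔ L') (N * ℓ * ℓ').primeFactors σ
    have hpd : ¬ p ∣ N * ℓ * ℓ' := fun h => hpS (Nat.mem_primeFactors.mpr
      ⟨hp, h, mul_ne_zero (mul_ne_zero hN hℓ.ne_zero) hℓ'.ne_zero⟩)
    have hpN : ¬ p ∣ N := fun h => hpd ((h.mul_right ℓ).mul_right ℓ')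
    have hpℓ : p ≠ ℓ := fun h => hpd (by rw [h]; exact (dvd_mul_left ℓ N).mul_right ℓ')
    have hpℓ' : p ≠ ℓ' := fun h => hpd (by rw [h]; exact dvd_mul_left ℓ' (N * ℓ))
    have key : ∀ {F : IntermediateField ℚ ℚbar} {X : Type} [Monoid X] (M : Γℚ →* X),
        F ≤ L ⊔ L' → (∀ σ : Γℚ, (∀ x ∈ F, σ x = x) → M σ = 1) → M τ = M σ := by
      intro F X _ M hF hM
      have h3 : M (σ⁻¹ * τ) = 1 := hM _ fun x hx => by
        rw [AlgEquiv.mul_apply, hτσ x (hF hx)]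
        exact σ.symm_apply_apply x
      have h4 : τ = σ * (σ⁻¹ * τ) := by group
      rw [h4, map_mul, h3, mul_one]
    have e1 : R.M τ = R.M σ := key R.M le_sup_left hRL
    have e2 : R'.M τ = R'.M σ := key R'.M le_sup_right hRL'
    obtain ⟨h3, h4⟩ := (R.frob p hp hpN hpℓ A hA).2 τ hτ
    obtain ⟨h5, h6⟩ := (R'.frob p hp hpN hpℓ' A hA).2 τ hτ
    rw [e1] at h3 h4
    rw [e2] at h5 h6
    have h7 : a p = q.1 := hB₀ R.k ℓ R.φ hBℓ _ (hU1 _ (hap p hp hpN)) _ (hU1 q hq)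
      (by rw [← h1, h3])
    have h8 : e p = q.2 := hB₀ R.k ℓ R.φ hBℓ _ (hU2 _ (hap p hp hpN)) _ (hU2 q hq)
      (by rw [← h2, h4])
    rw [h5, h6, h7, h8]
    exact ⟨rfl, rfl⟩
  -- fix a member of the family
  obtain ⟨ℓ₀, hBℓ₀, hℓ₀, R₀, hR₀⟩ := hfam B₀
  choose q hqT hq1 hq2 using hT R₀ hR₀
  have hmain : ∀ {ℓ : ℕ} (hℓ : ℓ.Prime) (_ : B₀ < ℓ) (R : ModRep N a e ℓ), ∀ σ,
      (R.M σ).trace = R.φ (q σ).1 ∧ (R.M σ).det = R.φ (q σ).2 := fun hℓ hBℓ R σ =>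
    hcmp hℓ₀ hℓ hBℓ₀ hBℓ R₀ R σ (q σ) (hqT σ) (hq1 σ) (hq2 σ)
  -- identities
  have hzero : ∀ x : Zb, (∀ {ℓ : ℕ} (hℓ : ℓ.Prime) (_ : B₀ < ℓ) (R : ModRep N a e ℓ),
      R.φ x = 0) → x = 0 := by
    intro x hx
    refine eq_zero_of_frequently x fun B => ?_
    obtain ⟨ℓ, hℓ, hℓp, R, -⟩ := hfam (max B B₀)
    exact ⟨ℓ, lt_of_le_of_lt (le_max_left B B₀) hℓ, R.k, inferInstance, inferInstance, R.φ,
      hx hℓp (lt_of_le_of_lt (le_max_right B B₀) hℓ) R⟩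
  have hps : ∀ {ℓ : ℕ} (R : ModRep N a e ℓ), IsPseudoRep (fun g => (R.M g).trace)
    (Matrix.detMonoidHom.comp R.M) := fun R => isPseudoRep_matrix R.M
  let t : Γℚ → Zb := fun σ => (q σ).1
  let d : Γℚ →* Zb :=
    { toFun := fun σ => (q σ).2
      map_one' := by
        rw [← sub_eq_zero]
        refine hzero _ fun hℓ hBℓ R => ?_
        rw [map_sub, ← (hmain hℓ hBℓ R 1).2, map_one, map_one, det_one, sub_self]
      map_mul' := fun g h => by
        rw [← sub_eq_zero]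
        refine hzero _ fun hℓ hBℓ R => ?_
        rw [map_sub, map_mul, ← (hmain hℓ hBℓ R _).2, ← (hmain hℓ hBℓ R _).2,
          ← (hmain hℓ hBℓ R _).2, map_mul, det_mul, sub_self] }
  have hinv : ∀ {ℓ : ℕ} (hℓ : ℓ.Prime) (_ : B₀ < ℓ) (R : ModRep N a e ℓ) (σ τ : Γℚ),
      R.M σ = R.M τ → t σ = t τ ∧ d σ = d τ := by
    intro ℓ hℓ hBℓ R σ τ hστ
    constructor
    · exact hB₀ R.k ℓ R.φ hBℓ _ (hU1 _ (hqT σ)) _ (hU1 _ (hqT τ))
        (by
          have h1 := (hmain hℓ hBℓ R σ).1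
          rw [hστ] at h1
          exact h1.symm.trans (hmain hℓ hBℓ R τ).1)
    · exact hB₀ R.k ℓ R.φ hBℓ _ (hU2 _ (hqT σ)) _ (hU2 _ (hqT τ))
        (by
          have h1 := (hmain hℓ hBℓ R σ).2
          rw [hστ] at h1
          exact h1.symm.trans (hmain hℓ hBℓ R τ).2)
  refine ⟨t, d, ⟨?_, fun g h => ?_, fun g h => ?_⟩, ?_, ?_⟩
  · rw [← sub_eq_zero]
    refine hzero _ fun hℓ hBℓ R => ?_
    have h1 : (R.M 1).trace = 2 := (hps R).map_one
    rw [map_sub, ← (hmain hℓ hBℓ R 1).1, h1, map_ofNat, sub_self]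
  · rw [← sub_eq_zero]
    refine hzero _ fun hℓ hBℓ R => ?_
    have h1 : (R.M (g * h)).trace = (R.M (h * g)).trace := (hps R).comm g h
    rw [map_sub, ← (hmain hℓ hBℓ R _).1, ← (hmain hℓ hBℓ R _).1, h1, sub_self]
  · rw [← sub_eq_zero]
    refine hzero _ fun hℓ hBℓ R => ?_
    have h1 := (hps R).mul g h
    simp only [MonoidHom.comp_apply, Matrix.coe_detMonoidHom] at h1
    change R.φ ((q (g * h)).1 + (q h).2 * (q (g * h⁻¹)).1 - (q g).1 * (q h).1) = 0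
    rw [map_sub, map_add, map_mul, map_mul, ← (hmain hℓ hBℓ R _).1, ← (hmain hℓ hBℓ R _).1,
      ← (hmain hℓ hBℓ R _).2, ← (hmain hℓ hBℓ R _).1, ← (hmain hℓ hBℓ R _).1, h1, sub_self]
  · obtain ⟨L, hL, hRL⟩ := R₀.level
    refine ⟨L, hL, fun σ hσ h => ?_⟩
    exact hinv hℓ₀ hBℓ₀ R₀ _ _ (by rw [map_mul, hRL σ hσ, one_mul])
  · intro p hp hpN A hA
    obtain ⟨ℓ, hℓ, hℓp, R, -⟩ := hfam (max B₀ p)
    have hBℓ : B₀ < ℓ := lt_of_le_of_lt (le_max_left _ _) hℓ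
    have hpℓ : p ≠ ℓ := (lt_of_le_of_lt (le_max_right _ _) hℓ).ne
    obtain ⟨h1, h2⟩ := R.frob p hp hpN hpℓ A hA
    refine ⟨fun σ hσ h => (hinv hℓp hBℓ R _ _ (by rw [map_mul, h1 σ hσ, one_mul])).1,
      fun σ hσ => ?_⟩
    obtain ⟨h3, h4⟩ := h2 σ hσ
    obtain ⟨h5, h6⟩ := hmain hℓp hBℓ R σ
    constructor
    · exact hB₀ R.k ℓ R.φ hBℓ _ (hU1 _ (hqT σ)) _ (hU1 _ (hap p hp hpN)) (by rw [← h5, h3])
    · exact hB₀ R.k ℓ R.φ hBℓ _ (hU2 _ (hqT σ)) _ (hU2 _ (hap p hp hpN)) (by rw [← h6, h4])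

end Fermat.Agent.DS
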