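import Mathlib
import Fermat.Agent.DS.DescentGal
import Fermat.Prelude.Def_GaloisRep_ComplexConjugation

/-!
# The complex representation and its irreducibility
-/

set_option autoImplicit false

open Filter Topology

namespace Fermat.Agent.DS

open Fermat.Agent.Density.Crossing Fermat.Agent.Density.Chebotarev Matrix
open Fermat.Agent.PseudoRep Fermat.Agent.Cyclotomic

local notation "ℚbar" => AlgebraicClosure ℚ
local notation "Γℚ" => AlgebraicClosure ℚ ≃ₐ[ℚ] AlgebraicClosure ℚ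

/-- The Rankin type bound. -/
def Rankin (N : ℕ) (a : ℕ → ℂ) : Prop :=
  ∃ C : ℝ, ∀ s : ℝ, 1 < s → s ≤ 2 → ∀ P : Finset ℕ, (∀ p ∈ P, p.Prime ∧ ¬ p ∣ N) →
    ∑ p ∈ P, ‖a p‖ ^ 2 * (p : ℝ) ^ (-s) ≤ Real.log (1 / (s - 1)) + C

theorem norm_hom {G : Type*} [Group G] [Finite G] (χ : G →* ℂ) (g : G) : ‖χ g‖ = 1 := by
  have h1 : (χ g) ^ (Nat.card G) = 1 := by rw [← map_pow, pow_card_eq_one', map_one]
  exact Complex.norm_eq_one_of_pow_eq_one h1 Nat.card_pos.ne'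

/-- A sum of two characters has norm at least two. -/
theorem two_card_le {G : Type*} [Group G] [Fintype G] (χ₁ χ₂ : G →* ℂ) :
    2 * (Fintype.card G : ℝ) ≤ ∑ g, ‖χ₁ g + χ₂ g‖ ^ 2 := by
  classical
  let ψ : G →* ℂ := χ₁ * ((starRingEnd ℂ : ℂ →+* ℂ) : ℂ →* ℂ).comp χ₂
  have hψ : ∀ g, ψ g = χ₁ g * (starRingEnd ℂ) (χ₂ g) := fun g => rfl
  have h1 : ∀ g, ‖χ₁ g + χ₂ g‖ ^ 2 = 2 + 2 * (ψ g).re := by
    intro g
    rw [hψ, ← Complex.normSq_eq_norm_sq, Complex.normSq_add, Complex.normSq_eq_norm_sq,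
      Complex.normSq_eq_norm_sq, norm_hom, norm_hom]
    ring
  simp only [h1]
  rw [Finset.sum_add_distrib, ← Finset.mul_sum, ← Complex.re_sum, sum_hom_units]
  simp only [Finset.sum_const, Finset.card_univ, nsmul_eq_mul]
  split_ifs
  · rw [Complex.natCast_re]
    have : (0 : ℝ) ≤ (Fintype.card G : ℝ) := by positivity
    linarith
  · simp
    linarith

/-- **Mean square of the traces** is at most one, by the Rankin bound. -/
theorem sum_sq_le (hA2 : CycloPrimeDensity.{0}) {N : ℕ} (hN : N ≠ 0) {a : ℕ → ℂ}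
    (hR : Rankin N a) (L : IntermediateField ℚ ℚbar) [FiniteDimensional ℚ L] [IsGalois ℚ L]
    (T : (L ≃ₐ[ℚ] L) → ℂ) (hconj : ∀ g h, T (h * g * h⁻¹) = T g)
    (hfrob : ∀ p : ℕ, p.Prime → ¬ p ∣ N → ∀ A : ValuationSubring ℚbar, A.LiesOverPrime p →
      ∀ σ : Γℚ, A.IsFrobeniusAt σ p → T (AlgEquiv.restrictNormal σ L) = a p) :
    ∑ g, ‖T g‖ ^ 2 ≤ (Fintype.card (L ≃ₐ[ℚ] L) : ℝ) := by
  classical
  let V : Finset ℂ := Finset.univ.image T
  let X : ℂ → Set (L ≃ₐ[ℚ] L) := fun v => {g | T g = v}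
  have hX : ∀ v, ∀ g h : L ≃ₐ[ℚ] L, g ∈ X v → h * g * h⁻¹ ∈ X v := by
    intro v g h hg
    change T _ = v
    rw [hconj]
    exact hg
  let S := N.primeFactors
  have hden : Tendsto (fun s : ℝ => ∑ v ∈ V, ‖v‖ ^ 2 *
      ((∑' ℓ : ℕ, (placePrimes S L (X v)).indicator (fun ℓ : ℕ ↦ (ℓ : ℝ) ^ (-s)) ℓ) /
        Real.log (1 / (s - 1)))) (𝓝[>] 1)
      (𝓝 (∑ v ∈ V, ‖v‖ ^ 2 * ((Nat.card (X v) : ℝ) / (Nat.card (L ≃ₐ[ℚ] L) : ℝ)))) :=
    tendsto_finsetSum _ fun v _ => (tendsto_placePrimes hA2 S L (hX v)).const_mul _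
  have hmem : ∀ v ℓ, ℓ ∈ placePrimes S L (X v) → ℓ.Prime ∧ ¬ ℓ ∣ N ∧ v = a ℓ := by
    rintro v ℓ ⟨hℓ, hℓS, A, σ, hA, hσ, hσX⟩
    have hℓN : ¬ ℓ ∣ N := fun h => hℓS (Nat.mem_primeFactors.mpr ⟨hℓ, h, hN⟩)
    refine ⟨hℓ, hℓN, ?_⟩
    have h1 : T (AlgEquiv.restrictNormal σ L) = v := hσX
    rw [← h1]
    exact hfrob ℓ hℓ hℓN A hA σ hσ
  obtain ⟨C, hC⟩ := hR
  have hle := density_le (F := fun s : ℝ => ∑ v ∈ V, ‖v‖ ^ 2 *
      (∑' ℓ : ℕ, (placePrimes S L (X v)).indicator (fun ℓ : ℕ ↦ (ℓ : ℝ) ^ (-s)) ℓ)) 1 C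
    (hden.congr fun s => by rw [Finset.sum_div]; simp only [mul_div_assoc]) ?_
  · have h1 : ∑ g, ‖T g‖ ^ 2 = ∑ v ∈ V, (Nat.card (X v) : ℝ) * ‖v‖ ^ 2 := by
      rw [Finset.sum_comp (fun v : ℂ => ‖v‖ ^ 2) T]
      refine Finset.sum_congr rfl fun v _ => ?_
      rw [nsmul_eq_mul]
      congr 2
      rw [Nat.card_eq_fintype_card, Fintype.card_subtype]
      rfl
    have hG : (0 : ℝ) < (Fintype.card (L ≃ₐ[ℚ] L) : ℝ) := by exact_mod_cast Fintype.card_pos
    rw [Nat.card_eq_fintype_card] at hle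
    have h2 : ∑ v ∈ V, ‖v‖ ^ 2 * ((Nat.card (X v) : ℝ) / (Fintype.card (L ≃ₐ[ℚ] L) : ℝ)) =
        (∑ g, ‖T g‖ ^ 2) / (Fintype.card (L ≃ₐ[ℚ] L) : ℝ) := by
      rw [h1, Finset.sum_div]
      refine Finset.sum_congr rfl fun v _ => ?_
      ring
    rw [h2, div_le_one hG] at hle
    exact hle
  · intro s hs hs2
    have hsum : Summable (fun n : ℕ ↦ (n : ℝ) ^ (-s)) := Real.summable_nat_rpow.mpr (by linarith)
    have h1 : ∑ v ∈ V, ‖v‖ ^ 2 *
        (∑' ℓ : ℕ, (placePrimes S L (X v)).indicator (fun ℓ : ℕ ↦ (ℓ : ℝ) ^ (-s)) ℓ) =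
        ∑' ℓ : ℕ, ∑ v ∈ V, ‖v‖ ^ 2 *
          (placePrimes S L (X v)).indicator (fun ℓ : ℕ ↦ (ℓ : ℝ) ^ (-s)) ℓ := by
      rw [Summable.tsum_finsetSum fun v _ => (hsum.indicator _).mul_left _]
      exact Finset.sum_congr rfl fun v _ => tsum_mul_left.symm
    rw [h1, one_mul]
    have hnn : ∀ ℓ : ℕ, ∀ v : ℂ, 0 ≤ ‖v‖ ^ 2 *
        (placePrimes S L (X v)).indicator (fun ℓ : ℕ ↦ (ℓ : ℝ) ^ (-s)) ℓ := fun ℓ v =>
      mul_nonneg (by positivity) (Set.indicator_nonneg (fun p _ => by positivity) ℓ)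
    refine Real.tsum_le_of_sum_le (fun ℓ => Finset.sum_nonneg fun v _ => hnn ℓ v) fun P => ?_
    refine le_trans ?_ (hC s hs hs2 (P.filter fun p => p.Prime ∧ ¬ p ∣ N)
      (fun p hp => (Finset.mem_filter.mp hp).2))
    rw [Finset.sum_filter]
    refine Finset.sum_le_sum fun ℓ _ => ?_
    by_cases hex : ∃ v ∈ V, ℓ ∈ placePrimes S L (X v)
    · obtain ⟨v, hv, hℓv⟩ := hex
      obtain ⟨h3, h4, h5⟩ := hmem v ℓ hℓv
      rw [if_pos ⟨h3, h4⟩, Finset.sum_eq_single_of_mem v hv]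
      · rw [Set.indicator_of_mem hℓv, h5]
      · intro w _ hw
        rw [Set.indicator_of_notMem, mul_zero]
        intro hℓw
        exact hw ((hmem w ℓ hℓw).2.2.trans h5.symm)
    · push Not at hex
      rw [Finset.sum_eq_zero fun v hv => by rw [Set.indicator_of_notMem (hex v hv), mul_zero]]
      split_ifs
      · positivity
      · exact le_rfl

/-- The trace function comes from an irreducible complex representation. -/
theorem exists_complex (hA2 : CycloPrimeDensity.{0}) {N : ℕ} [NeZero N] {a e : ℕ → Zb}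
    (ε : ZMod N → Zb) (hε : ∀ p : ℕ, p.Prime → ¬ p ∣ N → e p = ε p) (hodd : ε (-1) = -1)
    (hR : Rankin N fun p => (a p : ℂ)) (t : Γℚ → Zb) (d : Γℚ →* Zb) (H : IsPseudoRep t d)
    (hlev : ∃ L : IntermediateField ℚ ℚbar, FiniteDimensional ℚ L ∧
        ∀ σ : Γℚ, (∀ x ∈ L, σ x = x) → ∀ h, t (σ * h) = t h ∧ d (σ * h) = d h)
    (hfrob : ∀ p : ℕ, p.Prime → ¬ p ∣ N → ∀ A : ValuationSubring ℚbar, A.LiesOverPrime p →
        (∀ σ ∈ A.inertiaSubgroupIn ℚ, ∀ h, t (σ * h) = t h) ∧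
        ∀ σ : Γℚ, A.IsFrobeniusAt σ p → t σ = a p ∧ d σ = e p) :
    ∃ M : Γℚ →* Matrix (Fin 2) (Fin 2) ℂ, GaloisFactorsThroughFiniteLevel M ∧ Irr M ∧
      ∀ p : ℕ, p.Prime → ¬ p ∣ N → ∀ A : ValuationSubring ℚbar, A.LiesOverPrime p →
        (∀ σ ∈ A.inertiaSubgroupIn ℚ, M σ = 1) ∧
        ∀ σ : Γℚ, A.IsFrobeniusAt σ p → (M σ).trace = a p ∧ (M σ).det = e p := by
  classical
  have hN : N ≠ 0 := NeZero.ne N
  obtain ⟨L₀, hL₀, hlev⟩ := hlev
  let L : IntermediateField ℚ ℚbar := IntermediateField.normalClosure ℚ L₀ ℚbar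
  have : FiniteDimensional ℚ L := normalClosure.is_finiteDimensional ℚ L₀ ℚbar
  have : Normal ℚ L := normalClosure.normal ℚ L₀ ℚbar
  have : IsGalois ℚ L := ⟨⟩
  have hle : L₀ ≤ L := IntermediateField.le_normalClosure L₀
  let π : Γℚ →* (L ≃ₐ[ℚ] L) := AlgEquiv.restrictNormalHom (F := ℚ) (K₁ := ℚbar) L
  have hsurj : Function.Surjective π := AlgEquiv.restrictNormalHom_surjective _
  have hker : ∀ σ, π σ = 1 → ∀ x ∈ L₀, σ x = x := by
    intro σ hσ x hx
    have h1 := AlgEquiv.restrictNormal_commutes σ L ⟨x, hle hx⟩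
    have h2 : AlgEquiv.restrictNormal σ L = 1 := hσ
    rw [h2] at h1
    exact h1.symm
  have heq : ∀ σ τ, π σ = π τ → t σ = t τ ∧ d σ = d τ := by
    intro σ τ h
    have h1 : π (σ * τ⁻¹) = 1 := by rw [map_mul, map_inv, h, mul_inv_cancel]
    have h2 := hlev (σ * τ⁻¹) (hker _ h1) τ
    rwa [inv_mul_cancel_right] at h2
  let s : (L ≃ₐ[ℚ] L) → Γℚ := Function.surjInv hsurj
  have hs : ∀ g, π (s g) = g := Function.surjInv_eq hsurj
  let T : (L ≃ₐ[ℚ] L) → ℂ := fun g => (t (s g) : ℂ)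
  have hT : ∀ σ, T (π σ) = (t σ : ℂ) := fun σ => by
    change (t (s (π σ)) : ℂ) = _
    rw [(heq _ _ (hs (π σ))).1]
  let D : (L ≃ₐ[ℚ] L) →* ℂ :=
    { toFun := fun g => (d (s g) : ℂ)
      map_one' := by
        have h1 := (heq (s 1) 1 (by rw [hs, map_one])).2
        rw [h1, map_one]
        rfl
      map_mul' := fun g h => by
        have h1 := (heq (s (g * h)) (s g * s h) (by rw [map_mul, hs, hs, hs])).2
        rw [h1, map_mul]
        rfl }
  have hD : ∀ σ, D (π σ) = (d σ : ℂ) := fun σ => by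
    change (d (s (π σ)) : ℂ) = _
    rw [(heq _ _ (hs (π σ))).2]
  have H' : IsPseudoRep T D := by
    refine ⟨?_, fun g h => ?_, fun g h => ?_⟩
    · rw [← map_one π, hT, H.map_one]
      rfl
    · obtain ⟨σ, rfl⟩ := hsurj g
      obtain ⟨τ, rfl⟩ := hsurj h
      rw [← map_mul, ← map_mul, hT, hT, H.comm]
    · obtain ⟨σ, rfl⟩ := hsurj g
      obtain ⟨τ, rfl⟩ := hsurj h
      rw [← map_mul, ← map_inv, ← map_mul, hT, hT, hT, hT, hD]
      have h1 := congrArg (fun x : Zb => (x : ℂ)) (H.mul σ τ)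
      simpa using h1
  -- complex conjugation
  have hc1 : complexConjugation ≠ 1 := by
    intro h
    obtain ⟨x, hx⟩ : ∃ x : ℚbar, x ^ 2 = -1 := IsAlgClosed.exists_pow_nat_eq _ (by norm_num)
    have h1 := complexEmbedding_complexConjugation x
    rw [h, AlgEquiv.one_apply] at h1
    have h2 : (complexEmbedding x) ^ 2 = -1 := by rw [← map_pow, hx, map_neg, map_one]
    have h3 := (Complex.conj_eq_iff_real.mp h1.symm)
    obtain ⟨r, hr⟩ := h3
    rw [hr] at h2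
    have h4 : r ^ 2 = -1 := by exact_mod_cast h2
    nlinarith [sq_nonneg r]
  have hcyc := InvolutionCyc.cyc_involution N complexConjugation
    complexConjugation_mul_self hc1
  have hdc : d complexConjugation = -1 := by
    obtain ⟨L₁, hL₁, hcycL⟩ := cyc_finite_level N
    obtain ⟨p, hp, hpS, A, τ, hA, hτ, hτσ⟩ := exists_frobenius_eq hA2 (L₀ ⊔ L₁) N.primeFactors
      complexConjugation
    have hpN : ¬ p ∣ N := fun h => hpS (Nat.mem_primeFactors.mpr ⟨hp, h, hN⟩)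
    have h1 : ∀ x ∈ L₀ ⊔ L₁, (complexConjugation⁻¹ * τ) x = x := fun x hx => by
      rw [AlgEquiv.mul_apply, hτσ x hx]
      exact (complexConjugation).symm_apply_apply x
    have h2 : cyc N τ = cyc N complexConjugation := by
      have h3 := hcycL _ fun x hx => h1 x (le_sup_right (a := L₀) hx)
      rw [map_mul, map_inv, inv_mul_eq_one] at h3
      exact h3.symm
    have h4 : d τ = d complexConjugation := by
      have h5 := (hlev _ (fun x hx => h1 x (le_sup_left (b := L₁) hx)) 1).2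
      rw [mul_one, map_one, map_mul] at h5
      have h6 : d complexConjugation * d complexConjugation⁻¹ = 1 := by
        rw [← map_mul, mul_inv_cancel, map_one]
      calc d τ = (d complexConjugation * d complexConjugation⁻¹) * d τ := by
            rw [h6, one_mul]
        _ = d complexConjugation := by rw [mul_assoc, h5, mul_one]
    rw [← h4, ((hfrob p hp hpN A hA).2 τ hτ).2, hε p hp hpN,
      ← cyc_frobenius hp hpN A hA hτ, h2, hcyc]
    simpa using hodd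
  have hDc : D (π complexConjugation) = -1 := by
    rw [hD, hdc]
    simp
  have hcc : π complexConjugation * π complexConjugation = 1 := by
    rw [← map_mul, complexConjugation_mul_self, map_one]
  obtain ⟨M₁, htr₁, hdet₁, -⟩ := exists_matrixRep_aux (K := ℂ) two_ne_zero hcc H' hDc
  obtain ⟨M₂, hss, htr₂, hdet₂, -⟩ := Fermat.Agent.DS.exists_ss M₁
  have hirr : Irr M₂ := by
    refine hss.resolve_right ?_
    rintro ⟨χ₁, χ₂, hχ⟩
    have h1 : ∀ g, T g = χ₁ g + χ₂ g := fun g => by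
      rw [← htr₁, ← htr₂, hχ, Matrix.trace_fin_two_of]
    have h2 := sum_sq_le hA2 hN hR L T (fun g h => by
      rw [H'.comm, ← mul_assoc, inv_mul_cancel, one_mul])
      (fun p hp hpN A hA σ hσ => by
        rw [← ((hfrob p hp hpN A hA).2 σ hσ).1]
        exact hT σ)
    simp only [h1] at h2
    have h3 := two_card_le χ₁ χ₂
    have hG : (0 : ℝ) < (Fintype.card (L ≃ₐ[ℚ] L) : ℝ) := by exact_mod_cast Fintype.card_pos
    linarith
  have hspan := Fermat.Agent.UDef.burnside_two M₂ hirr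
  have hone : ∀ g, (∀ h, T (g * h) = T h) → M₂ g = 1 := by
    intro g hg
    have hall : ∀ Y ∈ Submodule.span ℂ (Set.range M₂), ((M₂ g - 1) * Y).trace = 0 := by
      intro Y hY
      induction hY using Submodule.span_induction with
      | mem x hx =>
        obtain ⟨h, rfl⟩ := hx
        rw [sub_mul, one_mul, ← map_mul, Matrix.trace_sub, htr₂, htr₂, htr₁, htr₁, hg, sub_self]
      | zero => rw [mul_zero, Matrix.trace_zero]
      | add x y _ _ hx hy => rw [mul_add, Matrix.trace_add, hx, hy, add_zero]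
      | smul a x _ hx => rw [Matrix.mul_smul, Matrix.trace_smul, hx, smul_zero]
    rw [hspan] at hall
    rw [← sub_eq_zero]
    ext i j
    have := hall (Matrix.single j i 1) Submodule.mem_top
    rw [Matrix.trace_mul_single] at this
    simpa using this
  refine ⟨M₂.comp π, ⟨L, inferInstance, fun σ hσ => ?_⟩, ?_, ?_⟩
  · have h1 : π σ = 1 := by
      refine AlgEquiv.ext fun x => ?_
      have h1 := AlgEquiv.restrictNormal_commutes σ L x
      refine Subtype.ext ?_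
      exact h1.trans (hσ _ x.2)
    rw [MonoidHom.comp_apply, h1, map_one]
  · intro W hW
    refine hirr W fun g x hx => ?_
    obtain ⟨σ, rfl⟩ := hsurj g
    exact hW σ x hx
  · intro p hp hpN A hA
    obtain ⟨h1, h2⟩ := hfrob p hp hpN A hA
    refine ⟨fun σ hσ => hone _ fun h => ?_, fun σ hσ => ?_⟩
    · obtain ⟨τ, rfl⟩ := hsurj h
      rw [← map_mul, hT, hT, h1 σ hσ]
    · obtain ⟨h3, h4⟩ := h2 σ hσ
      rw [MonoidHom.comp_apply, htr₂, hdet₂, htr₁, hdet₁, hT, hD, h3, h4]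
      exact ⟨rfl, rfl⟩

end Fermat.Agent.DS
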