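import Fermat.Agent.DS.RatGamma1

/-!
# Coefficients of weight `k` eigenforms on `Γ₁(N)`: number field, integrality, conjugates

For `f ∈ S_k(Γ₁(N))` with `a₁ = 1` satisfying the Hecke relations at all `p ∤ N`, the eigenvalues
are algebraic integers in a number field `K`, and `f` can be replaced by a form with coefficients
in `K` (bounded denominators) whose conjugates under `K → ℂ` are again forms.
-/

set_option autoImplicit false

open UpperHalfPlane ModularForm MatrixGroups CongruenceSubgroup Matrix.SpecialLinearGroup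
open ModularFormClass
open scoped Manifold
open Fermat.Agent.IntStr

noncomputable section

namespace Fermat.Agent.DS

/-- The Hecke relations at the primes `p ∤ N`, with constants `ε(p) p^m` (`m = k - 1`). -/
def HeckeRel {R : Type*} [CommRing R] (N : ℕ) (ε : ZMod N → R) (m : ℕ) (a : ℕ → R) : Prop :=
  ∀ p : ℕ, p.Prime → ¬ p ∣ N → ∀ n : ℕ,
    a (p * n) + ε (p : ZMod N) * (p : R) ^ m * (if p ∣ n then a (n / p) else 0) = a p * a n

/-- the set of eigenvalues and character values -/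
def eigSet (N : ℕ) (ε : ZMod N → ℂ) (a : ℕ → ℂ) : Set ℂ :=
  Set.range ε ∪ {x | ∃ p : ℕ, p.Prime ∧ ¬ p ∣ N ∧ x = a p}

section abstractModule

variable {A : Type*} [CommRing A] [Algebra A ℂ] [IsNoetherianRing A]

/-- **Finiteness** of the coefficient algebra. -/
theorem finite_adjoin {N : ℕ} [NeZero N] (ε : DirichletCharacter ℂ N) {m : ℕ} {a : ℕ → ℂ}
    (h1 : a 1 = 1) (hT : HeckeRel N ε m a) {d : ℕ} (z : Fin d → ℂ)
    (hz : ∀ n, ∃ c : Fin d → ℤ, a n = ∑ j, (c j : ℂ) * z j) :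
    (Subalgebra.toSubmodule (Algebra.adjoin A (eigSet N ε a))).FG := by
  let G : Set ℂ := Set.range (fun p : ZMod N × Fin d => ε p.1 * z p.2)
  let M : Submodule A ℂ := Submodule.span A {x | ∃ (u : ZMod N) (n : ℕ), x = ε u * a n}
  have hG : G.Finite := Set.finite_range _
  have hMG : M ≤ Submodule.span A G := by
    rw [Submodule.span_le]
    rintro _ ⟨u, n, rfl⟩
    obtain ⟨c, hc⟩ := hz n
    rw [hc, Finset.mul_sum]
    refine Submodule.sum_mem _ fun j _ => ?_
    have h2 : ε u * ((c j : ℂ) * z j) = (c j : A) • (ε u * z j) := by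
      rw [Algebra.smul_def, map_intCast]; ring
    rw [h2]
    exact Submodule.smul_mem _ _ (Submodule.subset_span ⟨(u, j), rfl⟩)
  have hgen : ∀ x ∈ eigSet N ε a, ∀ y ∈ M, x * y ∈ M := by
    intro x hx y hy
    refine Submodule.span_induction (p := fun y _ => x * y ∈ M) ?_ ?_ ?_ ?_ hy
    · rintro _ ⟨u, n, rfl⟩
      rcases hx with ⟨v, rfl⟩ | ⟨p, hp, hpN, rfl⟩
      · exact Submodule.subset_span ⟨v * u, n, by rw [map_mul]; ring⟩
      · have h3 := hT p hp hpN n
        have h4 : a p * (ε u * a n) = ε u * a (p * n) +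
            ((p : A) ^ m) • (ε ((p : ZMod N) * u) * (if p ∣ n then a (n / p) else 0)) := by
          rw [Algebra.smul_def, map_pow, map_natCast, map_mul]
          linear_combination (-ε u) * h3
        rw [h4]
        refine add_mem (Submodule.subset_span ⟨u, p * n, rfl⟩) (Submodule.smul_mem _ _ ?_)
        split_ifs
        · exact Submodule.subset_span ⟨_, _, rfl⟩
        · rw [mul_zero]; exact zero_mem _
    · rw [mul_zero]; exact zero_mem _
    · intro y z _ _ hy hz; rw [mul_add]; exact add_mem hy hz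
    · intro c y _ hy; rw [mul_smul_comm]; exact Submodule.smul_mem _ _ hy
  have hstab : ∀ x ∈ Algebra.adjoin A (eigSet N ε a), ∀ y ∈ M, x * y ∈ M := by
    intro x hx
    refine Algebra.adjoin_induction (p := fun x _ => ∀ y ∈ M, x * y ∈ M) hgen ?_ ?_ ?_ hx
    · intro r y hy
      rw [← Algebra.smul_def]
      exact Submodule.smul_mem _ _ hy
    · intro x x' _ _ hx hx' y hy
      rw [add_mul]
      exact add_mem (hx y hy) (hx' y hy)
    · intro x x' _ _ hx hx' y hy
      rw [mul_assoc]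
      exact hx _ (hx' y hy)
  have hone : (1 : ℂ) ∈ M := Submodule.subset_span ⟨1, 1, by rw [map_one, h1, mul_one]⟩
  have hle : Subalgebra.toSubmodule (Algebra.adjoin A (eigSet N ε a)) ≤ Submodule.span A G := by
    intro x hx
    have := hstab x hx 1 hone
    rw [mul_one] at this
    exact hMG this
  have : IsNoetherian A (Submodule.span A G) := isNoetherian_span_of_finite A hG
  exact (isNoetherian_submodule.mp this) _ hle

end abstractModule

/-- decomposition of a form into integral forms -/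
theorem exists_integral_decomp (N : ℕ) [NeZero N] (k : ℤ)
    (f : CuspForm (Gamma1 N : Subgroup (GL (Fin 2) ℝ)) k) :
    ∃ (d : ℕ) (z : Fin d → ℂ) (g : Fin d → CuspForm (Gamma1 N : Subgroup (GL (Fin 2) ℝ)) k)
      (c : Fin d → ℕ → ℤ), (∀ j n, qCoeff (g j) n = c j n) ∧ f = ∑ j, z j • g j := by
  have h : f ∈ Submodule.span ℂ {f : CuspForm (Gamma1 N : Subgroup (GL (Fin 2) ℝ)) k |
      ∀ n, ∃ m : ℤ, ModularFormClass.qCoeff f n = (m : ℂ)} := by
    rw [span_int_Gamma1]; trivial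
  rw [Submodule.mem_span_set'] at h
  obtain ⟨d, z, g, hg⟩ := h
  choose c hc using fun j => (g j).2
  exact ⟨d, z, fun j => g j, c, hc, hg.symm⟩

theorem qCoeff_sum_smul {N : ℕ} [NeZero N] {k : ℤ} {d : ℕ} (z : Fin d → ℂ)
    (g : Fin d → CuspForm (Gamma1 N : Subgroup (GL (Fin 2) ℝ)) k) (n : ℕ) :
    qCoeff (⇑(∑ j, z j • g j : CuspForm (Gamma1 N : Subgroup (GL (Fin 2) ℝ)) k)) n =
      ∑ j, z j * qCoeff (g j) n := by
  have h := congrFun (map_sum (qSeqG (Gamma1 N : Subgroup (GL (Fin 2) ℝ)) k)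
    (fun j => z j • g j) Finset.univ) n
  rw [Finset.sum_apply] at h
  refine h.trans (Finset.sum_congr rfl fun j _ => ?_)
  rw [map_smul]
  rfl

/-- **Descent of eigenforms to a number field.** -/
theorem exists_numberField_form (N : ℕ) [NeZero N] (ε : DirichletCharacter ℂ N) {k : ℤ} (m : ℕ)
    (f : CuspForm (Gamma1 N : Subgroup (GL (Fin 2) ℝ)) k) (hf₁ : qCoeff f 1 = 1)
    (hT : HeckeRel N ε m (fun n => qCoeff f n)) :
    ∃ K : IntermediateField ℚ ℂ, FiniteDimensional ℚ K ∧ (∀ u, ε u ∈ K) ∧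
      (∀ p : ℕ, p.Prime → ¬ p ∣ N → qCoeff f p ∈ K ∧ IsIntegral ℤ (qCoeff f p)) ∧
      ∃ a : ℕ → K, a 1 = 1 ∧
        (∀ p : ℕ, p.Prime → ¬ p ∣ N → (a p : ℂ) = qCoeff f p) ∧
        (∀ p : ℕ, p.Prime → ¬ p ∣ N → ∀ n : ℕ, (a (p * n) : ℂ) + ε (p : ZMod N) * (p : ℂ) ^ m *
          (if p ∣ n then (a (n / p) : ℂ) else 0) = a p * a n) ∧
        (∃ D : ℤ, D ≠ 0 ∧ ∀ n, IsIntegral ℤ ((D : K) * a n)) ∧
        ∀ s : K →+* ℂ, ∃ g : CuspForm (Gamma1 N : Subgroup (GL (Fin 2) ℝ)) k,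
          ∀ n, qCoeff g n = s (a n) := by
  obtain ⟨d, z, g, c, hc, hfg⟩ := exists_integral_decomp N k f
  have hz : ∀ n, ∃ c : Fin d → ℤ, (fun n => qCoeff f n) n = ∑ j, (c j : ℂ) * z j := by
    intro n
    refine ⟨fun j => c j n, ?_⟩
    simp only
    rw [hfg, qCoeff_sum_smul]
    refine Finset.sum_congr rfl fun j _ => ?_
    rw [hc, mul_comm]
  set S : Set ℂ := eigSet N ε (fun n => qCoeff f n) with hS
  have fgZ := finite_adjoin (A := ℤ) ε hf₁ hT z hz
  have fgQ := finite_adjoin (A := ℚ) ε hf₁ hT z hz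
  have hint : ∀ x ∈ S, IsIntegral ℤ x := fun x hx =>
    IsIntegral.of_mem_of_fg _ fgZ x (Algebra.subset_adjoin hx)
  let K : IntermediateField ℚ ℂ := IntermediateField.adjoin ℚ S
  have hK : K.toSubalgebra = Algebra.adjoin ℚ S :=
    IntermediateField.adjoin_toSubalgebra_of_isAlgebraic fun x hx =>
      ((hint x hx).tower_top (A := ℚ)).isAlgebraic
  have hfin : FiniteDimensional ℚ K := by
    have h1 : (Subalgebra.toSubmodule K.toSubalgebra).FG := by rw [hK]; exact fgQ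
    exact Module.Finite.iff_fg.mpr h1
  have hεK : ∀ u, ε u ∈ K := fun u => IntermediateField.subset_adjoin ℚ S (Or.inl ⟨u, rfl⟩)
  have hpK : ∀ p : ℕ, p.Prime → ¬ p ∣ N → qCoeff f p ∈ K := fun p hp hpN =>
    IntermediateField.subset_adjoin ℚ S (Or.inr ⟨p, hp, hpN, rfl⟩)
  -- the functional
  obtain ⟨π, hπ⟩ : ∃ π : ℂ →ₗ[K] K, π 1 = 1 := by
    obtain ⟨π₀, h0⟩ : ∃ π₀ : ℂ →ₗ[K] K, π₀ 1 ≠ 0 := by
      by_contra hcon
      push Not at hcon
      exact one_ne_zero ((Module.forall_dual_apply_eq_zero_iff K (1 : ℂ)).1 hcon)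
    exact ⟨(π₀ 1)⁻¹ • π₀, by simp [h0]⟩
  have hπK : ∀ (x : K) (y : ℂ), π ((x : ℂ) * y) = x * π y := by
    intro x y
    have := π.map_smul x y
    rw [Algebra.smul_def] at this
    exact this
  let a : ℕ → K := fun n => π (qCoeff f n)
  have ha : ∀ n, a n = ∑ j, π (z j) * (c j n : K) := by
    intro n
    simp only [a]
    rw [hfg, qCoeff_sum_smul, map_sum]
    refine Finset.sum_congr rfl fun j _ => ?_
    rw [hc]
    have : z j * ((c j n : ℤ) : ℂ) = (((c j n : ℤ) : K) : ℂ) * z j := by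
      push_cast; ring
    rw [this, hπK, mul_comm]
  have h1 : a 1 = 1 := by
    simp only [a]
    rw [hf₁, hπ]
  -- the relations
  have hrel : ∀ p : ℕ, p.Prime → ¬ p ∣ N → ∀ n : ℕ,
      (a (p * n) : ℂ) + ε (p : ZMod N) * (p : ℂ) ^ m *
        (if p ∣ n then (a (n / p) : ℂ) else 0) = qCoeff f p * a n := by
    intro p hp hpN n
    have h2 := hT p hp hpN n
    simp only at h2
    have h3 := congrArg π h2
    have h4 : qCoeff f p * qCoeff f n = ((⟨qCoeff f p, hpK p hp hpN⟩ : K) : ℂ) * qCoeff f n := rfl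
    have h5 : ε (p : ZMod N) * (p : ℂ) ^ m * (if p ∣ n then qCoeff f (n / p) else 0) =
        (((⟨ε (p : ZMod N), hεK _⟩ : K) * (p : K) ^ m : K) : ℂ) *
          (if p ∣ n then qCoeff f (n / p) else 0) := by
      push_cast; rfl
    rw [map_add, h4, h5, hπK, hπK] at h3
    have h6 := congrArg (fun x : K => (x : ℂ)) h3
    simp only [a]
    push_cast at h6
    rw [← h6]
    congr 1
    congr 1
    split_ifs
    · rfl
    · simp
  have hap : ∀ p : ℕ, p.Prime → ¬ p ∣ N → (a p : ℂ) = qCoeff f p := by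
    intro p hp hpN
    have h2 := hrel p hp hpN 1
    rw [mul_one, if_neg hp.not_dvd_one, mul_zero, add_zero, h1] at h2
    rw [h2]
    simp
  refine ⟨K, hfin, hεK, fun p hp hpN => ⟨hpK p hp hpN, hint _ (Or.inr ⟨p, hp, hpN, rfl⟩)⟩,
    a, h1, hap, ?_, ?_, ?_⟩
  · intro p hp hpN n
    rw [hrel p hp hpN n, hap p hp hpN]
  · -- bounded denominators
    have hex : ∀ x : K, ∃ D : ℤ, D ≠ 0 ∧ IsIntegral ℤ ((D : K) * x) := by
      intro x
      have hx : IsAlgebraic ℤ x :=
        (IsFractionRing.isAlgebraic_iff ℤ ℚ K).mpr (Algebra.IsAlgebraic.isAlgebraic x)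
      obtain ⟨D, hD, hDx⟩ := hx.exists_integral_multiple
      refine ⟨D, hD, ?_⟩
      rwa [zsmul_eq_mul] at hDx
    choose D hD hDx using fun j => hex (π (z j))
    refine ⟨∏ j, D j, Finset.prod_ne_zero_iff.mpr fun j _ => hD j, fun n => ?_⟩
    rw [ha, Finset.mul_sum]
    refine IsIntegral.sum _ fun j _ => ?_
    rw [← Finset.mul_prod_erase _ _ (Finset.mem_univ j)]
    have h2 : (((D j * ∏ x ∈ Finset.univ.erase j, D x : ℤ)) : K) * (π (z j) * (c j n : K)) =
        ((D j : K) * π (z j)) * (((∏ x ∈ Finset.univ.erase j, D x) * c j n : ℤ) : K) := by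
      push_cast; ring
    rw [h2]
    exact (hDx j).mul (isIntegral_algebraMap (R := ℤ) (A := K)
      (x := (∏ x ∈ Finset.univ.erase j, D x) * c j n))
  · intro s
    refine ⟨∑ j, s (π (z j)) • g j, fun n => ?_⟩
    rw [qCoeff_sum_smul, ha, map_sum]
    refine Finset.sum_congr rfl fun j _ => ?_
    rw [map_mul, map_intCast, hc]

/-- The weight one case, in the form of S48. -/
theorem exists_numberField_form_weightOne (N : ℕ) [NeZero N] (ε : DirichletCharacter ℂ N)
    (f : CuspForm (Gamma1 N : Subgroup (GL (Fin 2) ℝ)) 1) (hf₁ : qCoeff f 1 = 1)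
    (hT : ∀ p : ℕ, p.Prime → ¬ p ∣ N → ∀ n : ℕ,
        qCoeff f (p * n) + ε (p : ZMod N) * (if p ∣ n then qCoeff f (n / p) else 0) =
          qCoeff f p * qCoeff f n) :
    ∃ K : IntermediateField ℚ ℂ, FiniteDimensional ℚ K ∧ (∀ u, ε u ∈ K) ∧
      (∀ p : ℕ, p.Prime → ¬ p ∣ N → qCoeff f p ∈ K ∧ IsIntegral ℤ (qCoeff f p)) ∧
      ∃ a : ℕ → K, a 1 = 1 ∧
        (∀ p : ℕ, p.Prime → ¬ p ∣ N → (a p : ℂ) = qCoeff f p) ∧
        (∀ p : ℕ, p.Prime → ¬ p ∣ N → ∀ n : ℕ, (a (p * n) : ℂ) + ε (p : ZMod N) *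
          (if p ∣ n then (a (n / p) : ℂ) else 0) = a p * a n) ∧
        (∃ D : ℤ, D ≠ 0 ∧ ∀ n, IsIntegral ℤ ((D : K) * a n)) ∧
        ∀ s : K →+* ℂ, ∃ g : CuspForm (Gamma1 N : Subgroup (GL (Fin 2) ℝ)) 1,
          ∀ n, qCoeff g n = s (a n) := by
  have hT' : HeckeRel N ε 0 (fun n => qCoeff f n) := by
    intro p hp hpN n
    have := hT p hp hpN n
    simpa using this
  obtain ⟨K, h1, h2, h3, a, h4, h5, h6, h7, h8⟩ := exists_numberField_form N ε 0 f hf₁ hT'
  refine ⟨K, h1, h2, h3, a, h4, h5, fun p hp hpN n => ?_, h7, h8⟩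
  have := h6 p hp hpN n
  simpa using this

end Fermat.Agent.DS
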