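import Fermat.Agent.DS.Descent

/-!
# The number field of a weight one eigenform, packaged for the Deligne-Serre argument
-/

set_option autoImplicit false

open UpperHalfPlane ModularForm MatrixGroups CongruenceSubgroup Matrix.SpecialLinearGroup
open ModularFormClass NumberField
open scoped Manifold
open Fermat.Agent.IntStr

noncomputable section

namespace Fermat.Agent.DS

theorem isIntegral_dirichlet {N : ℕ} [NeZero N] (ε : DirichletCharacter ℂ N) (u : ZMod N) :
    IsIntegral ℤ (ε u) := by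
  by_cases hu : IsUnit u
  · obtain ⟨v, rfl⟩ := hu
    have h1 : (ε v) ^ (Fintype.card (ZMod N)ˣ) = 1 := by
      rw [← map_pow, ← Units.val_pow_eq_pow_val, pow_card_eq_one, Units.val_one, map_one]
    exact IsIntegral.of_pow (n := Fintype.card (ZMod N)ˣ) Fintype.card_pos
      (by rw [h1]; exact isIntegral_one)
  · rw [MulChar.map_nonunit ε hu]
    exact isIntegral_zero

/-- **P4 output for S48.** -/
theorem exists_S48_data (N : ℕ) [NeZero N] (ε : DirichletCharacter ℂ N)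
    (f : CuspForm (Gamma1 N : Subgroup (GL (Fin 2) ℝ)) 1) (hf₁ : qCoeff f 1 = 1)
    (hT : ∀ p : ℕ, p.Prime → ¬ p ∣ N → ∀ n : ℕ,
        qCoeff f (p * n) + ε (p : ZMod N) * (if p ∣ n then qCoeff f (n / p) else 0) =
          qCoeff f p * qCoeff f n) :
    ∃ (K : Type) (_ : Field K) (_ : NumberField K) (ι : K →+* ℂ) (b : ℕ → K)
      (e : ZMod N → 𝓞 K) (α : ℕ → 𝓞 K) (D : ℕ), 0 < D ∧
      b 1 = 1 ∧
      (∀ u, ι (e u : K) = ε u) ∧ e 1 = 1 ∧ (∀ u v, e (u * v) = e u * e v) ∧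
      (∀ p : ℕ, p.Prime → ¬ p ∣ N → (α p : K) = b p ∧ ι (b p) = qCoeff f p) ∧
      (∀ p : ℕ, p.Prime → ¬ p ∣ N → ∀ n : ℕ,
        b (p * n) + (e (p : ZMod N) : K) * (if p ∣ n then b (n / p) else 0) = b p * b n) ∧
      (∀ n, ∃ x : 𝓞 K, (x : K) = (D : K) * b n) ∧
      ∀ s : K →+* ℂ, ∃ g : CuspForm (Gamma1 N : Subgroup (GL (Fin 2) ℝ)) 1,
        ∀ n, qCoeff g n = s (b n) := by
  obtain ⟨K, hfin, hε, hp, a, h1, h2, h3, ⟨D, hD, hDa⟩, h5⟩ :=
    exists_numberField_form_weightOne N ε f hf₁ hT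
  have hNF : NumberField K := ⟨⟩
  let ι : K →+* ℂ := algebraMap K ℂ
  have hι : Function.Injective ι := (algebraMap K ℂ).injective
  have hintK : ∀ x : K, IsIntegral ℤ (x : ℂ) → IsIntegral ℤ x := fun x hx =>
    (isIntegral_algHom_iff (K.val.restrictScalars ℤ) (Subtype.val_injective)).mp hx
  let e : ZMod N → 𝓞 K := fun u => ⟨⟨ε u, hε u⟩, hintK _ (isIntegral_dirichlet ε u)⟩
  have heι : ∀ u, ι (e u : K) = ε u := fun u => rfl
  let α : ℕ → 𝓞 K := fun n => if h : n.Prime ∧ ¬ n ∣ N then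
    ⟨a n, hintK _ (by rw [h2 n h.1 h.2]; exact (hp n h.1 h.2).2)⟩ else 0
  have hα : ∀ p : ℕ, p.Prime → ¬ p ∣ N → (α p : K) = a p := by
    intro p hp1 hp2
    have h6 : α p = ⟨a p, hintK _ (by rw [h2 p hp1 hp2]; exact (hp p hp1 hp2).2)⟩ :=
      dif_pos ⟨hp1, hp2⟩
    rw [h6]
    rfl
  refine ⟨K, inferInstance, hNF, ι, a, e, α, D.natAbs, Int.natAbs_pos.mpr hD, h1, heι, ?_, ?_,
    fun p hp1 hp2 => ⟨hα p hp1 hp2, h2 p hp1 hp2⟩, ?_, ?_, fun s => h5 s⟩
  · apply RingOfIntegers.ext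
    apply hι
    rw [heι, map_one]
    simp
  · intro u v
    apply RingOfIntegers.ext
    apply hι
    rw [heι, map_mul]
    rw [show ((e u * e v : 𝓞 K) : K) = (e u : K) * (e v : K) by push_cast; rfl, map_mul, heι, heι]
  · intro p hp1 hp2 n
    apply hι
    have h6 := h3 p hp1 hp2 n
    rw [map_add, map_mul, map_mul, heι]
    refine Eq.trans ?_ h6
    congr 2
    split_ifs
    · rfl
    · simp
  · intro n
    have h7 : IsIntegral ℤ ((D.natAbs : K) * a n) := by
      rcases Int.natAbs_eq D with h8 | h8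
      · have h9 : (D.natAbs : K) = ((D : ℤ) : K) := by
          conv_rhs => rw [h8]
          simp
        rw [h9]
        exact hDa n
      · have h9 : (D.natAbs : K) = -((D : ℤ) : K) := by
          conv_rhs => rw [h8]
          simp
        rw [h9, neg_mul]
        exact (hDa n).neg
    exact ⟨⟨_, h7⟩, rfl⟩

end Fermat.Agent.DS
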