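import Mathlib

/-!
# A lattice sum of weight one

For `N ≥ 1` and an integer vector `a` with `a, 2a ∉ N ℤ²` we consider
`F_a(τ) = ∑_x (2/(L(N x + a)) + 1/(L(N x - 2 a)) - 3/(L(N x)))`, `L(v) = v₀ τ + v₁`,
which converges absolutely; it equals `(2 ζ(u) - ζ(2u)) / N`, `u = L(a)/N`.

* `wtOne_slash`: `F_a ∣[1] γ = F_{aγ}`;
* `wtOne_periodic`: `F_{a + N e} = F_a`;
* `wtOne_mdiff`: holomorphy.
-/

set_option autoImplicit false

open UpperHalfPlane EisensteinSeries Complex Filter Topology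
open Matrix (vecMul_vecMul add_vecMul sub_vecMul smul_vecMul zero_vecMul vecMul_one SpecialLinearGroup)
open scoped MatrixGroups ModularForm Manifold Matrix

namespace Fermat.Agent.DS.Eis

/-- Linear form attached to an integer vector. -/
noncomputable def lin (v : Fin 2 → ℤ) (τ : ℂ) : ℂ := v 0 * τ + v 1

lemma lin_add (v w : Fin 2 → ℤ) (τ : ℂ) : lin (v + w) τ = lin v τ + lin w τ := by
  simp only [lin, Pi.add_apply, Int.cast_add]; ring

lemma lin_sub (v w : Fin 2 → ℤ) (τ : ℂ) : lin (v - w) τ = lin v τ - lin w τ := by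
  simp only [lin, Pi.sub_apply, Int.cast_sub]; ring

lemma lin_smul (n : ℤ) (v : Fin 2 → ℤ) (τ : ℂ) : lin (n • v) τ = n * lin v τ := by
  simp only [lin, Pi.smul_apply, smul_eq_mul, Int.cast_mul]; ring

lemma lin_neg (v : Fin 2 → ℤ) (τ : ℂ) : lin (-v) τ = -lin v τ := by
  simp only [lin, Pi.neg_apply, Int.cast_neg]; ring

lemma lin_ne_zero {v : Fin 2 → ℤ} (hv : v ≠ 0) (τ : ℍ) : lin v τ ≠ 0 := by
  have h := r_mul_max_le τ hv
  have h2 : 0 < r τ * ‖v‖ := mul_pos (r_pos τ) (norm_pos_iff.mpr hv)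
  intro h0
  rw [lin] at h0
  rw [h0, norm_zero] at h
  exact absurd h (not_le.mpr h2)

/-- The summand. -/
noncomputable def term (N : ℤ) (a x : Fin 2 → ℤ) (τ : ℂ) : ℂ :=
  2 / lin (N • x + a) τ + 1 / lin (N • x - 2 • a) τ - 3 / lin (N • x) τ

/-- `a` and `2a` are not divisible by `N`. -/
def Adm (N : ℤ) (a : Fin 2 → ℤ) : Prop :=
  (∀ x : Fin 2 → ℤ, N • x + a ≠ 0) ∧ (∀ x : Fin 2 → ℤ, N • x - 2 • a ≠ 0)

lemma Adm.ne_zero {N : ℤ} {a : Fin 2 → ℤ} (h : Adm N a) : a ≠ 0 := by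
  have := h.1 0
  simpa using this

lemma Adm.N_ne_zero_or {N : ℤ} {a : Fin 2 → ℤ} (h : Adm N a) : a ≠ 0 := h.ne_zero

lemma term_eq {N : ℤ} (hN : N ≠ 0) {a : Fin 2 → ℤ} (ha : Adm N a) {x : Fin 2 → ℤ} (hx : x ≠ 0)
    (τ : ℍ) : term N a x τ =
      6 * lin a τ ^ 2 / (lin (N • x) τ * lin (N • x + a) τ * lin (N • x - 2 • a) τ) := by
  have h1 := lin_ne_zero (ha.1 x) τ
  have h2 := lin_ne_zero (ha.2 x) τ
  have h3 : lin (N • x) τ ≠ 0 := lin_ne_zero (smul_ne_zero hN hx) τ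
  rw [term]
  have h2' : lin (N • x - 2 • a) τ = lin (N • x) τ - 2 * lin a τ := by
    rw [lin_sub]
    congr 1
    have := lin_smul 2 a τ
    simpa using this
  rw [h2'] at h2 ⊢
  rw [lin_add] at h1 ⊢
  field_simp
  ring

lemma norm_le_of_add_ne_zero {y a : Fin 2 → ℤ} (h : y + a ≠ 0) :
    ‖y‖ ≤ (1 + ‖a‖) * ‖y + a‖ := by
  have h1 : 1 ≤ ‖y + a‖ := by
    obtain ⟨i, hi⟩ : ∃ i, (y + a) i ≠ 0 := by
      by_contra! hcon
      exact h (funext hcon)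
    calc (1 : ℝ) ≤ ‖(y + a) i‖ := by
          rw [Int.norm_eq_abs]
          exact_mod_cast Int.one_le_abs hi
      _ ≤ ‖y + a‖ := norm_le_pi_norm _ i
  have h2 : ‖y‖ ≤ ‖y + a‖ + ‖a‖ := by
    have := norm_sub_le (y + a) a
    simpa using this
  nlinarith [norm_nonneg a, norm_nonneg (y + a)]

/-- Main estimate for the summand. -/
lemma norm_term_le {N : ℤ} (hN : N ≠ 0) {a : Fin 2 → ℤ} (ha : Adm N a) {x : Fin 2 → ℤ}
    (τ : ℍ) (hx : x ≠ 0) : ‖term N a x τ‖ ≤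
      (6 * ‖lin a τ‖ ^ 2 * r τ ^ (-3 : ℝ) * ((1 + ‖a‖) * (1 + ‖-(2 • a)‖))) * ‖x‖ ^ (-3 : ℝ) := by
  have hNx : N • x ≠ 0 := smul_ne_zero hN hx
  have h3 := r_mul_max_le τ hNx
  have h1 := r_mul_max_le τ (ha.1 x)
  have h2 := r_mul_max_le τ (ha.2 x)
  have e1 := norm_le_of_add_ne_zero (ha.1 x)
  have e2 : ‖N • x‖ ≤ (1 + ‖-(2 • a)‖) * ‖N • x - 2 • a‖ := by
    have := norm_le_of_add_ne_zero (y := N • x) (a := -(2 • a))
      (by rw [← sub_eq_add_neg]; exact ha.2 x)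
    rwa [← sub_eq_add_neg] at this
  have e0 : ‖x‖ ≤ ‖N • x‖ := by
    rw [norm_smul]
    have : (1 : ℝ) ≤ ‖N‖ := by
      rw [Int.norm_eq_abs]
      exact_mod_cast Int.one_le_abs hN
    nlinarith [norm_nonneg x]
  have hr := r_pos τ
  have hxp : 0 < ‖x‖ := norm_pos_iff.mpr hx
  have hA : 0 < 1 + ‖a‖ := by positivity
  have hB : 0 < 1 + ‖-(2 • a)‖ := by positivity
  rw [term_eq hN ha hx τ, norm_div, norm_mul, norm_pow, norm_mul, norm_mul]
  have hn6 : ‖(6 : ℂ)‖ = 6 := by norm_num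
  rw [hn6]
  have f0 : r τ * ‖x‖ ≤ ‖lin (N • x) τ‖ :=
    (mul_le_mul_of_nonneg_left e0 hr.le).trans h3
  have f1 : r τ * ‖x‖ / (1 + ‖a‖) ≤ ‖lin (N • x + a) τ‖ := by
    refine le_trans ?_ h1
    rw [mul_div_assoc]
    refine mul_le_mul_of_nonneg_left ?_ hr.le
    rw [div_le_iff₀ hA, mul_comm]
    exact e0.trans e1
  have f2 : r τ * ‖x‖ / (1 + ‖-(2 • a)‖) ≤ ‖lin (N • x - 2 • a) τ‖ := by
    refine le_trans ?_ h2
    rw [mul_div_assoc]
    refine mul_le_mul_of_nonneg_left ?_ hr.le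
    rw [div_le_iff₀ hB, mul_comm]
    exact e0.trans e2
  have hprod : (r τ * ‖x‖) * (r τ * ‖x‖ / (1 + ‖a‖)) * (r τ * ‖x‖ / (1 + ‖-(2 • a)‖)) ≤
      ‖lin (N • x) τ‖ * ‖lin (N • x + a) τ‖ * ‖lin (N • x - 2 • a) τ‖ := by
    gcongr
  have hpos : 0 < (r τ * ‖x‖) * (r τ * ‖x‖ / (1 + ‖a‖)) * (r τ * ‖x‖ / (1 + ‖-(2 • a)‖)) := by
    positivity
  calc 6 * ‖lin a τ‖ ^ 2 / (‖lin (N • x) τ‖ * ‖lin (N • x + a) τ‖ * ‖lin (N • x - 2 • a) τ‖)
      ≤ 6 * ‖lin a τ‖ ^ 2 /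
        ((r τ * ‖x‖) * (r τ * ‖x‖ / (1 + ‖a‖)) * (r τ * ‖x‖ / (1 + ‖-(2 • a)‖))) := by
        gcongr
    _ = _ := by
        have g1 : r τ ^ (-3 : ℝ) = (r τ ^ 3)⁻¹ := by
          rw [Real.rpow_neg hr.le]; norm_cast
        have g2 : ‖x‖ ^ (-3 : ℝ) = (‖x‖ ^ 3)⁻¹ := by
          rw [Real.rpow_neg hxp.le]; norm_cast
        rw [g1, g2]
        field_simp

lemma summable_norm_rpow_three : Summable fun x : Fin 2 → ℤ => ‖x‖ ^ (-3 : ℝ) :=
  summable_one_div_norm_rpow (k := 3) (by norm_num)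

lemma summable_term {N : ℤ} (hN : N ≠ 0) {a : Fin 2 → ℤ} (ha : Adm N a) (τ : ℍ) :
    Summable fun x : Fin 2 → ℤ => term N a x τ := by
  refine Summable.of_norm_bounded_eventually
    (summable_norm_rpow_three.mul_left
      (6 * ‖lin a τ‖ ^ 2 * r τ ^ (-3 : ℝ) * ((1 + ‖a‖) * (1 + ‖-(2 • a)‖)))) ?_
  have : ({0} : Set (Fin 2 → ℤ))ᶜ ∈ (cofinite : Filter (Fin 2 → ℤ)) :=
    (Set.finite_singleton _).compl_mem_cofinite
  filter_upwards [this] with x hx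
  exact norm_term_le hN ha τ hx

/-- The weight one function. -/
noncomputable def wtOne (N : ℤ) (a : Fin 2 → ℤ) (τ : ℍ) : ℂ := ∑' x : Fin 2 → ℤ, term N a x τ

/-! ### Slash action -/

lemma lin_smul_SL2 (v : Fin 2 → ℤ) (γ : SL(2, ℤ)) (τ : ℍ) :
    lin v (γ • τ : ℍ) = lin (v ᵥ* γ) τ / denom γ τ := by
  have h := eisSummand_SL2_apply (-1) v γ τ
  simp only [eisSummand, neg_neg, zpow_one, zpow_neg] at h
  rw [lin, lin, h, div_eq_mul_inv, mul_comm]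

lemma vecMul_vecMul_inv (γ : SL(2, ℤ)) (v : Fin 2 → ℤ) :
    (v ᵥ* (γ : Matrix (Fin 2) (Fin 2) ℤ)) ᵥ* ((γ⁻¹ : SL(2, ℤ)) : Matrix (Fin 2) (Fin 2) ℤ) = v := by
  have h : (γ : Matrix (Fin 2) (Fin 2) ℤ) * ((γ⁻¹ : SL(2, ℤ)) : Matrix (Fin 2) (Fin 2) ℤ) = 1 :=
    congrArg Subtype.val (mul_inv_cancel γ)
  rw [vecMul_vecMul, h, vecMul_one]

lemma vecMul_inv_vecMul (γ : SL(2, ℤ)) (v : Fin 2 → ℤ) :
    (v ᵥ* ((γ⁻¹ : SL(2, ℤ)) : Matrix (Fin 2) (Fin 2) ℤ)) ᵥ* (γ : Matrix (Fin 2) (Fin 2) ℤ) = v := by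
  have h : ((γ⁻¹ : SL(2, ℤ)) : Matrix (Fin 2) (Fin 2) ℤ) * (γ : Matrix (Fin 2) (Fin 2) ℤ) = 1 :=
    congrArg Subtype.val (inv_mul_cancel γ)
  rw [vecMul_vecMul, h, vecMul_one]

/-- The bijection of `ℤ²` given by `γ`. -/
def vecEquiv (γ : SL(2, ℤ)) : (Fin 2 → ℤ) ≃ (Fin 2 → ℤ) where
  toFun v := v ᵥ* γ
  invFun v := v ᵥ* ((γ⁻¹ : SL(2, ℤ)) : Matrix (Fin 2) (Fin 2) ℤ)
  left_inv v := vecMul_vecMul_inv γ v
  right_inv v := vecMul_inv_vecMul γ v

@[simp] lemma vecEquiv_apply (γ : SL(2, ℤ)) (v : Fin 2 → ℤ) : vecEquiv γ v = v ᵥ* γ := rfl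

lemma term_smul_SL2 (N : ℤ) (a x : Fin 2 → ℤ) (γ : SL(2, ℤ)) (τ : ℍ) :
    term N a x (γ • τ : ℍ) = denom γ τ * term N (a ᵥ* γ) (x ᵥ* γ) τ := by
  have hd := denom_ne_zero γ τ
  rw [term, term, lin_smul_SL2, lin_smul_SL2, lin_smul_SL2]
  have e1 : (N • x + a) ᵥ* (γ : Matrix (Fin 2) (Fin 2) ℤ) =
      N • (x ᵥ* (γ : Matrix (Fin 2) (Fin 2) ℤ)) + a ᵥ* (γ : Matrix (Fin 2) (Fin 2) ℤ) := by
    rw [add_vecMul, smul_vecMul]
  have e2 : (N • x - 2 • a) ᵥ* (γ : Matrix (Fin 2) (Fin 2) ℤ) =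
      N • (x ᵥ* (γ : Matrix (Fin 2) (Fin 2) ℤ)) - 2 • (a ᵥ* (γ : Matrix (Fin 2) (Fin 2) ℤ)) := by
    rw [sub_vecMul, smul_vecMul, smul_vecMul]
  have e3 : (N • x) ᵥ* (γ : Matrix (Fin 2) (Fin 2) ℤ) =
      N • (x ᵥ* (γ : Matrix (Fin 2) (Fin 2) ℤ)) := by
    rw [smul_vecMul]
  rw [e1, e2, e3]
  rw [div_div_eq_mul_div, div_div_eq_mul_div, div_div_eq_mul_div]
  ring

lemma Adm.vecMul {N : ℤ} {a : Fin 2 → ℤ} (h : Adm N a) (γ : SL(2, ℤ)) :
    Adm N (a ᵥ* γ) := by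
  constructor
  · intro x hx
    apply h.1 ((vecEquiv γ).symm x)
    apply (vecEquiv γ).injective
    rw [vecEquiv_apply, vecEquiv_apply, zero_vecMul, add_vecMul, smul_vecMul, ← hx]
    congr 2
    exact (vecEquiv γ).apply_symm_apply x
  · intro x hx
    apply h.2 ((vecEquiv γ).symm x)
    apply (vecEquiv γ).injective
    rw [vecEquiv_apply, vecEquiv_apply, zero_vecMul, sub_vecMul, smul_vecMul, smul_vecMul, ← hx]
    congr 2
    exact (vecEquiv γ).apply_symm_apply x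

lemma wtOne_smul (N : ℤ) (a : Fin 2 → ℤ) (γ : SL(2, ℤ)) (τ : ℍ) :
    wtOne N a (γ • τ) = denom γ τ * wtOne N (a ᵥ* γ) τ := by
  rw [wtOne, wtOne, ← tsum_mul_left]
  simp_rw [term_smul_SL2]
  exact (vecEquiv γ).tsum_eq (fun y => denom γ τ * term N (a ᵥ* γ) y τ)

theorem wtOne_slash (N : ℤ) (a : Fin 2 → ℤ) (γ : SL(2, ℤ)) :
    wtOne N a ∣[(1 : ℤ)] γ = wtOne N (a ᵥ* γ) := by
  ext1 τ
  rw [ModularForm.SL_slash_apply, wtOne_smul, zpow_neg, zpow_one, mul_comm (denom _ _), mul_assoc,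
    mul_inv_cancel₀ (denom_ne_zero γ τ), mul_one]

/-! ### Periodicity -/

/-- Telescoping along a direction. -/
theorem tsum_telescope_int {g : ℤ → ℂ} (hs : Summable fun n => g (n + 1) - g n)
    (h : Tendsto g cofinite (𝓝 0)) :
    ∑' n, (g (n + 1) - g n) = 0 := by
  have h1 : Tendsto g atTop (𝓝 0) := h.mono_left (by rw [Int.cofinite_eq]; exact le_sup_right)
  have h2 : Tendsto g atBot (𝓝 0) := h.mono_left (by rw [Int.cofinite_eq]; exact le_sup_left)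
  have hlim : Tendsto (fun n : ℕ => ∑ i ∈ Finset.Ico (-(n : ℤ)) n, (g (i + 1) - g i)) atTop
      (𝓝 (∑' n, (g (n + 1) - g n))) := by
    refine hs.hasSum.comp ?_
    rw [SummationFilter.unconditional_filter, tendsto_atTop_atTop]
    intro s
    obtain ⟨B, hB⟩ : ∃ B : ℕ, ∀ i ∈ s, i.natAbs < B :=
      ⟨s.sup Int.natAbs + 1, fun i hi => Nat.lt_succ_of_le (Finset.le_sup hi)⟩
    refine ⟨B, fun n hn i hi => ?_⟩
    have := hB i hi
    rw [Finset.mem_Ico]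
    omega
  have hval : ∀ n : ℕ, ∑ i ∈ Finset.Ico (-(n : ℤ)) n, (g (i + 1) - g i) = g n - g (-n) := by
    intro n
    induction n with
    | zero => simp
    | succ n ih =>
      have e1 : Finset.Ico (-((n + 1 : ℕ) : ℤ)) ((n + 1 : ℕ) : ℤ) =
          insert (-((n : ℤ) + 1)) (insert (n : ℤ) (Finset.Ico (-(n : ℤ)) n)) := by
        ext i
        simp only [Finset.mem_Ico, Finset.mem_insert, Nat.cast_add, Nat.cast_one]
        omega
      rw [e1, Finset.sum_insert, Finset.sum_insert (by simp), ih]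
      · push_cast
        have e2 : -((n : ℤ) + 1) + 1 = -n := by ring
        rw [e2]
        ring
      · simp only [Finset.mem_insert, Finset.mem_Ico]
        omega
  simp_rw [hval] at hlim
  have h3 : Tendsto (fun n : ℕ => g n - g (-n)) atTop (𝓝 (0 - 0)) := by
    refine Tendsto.sub (h1.comp tendsto_natCast_atTop_atTop) (h2.comp ?_)
    exact tendsto_neg_atTop_atBot.comp tendsto_natCast_atTop_atTop
  rw [sub_zero] at h3
  exact tendsto_nhds_unique hlim h3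

lemma tendsto_inv_linear {A : ℂ} (hA : A ≠ 0) (B : ℂ) :
    Tendsto (fun n : ℤ => 1 / ((n : ℂ) * A + B)) cofinite (𝓝 0) := by
  have h1 : Tendsto (fun n : ℤ => ‖(n : ℂ) * A + B‖) cofinite atTop := by
    have h2 : Tendsto (fun n : ℤ => ‖(n : ℂ) * A‖ - ‖B‖) cofinite atTop := by
      apply Filter.tendsto_atTop_add_const_right
      simp_rw [norm_mul]
      apply Filter.Tendsto.atTop_mul_const (norm_pos_iff.mpr hA)
      refine (tendsto_norm_comp_cofinite_atTop_of_isClosedEmbedding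
        Int.isClosedEmbedding_coe_real).congr fun n => ?_
      simp
    refine tendsto_atTop_mono (fun n => ?_) h2
    have := norm_sub_norm_le ((n : ℂ) * A) (-B)
    rwa [norm_neg, sub_neg_eq_add] at this
  rw [tendsto_zero_iff_norm_tendsto_zero]
  simp_rw [norm_div, norm_one, one_div]
  exact tendsto_inv_atTop_zero.comp h1

lemma Adm.add_smul {N : ℤ} {a : Fin 2 → ℤ} (h : Adm N a) (v : Fin 2 → ℤ) :
    Adm N (a + N • v) := by
  constructor
  · intro x hx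
    apply h.1 (x + v)
    rw [← hx, smul_add]
    abel
  · intro x hx
    apply h.2 (x - 2 • v)
    rw [← hx, smul_sub, smul_add, smul_comm N 2 v]
    abel

/-- The second basis vector. -/
def eone : Fin 2 → ℤ := ![0, 1]

/-- The first basis vector. -/
def ezero : Fin 2 → ℤ := ![1, 0]

/-- The telescoping function. -/
noncomputable def tele (N : ℤ) (a : Fin 2 → ℤ) (τ : ℂ) (m n : ℤ) : ℂ :=
  2 * (1 / ((n : ℂ) * N + (N * m * τ + lin a τ))) -
    1 / ((n : ℂ) * N + (N * m * τ - N - 2 * lin a τ)) -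
    1 / ((n : ℂ) * N + (N * m * τ - 2 * N - 2 * lin a τ))

lemma term_sub_term (N : ℤ) (a : Fin 2 → ℤ) (τ : ℂ) (m n : ℤ) :
    term N (a + N • eone) ![m, n] τ - term N a ![m, n] τ =
      tele N a τ m (n + 1) - tele N a τ m n := by
  simp only [term, tele, lin, eone]
  simp only [two_nsmul, Pi.add_apply, Pi.smul_apply, Pi.sub_apply, smul_eq_mul,
    Matrix.cons_val_zero, Matrix.cons_val_one, Int.cast_add, Int.cast_mul, Int.cast_sub,
    mul_zero, mul_one, add_zero, Int.cast_one]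
  have e : ∀ x y : ℂ, x = y → (1 : ℂ) / x = 1 / y := fun x y h => by rw [h]
  have e2 : ∀ x y : ℂ, x = y → (2 : ℂ) / x = 2 * (1 / y) := fun x y h => by rw [h]; ring
  rw [e2 _ ((((n : ℂ) + 1) * N + (N * m * τ + (a 0 * τ + a 1)))) (by ring),
    e2 _ (((n : ℂ)) * N + (N * m * τ + (a 0 * τ + a 1))) (by ring),
    e (_ * τ + _) ((n : ℂ) * N + (N * m * τ - 2 * N - 2 * (a 0 * τ + a 1))) (by ring),
    e (_ * τ + _) ((((n : ℂ) + 1) * N + (N * m * τ - N - 2 * (a 0 * τ + a 1)))) (by ring),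
    e (((n : ℂ) + 1) * N + (N * m * τ - 2 * N - 2 * (a 0 * τ + a 1)))
      (((n : ℂ)) * N + (N * m * τ - N - 2 * (a 0 * τ + a 1))) (by ring)]
  ring

lemma tendsto_tele {N : ℤ} (hN : N ≠ 0) (a : Fin 2 → ℤ) (τ : ℂ) (m : ℤ) :
    Tendsto (tele N a τ m) cofinite (𝓝 0) := by
  have hN' : (N : ℂ) ≠ 0 := by exact_mod_cast hN
  have h := (((tendsto_inv_linear hN' (N * m * τ + lin a τ)).const_mul 2).sub
    (tendsto_inv_linear hN' (N * m * τ - N - 2 * lin a τ))).sub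
    (tendsto_inv_linear hN' (N * m * τ - 2 * N - 2 * lin a τ))
  rw [mul_zero, sub_zero, sub_zero] at h
  exact h

theorem wtOne_add_eone {N : ℤ} (hN : N ≠ 0) {a : Fin 2 → ℤ} (ha : Adm N a) :
    wtOne N (a + N • eone) = wtOne N a := by
  ext1 τ
  rw [← sub_eq_zero, wtOne, wtOne]
  have h1 := summable_term hN (ha.add_smul eone) τ
  have h2 := summable_term hN ha τ
  rw [← h1.tsum_sub h2, ← (finTwoArrowEquiv ℤ).symm.tsum_eq]
  have h3 : Summable fun p : ℤ × ℤ => tele N a τ p.1 (p.2 + 1) - tele N a τ p.1 p.2 := by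
    have := ((finTwoArrowEquiv ℤ).symm.summable_iff).mpr (h1.sub h2)
    refine this.congr fun p => ?_
    exact term_sub_term N a τ p.1 p.2
  have h4 : ∀ p : ℤ × ℤ, term N (a + N • eone) ((finTwoArrowEquiv ℤ).symm p) τ -
      term N a ((finTwoArrowEquiv ℤ).symm p) τ =
      tele N a τ p.1 (p.2 + 1) - tele N a τ p.1 p.2 := fun p => term_sub_term N a τ p.1 p.2
  simp_rw [h4]
  rw [h3.tsum_prod]
  have h5 : ∀ m : ℤ, ∑' n : ℤ, (tele N a τ m (n + 1) - tele N a τ m n) = 0 := fun m =>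
    tsum_telescope_int (h3.prod_factor m) (tendsto_tele hN a τ m)
  simp_rw [h5]
  exact tsum_zero

theorem wtOne_add_smul_eone {N : ℤ} (hN : N ≠ 0) {a : Fin 2 → ℤ} (ha : Adm N a) (n : ℤ) :
    wtOne N (a + N • (n • eone)) = wtOne N a := by
  induction n using Int.induction_on with
  | zero => simp
  | succ n ih =>
    rw [add_smul, one_smul, smul_add, ← add_assoc, wtOne_add_eone hN (ha.add_smul _), ih]
  | pred n ih =>
    rw [← ih, sub_smul, one_smul, smul_sub]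
    conv_rhs => rw [show a + N • (-(n : ℤ)) • eone =
      (a + (N • (-(n : ℤ)) • eone - N • eone)) + N • eone by abel]
    rw [wtOne_add_eone hN]
    have := ha.add_smul ((-(n : ℤ)) • eone - eone)
    rwa [smul_sub] at this

theorem eone_vecMul_S : eone ᵥ* ((ModularGroup.S : SL(2, ℤ)) : Matrix (Fin 2) (Fin 2) ℤ) =
    ezero := by
  ext i
  fin_cases i <;> simp [eone, ezero, ModularGroup.S, Matrix.vecMul, dotProduct]

theorem wtOne_add_smul_ezero {N : ℤ} (hN : N ≠ 0) {a : Fin 2 → ℤ} (ha : Adm N a) (n : ℤ) :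
    wtOne N (a + N • (n • ezero)) = wtOne N a := by
  obtain ⟨b, rfl⟩ : ∃ b, a = b ᵥ* (ModularGroup.S : Matrix (Fin 2) (Fin 2) ℤ) :=
    ⟨_, (vecMul_inv_vecMul ModularGroup.S a).symm⟩
  have hb : Adm N b := by
    have := ha.vecMul (ModularGroup.S⁻¹)
    rwa [vecMul_vecMul_inv] at this
  rw [← eone_vecMul_S, ← smul_vecMul, ← smul_vecMul, ← add_vecMul, ← wtOne_slash, ← wtOne_slash,
    wtOne_add_smul_eone hN hb]

/-- Periodicity in `a`. -/
theorem wtOne_add_smul {N : ℤ} (hN : N ≠ 0) {a : Fin 2 → ℤ} (ha : Adm N a) (v : Fin 2 → ℤ) :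
    wtOne N (a + N • v) = wtOne N a := by
  have hv : v = v 0 • ezero + v 1 • eone := by
    ext i
    fin_cases i <;> simp [eone, ezero]
  rw [hv, smul_add, ← add_assoc, wtOne_add_smul_eone hN (ha.add_smul _),
    wtOne_add_smul_ezero hN ha]

theorem wtOne_congr {N : ℤ} (hN : N ≠ 0) {a b : Fin 2 → ℤ} (ha : Adm N a)
    (hab : ∀ i, b i ≡ a i [ZMOD N]) : wtOne N b = wtOne N a := by
  have h : ∀ i, ∃ c, b i = a i + N * c := fun i => by
    obtain ⟨c, hc⟩ := (hab i).symm.dvd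
    exact ⟨c, by rw [← hc]; ring⟩
  choose v hv using h
  have : b = a + N • v := by
    ext i
    simp [hv i]
  rw [this, wtOne_add_smul hN ha]

end Fermat.Agent.DS.Eis
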