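import Mathlib
import Fermat.Agent.DS.EisLattice

/-!
# Holomorphy and boundedness at the cusps of the weight one lattice sum
-/

set_option autoImplicit false

open UpperHalfPlane EisensteinSeries Complex Filter Topology Function
open scoped MatrixGroups ModularForm Manifold Matrix Real

namespace Fermat.Agent.DS.Eis

/-- The majorant. -/
noncomputable def maj (x : Fin 2 → ℤ) : ℝ := ‖x‖ ^ (-3 : ℝ) + if x = 0 then 1 else 0

lemma maj_nonneg (x : Fin 2 → ℤ) : 0 ≤ maj x := by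
  rw [maj]; positivity

lemma summable_maj : Summable maj := by
  refine summable_norm_rpow_three.add ?_
  exact (hasSum_ite_eq (0 : Fin 2 → ℤ) (1 : ℝ)).summable

lemma one_le_norm_vec {a : Fin 2 → ℤ} (h : a ≠ 0) : 1 ≤ ‖a‖ := by
  obtain ⟨i, hi⟩ : ∃ i, a i ≠ 0 := by
    by_contra! hcon
    exact h (funext hcon)
  calc (1 : ℝ) ≤ ‖a i‖ := by
        rw [Int.norm_eq_abs]
        exact_mod_cast Int.one_le_abs hi
    _ ≤ ‖a‖ := norm_le_pi_norm _ i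

lemma term_zero (N : ℤ) {a : Fin 2 → ℤ} (ha : a ≠ 0) (τ : ℍ) :
    term N a 0 τ = (3 / 2) / lin a τ := by
  have h := lin_ne_zero ha τ
  have h2 : lin (N • (0 : Fin 2 → ℤ) - 2 • a) (τ : ℂ) = -2 * lin a τ := by
    rw [smul_zero, zero_sub, lin_neg]
    have := lin_smul 2 a (τ : ℂ)
    rw [show ((2 : ℤ) • a) = 2 • a by rw [← natCast_zsmul]; rfl] at this
    rw [this]; push_cast; ring
  have h3 : lin (N • (0 : Fin 2 → ℤ)) (τ : ℂ) = 0 := by simp [lin]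
  rw [term, h2, h3, smul_zero, zero_add, div_zero, sub_zero]
  field_simp
  norm_num

lemma exists_strip_bound {N : ℤ} (hN : N ≠ 0) {a : Fin 2 → ℤ} (ha : Adm N a) (A : ℝ) {B : ℝ}
    (hB : 0 < B) : ∃ C : ℝ, 0 ≤ C ∧ ∀ τ ∈ verticalStrip A B, ∀ x : Fin 2 → ℤ,
      ‖term N a x τ‖ ≤ (C * (1 + ‖lin a τ‖ ^ 2)) * maj x := by
  set r₀ : ℝ := r ⟨⟨A, B⟩, hB⟩ with hr₀
  have hr₀p : 0 < r₀ := r_pos _
  set K : ℝ := (1 + ‖a‖) * (1 + ‖-(2 • a)‖) with hK
  have hKp : 0 ≤ K := by positivity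
  have hC1 : 0 ≤ 6 * r₀ ^ (-3 : ℝ) * K := by positivity
  have hC2 : 0 ≤ (3 / 2) / r₀ := by positivity
  refine ⟨6 * r₀ ^ (-3 : ℝ) * K + (3 / 2) / r₀, by positivity, fun τ hτ x => ?_⟩
  have hr : r₀ ≤ r τ := r_lower_bound_on_verticalStrip τ hB hτ
  have hL : 0 ≤ ‖lin a τ‖ ^ 2 := by positivity
  by_cases hx : x = 0
  · subst hx
    rw [term_zero N ha.ne_zero, norm_div]
    have h1 : r₀ ≤ ‖lin a τ‖ := by
      have h2 := r_mul_max_le τ ha.ne_zero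
      calc r₀ ≤ r τ * 1 := by rw [mul_one]; exact hr
        _ ≤ r τ * ‖a‖ := mul_le_mul_of_nonneg_left (one_le_norm_vec ha.ne_zero) (r_pos τ).le
        _ ≤ _ := h2
    have h3 : maj 0 = 1 := by
      rw [maj, norm_zero, Real.zero_rpow (by norm_num), if_pos rfl, zero_add]
    rw [h3, mul_one]
    have h4 : ‖(3 / 2 : ℂ)‖ = 3 / 2 := by norm_num
    rw [h4]
    calc 3 / 2 / ‖lin a τ‖ ≤ 3 / 2 / r₀ := by gcongr
      _ ≤ 6 * r₀ ^ (-3 : ℝ) * K + 3 / 2 / r₀ := by linarith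
      _ = (6 * r₀ ^ (-3 : ℝ) * K + 3 / 2 / r₀) * 1 := (mul_one _).symm
      _ ≤ _ := by
        refine mul_le_mul_of_nonneg_left ?_ (by positivity)
        linarith
  · have h1 := norm_term_le hN ha τ hx
    refine h1.trans ?_
    have h2 : r τ ^ (-3 : ℝ) ≤ r₀ ^ (-3 : ℝ) :=
      Real.rpow_le_rpow_of_nonpos hr₀p hr (by norm_num)
    have h3 : ‖x‖ ^ (-3 : ℝ) ≤ maj x := by
      rw [maj]
      split_ifs <;> linarith
    calc 6 * ‖lin a τ‖ ^ 2 * r τ ^ (-3 : ℝ) * K * ‖x‖ ^ (-3 : ℝ)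
        ≤ 6 * ‖lin a τ‖ ^ 2 * r₀ ^ (-3 : ℝ) * K * maj x := by
          gcongr
      _ = ((6 * r₀ ^ (-3 : ℝ) * K) * ‖lin a τ‖ ^ 2) * maj x := by ring
      _ ≤ _ := by
        refine mul_le_mul_of_nonneg_right ?_ (maj_nonneg x)
        calc 6 * r₀ ^ (-3 : ℝ) * K * ‖lin a τ‖ ^ 2
            ≤ (6 * r₀ ^ (-3 : ℝ) * K + 3 / 2 / r₀) * ‖lin a τ‖ ^ 2 := by
              refine mul_le_mul_of_nonneg_right ?_ hL
              linarith
          _ ≤ _ := by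
              refine mul_le_mul_of_nonneg_left ?_ (by positivity)
              linarith

lemma differentiable_lin (v : Fin 2 → ℤ) : Differentiable ℂ (lin v) := by
  unfold lin
  fun_prop

lemma term_differentiableAt {N : ℤ} (hN : N ≠ 0) {a : Fin 2 → ℤ} (ha : Adm N a) (x : Fin 2 → ℤ)
    {z : ℂ} (hz : 0 < z.im) : DifferentiableAt ℂ (term N a x) z := by
  have h0 : ∀ v : Fin 2 → ℤ, v ≠ 0 → lin v z ≠ 0 := fun v hv => lin_ne_zero hv ⟨z, hz⟩
  unfold term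
  by_cases hx : x = 0
  · subst hx
    have : ∀ w, lin (N • (0 : Fin 2 → ℤ)) w = 0 := fun w => by simp [lin]
    simp_rw [this, div_zero, sub_zero]
    exact ((differentiableAt_const _).div (differentiable_lin _ z) (h0 _ (ha.1 0))).add
      ((differentiableAt_const _).div (differentiable_lin _ z) (h0 _ (ha.2 0)))
  · exact (((differentiableAt_const _).div (differentiable_lin _ z) (h0 _ (ha.1 x))).add
      ((differentiableAt_const _).div (differentiable_lin _ z) (h0 _ (ha.2 x)))).sub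
      ((differentiableAt_const _).div (differentiable_lin _ z) (h0 _ (smul_ne_zero hN hx)))

theorem differentiableOn_tsum_term {N : ℤ} (hN : N ≠ 0) {a : Fin 2 → ℤ} (ha : Adm N a) :
    DifferentiableOn ℂ (fun z => ∑' x : Fin 2 → ℤ, term N a x z) {z : ℂ | 0 < z.im} := by
  intro z₀ hz₀
  have hz₀' : 0 < z₀.im := hz₀
  have hB : 0 < z₀.im / 2 := by positivity
  obtain ⟨C, hC, hbound⟩ := exists_strip_bound hN ha (|z₀.re| + 1) hB
  let U : Set ℂ := ({z | |z.re| < |z₀.re| + 1} ∩ {z | z₀.im / 2 < z.im}) ∩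
    {z | ‖lin a z‖ < ‖lin a z₀‖ + 1}
  have hU : IsOpen U := by
    refine IsOpen.inter (IsOpen.inter ?_ ?_) ?_
    · exact isOpen_lt (by fun_prop) (by fun_prop)
    · exact isOpen_lt (by fun_prop) (by fun_prop)
    · exact isOpen_lt (differentiable_lin a).continuous.norm continuous_const
  have hmem : z₀ ∈ U := by
    refine ⟨⟨?_, ?_⟩, ?_⟩
    · show |z₀.re| < |z₀.re| + 1
      linarith
    · show z₀.im / 2 < z₀.im
      linarith
    · show ‖lin a z₀‖ < ‖lin a z₀‖ + 1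
      linarith
  have key : DifferentiableOn ℂ (fun z => ∑' x : Fin 2 → ℤ, term N a x z) U := by
    refine differentiableOn_tsum_of_summable_norm
      (u := fun x => (C * (1 + (‖lin a z₀‖ + 1) ^ 2)) * maj x) (summable_maj.mul_left _) ?_ hU ?_
    · intro x z hz
      have : 0 < z.im := lt_trans hB hz.1.2
      exact (term_differentiableAt hN ha x this).differentiableWithinAt
    · intro x z hz
      have hzp : 0 < z.im := lt_trans hB hz.1.2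
      have h1 := hbound ⟨z, hzp⟩ ⟨(le_of_lt hz.1.1 : |z.re| ≤ _), (le_of_lt hz.1.2 : _ ≤ z.im)⟩ x
      refine h1.trans ?_
      refine mul_le_mul_of_nonneg_right ?_ (maj_nonneg x)
      refine mul_le_mul_of_nonneg_left ?_ hC
      have h2 : ‖lin a z‖ ≤ ‖lin a z₀‖ + 1 := le_of_lt hz.2
      have h3 : ‖lin a z‖ ^ 2 ≤ (‖lin a z₀‖ + 1) ^ 2 := by gcongr
      exact add_le_add le_rfl h3
  exact (key.differentiableAt (hU.mem_nhds hmem)).differentiableWithinAt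

/-- Holomorphy. -/
theorem wtOne_mdiff {N : ℤ} (hN : N ≠ 0) {a : Fin 2 → ℤ} (ha : Adm N a) :
    MDiff (wtOne N a) := by
  rw [UpperHalfPlane.mdifferentiable_iff]
  refine (differentiableOn_tsum_term hN ha).congr fun z hz => ?_
  have hz' : 0 < z.im := hz
  rw [comp_apply, ofComplex_apply_of_im_pos hz', wtOne]

/-! ### Boundedness -/

lemma vecMul_T_zpow (a : Fin 2 → ℤ) (n : ℤ) :
    a ᵥ* ((ModularGroup.T ^ n : SL(2, ℤ)) : Matrix (Fin 2) (Fin 2) ℤ) = ![a 0, a 1 + n * a 0] := by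
  rw [ModularGroup.coe_T_zpow]
  ext i
  fin_cases i
  · simp [Matrix.vecMul, dotProduct]
  · simp [Matrix.vecMul, dotProduct]; ring

lemma denom_T_zpow (n : ℤ) (τ : ℍ) : denom ((ModularGroup.T ^ n : SL(2, ℤ))) τ = 1 := by
  rw [ModularGroup.denom_apply, ModularGroup.coe_T_zpow]
  simp

theorem wtOne_T_zpow (N : ℤ) (a : Fin 2 → ℤ) (n : ℤ) (τ : ℍ) :
    wtOne N a ((ModularGroup.T ^ n : SL(2, ℤ)) • τ) = wtOne N ![a 0, a 1 + n * a 0] τ := by
  rw [wtOne_smul, denom_T_zpow, one_mul, vecMul_T_zpow]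

theorem wtOne_T_zpow_mul {N : ℤ} (hN : N ≠ 0) {a : Fin 2 → ℤ} (ha : Adm N a) (n : ℤ) (τ : ℍ) :
    wtOne N a ((ModularGroup.T ^ (N * n) : SL(2, ℤ)) • τ) = wtOne N a τ := by
  rw [wtOne_T_zpow]
  refine congrFun (wtOne_congr hN ha fun i => ?_) τ
  fin_cases i
  · rfl
  · show a 1 + N * n * a 0 ≡ a 1 [ZMOD N]
    rw [mul_assoc]
    exact (Int.modEq_iff_dvd.mpr ⟨-(n * a 0), by ring⟩)

lemma norm_lin_le (a : Fin 2 → ℤ) (τ : ℂ) : ‖lin a τ‖ ≤ ‖a‖ * (‖τ‖ + 1) := by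
  rw [lin]
  refine (norm_add_le _ _).trans ?_
  rw [norm_mul, mul_add, mul_one]
  have h0 : ‖((a 0 : ℤ) : ℂ)‖ ≤ ‖a‖ := by
    rw [Complex.norm_intCast, ← Int.norm_eq_abs]
    exact norm_le_pi_norm a 0
  have h1 : ‖((a 1 : ℤ) : ℂ)‖ ≤ ‖a‖ := by
    rw [Complex.norm_intCast, ← Int.norm_eq_abs]
    exact norm_le_pi_norm a 1
  gcongr

/-- Polynomial growth. -/
theorem exists_growth {N : ℕ} (hN : 0 < N) {a : Fin 2 → ℤ} (ha : Adm N a) :
    ∃ C : ℝ, 0 ≤ C ∧ ∀ τ : ℍ, 1 ≤ τ.im → ‖wtOne N a τ‖ ≤ C * (1 + τ.im) ^ 2 := by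
  have hN' : (N : ℤ) ≠ 0 := by exact_mod_cast hN.ne'
  obtain ⟨C, hC, hbound⟩ := exists_strip_bound hN' ha (N : ℝ) one_pos
  refine ⟨C * (1 + (‖a‖ * (N + 1)) ^ 2) * ∑' x, maj x, ?_, fun τ hτ => ?_⟩
  · have : 0 ≤ ∑' x, maj x := tsum_nonneg maj_nonneg
    positivity
  obtain ⟨n, hn⟩ := ModularGroup_T_zpow_mem_verticalStrip τ hN
  rw [← wtOne_T_zpow_mul hN' ha n τ]
  set σ : ℍ := (ModularGroup.T ^ ((N : ℤ) * n) : SL(2, ℤ)) • τ with hσ
  have hσ1 : σ ∈ verticalStrip (N : ℝ) 1 := ⟨hn.1, hτ.trans hn.2⟩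
  have hσim : σ.im = τ.im := by
    rw [hσ, UpperHalfPlane.modular_T_zpow_smul]
    simp
  have h1 : ‖wtOne N a σ‖ ≤ ∑' x, (C * (1 + ‖lin a σ‖ ^ 2)) * maj x := by
    rw [wtOne]
    exact tsum_of_norm_bounded ((summable_maj.mul_left _).hasSum) fun x => hbound σ hσ1 x
  rw [tsum_mul_left] at h1
  refine h1.trans ?_
  have hS : 0 ≤ ∑' x, maj x := tsum_nonneg maj_nonneg
  have h2 : ‖lin a σ‖ ≤ ‖a‖ * (N + 1) * (1 + τ.im) := by
    refine (norm_lin_le a σ).trans ?_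
    rw [mul_assoc]
    refine mul_le_mul_of_nonneg_left ?_ (norm_nonneg a)
    have h3 : ‖(σ : ℂ)‖ ≤ |σ.re| + |σ.im| := Complex.norm_le_abs_re_add_abs_im _
    have h4 : |σ.re| ≤ N := hn.1
    have h5 : |σ.im| = τ.im := by rw [hσim, abs_of_pos τ.im_pos]
    have h6 : (0 : ℝ) ≤ N := Nat.cast_nonneg N
    nlinarith
  have h3 : 1 + ‖lin a σ‖ ^ 2 ≤ (1 + (‖a‖ * (N + 1)) ^ 2) * (1 + τ.im) ^ 2 := by
    have h4 : ‖lin a σ‖ ^ 2 ≤ (‖a‖ * (N + 1)) ^ 2 * (1 + τ.im) ^ 2 := by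
      rw [← mul_pow]
      gcongr
    have h5 : 1 ≤ (1 + τ.im) ^ 2 := by
      nlinarith [τ.im_pos]
    nlinarith
  calc C * (1 + ‖lin a σ‖ ^ 2) * ∑' x, maj x
      ≤ C * ((1 + (‖a‖ * (N + 1)) ^ 2) * (1 + τ.im) ^ 2) * ∑' x, maj x := by
        gcongr
    _ = _ := by ring

end Fermat.Agent.DS.Eis
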