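import Mathlib
import Fermat.Agent.DS.EisHolo

/-!
# Boundedness at the cusps of the weight one lattice sum
-/

set_option autoImplicit false

open UpperHalfPlane EisensteinSeries Complex Filter Topology Function
open scoped MatrixGroups ModularForm Manifold Matrix Real

namespace Fermat.Agent.DS.Eis

/-- A periodic function on the upper half plane composed with `ofComplex`. -/
theorem periodic_ofComplex {f : ℍ → ℂ} {h : ℝ} (hf : ∀ τ : ℍ, f (h +ᵥ τ) = f τ) :
    Periodic (f ∘ ofComplex) h := by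
  intro w
  by_cases! hw : 0 < im w
  · have : 0 < im (w + h) := by simp [hw]
    simp only [comp_apply, ofComplex_apply_of_im_pos this, ofComplex_apply_of_im_pos hw]
    convert! hf ⟨w, hw⟩ using 2
    ext
    simp [add_comm]
  · have : im (w + h) ≤ 0 := by simpa using hw
    simp [ofComplex_apply_of_im_nonpos this, ofComplex_apply_of_im_nonpos hw]

/-- A holomorphic periodic function of polynomial growth is bounded at infinity. -/
theorem isBounded_of_growth {f : ℍ → ℂ} (hf : MDiff f) {h : ℝ} (hh : 0 < h)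
    (hper : ∀ τ : ℍ, f (h +ᵥ τ) = f τ) {C : ℝ} (hC : 0 ≤ C)
    (hg : ∀ τ : ℍ, 1 ≤ τ.im → ‖f τ‖ ≤ C * (1 + τ.im) ^ 2) : IsBoundedAtImInfty f := by
  let g : ℍ → ℂ := fun τ => Periodic.qParam h τ * f τ
  have hq : ∀ τ : ℍ, Periodic.qParam h ((h +ᵥ τ : ℍ) : ℂ) = Periodic.qParam h τ := by
    intro τ
    have hh' : (h : ℂ) ≠ 0 := by exact_mod_cast hh.ne'
    rw [UpperHalfPlane.coe_vadd, Periodic.qParam, Periodic.qParam, mul_add, add_div,
      mul_div_cancel_right₀ _ hh', Complex.exp_add, Complex.exp_two_pi_mul_I, one_mul]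
  have hgper : Periodic (g ∘ ofComplex) h := by
    apply periodic_ofComplex
    intro τ
    show Periodic.qParam h ((h +ᵥ τ : ℍ) : ℂ) * f (h +ᵥ τ) = _
    rw [hq, hper]
  have hgd : MDiff g := by
    have h1 : MDiff (fun τ : ℍ => Periodic.qParam h (τ : ℂ)) :=
      (Periodic.differentiable_qParam (h := h)).mdifferentiable.comp mdifferentiable_coe
    exact h1.mul hf
  have hlim : Tendsto (fun y : ℝ => Real.exp (-(2 * π / h) * y) * (C * (1 + y) ^ 2)) atTop (𝓝 0) := by
    have hb : 0 < 2 * π / h := by positivity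
    have e0 := Real.tendsto_pow_mul_exp_neg_atTop_nhds_zero
    have h0 : ∀ n : ℕ, Tendsto (fun y : ℝ => y ^ n * Real.exp (-(2 * π / h) * y)) atTop (𝓝 0) := by
      intro n
      have := tendsto_rpow_mul_exp_neg_mul_atTop_nhds_zero n (2 * π / h) hb
      refine this.congr fun y => ?_
      rw [Real.rpow_natCast]
    have h3 := (((h0 0).add ((h0 1).const_mul 2)).add (h0 2)).const_mul C
    simp only [mul_zero, add_zero] at h3
    refine h3.congr fun y => ?_
    ring
  have hgz : IsZeroAtImInfty g := by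
    rw [IsZeroAtImInfty, ZeroAtFilter, tendsto_zero_iff_norm_tendsto_zero]
    have h1 : Tendsto (fun τ : ℍ => Real.exp (-(2 * π / h) * τ.im) * (C * (1 + τ.im) ^ 2))
        atImInfty (𝓝 0) := hlim.comp tendsto_comap
    refine squeeze_zero' (Eventually.of_forall fun _ => norm_nonneg _) ?_ h1
    have h2 : ∀ᶠ τ : ℍ in atImInfty, 1 ≤ τ.im := tendsto_comap.eventually (eventually_ge_atTop 1)
    filter_upwards [h2] with τ hτ
    rw [norm_mul, Periodic.norm_qParam]
    have e1 : -2 * π * (τ : ℂ).im / h = -(2 * π / h) * τ.im := by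
      rw [UpperHalfPlane.coe_im]; ring
    rw [e1]
    exact mul_le_mul_of_nonneg_left (hg τ hτ) (Real.exp_pos _).le
  have hgb : IsBoundedAtImInfty g := hgz.isBoundedAtImInfty
  have hG : DifferentiableAt ℂ (cuspFunction h g) 0 :=
    differentiableAt_cuspFunction hh hgper hgd hgb (by simp)
  have hG0 : cuspFunction h g 0 = 0 := hgz.cuspFunction_apply_zero hh
  have h1 := hG.hasDerivAt.tendsto_slope
  have h2 : Tendsto (fun τ : ℍ => Periodic.qParam h (τ : ℂ)) atImInfty (𝓝[≠] 0) :=
    (Periodic.qParam_tendsto hh).comp tendsto_coe_atImInfty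
  have h3 := h1.comp h2
  have h4 : (slope (cuspFunction h g) 0 ∘ fun τ : ℍ => Periodic.qParam h (τ : ℂ)) = f := by
    funext τ
    rw [comp_apply, slope_def_field, hG0, sub_zero, sub_zero, eq_cuspFunction τ hh.ne' hgper]
    show Periodic.qParam h (τ : ℂ) * f τ / Periodic.qParam h (τ : ℂ) = f τ
    rw [mul_div_cancel_left₀ _ (Periodic.qParam_ne_zero _)]
  rw [h4] at h3
  exact h3.isBigO_one ℝ

theorem wtOne_isBounded {N : ℕ} (hN : 0 < N) {a : Fin 2 → ℤ} (ha : Adm N a) :
    IsBoundedAtImInfty (wtOne N a) := by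
  have hN' : (N : ℤ) ≠ 0 := by exact_mod_cast hN.ne'
  obtain ⟨C, hC, hg⟩ := exists_growth hN ha
  refine isBounded_of_growth (wtOne_mdiff hN' ha) (h := N) (by exact_mod_cast hN) (fun τ => ?_) hC hg
  have h1 := wtOne_T_zpow_mul hN' ha 1 τ
  rw [UpperHalfPlane.modular_T_zpow_smul, mul_one] at h1
  exact_mod_cast h1

end Fermat.Agent.DS.Eis
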