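import Mathlib
import Fermat.Agent.DS.EisBdd

/-!
# Row sums: the `q`-expansion of the weight one lattice sum for `a = (0, r)`
-/

set_option autoImplicit false

open UpperHalfPlane hiding I
open EisensteinSeries Complex Filter Topology Function
open scoped MatrixGroups ModularForm Manifold Matrix Real

namespace Fermat.Agent.DS.Eis

/-! ### Sums over `ℤ` -/

lemma hasSum_int_split {F : ℤ → ℂ} (hF : Summable F) :
    HasSum (fun n : ℕ => F (n + 1) + F (-(n + 1))) ((∑' n, F n) - F 0) := by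
  have h := hF.hasSum.nat_add_neg
  have h2 := (hasSum_nat_add_iff' (f := fun n : ℕ => F n + F (-n)) 1).mpr h
  simp only [Finset.range_one, Finset.sum_singleton, Nat.cast_zero, neg_zero, Nat.cast_add,
    Nat.cast_one] at h2
  convert! h2 using 1
  ring

/-! ### The cotangent function as a symmetric sum -/

/-- Partial fractions of `π cot (π w)`, with value `0` at `0`. -/
noncomputable def cotm (w : ℂ) : ℂ := 1 / w + ∑' n : ℕ, cotTerm w n

/-- Good arguments. -/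
def Good (w : ℂ) : Prop := w ∈ integerComplement ∨ w = 0

lemma cotTerm_zero (n : ℕ) : cotTerm 0 n = 0 := by
  rw [cotTerm, zero_sub, zero_add, one_div, one_div, inv_neg, neg_add_cancel]

lemma cotm_zero : cotm 0 = 0 := by
  simp [cotm, cotTerm_zero]

lemma Good.summable {w : ℂ} (h : Good w) : Summable fun n => cotTerm w n := by
  rcases h with h | h
  · exact summable_cotTerm h
  · subst h
    simp_rw [cotTerm_zero]
    exact summable_zero

lemma cotm_eq {w : ℂ} (h : w ∈ integerComplement) : cotm w = π * cot (π * w) := by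
  rw [cotm, ← cot_series_rep' h]
  ring

lemma cotTerm_neg (w : ℂ) (n : ℕ) : cotTerm (-w) n = -cotTerm w n := by
  rw [cotTerm, cotTerm, show -w - (n + 1) = -(w + (n + 1)) by ring,
    show -w + (n + 1) = -(w - (n + 1)) by ring, div_neg, div_neg]
  ring

lemma cotm_neg (w : ℂ) : cotm (-w) = -cotm w := by
  rw [cotm, cotm]
  simp_rw [cotTerm_neg]
  rw [tsum_neg, div_neg]
  ring

/-- A row sum. -/
lemma row_sum {z u v : ℂ} (h1 : Good (z + u)) (h2 : Good (z + v)) (h3 : Good z)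
    (hs : Summable fun n : ℤ => 2 / (z + n + u) + 1 / (z + n + v) - 3 / (z + n)) :
    ∑' n : ℤ, (2 / (z + n + u) + 1 / (z + n + v) - 3 / (z + n)) =
      2 * cotm (z + u) + cotm (z + v) - 3 * cotm z := by
  have h := hasSum_int_split hs
  have h4 : HasSum (fun n : ℕ => 2 * cotTerm (z + u) n + cotTerm (z + v) n - 3 * cotTerm z n)
      (2 * (∑' n, cotTerm (z + u) n) + (∑' n, cotTerm (z + v) n) - 3 * ∑' n, cotTerm z n) :=
    ((h1.summable.hasSum.mul_left 2).add h2.summable.hasSum).sub (h3.summable.hasSum.mul_left 3)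
  have h5 : (fun n : ℕ => 2 * cotTerm (z + u) n + cotTerm (z + v) n - 3 * cotTerm z n) =
      fun n : ℕ => (2 / (z + ((n + 1 : ℤ) : ℂ) + u) + 1 / (z + ((n + 1 : ℤ) : ℂ) + v) -
        3 / (z + ((n + 1 : ℤ) : ℂ))) +
        (2 / (z + ((-(n + 1) : ℤ) : ℂ) + u) + 1 / (z + ((-(n + 1) : ℤ) : ℂ) + v) -
        3 / (z + ((-(n + 1) : ℤ) : ℂ))) := by
    funext n
    push_cast
    simp only [cotTerm]
    rw [show z + ((n : ℂ) + 1) + u = z + u + (n + 1) by ring,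
      show z + ((n : ℂ) + 1) + v = z + v + (n + 1) by ring,
      show z + -((n : ℂ) + 1) + u = z + u - (n + 1) by ring,
      show z + -((n : ℂ) + 1) + v = z + v - (n + 1) by ring,
      show z + -((n : ℂ) + 1) = z - (n + 1) by ring]
    ring
  rw [h5] at h4
  have h6 := h4.unique h
  rw [Int.cast_zero, add_zero] at h6
  rw [cotm, cotm, cotm]
  linear_combination -h6

/-- `exp (2 π i z)`. -/
noncomputable def ex (z : ℂ) : ℂ := Complex.exp (2 * π * I * z)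

lemma ex_add (z w : ℂ) : ex (z + w) = ex z * ex w := by
  rw [ex, ex, ex, ← Complex.exp_add]; ring_nf

lemma ex_neg (z : ℂ) : ex (-z) = (ex z)⁻¹ := by
  rw [ex, ex, ← Complex.exp_neg]; ring_nf

lemma ex_nat_mul (n : ℕ) (z : ℂ) : ex (n * z) = ex z ^ n := by
  rw [ex, ex, ← Complex.exp_nat_mul]; ring_nf

lemma cotm_upper (z : ℍ) : cotm z = π * I - 2 * π * I * ∑' n : ℕ, ex z ^ n := by
  rw [cotm_eq z.coe_mem_integerComplement, pi_mul_cot_pi_q_exp]
  rfl

lemma norm_ex_lt_one (z : ℍ) : ‖ex z‖ < 1 := UpperHalfPlane.norm_exp_two_pi_I_lt_one z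

lemma hasSum_cotm_sub (z w : ℍ) : HasSum (fun n : ℕ => -(2 * π * I) * (ex z ^ n - ex w ^ n))
    (cotm z - cotm w) := by
  rw [cotm_upper, cotm_upper]
  have h := ((summable_geometric_of_norm_lt_one (norm_ex_lt_one z)).hasSum.sub
    (summable_geometric_of_norm_lt_one (norm_ex_lt_one w)).hasSum).mul_left (-(2 * π * I))
  convert! h using 1
  ring

/-- The coefficient function. -/
noncomputable def sfun (ζ : ℂ) (n : ℕ) : ℂ := 2 * ζ ^ n - 2 * ζ⁻¹ ^ n + (ζ⁻¹ ^ 2) ^ n - (ζ ^ 2) ^ n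

lemma sfun_zero (ζ : ℂ) : sfun ζ 0 = 0 := by simp [sfun]

lemma norm_sfun_le {ζ : ℂ} (h : ‖ζ‖ = 1) (n : ℕ) : ‖sfun ζ n‖ ≤ 6 := by
  rw [sfun]
  have h1 : ‖2 * ζ ^ n‖ = 2 := by simp [h]
  have h2 : ‖2 * ζ⁻¹ ^ n‖ = 2 := by simp [h]
  have h3 : ‖(ζ⁻¹ ^ 2) ^ n‖ = 1 := by simp [h]
  have h4 : ‖(ζ ^ 2) ^ n‖ = 1 := by simp [h]
  calc ‖2 * ζ ^ n - 2 * ζ⁻¹ ^ n + (ζ⁻¹ ^ 2) ^ n - (ζ ^ 2) ^ n‖
      ≤ ‖2 * ζ ^ n - 2 * ζ⁻¹ ^ n + (ζ⁻¹ ^ 2) ^ n‖ + ‖(ζ ^ 2) ^ n‖ := norm_sub_le _ _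
    _ ≤ (‖2 * ζ ^ n - 2 * ζ⁻¹ ^ n‖ + ‖(ζ⁻¹ ^ 2) ^ n‖) + ‖(ζ ^ 2) ^ n‖ := by
        gcongr; exact norm_add_le _ _
    _ ≤ ((‖2 * ζ ^ n‖ + ‖2 * ζ⁻¹ ^ n‖) + ‖(ζ⁻¹ ^ 2) ^ n‖) + ‖(ζ ^ 2) ^ n‖ := by
        gcongr; exact norm_sub_le _ _
    _ = 6 := by rw [h1, h2, h3, h4]; norm_num

/-- The row contribution of `m` and `-m`. -/
lemma hasSum_rows (τ : ℍ) (u : ℝ) (m : ℕ) (hm : 0 < m) :
    HasSum (fun n : ℕ => -(2 * π * I) * (sfun (ex u) n * (ex τ ^ m) ^ n))
      ((2 * cotm (m * τ + u) + cotm (m * τ + (-2 * u)) - 3 * cotm (m * τ)) +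
       (2 * cotm (-m * τ + u) + cotm (-m * τ + (-2 * u)) - 3 * cotm (-m * τ))) := by
  have him : ∀ v : ℝ, 0 < ((m : ℂ) * τ + v).im := by
    intro v
    have : ((m : ℂ) * τ + v).im = m * τ.im := by simp
    rw [this]
    have := τ.im_pos
    positivity
  have h1 := hasSum_cotm_sub ⟨_, him u⟩ ⟨_, him (-u)⟩
  have h2 := hasSum_cotm_sub ⟨_, him (-2 * u)⟩ ⟨_, him (2 * u)⟩
  have h3 := (h1.mul_left 2).add h2
  have e1 : (-m * τ + u : ℂ) = -((m : ℂ) * τ + ((-u : ℝ) : ℂ)) := by push_cast; ring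
  have e2 : (-m * τ + (-2 * u) : ℂ) = -((m : ℂ) * τ + ((2 * u : ℝ) : ℂ)) := by push_cast; ring
  have e3 : (-m * τ : ℂ) = -((m : ℂ) * τ) := by ring
  rw [e1, e2, e3, cotm_neg, cotm_neg, cotm_neg]
  have e4 : ((m : ℂ) * τ + (-2 * u) : ℂ) = ((m : ℂ) * τ + ((-2 * u : ℝ) : ℂ)) := by push_cast; ring
  rw [e4]
  convert! h3 using 1
  · funext n
    simp only [UpperHalfPlane.coe_mk]
    rw [ex_add, ex_add, ex_add, ex_add]
    have f1 : ex ((-u : ℝ) : ℂ) = (ex u)⁻¹ := by push_cast; rw [ex_neg]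
    have f2 : ex ((-2 * u : ℝ) : ℂ) = (ex u)⁻¹ ^ 2 := by
      rw [inv_pow, ← ex_nat_mul, ← ex_neg]; push_cast; ring_nf
    have f3 : ex ((2 * u : ℝ) : ℂ) = (ex u) ^ 2 := by
      rw [← ex_nat_mul]; push_cast; ring_nf
    rw [f1, f2, f3, ex_nat_mul, sfun]
    simp only [mul_pow]
    ring
  · simp only [UpperHalfPlane.coe_mk]
    ring

/-- The lattice sum as a double series. -/
theorem wtOne_row (N r : ℤ) (hN : N ≠ 0) (ha : Adm N ![0, r]) (τ : ℍ) :
    HasSum (fun m : ℕ => ∑' n : ℕ, -(2 * π * I) *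
        (sfun (ex ((r / N : ℝ) : ℂ)) n * (ex τ ^ (m + 1)) ^ n))
      (N * wtOne N ![0, r] τ - (2 * cotm ((r / N : ℝ) : ℂ) - cotm ((2 * (r / N) : ℝ) : ℂ))) := by
  set u : ℝ := r / N with hu
  have hNr : (N : ℝ) ≠ 0 := by exact_mod_cast hN
  have hNc : (N : ℂ) ≠ 0 := by exact_mod_cast hN
  have huc : (u : ℂ) = r / N := by rw [hu]; push_cast; rfl
  have hterm : ∀ m n : ℤ, (N : ℂ) * term N ![0, r] ![m, n] τ =
      2 / ((m : ℂ) * τ + n + u) + 1 / ((m : ℂ) * τ + n + (-2 * u)) - 3 / ((m : ℂ) * τ + n) := by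
    intro m n
    simp only [term, lin, two_nsmul, Pi.add_apply, Pi.smul_apply, Pi.sub_apply, smul_eq_mul,
      Matrix.cons_val_zero, Matrix.cons_val_one, Int.cast_add, Int.cast_mul, Int.cast_sub,
      add_zero, sub_zero]
    rw [show ((N : ℂ) * m * τ + (N * n + r)) = N * ((m : ℂ) * τ + n + u) by
      rw [huc]; field_simp; ring,
      show ((N : ℂ) * m * τ + (N * n - (r + r))) = N * ((m : ℂ) * τ + n + (-2 * u)) by
      rw [huc]; field_simp; ring,
      show ((N : ℂ) * m * τ + N * n) = N * ((m : ℂ) * τ + n) by ring]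
    rw [mul_sub, mul_add, ← mul_div_assoc, ← mul_div_assoc, ← mul_div_assoc]
    rw [mul_div_mul_left _ _ hNc, mul_div_mul_left _ _ hNc, mul_div_mul_left _ _ hNc]
  have hs := (summable_term hN ha τ).mul_left (N : ℂ)
  have hs2 := ((finTwoArrowEquiv ℤ).symm.summable_iff).mpr hs
  have hs3 : Summable fun p : ℤ × ℤ => 2 / ((p.1 : ℂ) * τ + p.2 + u) +
      1 / ((p.1 : ℂ) * τ + p.2 + (-2 * u)) - 3 / ((p.1 : ℂ) * τ + p.2) :=
    hs2.congr fun p => hterm p.1 p.2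
  have hgoodz : ∀ (m : ℤ) (v : ℝ), m ≠ 0 → Good ((m : ℂ) * τ + v) := by
    intro m v hm
    left
    rintro ⟨k, hk⟩
    have := congrArg Complex.im hk
    simp at this
    rcases this with h | h
    · exact hm h
    · exact τ.im_ne_zero h
  have hgood0 : Good (u : ℂ) := by
    left
    rintro ⟨k, hk⟩
    apply ha.1 ![0, -k]
    rw [huc] at hk
    have h2 : (k : ℂ) * N = r := by rw [hk]; field_simp
    have h3 : k * N = r := by exact_mod_cast h2
    ext i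
    fin_cases i
    · simp
    · simp [← h3]; ring
  have hgood1 : Good (-2 * u : ℂ) := by
    left
    rintro ⟨k, hk⟩
    apply ha.2 ![0, -k]
    rw [huc] at hk
    have h2 : (k : ℂ) * N = -2 * r := by rw [hk]; field_simp
    have h3 : k * N = -2 * r := by exact_mod_cast h2
    ext i
    fin_cases i
    · simp
    · have : N * -k - 2 * r = 0 := by linarith
      simpa [two_nsmul, two_mul] using this
  have hrow : ∀ m : ℤ, ∑' n : ℤ, (2 / ((m : ℂ) * τ + n + u) + 1 / ((m : ℂ) * τ + n + (-2 * u)) -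
      3 / ((m : ℂ) * τ + n)) =
      2 * cotm ((m : ℂ) * τ + u) + cotm ((m : ℂ) * τ + (-2 * u)) - 3 * cotm ((m : ℂ) * τ) := by
    intro m
    refine row_sum ?_ ?_ ?_ (hs3.prod_factor m)
    · by_cases hm : m = 0
      · subst hm; simpa using hgood0
      · exact hgoodz m u hm
    · by_cases hm : m = 0
      · subst hm; simpa using hgood1
      · have := hgoodz m (-2 * u) hm
        push_cast at this
        exact this
    · by_cases hm : m = 0
      · subst hm; right; simp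
      · simpa using hgoodz m 0 hm
  have htot : (N : ℂ) * wtOne N ![0, r] τ = ∑' m : ℤ,
      (2 * cotm ((m : ℂ) * τ + u) + cotm ((m : ℂ) * τ + (-2 * u)) - 3 * cotm ((m : ℂ) * τ)) := by
    rw [wtOne, ← tsum_mul_left, ← (finTwoArrowEquiv ℤ).symm.tsum_eq]
    have h4 : ∀ p : ℤ × ℤ, (N : ℂ) * term N ![0, r] ((finTwoArrowEquiv ℤ).symm p) τ =
      2 / ((p.1 : ℂ) * τ + p.2 + u) + 1 / ((p.1 : ℂ) * τ + p.2 + (-2 * u)) -
        3 / ((p.1 : ℂ) * τ + p.2) := fun p => hterm p.1 p.2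
    simp_rw [h4]
    rw [hs3.tsum_prod]
    simp_rw [hrow]
  have hsr : Summable fun m : ℤ =>
      (2 * cotm ((m : ℂ) * τ + u) + cotm ((m : ℂ) * τ + (-2 * u)) - 3 * cotm ((m : ℂ) * τ)) := by
    have := hs3.prod
    simp_rw [hrow] at this
    exact this
  have hfin := hasSum_int_split hsr
  rw [← htot] at hfin
  have e0 : (2 * cotm (((0 : ℤ) : ℂ) * τ + u) + cotm (((0 : ℤ) : ℂ) * τ + (-2 * u)) -
      3 * cotm (((0 : ℤ) : ℂ) * τ)) = 2 * cotm (u : ℂ) - cotm ((2 * u : ℝ) : ℂ) := by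
    rw [Int.cast_zero, zero_mul, zero_add, zero_add, cotm_zero,
      show (-2 * u : ℂ) = -((2 * u : ℝ) : ℂ) by push_cast; ring, cotm_neg]
    ring
  rw [e0] at hfin
  convert! hfin using 1
  funext m
  have h5 := hasSum_rows τ u (m + 1) (Nat.succ_pos m)
  rw [h5.tsum_eq]
  push_cast
  rfl

end Fermat.Agent.DS.Eis
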