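import Mathlib
import Fermat.Agent.DS.EisRow

/-!
# The `q`-expansion of the weight one Eisenstein series attached to an odd character mod `ℓ`
-/

set_option autoImplicit false

open UpperHalfPlane hiding I
open EisensteinSeries Complex Filter Topology Function
open scoped MatrixGroups ModularForm Manifold Matrix Real

namespace Fermat.Agent.DS.Eis

local notation "𝕖" => ZMod.stdAddChar

/-! ### Divisor sums -/

lemma hasSum_divisor {s : ℕ → ℂ} {C : ℝ} (hC : ∀ n, ‖s n‖ ≤ C) (h0 : s 0 = 0) {q : ℂ}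
    (hq : ‖q‖ < 1) :
    HasSum (fun k : ℕ => (∑ d ∈ k.divisors, s d) * q ^ k)
      (∑' m : ℕ, ∑' n : ℕ, s n * (q ^ (m + 1)) ^ n) := by
  let F : ℕ+ × ℕ+ → ℂ := fun c => s c.2 * q ^ (c.1 * c.2 : ℕ)
  have hF : Summable F := by
    have h1 := summable_prod_mul_pow 0 (r := ‖q‖) (by rwa [norm_norm])
    refine Summable.of_norm_bounded (h1.mul_left C) fun c => ?_
    simp only [F, norm_mul, norm_pow, pow_zero, one_mul]
    exact mul_le_mul_of_nonneg_right (hC _) (by positivity)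
  have h1 : HasSum F (∑' m : ℕ, ∑' n : ℕ, s n * (q ^ (m + 1)) ^ n) := by
    have e1 : ∑' c, F c = ∑' a : ℕ+, ∑' b : ℕ+, F (a, b) := hF.tsum_prod
    have e2 : ∀ a : ℕ+, ∑' b : ℕ+, F (a, b) = ∑' n : ℕ, s n * (q ^ (a : ℕ)) ^ n := by
      intro a
      have := tsum_pnat_eq_tsum_of_eq_zero (f := fun n : ℕ => s n * (q ^ (a : ℕ)) ^ n)
        (by simp [h0])
      rw [← this]
      refine tsum_congr fun b => ?_
      simp only [F, pow_mul]
    simp_rw [e2] at e1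
    have e3 := tsum_pnat_eq_tsum_succ (f := fun m : ℕ => ∑' n : ℕ, s n * (q ^ m) ^ n)
    rw [← e3, ← e1]
    exact hF.hasSum
  have h2 := (sigmaAntidiagonalEquivProd.hasSum_iff).mpr h1
  have h3 := h2.sigma fun k => hasSum_fintype _
  have h4 : ∀ k : ℕ+, ∑ x : Nat.divisorsAntidiagonal k,
      (F ∘ sigmaAntidiagonalEquivProd) ⟨k, x⟩ = (∑ d ∈ (k : ℕ).divisors, s d) * q ^ (k : ℕ) := by
    intro k
    have e1 : ∀ x : Nat.divisorsAntidiagonal k, (F ∘ sigmaAntidiagonalEquivProd) ⟨k, x⟩ =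
        s x.1.2 * q ^ (k : ℕ) := by
      intro x
      have hx := (Nat.mem_divisorsAntidiagonal.mp x.2).1
      simp only [comp_apply, F, sigmaAntidiagonalEquivProd, divisorsAntidiagonalFactors,
        Equiv.coe_fn_mk, PNat.mk_coe]
      rw [hx]
    simp_rw [e1]
    rw [← Finset.sum_mul]
    congr 1
    rw [Finset.sum_coe_sort (Nat.divisorsAntidiagonal k) (fun x => s x.2)]
    rw [Nat.sum_divisorsAntidiagonal' (fun a b => s b)]
  have h5 : HasSum (fun k : ℕ+ => (∑ d ∈ (k : ℕ).divisors, s d) * q ^ (k : ℕ))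
      (∑' m : ℕ, ∑' n : ℕ, s n * (q ^ (m + 1)) ^ n) := by
    convert h3 using 2
    exact (h4 _).symm
  have h6 := (hasSum_pnat_iff (f := fun k : ℕ => (∑ d ∈ k.divisors, s d) * q ^ k)).mp h5
  simpa using h6

/-! ### Character sums -/

variable {ℓ : ℕ} [Fact ℓ.Prime]

lemma ex_val (r : ZMod ℓ) : ex ((r.val / ((ℓ : ℤ) : ℝ) : ℝ) : ℂ) = 𝕖 r := by
  have h := ZMod.stdAddChar_coe (N := ℓ) (r.val : ℤ)
  have h2 : (((r.val : ℕ) : ℤ) : ZMod ℓ) = r := by simp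
  rw [h2] at h
  rw [h, ex]
  push_cast
  ring_nf

lemma gauss_twist {χ : DirichletCharacter ℂ ℓ} (hχ : χ ≠ 1) (a : ZMod ℓ) :
    ∑ r, χ⁻¹ r * 𝕖 (a * r) = χ a * gaussSum χ⁻¹ 𝕖 := by
  by_cases ha : a = 0
  · subst ha
    simp only [zero_mul, AddChar.map_zero_eq_one, mul_one]
    rw [MulChar.sum_eq_zero_of_ne_one (inv_ne_one.mpr hχ), MulChar.map_zero, zero_mul]
  · have h := gaussSum_mulShift_eq χ⁻¹ (ZMod.stdAddChar (N := ℓ)) (Units.mk0 a ha)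
    rw [inv_inv] at h
    simpa only [gaussSum, AddChar.mulShift_apply, Units.val_mk0] using h

lemma stdAddChar_nsmul (n : ℕ) (r : ZMod ℓ) : (𝕖 r : ℂ) ^ n = 𝕖 ((n : ZMod ℓ) * r) := by
  rw [← AddChar.map_nsmul_eq_pow, nsmul_eq_mul]

lemma sfun_eq (r : ZMod ℓ) (n : ℕ) : sfun (𝕖 r) n = 2 * 𝕖 ((n : ZMod ℓ) * r) -
    2 * 𝕖 (-(n : ZMod ℓ) * r) + 𝕖 (-(2 * n : ZMod ℓ) * r) - 𝕖 ((2 * n : ZMod ℓ) * r) := by
  have e1 : (𝕖 (-r) : ℂ) ^ n = 𝕖 (-(n : ZMod ℓ) * r) := by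
    rw [stdAddChar_nsmul]
    congr 1
    ring
  have e2 : ((𝕖 (-r) : ℂ) ^ 2) ^ n = 𝕖 (-(2 * n : ZMod ℓ) * r) := by
    rw [stdAddChar_nsmul, stdAddChar_nsmul]
    congr 1
    push_cast
    ring
  have e3 : ((𝕖 r : ℂ) ^ 2) ^ n = 𝕖 ((2 * n : ZMod ℓ) * r) := by
    rw [stdAddChar_nsmul, stdAddChar_nsmul]
    congr 1
    push_cast
    ring
  rw [sfun, ← AddChar.map_neg_eq_inv, e1, e2, e3, stdAddChar_nsmul]

theorem ne_one_of_odd {χ : DirichletCharacter ℂ ℓ} (hχ : χ.Odd) : χ ≠ 1 := by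
  rintro rfl
  have h : (1 : DirichletCharacter ℂ ℓ) (-1) = -1 := hχ
  rw [MulChar.one_apply (isUnit_one.neg)] at h
  norm_num at h

lemma sum_sfun {χ : DirichletCharacter ℂ ℓ} (hχ : χ.Odd) (n : ℕ) :
    ∑ r, χ⁻¹ r * sfun (𝕖 r) n = 2 * (2 - χ 2) * gaussSum χ⁻¹ 𝕖 * χ n := by
  have h1 := ne_one_of_odd hχ
  simp_rw [sfun_eq, mul_sub, mul_add, mul_sub]
  rw [Finset.sum_sub_distrib, Finset.sum_add_distrib, Finset.sum_sub_distrib]
  simp_rw [mul_left_comm _ (2 : ℂ), ← Finset.mul_sum, gauss_twist h1]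
  have hneg : ∀ x : ZMod ℓ, χ (-x) = -χ x := fun x => by
    have h : χ (-1) = -1 := hχ
    rw [← neg_one_mul, map_mul, h, neg_one_mul]
  rw [hneg, hneg, map_mul]
  ring

/-- The unnormalised Eisenstein series. -/
noncomputable def eisRaw (χ : DirichletCharacter ℂ ℓ) (τ : ℍ) : ℂ :=
  ∑ r : ZMod ℓ, χ⁻¹ r * (ℓ * wtOne ℓ ![0, (r.val : ℤ)] τ)

/-- Its constant term. -/
noncomputable def eisConst (χ : DirichletCharacter ℂ ℓ) : ℂ :=
  ∑ r : ZMod ℓ, χ⁻¹ r * (2 * cotm ((r.val / ((ℓ : ℤ) : ℝ) : ℝ) : ℂ) -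
    cotm ((2 * (r.val / ((ℓ : ℤ) : ℝ)) : ℝ) : ℂ))

lemma adm_val (hℓ : ℓ ≠ 2) {r : ZMod ℓ} (hr : r ≠ 0) : Adm ℓ ![0, (r.val : ℤ)] := by
  have hp : ℓ.Prime := Fact.out
  have hnd : ¬ ((ℓ : ℤ) ∣ (r.val : ℤ)) := by
    intro h
    apply hr
    have h2 : ((r.val : ℤ) : ZMod ℓ) = 0 := (ZMod.intCast_zmod_eq_zero_iff_dvd _ _).mpr h
    simpa using h2
  have hnd2 : ¬ ((ℓ : ℤ) ∣ 2 * (r.val : ℤ)) := by
    intro h
    rcases (Nat.prime_iff_prime_int.mp hp).dvd_or_dvd h with h | h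
    · apply hℓ
      have : ℓ ∣ 2 := by exact_mod_cast h
      exact (Nat.prime_dvd_prime_iff_eq hp Nat.prime_two).mp this
    · exact hnd h
  constructor
  · intro x hx
    apply hnd
    have := congrFun hx 1
    simp only [Pi.add_apply, Pi.smul_apply, smul_eq_mul, Matrix.cons_val_one, Pi.zero_apply] at this
    exact ⟨-x 1, by simp only [Matrix.cons_val_fin_one] at this; linarith⟩
  · intro x hx
    apply hnd2
    have := congrFun hx 1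
    simp only [two_nsmul, Pi.sub_apply, Pi.add_apply, Pi.smul_apply, smul_eq_mul,
      Matrix.cons_val_one, Pi.zero_apply] at this
    exact ⟨x 1, by simp only [Matrix.cons_val_fin_one] at this; linarith⟩

lemma summable_inner {s : ℕ → ℂ} {C : ℝ} (hC : ∀ n, ‖s n‖ ≤ C) {q : ℂ} (hq : ‖q‖ < 1) (m : ℕ) :
    Summable fun n : ℕ => s n * (q ^ (m + 1)) ^ n := by
  have hq' : ‖q ^ (m + 1)‖ < 1 := by
    rw [norm_pow]
    exact pow_lt_one₀ (norm_nonneg _) hq (Nat.succ_ne_zero m)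
  have h1 : Summable fun n : ℕ => ‖q ^ (m + 1)‖ ^ n := summable_geometric_of_lt_one (norm_nonneg _) hq'
  refine Summable.of_norm_bounded (h1.mul_left C) fun n => ?_
  rw [norm_mul, norm_pow]
  exact mul_le_mul_of_nonneg_right (hC n) (by positivity)

lemma norm_stdAddChar (r : ZMod ℓ) : ‖(𝕖 r : ℂ)‖ = 1 := by
  rw [ZMod.stdAddChar_apply]
  exact Circle.norm_coe _

theorem eisRaw_hasSum (hℓ : ℓ ≠ 2) {χ : DirichletCharacter ℂ ℓ} (hχ : χ.Odd) (τ : ℍ) :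
    HasSum (fun m : ℕ => ∑' n : ℕ, -(2 * π * I) * (2 * (2 - χ 2) * gaussSum χ⁻¹ 𝕖) *
      (χ n * (ex τ ^ (m + 1)) ^ n)) (eisRaw χ τ - eisConst χ) := by
  have hℓ0 : (ℓ : ℤ) ≠ 0 := by exact_mod_cast (Fact.out : ℓ.Prime).ne_zero
  have hq := norm_ex_lt_one τ
  have h1 : ∀ r : ZMod ℓ, HasSum (fun m : ℕ => χ⁻¹ r * ∑' n : ℕ, -(2 * π * I) *
        (sfun (𝕖 r) n * (ex τ ^ (m + 1)) ^ n))
      (χ⁻¹ r * (ℓ * wtOne ℓ ![0, (r.val : ℤ)] τ) - χ⁻¹ r *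
        (2 * cotm ((r.val / ((ℓ : ℤ) : ℝ) : ℝ) : ℂ) -
          cotm ((2 * (r.val / ((ℓ : ℤ) : ℝ)) : ℝ) : ℂ))) := by
    intro r
    by_cases hr : r = 0
    · subst hr
      rw [MulChar.map_zero]
      simp only [zero_mul, sub_zero]
      exact hasSum_zero
    · have h := (wtOne_row ℓ (r.val : ℤ) hℓ0 (adm_val hℓ hr) τ).mul_left (χ⁻¹ r)
      have h2 : ((((r.val : ℕ) : ℤ) : ℝ)) = (r.val : ℝ) := by push_cast; rfl
      rw [h2, ex_val, mul_sub] at h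
      exact_mod_cast h
  have h2 := hasSum_sum (s := Finset.univ) fun r _ => h1 r
  rw [Finset.sum_sub_distrib] at h2
  have h3 : (fun m : ℕ => ∑' n : ℕ, -(2 * π * I) * (2 * (2 - χ 2) * gaussSum χ⁻¹ 𝕖) *
      (χ n * (ex τ ^ (m + 1)) ^ n)) = fun m : ℕ => ∑ r : ZMod ℓ, χ⁻¹ r * ∑' n : ℕ, -(2 * π * I) *
        (sfun (𝕖 r) n * (ex τ ^ (m + 1)) ^ n) := by
    funext m
    have e1 : ∀ r : ZMod ℓ, Summable fun n : ℕ => χ⁻¹ r * (-(2 * π * I) *
        (sfun (𝕖 r) n * (ex τ ^ (m + 1)) ^ n)) := fun r =>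
      ((summable_inner (norm_sfun_le (norm_stdAddChar r)) hq m).mul_left _).mul_left _
    simp_rw [← tsum_mul_left]
    rw [← Summable.tsum_finsetSum fun r _ => e1 r]
    refine tsum_congr fun n => ?_
    have e2 := sum_sfun hχ n
    calc -(2 * π * I) * (2 * (2 - χ 2) * gaussSum χ⁻¹ 𝕖) * (χ n * (ex τ ^ (m + 1)) ^ n)
        = (2 * (2 - χ 2) * gaussSum χ⁻¹ 𝕖 * χ n) * (-(2 * π * I) * (ex τ ^ (m + 1)) ^ n) := by
          ring
      _ = _ := by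
          rw [← e2, Finset.sum_mul]
          refine Finset.sum_congr rfl fun r _ => ?_
          ring
  rw [h3]
  exact h2

/-! ### The constant term -/

lemma arith_geom {x : ℂ} (n : ℕ) : (x - 1) * ∑ a ∈ Finset.range n, (a : ℂ) * x ^ a =
    n * x ^ n - ∑ a ∈ Finset.range n, x ^ (a + 1) := by
  induction n with
  | zero => simp
  | succ n ih =>
    rw [Finset.sum_range_succ, Finset.sum_range_succ, mul_add, ih]
    push_cast
    ring

lemma sum_val_stdAddChar {r : ZMod ℓ} (hr : r ≠ 0) :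
    ∑ a : ZMod ℓ, (a.val : ℂ) * 𝕖 (a * r) = ℓ / (𝕖 r - 1) := by
  have hprim := ZMod.isPrimitive_stdAddChar ℓ
  have h1 : (𝕖 r : ℂ) ≠ 1 := by
    intro h
    apply hprim hr
    ext x
    rw [AddChar.mulShift_apply, AddChar.one_apply]
    have : (r * x) = (x.val : ZMod ℓ) * r := by
      rw [ZMod.natCast_zmod_val]; ring
    rw [this, ← stdAddChar_nsmul, h, one_pow]
  have h1' : (𝕖 r - 1 : ℂ) ≠ 0 := sub_ne_zero.mpr h1
  have hpow : (𝕖 r : ℂ) ^ ℓ = 1 := by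
    rw [stdAddChar_nsmul, CharP.cast_eq_zero, zero_mul, AddChar.map_zero_eq_one]
  rw [eq_div_iff h1', mul_comm]
  have h2 : ∑ a : ZMod ℓ, (a.val : ℂ) * 𝕖 (a * r) =
      ∑ a ∈ Finset.range ℓ, (a : ℂ) * (𝕖 r : ℂ) ^ a := by
    have e1 : ∀ a : ZMod ℓ, (a.val : ℂ) * 𝕖 (a * r) = (fun k : ℕ => (k : ℂ) * (𝕖 r : ℂ) ^ k) a.val := by
      intro a
      simp only [stdAddChar_nsmul, ZMod.natCast_zmod_val]
    simp_rw [e1]
    refine Finset.sum_nbij (fun a : ZMod ℓ => a.val) ?_ ?_ ?_ ?_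
    · intro a _
      exact Finset.mem_range.mpr (ZMod.val_lt a)
    · intro a _ b _ h
      exact ZMod.val_injective ℓ h
    · intro k hk
      refine ⟨(k : ZMod ℓ), Finset.mem_coe.mpr (Finset.mem_univ _), ?_⟩
      exact ZMod.val_cast_of_lt (Finset.mem_range.mp hk)
    · intro a _
      rfl
  rw [h2, arith_geom, hpow, mul_one]
  have h3 : ∑ a ∈ Finset.range ℓ, (𝕖 r : ℂ) ^ (a + 1) = 0 := by
    simp_rw [pow_succ]
    rw [← Finset.sum_mul, geom_sum_eq h1, hpow, sub_self, zero_div, zero_mul]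
  rw [h3, sub_zero]

lemma cotm_eq_ex {w : ℂ} (h : w ∈ integerComplement) :
    cotm w = π * I * (1 + 2 / (ex w - 1)) := by
  have h1 : ex w ≠ 1 := by
    intro h2
    rw [ex, Complex.exp_eq_one_iff] at h2
    obtain ⟨n, hn⟩ := h2
    apply h
    refine ⟨n, ?_⟩
    have h3 : (2 * π * I : ℂ) ≠ 0 := Complex.two_pi_I_ne_zero
    have h4 : (2 * π * I : ℂ) * w = (2 * π * I) * n := by rw [hn]; ring
    exact (mul_left_cancel₀ h3 h4).symm
  have h1' : ex w - 1 ≠ 0 := sub_ne_zero.mpr h1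
  have h1'' : 1 - ex w ≠ 0 := sub_ne_zero.mpr h1.symm
  rw [cotm_eq h, cot_pi_eq_exp_ratio]
  rw [show cexp (2 * π * I * w) = ex w from rfl]
  have hI : I * I = -1 := I_mul_I
  field_simp
  rw [I_sq]
  ring

/-- The generalised Bernoulli number (up to a factor). -/
noncomputable def bern (χ : DirichletCharacter ℂ ℓ) : ℂ := ∑ a : ZMod ℓ, (a.val : ℂ) * χ a

lemma sum_inv_aux {χ : DirichletCharacter ℂ ℓ} (hχ : χ ≠ 1) (c : ZMod ℓ) :
    ∑ r : ZMod ℓ, χ⁻¹ r * ∑ a : ZMod ℓ, (a.val : ℂ) * 𝕖 (a * (c * r)) =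
      χ c * (gaussSum χ⁻¹ 𝕖 * bern χ) := by
  simp_rw [Finset.mul_sum]
  rw [Finset.sum_comm]
  rw [bern, Finset.mul_sum, Finset.mul_sum]
  refine Finset.sum_congr rfl fun a _ => ?_
  have h := gauss_twist hχ (a * c)
  calc ∑ r : ZMod ℓ, χ⁻¹ r * ((a.val : ℂ) * 𝕖 (a * (c * r)))
      = (a.val : ℂ) * ∑ r : ZMod ℓ, χ⁻¹ r * 𝕖 (a * c * r) := by
        rw [Finset.mul_sum]
        refine Finset.sum_congr rfl fun r _ => ?_
        rw [mul_assoc a c r]; ring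
    _ = _ := by rw [h, map_mul]; ring

theorem eisConst_eq (hℓ : ℓ ≠ 2) {χ : DirichletCharacter ℂ ℓ} (hχ : χ.Odd) :
    eisConst χ = 2 * π * I * (2 - χ 2) * (gaussSum χ⁻¹ 𝕖 / ℓ) * bern χ := by
  have hne := ne_one_of_odd hχ
  have hp : ℓ.Prime := Fact.out
  have hℓ0 : (ℓ : ℂ) ≠ 0 := by exact_mod_cast hp.ne_zero
  have h2 : (2 : ZMod ℓ) ≠ 0 := by
    intro h
    apply hℓ
    have h3 : ((2 : ℕ) : ZMod ℓ) = 0 := by exact_mod_cast h
    rw [ZMod.natCast_eq_zero_iff] at h3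
    exact (Nat.prime_dvd_prime_iff_eq hp Nat.prime_two).mp h3
  have key : ∀ r : ZMod ℓ, χ⁻¹ r * (2 * cotm ((r.val / ((ℓ : ℤ) : ℝ) : ℝ) : ℂ) -
      cotm ((2 * (r.val / ((ℓ : ℤ) : ℝ)) : ℝ) : ℂ)) =
      π * I * χ⁻¹ r + (4 * π * I / ℓ) * (χ⁻¹ r * ∑ a : ZMod ℓ, (a.val : ℂ) * 𝕖 (a * (1 * r))) -
      (2 * π * I / ℓ) * (χ⁻¹ r * ∑ a : ZMod ℓ, (a.val : ℂ) * 𝕖 (a * (2 * r))) := by
    intro r
    by_cases hr : r = 0
    · subst hr
      rw [MulChar.map_zero]; ring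
    have hadm := adm_val hℓ hr
    have g1 : ((r.val / ((ℓ : ℤ) : ℝ) : ℝ) : ℂ) ∈ integerComplement := by
      rintro ⟨k, hk⟩
      apply hadm.1 ![0, -k]
      have h3 : (k : ℂ) * ℓ = r.val := by
        push_cast at hk
        rw [hk]; field_simp
      have h4 : k * ℓ = (r.val : ℤ) := by exact_mod_cast h3
      ext i
      fin_cases i
      · simp
      · simp only [Fin.mk_one, Pi.add_apply, Pi.smul_apply, smul_eq_mul, Matrix.cons_val_one,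
          Matrix.cons_val_fin_one, Pi.zero_apply]
        linarith
    have g2 : ((2 * (r.val / ((ℓ : ℤ) : ℝ)) : ℝ) : ℂ) ∈ integerComplement := by
      rintro ⟨k, hk⟩
      apply hadm.2 ![0, k]
      have h3 : (k : ℂ) * ℓ = 2 * r.val := by
        push_cast at hk
        rw [hk]; field_simp
      have h4 : k * ℓ = 2 * (r.val : ℤ) := by exact_mod_cast h3
      ext i
      fin_cases i
      · simp
      · simp only [Fin.mk_one, two_nsmul, Pi.sub_apply, Pi.add_apply, Pi.smul_apply, smul_eq_mul,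
          Matrix.cons_val_one, Matrix.cons_val_fin_one, Pi.zero_apply]
        linarith
    have e2 : ex ((2 * (r.val / ((ℓ : ℤ) : ℝ)) : ℝ) : ℂ) = 𝕖 (2 * r) := by
      have h5 : ((2 * (r.val / ((ℓ : ℤ) : ℝ)) : ℝ) : ℂ) =
          ((2 : ℕ) : ℂ) * ((r.val / ((ℓ : ℤ) : ℝ) : ℝ) : ℂ) := by push_cast; ring
      rw [h5, ex_nat_mul, ex_val, stdAddChar_nsmul]
      norm_num
    rw [cotm_eq_ex g1, cotm_eq_ex g2, ex_val, e2, one_mul,
      sum_val_stdAddChar hr, sum_val_stdAddChar (mul_ne_zero h2 hr)]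
    field_simp
    ring
  rw [eisConst]
  simp_rw [key]
  rw [Finset.sum_sub_distrib, Finset.sum_add_distrib, ← Finset.mul_sum, ← Finset.mul_sum,
    ← Finset.mul_sum, sum_inv_aux hne, sum_inv_aux hne, MulChar.sum_eq_zero_of_ne_one
      (inv_ne_one.mpr hne), map_one]
  field_simp
  ring

lemma norm_char_le (χ : DirichletCharacter ℂ ℓ) (n : ℕ) : ‖χ n‖ ≤ 1 := DirichletCharacter.norm_le_one χ _

/-- The `q`-expansion. -/
theorem eisRaw_qexp (hℓ : ℓ ≠ 2) {χ : DirichletCharacter ℂ ℓ} (hχ : χ.Odd) (τ : ℍ) :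
    HasSum (fun k : ℕ => (if k = 0 then bern χ else -(2 * ℓ) * ∑ d ∈ k.divisors, χ d) * ex τ ^ k)
      (eisRaw χ τ / (2 * π * I * (2 - χ 2) * (gaussSum χ⁻¹ 𝕖 / ℓ))) := by
  have hp : ℓ.Prime := Fact.out
  have hℓ0 : (ℓ : ℂ) ≠ 0 := by exact_mod_cast hp.ne_zero
  have hg : gaussSum χ⁻¹ (ZMod.stdAddChar (N := ℓ)) ≠ 0 := by
    apply gaussSum_ne_zero_of_nontrivial
    · rw [ZMod.card]; exact hℓ0
    · exact inv_ne_one.mpr (ne_one_of_odd hχ)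
    · exact ZMod.isPrimitive_stdAddChar ℓ
  have h2 : (2 - χ 2 : ℂ) ≠ 0 := by
    intro h
    have h3 : χ 2 = 2 := (sub_eq_zero.mp h).symm
    have h4 := DirichletCharacter.norm_le_one χ 2
    rw [h3] at h4
    norm_num at h4
  have hq := norm_ex_lt_one τ
  have hs0 : (fun n : ℕ => χ (n : ZMod ℓ)) 0 = 0 := by
    simp only [Nat.cast_zero]
    exact MulChar.map_zero χ
  have h1 := eisRaw_hasSum hℓ hχ τ
  simp_rw [tsum_mul_left] at h1
  have h3 := h1.tsum_eq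
  rw [tsum_mul_left] at h3
  have h4 := hasSum_divisor (norm_char_le χ) hs0 hq
  have hpi : (2 * π * I : ℂ) ≠ 0 := Complex.two_pi_I_ne_zero
  have hK : (2 * π * I * (2 - χ 2) * (gaussSum χ⁻¹ (ZMod.stdAddChar (N := ℓ)) / ℓ)) ≠ 0 :=
    mul_ne_zero (mul_ne_zero hpi h2) (div_ne_zero hg hℓ0)
  have h5 : eisRaw χ τ / (2 * π * I * (2 - χ 2) * (gaussSum χ⁻¹ 𝕖 / ℓ)) =
      bern χ + -(2 * ℓ) * ∑' m : ℕ, ∑' n : ℕ, χ n * (ex τ ^ (m + 1)) ^ n := by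
    rw [div_eq_iff hK]
    have h6 : eisRaw χ τ = eisConst χ + -(2 * π * I) * (2 * (2 - χ 2) * gaussSum χ⁻¹ 𝕖) *
        ∑' m : ℕ, ∑' n : ℕ, χ n * (ex τ ^ (m + 1)) ^ n := by rw [h3]; ring
    rw [h6, eisConst_eq hℓ hχ]
    field_simp
  rw [h5]
  have h7 : HasSum (fun k : ℕ => if k = 0 then bern χ else 0) (bern χ) := hasSum_ite_eq 0 (bern χ)
  have h8 := h7.add (h4.mul_left (-(2 * (ℓ : ℂ))))
  convert! h8 using 1
  funext k
  by_cases hk : k = 0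
  · subst hk
    simp
  · simp only [hk, if_false]
    ring

end Fermat.Agent.DS.Eis
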