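import Mathlib
import Fermat.Agent.DS.EisCharQexp
import Fermat.Prelude.Def_FLTPrelim_Modularity

/-!
# The weight one Eisenstein series as a modular form on `Γ₁(ℓ)` with nebentypus
-/

set_option autoImplicit false

open UpperHalfPlane hiding I
open EisensteinSeries Complex Filter Topology Function CongruenceSubgroup
open scoped MatrixGroups ModularForm Manifold Matrix Real

namespace Fermat.Agent.DS.Eis

local notation "𝕖" => ZMod.stdAddChar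

variable {ℓ : ℕ} [Fact ℓ.Prime]

theorem eisRaw_slash_apply (χ : DirichletCharacter ℂ ℓ) (γ : SL(2, ℤ)) (τ : ℍ) :
    (eisRaw χ ∣[(1 : ℤ)] γ) τ = ∑ r : ZMod ℓ, χ⁻¹ r *
      (ℓ * wtOne ℓ (![0, (r.val : ℤ)] ᵥ* (γ : Matrix (Fin 2) (Fin 2) ℤ)) τ) := by
  rw [ModularForm.SL_slash_apply, eisRaw, Finset.sum_mul]
  refine Finset.sum_congr rfl fun r _ => ?_
  rw [wtOne_smul, zpow_neg, zpow_one]
  have := denom_ne_zero γ τ
  field_simp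

theorem eisRaw_slash (hℓ : ℓ ≠ 2) (χ : DirichletCharacter ℂ ℓ) (γ : SL(2, ℤ))
    (hγ : γ ∈ Gamma0 ℓ) (τ : ℍ) :
    (eisRaw χ ∣[(1 : ℤ)] γ) τ = χ ((γ 1 1 : ℤ) : ZMod ℓ) * eisRaw χ τ := by
  have hp : ℓ.Prime := Fact.out
  have hℓ0 : (ℓ : ℤ) ≠ 0 := by exact_mod_cast hp.ne_zero
  set d : ZMod ℓ := ((γ 1 1 : ℤ) : ZMod ℓ) with hd
  have hc : ((γ 1 0 : ℤ) : ZMod ℓ) = 0 := Gamma0_mem.mp hγ
  have hdu : d ≠ 0 := by
    intro h0
    have hdet := γ.det_coe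
    rw [Matrix.det_fin_two] at hdet
    have h1 := congrArg (Int.cast : ℤ → ZMod ℓ) hdet
    push_cast at h1
    rw [hc, ← hd, h0] at h1
    simp at h1
  rw [eisRaw_slash_apply, eisRaw, Finset.mul_sum]
  have key : ∀ r : ZMod ℓ, χ⁻¹ r *
      (ℓ * wtOne ℓ (![0, (r.val : ℤ)] ᵥ* (γ : Matrix (Fin 2) (Fin 2) ℤ)) τ) =
      (fun s : ZMod ℓ => χ d * (χ⁻¹ s * (ℓ * wtOne ℓ ![0, (s.val : ℤ)] τ))) (r * d) := by
    intro r
    by_cases hr : r = 0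
    · subst hr
      simp only [MulChar.map_zero, zero_mul, mul_zero]
    · have hrd : r * d ≠ 0 := mul_ne_zero hr hdu
      have e1 : wtOne ℓ (![0, (r.val : ℤ)] ᵥ* (γ : Matrix (Fin 2) (Fin 2) ℤ)) =
          wtOne ℓ ![0, ((r * d).val : ℤ)] := by
        refine wtOne_congr hℓ0 (adm_val hℓ hrd) fun i => ?_
        rw [← ZMod.intCast_eq_intCast_iff]
        fin_cases i
        · simp [Matrix.vecMul, dotProduct, hc]
        · simp [Matrix.vecMul, dotProduct, hd]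
      have e2 : χ d * χ⁻¹ (r * d) = χ⁻¹ r := by
        rw [map_mul, mul_left_comm, MulChar.inv_apply' χ d, ← map_mul, mul_inv_cancel₀ hdu, map_one,
          mul_one]
      rw [e1, ← e2]
      ring
  simp_rw [key]
  exact Fintype.sum_equiv (Equiv.mulRight₀ d hdu) _ _ fun r => rfl

theorem eisRaw_bdd (hℓ : ℓ ≠ 2) (χ : DirichletCharacter ℂ ℓ) (γ : SL(2, ℤ)) :
    IsBoundedAtImInfty (eisRaw χ ∣[(1 : ℤ)] γ) := by
  have hp : ℓ.Prime := Fact.out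
  have e : (eisRaw χ ∣[(1 : ℤ)] γ) = fun τ => ∑ r : ZMod ℓ, χ⁻¹ r *
      (ℓ * wtOne ℓ (![0, (r.val : ℤ)] ᵥ* (γ : Matrix (Fin 2) (Fin 2) ℤ)) τ) :=
    funext fun τ => eisRaw_slash_apply χ γ τ
  rw [e]
  have h : ∀ r ∈ (Finset.univ : Finset (ZMod ℓ)), (fun τ : ℍ => χ⁻¹ r *
      (ℓ * wtOne ℓ (![0, (r.val : ℤ)] ᵥ* (γ : Matrix (Fin 2) (Fin 2) ℤ)) τ)) =O[atImInfty]
      (1 : ℍ → ℝ) := by
    intro r _
    by_cases hr : r = 0
    · subst hr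
      simp only [MulChar.map_zero, zero_mul]
      exact Asymptotics.isBigO_zero _ _
    · have h1 : IsBoundedAtImInfty
          (wtOne ℓ (![0, (r.val : ℤ)] ᵥ* (γ : Matrix (Fin 2) (Fin 2) ℤ))) :=
        wtOne_isBounded hp.pos ((adm_val hℓ hr).vecMul γ)
      have h2 : (wtOne ℓ (![0, (r.val : ℤ)] ᵥ* (γ : Matrix (Fin 2) (Fin 2) ℤ))) =O[atImInfty]
        (1 : ℍ → ℝ) := h1
      exact (h2.const_mul_left _).const_mul_left _
  have h3 := Asymptotics.IsBigO.sum h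
  have e3 : (fun τ => ∑ r : ZMod ℓ, χ⁻¹ r *
      (ℓ * wtOne ℓ (![0, (r.val : ℤ)] ᵥ* (γ : Matrix (Fin 2) (Fin 2) ℤ)) τ)) =
      ∑ r : ZMod ℓ, fun τ : ℍ => χ⁻¹ r *
      (ℓ * wtOne ℓ (![0, (r.val : ℤ)] ᵥ* (γ : Matrix (Fin 2) (Fin 2) ℤ)) τ) := by
    funext τ
    rw [Finset.sum_apply]
  rw [e3]
  exact h3

theorem eisRaw_mdiff (hℓ : ℓ ≠ 2) (χ : DirichletCharacter ℂ ℓ) : MDiff (eisRaw χ) := by
  have hp : ℓ.Prime := Fact.out
  have hℓ0 : (ℓ : ℤ) ≠ 0 := by exact_mod_cast hp.ne_zero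
  rw [UpperHalfPlane.mdifferentiable_iff]
  have e : (eisRaw χ ∘ ofComplex) = fun z => ∑ r : ZMod ℓ, χ⁻¹ r *
      (ℓ * (wtOne ℓ ![0, (r.val : ℤ)] ∘ ofComplex) z) := rfl
  rw [e]
  refine DifferentiableOn.fun_sum fun r _ => ?_
  by_cases hr : r = 0
  · subst hr
    simp only [MulChar.map_zero, zero_mul]
    exact differentiableOn_const _
  · exact ((UpperHalfPlane.mdifferentiable_iff.mp
      (wtOne_mdiff hℓ0 (adm_val hℓ hr))).const_mul _).const_mul _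

/-- The Eisenstein series as a modular form. -/
noncomputable def eisMF (hℓ : ℓ ≠ 2) (χ : DirichletCharacter ℂ ℓ) : ModularForm (Gamma1 ℓ) 1 where
  toFun := eisRaw χ
  slash_action_eq' γ hγ := by
    obtain ⟨γ, hγ, rfl⟩ := hγ
    have h1 := Gamma1_in_Gamma0 ℓ hγ
    funext τ
    have h2 := eisRaw_slash hℓ χ γ h1 τ
    have h3 : ((γ 1 1 : ℤ) : ZMod ℓ) = 1 := ((Gamma1_mem ℓ γ).mp hγ).2.1
    rw [h3, map_one, one_mul] at h2
    exact h2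
  holo' := eisRaw_mdiff hℓ χ
  bdd_at_cusps' {c} hc := by
    have : NeZero ℓ := ⟨(Fact.out : ℓ.Prime).ne_zero⟩
    rw [Subgroup.IsArithmetic.isCusp_iff_isCusp_SL2Z] at hc
    rw [OnePoint.isBoundedAt_iff_forall_SL2Z hc]
    exact fun γ _ => eisRaw_bdd hℓ χ γ

lemma strictPeriods_one (N : ℕ) : (1 : ℝ) ∈ (Gamma1 N : Subgroup (GL (Fin 2) ℝ)).strictPeriods := by
  simp

lemma qParam_one (z : ℂ) : Periodic.qParam 1 z = ex z := by
  rw [Periodic.qParam, ex]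
  simp

/-- Coefficients from a `HasSum`. -/
theorem qCoeff_of_hasSum {N : ℕ} [NeZero N] {k : ℤ} (F : ModularForm (Gamma1 N) k) {c : ℕ → ℂ}
    (h : ∀ τ : ℍ, HasSum (fun n : ℕ => c n * ex τ ^ n) (F τ)) (n : ℕ) :
    ModularFormClass.qCoeff F n = c n := by
  have h1 := ModularFormClass.qExpansion_coeff_unique (f := F) (h := 1) one_pos
    (strictPeriods_one N) (c := c) (fun τ => by
      have := h τ
      simpa only [smul_eq_mul, qParam_one] using this) n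
  rw [ModularFormClass.qCoeff, h1]

/-- The factor. -/
noncomputable def eisFactor (χ : DirichletCharacter ℂ ℓ) : ℂ :=
  2 * π * I * (2 - χ 2) * (gaussSum χ⁻¹ 𝕖 / ℓ)

/-- The form with constant term `-B` and `n`-th coefficient `2 ℓ ∑_{d ∣ n} χ d`. -/
noncomputable def eisNeg (hℓ : ℓ ≠ 2) (χ : DirichletCharacter ℂ ℓ) : ModularForm (Gamma1 ℓ) 1 :=
  (-(eisFactor χ)⁻¹ : ℂ) • eisMF hℓ χ

theorem eisNeg_apply (hℓ : ℓ ≠ 2) (χ : DirichletCharacter ℂ ℓ) (τ : ℍ) :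
    eisNeg hℓ χ τ = -(eisFactor χ)⁻¹ * eisRaw χ τ := rfl

theorem eisNeg_coe (hℓ : ℓ ≠ 2) (χ : DirichletCharacter ℂ ℓ) :
    (eisNeg hℓ χ : ℍ → ℂ) = (-(eisFactor χ)⁻¹ : ℂ) • eisRaw χ := rfl

theorem eisNeg_slash (hℓ : ℓ ≠ 2) (χ : DirichletCharacter ℂ ℓ) (γ : SL(2, ℤ))
    (hγ : γ ∈ Gamma0 ℓ) :
    (eisNeg hℓ χ : ℍ → ℂ) ∣[(1 : ℤ)] γ = χ ((γ 1 1 : ℤ) : ZMod ℓ) • (eisNeg hℓ χ : ℍ → ℂ) := by
  rw [eisNeg_coe, ModularForm.SL_smul_slash]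
  funext τ
  rw [Pi.smul_apply, eisRaw_slash hℓ χ γ hγ]
  simp only [Pi.smul_apply, smul_eq_mul]
  ring

theorem eisNeg_hasSum (hℓ : ℓ ≠ 2) {χ : DirichletCharacter ℂ ℓ} (hχ : χ.Odd) (τ : ℍ) :
    HasSum (fun n : ℕ => (if n = 0 then -bern χ else 2 * ℓ * ∑ d ∈ n.divisors, χ d) * ex τ ^ n)
      (eisNeg hℓ χ τ) := by
  have h := (eisRaw_qexp hℓ hχ τ).mul_left (-1)
  rw [eisNeg_apply]
  convert! h using 1
  · funext n
    split_ifs <;> ring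
  · rw [eisFactor, div_eq_mul_inv]; ring

theorem qCoeff_eisNeg (hℓ : ℓ ≠ 2) {χ : DirichletCharacter ℂ ℓ} (hχ : χ.Odd) (n : ℕ) :
    ModularFormClass.qCoeff (eisNeg hℓ χ) n =
      if n = 0 then -bern χ else 2 * ℓ * ∑ d ∈ n.divisors, χ d :=
  have : NeZero ℓ := ⟨(Fact.out : ℓ.Prime).ne_zero⟩
  qCoeff_of_hasSum _ (eisNeg_hasSum hℓ hχ) n

end Fermat.Agent.DS.Eis
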