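import Fermat.Agent.DS.EisQexp

/-!
# Rationality of Eisenstein series, and the separating form on `Γ₁(N)`
-/

set_option autoImplicit false

open UpperHalfPlane ModularForm MatrixGroups CongruenceSubgroup Matrix.SpecialLinearGroup
open EisensteinSeries Filter Topology
open scoped Manifold Real Nat
open Fermat.Agent.IntStr

noncomputable section

namespace Fermat.Agent.DS

variable {N : ℕ} [NeZero N]

/-! ### The constant term -/

theorem Sr_zero {k : ℕ} (hk : 3 ≤ k) (r : ZMod N) (z : ℍ) :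
    ∃ ρ : ℚ, Sr k r z 0 = (ρ : ℂ) * ((N : ℂ) ^ (1 - k : ℤ) * Ck k) := by
  have hN : (N : ℂ) ≠ 0 := by exact_mod_cast NeZero.ne N
  have hNR : (0 : ℝ) < N := by exact_mod_cast Nat.pos_of_ne_zero (NeZero.ne N)
  have hx : ((r.val : ℝ) / N) ∈ Set.Icc (0 : ℝ) 1 := by
    constructor
    · positivity
    · rw [div_le_one hNR]
      exact_mod_cast (ZMod.val_lt r).le
  have h := hasSum_one_div_pow_mul_fourier_mul_bernoulliFun (k := k) (by omega) hx
  have h1 : Sr k r z 0 = -(2 * π * Complex.I) ^ k / k ! * bernoulliFun k ((r.val : ℝ) / N) := by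
    rw [← h.tsum_eq, Sr]
    refine tsum_congr fun d => ?_
    rw [fourier_coe_apply]
    have h2 : r * (d : ZMod N) = ((r.val * d : ℤ) : ZMod N) := by
      push_cast
      rw [ZMod.natCast_zmod_val]
    rw [h2, ZMod.stdAddChar_coe, mul_comm]
    congr 1
    · simp
    · congr 1
      push_cast
      field_simp
  -- rationality of the Bernoulli value
  obtain ⟨β, hβ⟩ : ∃ β : ℚ, bernoulliFun k ((r.val : ℝ) / N) = (β : ℝ) := by
    refine ⟨(Polynomial.bernoulli k).eval ((r.val : ℚ) / N), ?_⟩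
    rw [bernoulliFun]
    have h3 : ((r.val : ℝ) / N) = algebraMap ℚ ℝ ((r.val : ℚ) / N) := by
      rw [eq_ratCast]; push_cast; rfl
    rw [h3, Polynomial.eval_map_algebraMap, Polynomial.aeval_algebraMap_apply, eq_ratCast,
      Polynomial.coe_aeval_eq_eval]
  refine ⟨-(-1) ^ k * β * (N : ℚ) ^ (k - 1) / k, ?_⟩
  rw [h1, hβ, Ck]
  have hkf : ((k ! : ℕ) : ℂ) = k * ((k - 1)! : ℕ) := by
    rw [← Nat.mul_factorial_pred (by omega : k ≠ 0)]
    push_cast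
    ring
  have hkc : (k : ℂ) ≠ 0 := by exact_mod_cast (by omega : k ≠ 0)
  have hkf' : (((k - 1)! : ℕ) : ℂ) ≠ 0 := by exact_mod_cast Nat.factorial_ne_zero _
  have hpow : (-2 * π * Complex.I) ^ k = (-1) ^ k * (2 * π * Complex.I) ^ k := by
    rw [← mul_pow]; congr 1; ring
  have hNk : (N : ℂ) ^ (1 - k : ℤ) * (N : ℂ) ^ (k - 1) = 1 := by
    rw [← zpow_natCast (N : ℂ) (k - 1), ← zpow_add₀ hN]
    have : (1 - k : ℤ) + ((k - 1 : ℕ) : ℤ) = 0 := by omega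
    rw [this, zpow_zero]
  have hs : ((-1 : ℂ) ^ k) * (-1) ^ k = 1 := by
    rw [← mul_pow]; norm_num
  rw [hkf, hpow]
  push_cast
  field_simp
  have e1 : (-1 : ℂ) ^ k * (β : ℂ) * (N : ℂ) ^ (k - 1) * ((N : ℂ) ^ (1 - k : ℤ)) *
      ((-1) ^ k) = β := by
    calc (-1 : ℂ) ^ k * (β : ℂ) * (N : ℂ) ^ (k - 1) * ((N : ℂ) ^ (1 - k : ℤ)) * ((-1) ^ k)
        = ((-1 : ℂ) ^ k * (-1) ^ k) * ((N : ℂ) ^ (1 - k : ℤ) * (N : ℂ) ^ (k - 1)) * β := by ring
      _ = β := by rw [hs, hNk]; ring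
  linear_combination e1

/-! ### modularity of `H_r` -/

omit [NeZero N] in
theorem vecPerm_Gamma1 {γ : SL(2, ℤ)} (hγ : γ ∈ Gamma1 N) (b : Fin 2 → ZMod N) :
    vecPerm γ b = ![b 0, b 0 * ((γ 0 1 : ℤ) : ZMod N) + b 1] := by
  rw [Gamma1_mem] at hγ
  obtain ⟨h00, h11, h10⟩ := hγ
  ext i
  fin_cases i
  · simp [vecPerm, Matrix.vecMul, Matrix.vec2_dotProduct, h00, h10]
  · simp [vecPerm, Matrix.vecMul, Matrix.vec2_dotProduct, h11]

omit [NeZero N] in
theorem kappa_comp (k : ℕ) (f : (Fin 2 → ZMod N) → ℂ) (γ : SL(2, ℤ)) :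
    kappa k f ∘ (vecPerm γ).symm = kappa k (f ∘ (vecPerm γ).symm) := by
  ext b
  simp only [kappa, Function.comp_apply]
  refine tsum_congr fun n => ?_
  congr 2
  change n • Matrix.vecMul b _ = Matrix.vecMul (n • b) _
  rw [Matrix.smul_vecMul]

/-- the function supported on `b₀ = 0` given by `u(b₁)` -/
def Ff (u : ZMod N → ℂ) (b : Fin 2 → ZMod N) : ℂ := if b 0 = 0 then u (b 1) else 0

omit [NeZero N] in
theorem Ff_comp (u : ZMod N → ℂ) {γ : SL(2, ℤ)} (hγ : γ ∈ Gamma1 N) :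
    Ff u ∘ (vecPerm γ).symm = Ff u := by
  ext b
  obtain ⟨c, rfl⟩ := (vecPerm γ).surjective b
  rw [Function.comp_apply, Equiv.symm_apply_apply, vecPerm_Gamma1 hγ, Ff, Ff]
  simp only [Matrix.cons_val_zero, Matrix.cons_val_one, Matrix.cons_val_fin_one]
  split_ifs with h
  · rw [h, zero_mul, zero_add]
  · rfl

theorem isMG_Ff {k : ℕ} (hk : 3 ≤ k) (u : ZMod N → ℂ) :
    IsMG (Gamma1 N : Subgroup (GL (Fin 2) ℝ)) k (eisSum k (Ff u)) :=
  isMG_eisSum (by exact_mod_cast hk) (Gamma1 N) _ fun _ hγ => Ff_comp u hγ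

theorem isMG_kappa {k : ℕ} (hk : 3 ≤ k) (u : ZMod N → ℂ) :
    IsMG (Gamma1 N : Subgroup (GL (Fin 2) ℝ)) k (eisSum k (kappa k (Ff u))) :=
  isMG_eisSum (by exact_mod_cast hk) (Gamma1 N) _ fun γ hγ => by
    rw [kappa_comp, Ff_comp u hγ]

theorem Hf_eq (r : ZMod N) : Hf r = Ff (fun x => ZMod.stdAddChar (r * x)) := rfl

/-- normalised `H_r` -/
def Hr (N : ℕ) [NeZero N] (k : ℕ) (r : ZMod N) : ℍ → ℂ :=
  ((N : ℂ) ^ (1 - k : ℤ) * Ck k)⁻¹ • eisSum k (kappa k (Hf r))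

theorem const_ne_zero (N : ℕ) [NeZero N] (k : ℕ) : (N : ℂ) ^ (1 - k : ℤ) * Ck k ≠ 0 :=
  mul_ne_zero (zpow_ne_zero _ (by exact_mod_cast NeZero.ne N)) (Ck_ne_zero k)

theorem isMG_Hr {k : ℕ} (hk : 3 ≤ k) (r : ZMod N) :
    IsMG (Gamma1 N : Subgroup (GL (Fin 2) ℝ)) k (Hr N k r) := by
  rw [Hr, Hf_eq]
  exact (isMG_kappa hk _).smul _

/-- the `q`-expansion of `H_r` is rational, with integral higher coefficients -/
theorem qExp_Hr {k : ℕ} (hk : 3 ≤ k) (r : ZMod N) :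
    ∃ ρ : ℚ, ∀ n, (qExpansion 1 (Hr N k r)).coeff n =
      if n = 0 then (ρ : ℂ) else ((∑ p ∈ n.divisorsAntidiagonal, omZ k r p.2 : ℤ) : ℂ) := by
  obtain ⟨F, hF⟩ := isMG_Hr hk r
  have hc := const_ne_zero N k
  obtain ⟨ρ, hρ⟩ := Sr_zero hk r UpperHalfPlane.I
  have hρ' : ∀ z : ℍ, Sr k r z 0 = (ρ : ℂ) * ((N : ℂ) ^ (1 - k : ℤ) * Ck k) := by
    intro z
    rw [← hρ]
    simp [Sr]
  refine ⟨ρ, fun n => ?_⟩
  symm
  rw [← hF]
  refine ModularFormClass.qExpansion_coeff_unique (f := F)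
    (c := fun n => if n = 0 then (ρ : ℂ) else
      ((∑ p ∈ n.divisorsAntidiagonal, omZ k r p.2 : ℤ) : ℂ)) one_pos
    GoodLevel.per ?_ n
  intro τ
  rw [hF]
  have h1 := (hasSum_H hk r τ).mul_left ((N : ℂ) ^ (1 - k : ℤ) * Ck k)⁻¹
  let g : ℕ → ℂ := fun n => (if n = 0 then (ρ : ℂ) else
      ((∑ p ∈ n.divisorsAntidiagonal, omZ k r p.2 : ℤ) : ℂ)) • Function.Periodic.qParam 1 (τ : ℂ) ^ n
  have h2 : HasSum (fun n : ℕ+ => g n)
      (((N : ℂ) ^ (1 - k : ℤ) * Ck k)⁻¹ *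
        (eisSum k (kappa k (Hf r)) τ - Sr k r τ 0)) := by
    have h3 : (fun n : ℕ+ => g n) = fun n : ℕ+ => ((N : ℂ) ^ (1 - k : ℤ) * Ck k)⁻¹ *
        ((N : ℂ) ^ (1 - k : ℤ) * Ck k *
      ((∑ p ∈ (n : ℕ).divisorsAntidiagonal, ((omZ k r p.2 : ℤ) : ℂ)) *
        Complex.exp (2 * π * Complex.I * τ) ^ (n : ℕ))) := by
      funext n
      simp only [g]
      rw [if_neg n.ne_zero, smul_eq_mul, ← mul_assoc, inv_mul_cancel₀ hc, one_mul]
      push_cast
      congr 2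
      simp [Function.Periodic.qParam]
    rw [h3]
    exact h1
  rw [hasSum_pnat_iff] at h2
  have h4 : Hr N k r τ = ((N : ℂ) ^ (1 - k : ℤ) * Ck k)⁻¹ *
        (eisSum k (kappa k (Hf r)) τ - Sr k r τ 0) + g 0 := by
    rw [hρ' τ, Hr, Pi.smul_apply, smul_eq_mul]
    simp only [g, if_true, pow_zero, smul_eq_mul, mul_one]
    rw [mul_sub, mul_left_comm _ (ρ : ℂ), inv_mul_cancel₀ hc]
    ring
  rw [h4]
  exact h2

theorem Hr_mem_VG {k : ℕ} (hk : 3 ≤ k) (r : ZMod N) :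
    Hr N k r ∈ VG (Gamma1 N : Subgroup (GL (Fin 2) ℝ)) k := by
  obtain ⟨ρ, hρ⟩ := qExp_Hr hk r
  have hD : (ρ.den : ℂ) ≠ 0 := by exact_mod_cast ρ.den_nz
  have h1 : Hr N k r = (ρ.den : ℂ)⁻¹ • ((ρ.den : ℂ) • Hr N k r) := by
    rw [smul_smul, inv_mul_cancel₀ hD, one_smul]
  rw [h1]
  refine Submodule.smul_mem _ _ (Submodule.subset_span ⟨(isMG_Hr hk r).smul _, fun n => ?_⟩)
  rw [UpperHalfPlane.qExpansion_smul (isMG_Hr hk r).anQ, PowerSeries.coeff_smul, hρ, smul_eq_mul]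
  split_ifs with hn
  · refine ⟨ρ.num, ?_⟩
    have := Rat.mul_den_eq_num ρ
    rw [mul_comm]
    exact_mod_cast congrArg (fun x : ℚ => (x : ℂ)) this
  · exact ⟨ρ.den * ∑ p ∈ n.divisorsAntidiagonal, omZ k r p.2, by push_cast; rfl⟩

/-! ### All `κ`-sums are in the span of integral forms -/

theorem exists_fourier (u : ZMod N → ℂ) :
    ∃ c : ZMod N → ℂ, Ff u = ∑ r, c r • Hf r := by
  refine ⟨fun r => (N : ℂ)⁻¹ * ZMod.dft u r, ?_⟩
  ext b
  rw [Finset.sum_apply]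
  simp only [Pi.smul_apply, smul_eq_mul, Hf, Ff]
  split_ifs with hb
  · have h := congrFun (ZMod.dft.symm_apply_apply u) (b 1)
    rw [ZMod.invDFT_apply] at h
    rw [← h, smul_eq_mul, Finset.mul_sum]
    refine Finset.sum_congr rfl fun r _ => ?_
    rw [smul_eq_mul]
    ring
  · simp

/-- the span of the rational Eisenstein series `H_r` -/
def spanHr (N : ℕ) [NeZero N] (k : ℕ) : Submodule ℂ (ℍ → ℂ) :=
  Submodule.span ℂ (Set.range (Hr N k))

theorem spanHr_le_VG {k : ℕ} (hk : 3 ≤ k) :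
    spanHr N k ≤ VG (Gamma1 N : Subgroup (GL (Fin 2) ℝ)) k := by
  rw [spanHr, Submodule.span_le]
  rintro _ ⟨r, rfl⟩
  exact Hr_mem_VG hk r

theorem kappa_mem_span {k : ℕ} (hk : 3 ≤ k) (u : ZMod N → ℂ) :
    eisSum k (kappa k (Ff u)) ∈ spanHr N k := by
  obtain ⟨c, hc⟩ := exists_fourier u
  rw [hc, kappa_sum hk, eisSum_sum]
  refine Submodule.sum_mem _ fun r _ => ?_
  rw [kappa_smul, eisSum_smul]
  have h1 : eisSum k (kappa k (Hf r)) = ((N : ℂ) ^ (1 - k : ℤ) * Ck k) • Hr N k r := by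
    rw [Hr, smul_smul, mul_inv_cancel₀ (const_ne_zero N k), one_smul]
  rw [h1]
  exact Submodule.smul_mem _ _ (Submodule.smul_mem _ _ (Submodule.subset_span ⟨r, rfl⟩))

theorem kappa_char {k : ℕ} (χ : DirichletCharacter ℂ N) :
    kappa k (Ff χ) = (∑' n : ℕ, ((n : ℂ) ^ k)⁻¹ * χ n) • Ff χ := by
  ext b
  rw [Pi.smul_apply, smul_eq_mul, kappa, ← tsum_mul_right]
  refine tsum_congr fun n => ?_
  rw [mul_assoc]
  congr 1
  have h0 : (n • b) 0 = (n : ZMod N) * b 0 := by simp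
  have h1 : (n • b) 1 = (n : ZMod N) * b 1 := by simp
  rw [Ff, Ff, h0, h1, map_mul]
  by_cases hn : IsUnit (n : ZMod N)
  · have : (n : ZMod N) * b 0 = 0 ↔ b 0 = 0 := by
      rw [IsUnit.mul_right_eq_zero hn]
    simp only [this]
    split_ifs
    · rfl
    · simp
  · rw [MulChar.map_nonunit χ hn, zero_mul]
    simp

theorem char_mem_span {k : ℕ} (hk : 3 ≤ k) (χ : DirichletCharacter ℂ N) :
    eisSum k (Ff χ) ∈ spanHr N k := by
  have h1 := kappa_mem_span hk (N := N) χ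
  rw [kappa_char, eisSum_smul] at h1
  have hL : (∑' n : ℕ, ((n : ℂ) ^ k)⁻¹ * χ n) ≠ 0 := by
    have h2 := DirichletCharacter.LSeries_ne_zero_of_one_lt_re χ (s := k) (by
      rw [Complex.natCast_re]; exact_mod_cast (by omega : 1 < k))
    rw [LSeries] at h2
    refine ne_of_eq_of_ne (tsum_congr fun n => ?_) h2
    rw [LSeries.term_def]
    split_ifs with hn
    · rw [hn]
      simp [show k ≠ 0 by omega]
    · rw [Complex.cpow_natCast, div_eq_mul_inv, mul_comm]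
  have h3 : eisSum k (Ff χ) = (∑' n : ℕ, ((n : ℂ) ^ k)⁻¹ * χ n)⁻¹ •
      ((∑' n : ℕ, ((n : ℂ) ^ k)⁻¹ * χ n) • eisSum k (Ff χ)) := by
    rw [smul_smul, inv_mul_cancel₀ hL, one_smul]
  rw [h3]
  exact Submodule.smul_mem _ _ h1

theorem eis_mem_span {k : ℕ} (hk : 3 ≤ k) :
    (eisensteinSeries (![0, 1] : Fin 2 → ZMod N) k : ℍ → ℂ) ∈ spanHr N k := by
  classical
  have h1 : (eisensteinSeries (![0, 1] : Fin 2 → ZMod N) k : ℍ → ℂ) =
      (N.totient : ℂ)⁻¹ • ∑ χ : DirichletCharacter ℂ N, eisSum k (Ff χ) := by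
    rw [← eisSum_sum, ← eisSum_smul]
    have h2 : ((N.totient : ℂ)⁻¹ • ∑ χ : DirichletCharacter ℂ N, Ff (N := N) χ) =
        Pi.single (![0, 1] : Fin 2 → ZMod N) 1 := by
      ext b
      rw [Pi.smul_apply, Finset.sum_apply, smul_eq_mul]
      have hb : ∀ χ : DirichletCharacter ℂ N, Ff (N := N) χ b =
          if b 0 = 0 then χ (b 1) else 0 := fun _ => rfl
      simp only [hb]
      by_cases h0 : b 0 = 0
      · simp only [h0, if_true]
        rw [DirichletCharacter.sum_characters_eq]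
        by_cases h1 : b 1 = 1
        · have hb' : b = ![0, 1] := by
            ext i; fin_cases i
            · simpa using h0
            · simpa using h1
          rw [if_pos h1, hb', Pi.single_eq_same, inv_mul_cancel₀]
          exact_mod_cast (Nat.totient_pos.mpr (Nat.pos_of_ne_zero (NeZero.ne N))).ne'
        · rw [if_neg h1, mul_zero, Pi.single_eq_of_ne]
          intro hb'
          apply h1
          rw [hb']
          simp
      · simp only [h0, if_false, Finset.sum_const_zero, mul_zero]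
        rw [Pi.single_eq_of_ne]
        intro hb'
        apply h0
        rw [hb']
        simp
    rw [h2]
    ext z
    rw [eisSum_apply, Finset.sum_eq_single (![0, 1] : Fin 2 → ZMod N)]
    · simp
    · intro b _ hb
      rw [Pi.single_eq_of_ne hb, zero_mul]
    · intro h; exact absurd (Finset.mem_univ _) h
  rw [h1]
  exact Submodule.smul_mem _ _ (Submodule.sum_mem _ fun χ _ => char_mem_span hk χ)

theorem eis_mem_VG {k : ℕ} (hk : 3 ≤ k) :
    (eisensteinSeries (![0, 1] : Fin 2 → ZMod N) k : ℍ → ℂ) ∈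
      VG (Gamma1 N : Subgroup (GL (Fin 2) ℝ)) k :=
  spanHr_le_VG hk (eis_mem_span hk)

/-! ### The action of `Γ₀(N)` on `H_r` -/

theorem vecPerm_symm_Gamma0 {γ : SL(2, ℤ)} (hγ : γ ∈ Gamma0 N) (b : Fin 2 → ZMod N) :
    (vecPerm γ).symm b = ![b 0 * ((γ 1 1 : ℤ) : ZMod N),
      -(b 0 * ((γ 0 1 : ℤ) : ZMod N)) + b 1 * ((γ 0 0 : ℤ) : ZMod N)] := by
  rw [Gamma0_mem] at hγ
  rw [Equiv.symm_apply_eq]
  have hdet := γ.det_coe
  rw [Matrix.det_fin_two] at hdet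
  have h4 := congrArg (fun x : ℤ => (x : ZMod N)) hdet
  simp only [Int.cast_sub, Int.cast_mul, hγ, mul_zero, sub_zero, Int.cast_one] at h4
  ext i
  fin_cases i
  · simp [vecPerm, Matrix.vecMul, Matrix.vec2_dotProduct, hγ, Matrix.vecHead, Matrix.vecTail]
    linear_combination (-b 0) * h4
  · simp [vecPerm, Matrix.vecMul, Matrix.vec2_dotProduct, hγ, Matrix.vecHead, Matrix.vecTail]
    linear_combination (-b 1) * h4

theorem Hf_comp_Gamma0 {γ : SL(2, ℤ)} (hγ : γ ∈ Gamma0 N) (r : ZMod N) :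
    Hf r ∘ (vecPerm γ).symm = Hf (r * ((γ 0 0 : ℤ) : ZMod N)) := by
  ext b
  have hγ' := hγ
  rw [Gamma0_mem] at hγ'
  have hdet := γ.det_coe
  rw [Matrix.det_fin_two] at hdet
  have h4 := congrArg (fun x : ℤ => (x : ZMod N)) hdet
  simp only [Int.cast_sub, Int.cast_mul, hγ', mul_zero, sub_zero, Int.cast_one] at h4
  rw [Function.comp_apply, vecPerm_symm_Gamma0 hγ, Hf, Hf]
  simp only [Matrix.cons_val_zero, Matrix.cons_val_one, Matrix.cons_val_fin_one]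
  have hu : b 0 * ((γ 1 1 : ℤ) : ZMod N) = 0 ↔ b 0 = 0 := by
    constructor
    · intro h
      linear_combination ((γ 0 0 : ℤ) : ZMod N) * h - b 0 * h4
    · intro h; rw [h, zero_mul]
  simp only [hu]
  split_ifs with h
  · rw [h]
    congr 1
    ring
  · rfl

/-- `H_r | γ = H_{r a}` for `γ = (a *; * *) ∈ Γ₀(N)`. -/
theorem Hr_slash (k : ℕ) {γ : SL(2, ℤ)} (hγ : γ ∈ Gamma0 N) (r : ZMod N) :
    Hr N k r ∣[(k : ℤ)] γ = Hr N k (r * ((γ 0 0 : ℤ) : ZMod N)) := by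
  rw [Hr, SL_smul_slash, eisSum_slash, kappa_comp, Hf_comp_Gamma0 hγ]
  rfl

end Fermat.Agent.DS
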