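import Fermat.Agent.DS.EisSum

/-!
# Full lattice sums
-/

set_option autoImplicit false

open UpperHalfPlane ModularForm MatrixGroups CongruenceSubgroup Matrix.SpecialLinearGroup
open EisensteinSeries Filter Topology
open scoped Manifold
open Fermat.Agent.IntStr

noncomputable section

namespace Fermat.Agent.DS

variable {N : ℕ} [NeZero N]

/-- `κ_f(b) = ∑_{n ≥ 1} n^{-k} f(n b)` -/
def kappa (k : ℕ) (f : (Fin 2 → ZMod N) → ℂ) (b : Fin 2 → ZMod N) : ℂ :=
  ∑' n : ℕ, ((n : ℂ) ^ k)⁻¹ * f (n • b)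

/-- a bound for `f` -/
theorem exists_bound_fin {α : Type*} [Finite α] (f : α → ℂ) : ∃ C : ℝ, 0 ≤ C ∧ ∀ a, ‖f a‖ ≤ C := by
  obtain ⟨C, hC⟩ := (Set.finite_range (fun a => ‖f a‖)).bddAbove
  exact ⟨max C 0, le_max_right _ _, fun a => (hC ⟨a, rfl⟩).trans (le_max_left _ _)⟩

theorem summable_inv_pow {k : ℕ} (hk : 3 ≤ k) : Summable fun n : ℕ => ‖((n : ℂ) ^ k)⁻¹‖ := by
  have : Summable fun n : ℕ => ((n : ℝ) ^ k)⁻¹ := by
    rw [Real.summable_nat_pow_inv]
    omega
  simpa using this

omit [NeZero N] in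
theorem summable_kappa [NeZero N] {k : ℕ} (hk : 3 ≤ k) (f : (Fin 2 → ZMod N) → ℂ)
    (b : Fin 2 → ZMod N) :
    Summable fun n : ℕ => ((n : ℂ) ^ k)⁻¹ * f (n • b) := by
  obtain ⟨C, hC0, hC⟩ := exists_bound_fin f
  refine Summable.of_norm_bounded ((summable_inv_pow hk).mul_right C) fun n => ?_
  rw [norm_mul]
  exact mul_le_mul_of_nonneg_left (hC _) (norm_nonneg _)

theorem kappa_add {k : ℕ} (hk : 3 ≤ k) (f g : (Fin 2 → ZMod N) → ℂ) :
    kappa k (f + g) = kappa k f + kappa k g := by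
  ext b
  simp only [kappa, Pi.add_apply, mul_add]
  exact (summable_kappa hk f b).tsum_add (summable_kappa hk g b)

omit [NeZero N] in
theorem kappa_smul {k : ℕ} (a : ℂ) (f : (Fin 2 → ZMod N) → ℂ) :
    kappa k (a • f) = a • kappa k f := by
  ext b
  simp only [kappa, Pi.smul_apply, smul_eq_mul, ← tsum_mul_left]
  refine tsum_congr fun n => ?_
  ring

theorem kappa_sum {k : ℕ} (hk : 3 ≤ k) {ι : Type*} (s : Finset ι)
    (f : ι → (Fin 2 → ZMod N) → ℂ) : kappa k (∑ i ∈ s, f i) = ∑ i ∈ s, kappa k (f i) := by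
  classical
  induction s using Finset.induction_on with
  | empty => ext b; simp [kappa]
  | insert a s ha ih => rw [Finset.sum_insert ha, Finset.sum_insert ha, kappa_add hk, ih]

theorem summable_aux {ι : Type*} (a : ℕ → ℂ) (e : ι → ℂ) (φ : ℕ → ι → ℂ) (C : ℝ)
    (hφ : ∀ n i, ‖φ n i‖ ≤ C) (ha : Summable fun n => ‖a n‖) (he : Summable fun i => ‖e i‖) :
    Summable fun p : ℕ × ι => a p.1 * φ p.1 p.2 * e p.2 := by
  have h1 := summable_mul_of_summable_norm (f := a) (g := e) ha he
  refine Summable.of_norm_bounded (h1.norm.mul_left C) fun p => ?_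
  rw [norm_mul, norm_mul, norm_mul]
  have := hφ p.1 p.2
  calc ‖a p.1‖ * ‖φ p.1 p.2‖ * ‖e p.2‖
      ≤ ‖a p.1‖ * C * ‖e p.2‖ := by gcongr
    _ = _ := by ring

theorem tsum_swap_aux {ι : Type*} (a : ℕ → ℂ) (e : ι → ℂ) (φ : ℕ → ι → ℂ) (C : ℝ)
    (hφ : ∀ n i, ‖φ n i‖ ≤ C) (ha : Summable fun n => ‖a n‖) (he : Summable fun i => ‖e i‖) :
    ∑' n, ∑' i, a n * φ n i * e i = ∑' i, (∑' n, a n * φ n i) * e i := by
  have h := summable_aux a e φ C hφ ha he
  have h' : Summable (Function.uncurry fun (n : ℕ) (i : ι) => a n * φ n i * e i) := h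
  rw [← h'.tsum_comm]
  refine tsum_congr fun i => ?_
  rw [← tsum_mul_right]

omit [NeZero N] in
theorem red_smul (n : ℕ) (v : Fin 2 → ℤ) : red N (n • v) = n • red N v := by
  ext i
  simp [red]

omit [NeZero N] in
theorem mem_gammaSet_iff (b : Fin 2 → ZMod N) (r : ℕ) (v : Fin 2 → ℤ) :
    v ∈ gammaSet N r b ↔ red N v = b ∧ (v 0).gcd (v 1) = r := Iff.rfl

theorem eisSummand_gammaSet (k : ℕ) (z : ℍ) {n : ℕ} (v : gammaSet 1 n 0) :
    eisSummand k v z = ((n : ℂ) ^ k)⁻¹ * eisSummand k (divIntMap n v) z := by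
  have := eisSummand_of_gammaSet_eq_divIntMap (k : ℤ) z v
  rw [this, zpow_natCast]

/-- The full lattice sum is a combination of the sums over coprime pairs. -/
theorem latSum_eq {k : ℕ} (hk : 3 ≤ k) (f : (Fin 2 → ZMod N) → ℂ) (z : ℍ) :
    ∑' v : Fin 2 → ℤ, f (red N v) * eisSummand k v z = eisSum k (kappa k f) z := by
  have hk2 : 3 ≤ (k : ℤ) := mod_cast hk
  have hk0 : k ≠ 0 := by omega
  obtain ⟨C, hC0, hC⟩ := exists_bound_fin f
  have hsum : Summable fun v : Fin 2 → ℤ => f (red N v) * eisSummand k v z := by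
    refine Summable.of_norm_bounded ((summable_norm_eisSummand hk2 z).mul_left C) fun v => ?_
    rw [norm_mul]
    exact mul_le_mul_of_nonneg_right (hC _) (norm_nonneg _)
  -- Step 1: decompose by gcd
  have step1 : ∑' v : Fin 2 → ℤ, f (red N v) * eisSummand k v z =
      ∑' r : ℕ, ∑' v : gammaSet 1 r 0, f (red N v) * eisSummand k v z := by
    have h1 : Summable fun x : (Σ r : ℕ, gammaSet 1 r 0) =>
        f (red N x.2) * eisSummand k x.2 z :=
      (gammaSetDivGcdSigmaEquiv.symm.summable_iff.mpr hsum).congr fun x => by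
        simp only [Function.comp_apply, gammaSetDivGcdSigmaEquiv_symm_eq]
    rw [← gammaSetDivGcdSigmaEquiv.symm.tsum_eq, ← h1.tsum_sigma]
    refine tsum_congr fun x => ?_
    rw [gammaSetDivGcdSigmaEquiv_symm_eq]
  have step2 : ∀ r : ℕ, ∑' v : gammaSet 1 r 0, f (red N v) * eisSummand k v z =
      ∑' w : gammaSet 1 1 0, ((r : ℂ) ^ k)⁻¹ * f (r • red N w) * eisSummand k w z := by
    intro r
    rcases eq_or_ne r 0 with rfl | hr
    · have h0 : ((0 : ℕ) : ℂ) ^ k = 0 := by simp [hk0]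
      simp [eisSummand_gammaSet k z, hk0]
    · have : NeZero r := ⟨hr⟩
      rw [← (gammaSetDivGcdEquiv r).tsum_eq]
      refine tsum_congr fun v => ?_
      rw [gammaSetDivGcdEquiv_eq, eisSummand_gammaSet k z v]
      have h1 : red N v.1 = r • red N (divIntMap r v.1) := by
        rw [← red_smul, ← gammaSet_eq_gcd_mul_divIntMap v.2]
      rw [h1]
      ring
  -- Step 3: swap
  have step3 : ∑' r : ℕ, ∑' w : gammaSet 1 1 0,
      ((r : ℂ) ^ k)⁻¹ * f (r • red N w) * eisSummand k w z =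
      ∑' w : gammaSet 1 1 0, kappa k f (red N w) * eisSummand k w z :=
    tsum_swap_aux (fun n : ℕ => ((n : ℂ) ^ k)⁻¹) (fun w : gammaSet 1 1 0 => eisSummand k w z)
      (fun n w => f (n • red N w)) C (fun n w => hC _) (summable_inv_pow hk)
      ((summable_norm_eisSummand hk2 z).subtype _)
  -- Step 4: split
  have step4 : ∑' w : gammaSet 1 1 0, kappa k f (red N w) * eisSummand k w z =
      eisSum k (kappa k f) z := by
    rw [eisSum_apply]
    have h1 : ∀ b : Fin 2 → ZMod N, kappa k f b * eisensteinSeries b k z =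
        ∑' v : Fin 2 → ℤ, kappa k f b * (gammaSet N 1 b).indicator
          (fun v => eisSummand k v z) v := by
      intro b
      rw [tsum_mul_left, eisensteinSeries, tsum_subtype (gammaSet N 1 b) (fun v => eisSummand k v z)]
    rw [Finset.sum_congr rfl fun b _ => h1 b, ← Summable.tsum_finsetSum,
      tsum_subtype (gammaSet 1 1 0) (fun v => kappa k f (red N v) * eisSummand k v z)]
    · refine tsum_congr fun v => ?_
      by_cases hv : (v 0).gcd (v 1) = 1
      · have h2 : v ∈ gammaSet 1 1 0 := by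
          rw [mem_gammaSet_iff]
          exact ⟨Subsingleton.elim _ _, hv⟩
        rw [Set.indicator_of_mem h2, Finset.sum_eq_single (red N v)]
        · rw [Set.indicator_of_mem]
          exact ⟨rfl, hv⟩
        · intro b _ hb
          rw [Set.indicator_of_notMem, mul_zero]
          rintro ⟨h3, -⟩
          exact hb h3.symm
        · intro h; exact absurd (Finset.mem_univ _) h
      · rw [Set.indicator_of_notMem (fun h => hv h.2)]
        symm
        refine Finset.sum_eq_zero fun b _ => ?_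
        rw [Set.indicator_of_notMem (fun h => hv h.2), mul_zero]
    · intro b _
      refine Summable.mul_left _ ?_
      exact (summable_norm_eisSummand hk2 z).of_norm.indicator _
  rw [step1, tsum_congr step2, step3, step4]

end Fermat.Agent.DS
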