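import Fermat.Agent.DS.EisLat

/-!
# Limits at `i∞` of Eisenstein series and separation
-/

set_option autoImplicit false

open UpperHalfPlane ModularForm MatrixGroups CongruenceSubgroup Matrix.SpecialLinearGroup
open EisensteinSeries Filter Topology
open scoped Manifold
open Fermat.Agent.IntStr

noncomputable section

namespace Fermat.Agent.DS

variable {N : ℕ} [NeZero N]

/-- the points `i (n + 1)` -/
def zpt (n : ℕ) : ℍ := ⟨⟨0, n + 1⟩, by positivity⟩

theorem coe_zpt (n : ℕ) : ((zpt n : ℍ) : ℂ) = Complex.I * ((n : ℂ) + 1) := by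
  apply Complex.ext
  · simp [zpt]
  · simp [zpt]

theorem eisSummand_zpt_bound {k : ℤ} (hk : 3 ≤ k) (v : Fin 2 → ℤ) (n : ℕ) :
    ‖eisSummand k v (zpt n)‖ ≤ r ⟨⟨0, 1⟩, one_pos⟩ ^ (-(k : ℝ)) * ‖v‖ ^ (-(k : ℝ)) := by
  have h0 : (0 : ℝ) ≤ k := by
    have : (0 : ℤ) ≤ k := by omega
    exact_mod_cast this
  have h := summand_bound_of_mem_verticalStrip (z := zpt n) h0 v (A := 0) (B := 1) one_pos
    (by
      rw [mem_verticalStrip_iff]
      constructor
      · simp [zpt, UpperHalfPlane.re]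
      · simp [zpt, UpperHalfPlane.im])
  refine le_trans (le_of_eq ?_) h
  rw [eisSummand, norm_zpow, ← Real.rpow_intCast]
  push_cast
  rfl

theorem tendsto_eisSummand {k : ℤ} (hk : 0 < k) (v : Fin 2 → ℤ) :
    Tendsto (fun n => eisSummand k v (zpt n)) atTop
      (𝓝 (if v 0 = 0 then ((v 1 : ℤ) : ℂ) ^ (-k) else 0)) := by
  split_ifs with h
  · simp only [eisSummand, h, Int.cast_zero, zero_mul, zero_add]
    exact tendsto_const_nhds
  · obtain ⟨m, rfl⟩ : ∃ m : ℕ, k = m := ⟨k.toNat, (Int.toNat_of_nonneg hk.le).symm⟩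
    have hm : 0 < m := by exact_mod_cast hk
    simp only [eisSummand, zpow_neg, zpow_natCast]
    have hv : (1 : ℝ) ≤ |(v 0 : ℝ)| := by
      have := Int.one_le_abs h
      exact_mod_cast this
    refine squeeze_zero_norm (a := fun n : ℕ => ((n : ℝ) + 1)⁻¹) (fun n => ?_) ?_
    · have h1 : (n : ℝ) + 1 ≤ ‖(v 0 : ℂ) * (zpt n : ℂ) + (v 1 : ℂ)‖ := by
        have h2 := Complex.abs_im_le_norm ((v 0 : ℂ) * (zpt n : ℂ) + (v 1 : ℂ))
        have h3 : ((v 0 : ℂ) * (zpt n : ℂ) + (v 1 : ℂ)).im = (v 0 : ℝ) * ((n : ℝ) + 1) := by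
          rw [coe_zpt]
          simp
        rw [h3, abs_mul, abs_of_pos (by positivity : (0 : ℝ) < (n : ℝ) + 1)] at h2
        refine le_trans ?_ h2
        have : (0 : ℝ) ≤ (n : ℝ) + 1 := by positivity
        nlinarith
      rw [norm_inv, norm_pow]
      have h4 : (1 : ℝ) ≤ (n : ℝ) + 1 := by
        have : (0 : ℝ) ≤ n := Nat.cast_nonneg n
        linarith
      refine inv_anti₀ (by positivity) ?_
      refine h1.trans ?_
      exact le_self_pow₀ (h4.trans h1) hm.ne'
    · have := tendsto_one_div_add_atTop_nhds_zero_nat (𝕜 := ℝ)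
      simpa using this

/-- the value of `E_a` at `i∞` -/
def limE (k : ℤ) (a : Fin 2 → ZMod N) : ℂ :=
  ∑' v : gammaSet N 1 a, if v.1 0 = 0 then ((v.1 1 : ℤ) : ℂ) ^ (-k) else 0

omit [NeZero N] in
theorem tendsto_eis {k : ℤ} (hk : 3 ≤ k) (a : Fin 2 → ZMod N) :
    Tendsto (fun n => eisensteinSeries a k (zpt n)) atTop (𝓝 (limE k a)) := by
  refine tendsto_tsum_of_dominated_convergence
    (bound := fun v : gammaSet N 1 a => r ⟨⟨0, 1⟩, one_pos⟩ ^ (-(k : ℝ)) * ‖v.1‖ ^ (-(k : ℝ)))
    ?_ ?_ ?_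
  · have hk' : (2 : ℝ) < k := by
      have : (2 : ℤ) < k := by omega
      exact_mod_cast this
    exact ((summable_one_div_norm_rpow hk').mul_left _).subtype _
  · intro v
    exact tendsto_eisSummand (by omega) v.1
  · exact Eventually.of_forall fun n v => eisSummand_zpt_bound hk v.1 n

omit [NeZero N] in
theorem eq_of_mem_gammaSet {a : Fin 2 → ZMod N} {v : Fin 2 → ℤ} (hv : v ∈ gammaSet N 1 a)
    (h0 : v 0 = 0) : v = ![0, 1] ∨ v = ![0, -1] := by
  have h1 := hv.2
  rw [h0] at h1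
  have h2 : (v 1).natAbs = 1 := by simpa using h1
  rcases Int.natAbs_eq_iff.mp h2 with h3 | h3
  · left
    ext i; fin_cases i
    · simpa using h0
    · simpa using h3
  · right
    ext i; fin_cases i
    · simpa using h0
    · simpa using h3

omit [NeZero N] in
theorem limE_ne_zero {k : ℤ} {a : Fin 2 → ZMod N} (h : limE k a ≠ 0) :
    a = ![0, 1] ∨ a = ![0, -1] := by
  by_contra hcon
  rw [not_or] at hcon
  apply h
  rw [limE]
  refine (tsum_congr fun v => ?_).trans tsum_zero
  split_ifs with h0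
  · exfalso
    have hred := v.2.1
    rcases eq_of_mem_gammaSet v.2 h0 with h1 | h1
    · apply hcon.1
      rw [← hred, h1]
      ext i; fin_cases i <;> simp
    · apply hcon.2
      rw [← hred, h1]
      ext i; fin_cases i <;> simp
  · rfl

omit [NeZero N] in
theorem limE_pos (hN : 3 ≤ N) (k : ℤ) : limE k (![0, 1] : Fin 2 → ZMod N) = 1 := by
  have hmem : (![0, 1] : Fin 2 → ℤ) ∈ gammaSet N 1 (![0, 1] : Fin 2 → ZMod N) := by
    refine ⟨?_, by simp⟩
    ext i; fin_cases i <;> simp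
  rw [limE, tsum_eq_single ⟨![0, 1], hmem⟩]
  · simp
  · rintro ⟨v, hv⟩ hne
    split_ifs with h0
    · exfalso
      rcases eq_of_mem_gammaSet hv h0 with h1 | h1
      · exact hne (Subtype.ext h1)
      · have h2 := congrFun hv.1 1
        subst h1
        simp only [Function.comp_apply, Matrix.cons_val_one, Matrix.cons_val_fin_one,
          Int.cast_neg, Int.cast_one] at h2
        have h3 : ((2 : ℕ) : ZMod N) = 0 := by
          push_cast
          linear_combination -h2
        rw [ZMod.natCast_eq_zero_iff] at h3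
        exact absurd (Nat.le_of_dvd two_pos h3) (by omega)
    · rfl

omit [NeZero N] in
theorem limE_neg (hN : 3 ≤ N) (k : ℤ) : limE k (![0, -1] : Fin 2 → ZMod N) = (-1) ^ (-k) := by
  have hmem : (![0, -1] : Fin 2 → ℤ) ∈ gammaSet N 1 (![0, -1] : Fin 2 → ZMod N) := by
    refine ⟨?_, by simp⟩
    ext i; fin_cases i <;> simp
  rw [limE, tsum_eq_single ⟨![0, -1], hmem⟩]
  · simp
  · rintro ⟨v, hv⟩ hne
    split_ifs with h0
    · exfalso
      rcases eq_of_mem_gammaSet hv h0 with h1 | h1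
      · have h2 := congrFun hv.1 1
        subst h1
        simp only [Function.comp_apply, Matrix.cons_val_one, Matrix.cons_val_fin_one,
          Int.cast_one] at h2
        have h3 : ((2 : ℕ) : ZMod N) = 0 := by
          push_cast
          linear_combination h2
        rw [ZMod.natCast_eq_zero_iff] at h3
        exact absurd (Nat.le_of_dvd two_pos h3) (by omega)
      · exact hne (Subtype.ext h1)
    · rfl

omit [NeZero N] in
/-- For odd weight and `N ≥ 3`, the Eisenstein series `E_{(0,1)}` separates the cosets of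
`Γ₁(N)`. -/
theorem separates_eis (hN : 3 ≤ N) {k : ℤ} (hk : 3 ≤ k) (hodd : Odd k) :
    Separates (Gamma1 N : Subgroup (GL (Fin 2) ℝ)) k
      (eisensteinSeries (![0, 1] : Fin 2 → ZMod N) k) := by
  intro g hg
  rw [eis_slash] at hg
  have h1 : limE k (vecPerm g (![0, 1] : Fin 2 → ZMod N)) = 1 := by
    rw [← limE_pos hN k]
    refine tendsto_nhds_unique (tendsto_eis hk _) ?_
    rw [hg]
    exact tendsto_eis hk _
  have h2 : vecPerm g (![0, 1] : Fin 2 → ZMod N) = ![0, 1] := by
    rcases limE_ne_zero (N := N) (h1 ▸ one_ne_zero) with h | h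
    · exact h
    · exfalso
      rw [h, limE_neg hN, zpow_neg, Odd.neg_one_zpow hodd] at h1
      norm_num at h1
  have h3 : vecPerm g (![0, 1] : Fin 2 → ZMod N) = ![((g 1 0 : ℤ) : ZMod N), ((g 1 1 : ℤ) : ZMod N)] := by
    ext i
    fin_cases i <;> simp [vecPerm, Matrix.vecMul, Matrix.vecHead, Matrix.vecTail]
  rw [h3] at h2
  have h10 : ((g 1 0 : ℤ) : ZMod N) = 0 := congrFun h2 0
  have h11 : ((g 1 1 : ℤ) : ZMod N) = 1 := congrFun h2 1
  refine ⟨g, ?_, rfl⟩
  change g ∈ Gamma1 N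
  rw [Gamma1_mem]
  refine ⟨?_, h11, h10⟩
  have hdet := g.det_coe
  rw [Matrix.det_fin_two] at hdet
  have h4 := congrArg (fun x : ℤ => (x : ZMod N)) hdet
  simp only [Int.cast_sub, Int.cast_mul, h10, h11, mul_one, mul_zero, sub_zero, Int.cast_one] at h4
  exact h4

end Fermat.Agent.DS
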