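import Fermat.Agent.DS.EisLim

/-!
# Twisted Lipschitz formula and the `q`-expansions of the rational Eisenstein series
-/

set_option autoImplicit false

open UpperHalfPlane ModularForm MatrixGroups CongruenceSubgroup Matrix.SpecialLinearGroup
open EisensteinSeries Filter Topology
open scoped Manifold Real Nat
open Fermat.Agent.IntStr

noncomputable section

namespace Fermat.Agent.DS

variable {N : ℕ} [NeZero N]

/-- `(-2πi)^k/(k-1)!` -/
def Ck (k : ℕ) : ℂ := (-2 * π * Complex.I) ^ k / (k - 1)!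

theorem Ck_ne_zero (k : ℕ) : Ck k ≠ 0 := by
  unfold Ck
  refine div_ne_zero (pow_ne_zero _ ?_) (by exact_mod_cast Nat.factorial_ne_zero _)
  simp [Real.pi_ne_zero, Complex.I_ne_zero]

theorem stdAddChar_natCast (j : ℕ) :
    ZMod.stdAddChar (j : ZMod N) = Complex.exp (2 * π * Complex.I * j / N) := by
  have := ZMod.stdAddChar_coe (N := N) (j : ℤ)
  simpa using this

theorem norm_std (x : ZMod N) : ‖(ZMod.stdAddChar x : ℂ)‖ = 1 := by
  rw [ZMod.stdAddChar_apply]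
  exact Circle.norm_coe _

theorem sum_fin_stdAddChar (x : ZMod N) :
    ∑ b : Fin N, ZMod.stdAddChar (x * ((b : ℕ) : ZMod N)) = if x = 0 then (N : ℂ) else 0 := by
  have h := AddChar.sum_mulShift (R := ZMod N) (ψ := (ZMod.stdAddChar : AddChar (ZMod N) ℂ)) x
    (ZMod.isPrimitive_stdAddChar N)
  rw [ZMod.card] at h
  have h2 : ∑ b : Fin N, ZMod.stdAddChar (x * ((b : ℕ) : ZMod N)) =
      ∑ y : ZMod N, (ZMod.stdAddChar (y * x) : ℂ) := by
    refine Fintype.sum_bijective (fun b : Fin N => ((b : ℕ) : ZMod N)) ?_ _ _ ?_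
    · rw [Fintype.bijective_iff_injective_and_card]
      refine ⟨?_, by simp [ZMod.card]⟩
      intro a b hab
      have h3 := (ZMod.natCast_eq_natCast_iff' _ _ _).mp hab
      rw [Nat.mod_eq_of_lt a.2, Nat.mod_eq_of_lt b.2] at h3
      exact Fin.ext h3
    · intro b
      rw [mul_comm]
  rw [h2, h]
  push_cast
  rfl

/-- the shifted point `w + b/N` -/
def shiftPt (w : ℍ) (x : ℝ) : ℍ := ⟨(w : ℂ) + x, by simpa using w.2⟩

theorem summable_qm (k : ℕ) (z : ℍ) :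
    Summable fun m : ℕ => (m : ℂ) ^ k * Complex.exp (2 * π * Complex.I * z) ^ m := by
  have := summable_pow_mul_cexp k 1 z
  refine this.congr fun c => ?_
  simp

/-- **Twisted Lipschitz formula**. -/
theorem twisted_lipschitz {k : ℕ} (hk : 3 ≤ k) (r : ZMod N) (w : ℍ) :
    ∑' d : ℤ, ZMod.stdAddChar (r * (d : ZMod N)) * (((N : ℂ) * w + d) ^ k)⁻¹ =
      (N : ℂ) ^ (1 - k : ℤ) * Ck k * ∑' m : ℕ, (if (m : ZMod N) = -r then (m : ℂ) ^ (k - 1) else 0) *
        Complex.exp (2 * π * Complex.I * w) ^ m := by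
  have hN : (N : ℂ) ≠ 0 := by exact_mod_cast NeZero.ne N
  have hNpos : (0 : ℝ) < N := by exact_mod_cast Nat.pos_of_ne_zero (NeZero.ne N)
  -- summability
  have hsum : Summable fun d : ℤ => ZMod.stdAddChar (r * (d : ZMod N)) *
      (((N : ℂ) * w + d) ^ k)⁻¹ := by
    have h1 := linear_right_summable ((w : ℂ)) (N : ℤ) (k := (k : ℤ)) (by omega)
    refine Summable.of_norm_bounded h1.norm fun d => ?_
    rw [norm_mul]
    rw [norm_std, one_mul, zpow_natCast]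
    simp
  -- split mod `N`
  have h1 : ∑' d : ℤ, ZMod.stdAddChar (r * (d : ZMod N)) * (((N : ℂ) * w + d) ^ k)⁻¹ =
      ∑ b : Fin N, ∑' n : ℤ, ZMod.stdAddChar (r * ((b : ℕ) : ZMod N)) * (((N : ℂ) ^ k)⁻¹ *
        (((shiftPt w ((b : ℕ) / N) : ℍ) : ℂ) + n) ^ (-k : ℤ)) := by
    rw [← (Int.divModEquiv N).symm.tsum_eq]
    have hs2 := (Int.divModEquiv N).symm.summable_iff.mpr hsum
    have h3 : ∀ p : ℤ × Fin N, (fun d : ℤ => ZMod.stdAddChar (r * (d : ZMod N)) *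
        (((N : ℂ) * w + d) ^ k)⁻¹) ((Int.divModEquiv N).symm p) =
        ZMod.stdAddChar (r * ((p.2 : ℕ) : ZMod N)) * (((N : ℂ) ^ k)⁻¹ *
        (((shiftPt w ((p.2 : ℕ) / N) : ℍ) : ℂ) + p.1) ^ (-k : ℤ)) := by
      rintro ⟨n, b⟩
      simp only [Int.divModEquiv_symm_apply]
      have e1 : (((n * N + (b : ℕ) : ℤ)) : ZMod N) = ((b : ℕ) : ZMod N) := by
        push_cast; simp
      rw [e1]
      congr 1
      have e2 : (N : ℂ) * w + ((n * N + (b : ℕ) : ℤ) : ℂ) =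
          N * (((shiftPt w ((b : ℕ) / N) : ℍ) : ℂ) + n) := by
        simp only [shiftPt]
        push_cast
        field_simp
        ring
      rw [e2, mul_pow, mul_inv, zpow_neg, zpow_natCast]
    have hs3 : Summable fun p : ℤ × Fin N => ZMod.stdAddChar (r * ((p.2 : ℕ) : ZMod N)) *
        (((N : ℂ) ^ k)⁻¹ * (((shiftPt w ((p.2 : ℕ) / N) : ℍ) : ℂ) + p.1) ^ (-k : ℤ)) :=
      hs2.congr fun p => h3 p
    rw [tsum_congr h3, ← (Equiv.prodComm (Fin N) ℤ).tsum_eq]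
    have hs4 := (Equiv.prodComm (Fin N) ℤ).summable_iff.mpr hs3
    have hs5 : Summable fun p : Fin N × ℤ => ZMod.stdAddChar (r * ((p.1 : ℕ) : ZMod N)) *
        (((N : ℂ) ^ k)⁻¹ * (((shiftPt w ((p.1 : ℕ) / N) : ℍ) : ℂ) + p.2) ^ (-k : ℤ)) := hs4
    change ∑' p : Fin N × ℤ, ZMod.stdAddChar (r * ((p.1 : ℕ) : ZMod N)) *
        (((N : ℂ) ^ k)⁻¹ * (((shiftPt w ((p.1 : ℕ) / N) : ℍ) : ℂ) + p.2) ^ (-k : ℤ)) = _
    rw [hs5.tsum_prod, tsum_fintype]
  rw [h1]
  -- Lipschitz for each class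
  have h2 : ∀ b : Fin N, ∑' n : ℤ, ZMod.stdAddChar (r * ((b : ℕ) : ZMod N)) *
      (((N : ℂ) ^ k)⁻¹ * (((shiftPt w ((b : ℕ) / N) : ℍ) : ℂ) + n) ^ (-k : ℤ)) =
      ∑' m : ℕ, ((N : ℂ) ^ k)⁻¹ * Ck k * ((m : ℂ) ^ (k - 1) *
        Complex.exp (2 * π * Complex.I * w) ^ m) *
        ZMod.stdAddChar ((r + (m : ZMod N)) * ((b : ℕ) : ZMod N)) := by
    intro b
    rw [tsum_mul_left, tsum_mul_left]
    have h3 := EisensteinSeries.qExpansion_identity (k := k - 1) (by omega)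
      (shiftPt w ((b : ℕ) / N))
    rw [show k - 1 + 1 = k by omega] at h3
    have h4 : ∀ n : ℤ, (((shiftPt w ((b : ℕ) / N) : ℍ) : ℂ) + n) ^ (-k : ℤ) =
        1 / (((shiftPt w ((b : ℕ) / N) : ℍ) : ℂ) + n) ^ k := by
      intro n
      rw [zpow_neg, zpow_natCast, one_div]
    rw [tsum_congr h4, h3, ← tsum_mul_left, ← tsum_mul_left, ← tsum_mul_left]
    refine tsum_congr fun m => ?_
    have h5 : Complex.exp (2 * π * Complex.I * ((shiftPt w ((b : ℕ) / N) : ℍ) : ℂ)) ^ m =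
        Complex.exp (2 * π * Complex.I * w) ^ m *
          ZMod.stdAddChar ((m : ZMod N) * ((b : ℕ) : ZMod N)) := by
      have e3 : ((m : ZMod N) * ((b : ℕ) : ZMod N)) = ((m * b : ℕ) : ZMod N) := by push_cast; rfl
      rw [e3, stdAddChar_natCast, ← Complex.exp_nat_mul, ← Complex.exp_nat_mul, ← Complex.exp_add]
      congr 1
      simp only [shiftPt]
      push_cast
      field_simp
    rw [h5, add_mul, AddChar.map_add_eq_mul, Ck]
    ring
  rw [Finset.sum_congr rfl fun b _ => h2 b, ← Summable.tsum_finsetSum, ← tsum_mul_left]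
  · refine tsum_congr fun m => ?_
    rw [← Finset.mul_sum, sum_fin_stdAddChar]
    have e4 : (r + (m : ZMod N) = 0) ↔ ((m : ZMod N) = -r) := by
      rw [add_comm]; exact add_eq_zero_iff_eq_neg
    have e5 : (N : ℂ) ^ (1 - k : ℤ) = ((N : ℂ) ^ k)⁻¹ * N := by
      rw [zpow_sub₀ hN, zpow_one, zpow_natCast]
      field_simp
    rw [e5]
    by_cases hm : (m : ZMod N) = -r
    · rw [if_pos (e4.mpr hm), if_pos hm]; ring
    · rw [if_neg (fun h => hm (e4.mp h)), if_neg hm]; ring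
  · intro b _
    have h6 := ((summable_qm (k - 1) w).mul_left (((N : ℂ) ^ k)⁻¹ * Ck k))
    refine Summable.of_norm_bounded h6.norm fun m => ?_
    rw [norm_mul]
    rw [norm_std, mul_one]

end Fermat.Agent.DS
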