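import Fermat.Agent.DS.EisLip

/-!
# The `q`-expansions of the rational Eisenstein series `H_r`
-/

set_option autoImplicit false

open UpperHalfPlane ModularForm MatrixGroups CongruenceSubgroup Matrix.SpecialLinearGroup
open EisensteinSeries Filter Topology
open scoped Manifold Real Nat
open Fermat.Agent.IntStr

noncomputable section

namespace Fermat.Agent.DS

variable {N : ℕ} [NeZero N]

/-! ### double sums -/

theorem hasSum_divisors {j : ℕ} {A : ℝ} {ω : ℕ → ℂ} (hω : ∀ m, ‖ω m‖ ≤ A * (m : ℝ) ^ j)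
    (h0 : ω 0 = 0) {q : ℂ} (hq : ‖q‖ < 1) :
    HasSum (fun n : ℕ+ => (∑ p ∈ (n : ℕ).divisorsAntidiagonal, ω p.2) * q ^ (n : ℕ))
      (∑' c : ℕ+, ∑' m : ℕ, ω m * q ^ ((c : ℕ) * m)) := by
  have h1 : Summable fun c : ℕ+ × ℕ+ => ω c.2 * q ^ ((c.1 : ℕ) * (c.2 : ℕ)) := by
    have h2 := (summable_prod_mul_pow j hq).norm.mul_left A
    refine Summable.of_norm_bounded h2 fun c => ?_
    rw [norm_mul, norm_mul, ← mul_assoc]
    refine mul_le_mul_of_nonneg_right ?_ (norm_nonneg _)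
    have := hω c.2
    simpa using this
  have h3 : ∑' c : ℕ+, ∑' m : ℕ, ω m * q ^ ((c : ℕ) * m) =
      ∑' p : ℕ+ × ℕ+, ω p.2 * q ^ ((p.1 : ℕ) * (p.2 : ℕ)) := by
    rw [h1.tsum_prod]
    refine tsum_congr fun c => ?_
    exact (tsum_pnat_eq_tsum_of_eq_zero (f := fun m => ω m * q ^ ((c : ℕ) * m))
      (by simp [h0])).symm
  rw [h3]
  have h4 : HasSum (fun x : (Σ n : ℕ+, Nat.divisorsAntidiagonal n) =>
      ω (sigmaAntidiagonalEquivProd x).2 *
        q ^ (((sigmaAntidiagonalEquivProd x).1 : ℕ) * ((sigmaAntidiagonalEquivProd x).2 : ℕ)))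
      (∑' p : ℕ+ × ℕ+, ω p.2 * q ^ ((p.1 : ℕ) * (p.2 : ℕ))) :=
    (sigmaAntidiagonalEquivProd.hasSum_iff
      (f := fun p : ℕ+ × ℕ+ => ω p.2 * q ^ ((p.1 : ℕ) * (p.2 : ℕ)))).mpr h1.hasSum
  refine h4.sigma fun n => ?_
  have h5 : (∑ p ∈ (n : ℕ).divisorsAntidiagonal, ω p.2) * q ^ (n : ℕ) =
      ∑ x : Nat.divisorsAntidiagonal n, ω x.1.2 * q ^ (x.1.1 * x.1.2) := by
    rw [Finset.sum_mul, ← Finset.sum_coe_sort]
    refine Finset.sum_congr rfl fun x _ => ?_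
    have := (Nat.mem_divisorsAntidiagonal.mp x.2).1
    rw [this]
  rw [h5]
  exact hasSum_fintype _

/-! ### the functions `H_r` -/

/-- the function on `(ℤ/N)²` defining `H_r` -/
def Hf (r : ZMod N) (b : Fin 2 → ZMod N) : ℂ :=
  if b 0 = 0 then ZMod.stdAddChar (r * b 1) else 0

/-- `S_r(c) = ∑_d ζ^{rd} (N c z + d)^{-k}` -/
def Sr (k : ℕ) (r : ZMod N) (z : ℍ) (c : ℤ) : ℂ :=
  ∑' d : ℤ, ZMod.stdAddChar (r * (d : ZMod N)) * (((N : ℂ) * (c * z) + d) ^ k)⁻¹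

/-- the map `(c, d) ↦ (N c, d)` -/
def ncd (N : ℕ) (p : ℤ × ℤ) : Fin 2 → ℤ := ![N * p.1, p.2]

theorem ncd_injective : Function.Injective (ncd N) := by
  rintro ⟨a, b⟩ ⟨c, d⟩ h
  have h0 := congrFun h 0
  have h1 := congrFun h 1
  simp only [ncd, Matrix.cons_val_zero, Matrix.cons_val_one, Matrix.cons_val_fin_one] at h0 h1
  have hN : (N : ℤ) ≠ 0 := by exact_mod_cast NeZero.ne N
  rw [mul_right_inj' hN] at h0
  rw [h0, h1]

theorem Hf_ncd (k : ℕ) (r : ZMod N) (z : ℍ) (p : ℤ × ℤ) :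
    Hf r (red N (ncd N p)) * eisSummand k (ncd N p) z =
      ZMod.stdAddChar (r * (p.2 : ZMod N)) * (((N : ℂ) * (p.1 * z) + p.2) ^ k)⁻¹ := by
  have h0 : red N (ncd N p) 0 = 0 := by simp [red, ncd]
  have h1 : red N (ncd N p) 1 = (p.2 : ZMod N) := by simp [red, ncd]
  rw [Hf, if_pos h0, h1, eisSummand, zpow_neg, zpow_natCast]
  simp only [ncd, Matrix.cons_val_zero, Matrix.cons_val_one, Matrix.cons_val_fin_one]
  push_cast
  rw [mul_assoc]

theorem summable_latSum {k : ℕ} (hk : 3 ≤ k) (f : (Fin 2 → ZMod N) → ℂ) (z : ℍ) :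
    Summable fun v : Fin 2 → ℤ => f (red N v) * eisSummand k v z := by
  have hk2 : 3 ≤ (k : ℤ) := mod_cast hk
  obtain ⟨C, hC0, hC⟩ := exists_bound_fin f
  refine Summable.of_norm_bounded ((summable_norm_eisSummand hk2 z).mul_left C) fun v => ?_
  rw [norm_mul]
  exact mul_le_mul_of_nonneg_right (hC _) (norm_nonneg _)

theorem latSum_Hf {k : ℕ} (hk : 3 ≤ k) (r : ZMod N) (z : ℍ) :
    HasSum (Sr k r z) (∑' v : Fin 2 → ℤ, Hf r (red N v) * eisSummand k v z) := by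
  have h1 := summable_latSum hk (Hf r) z
  have h2 : Summable fun p : ℤ × ℤ => ZMod.stdAddChar (r * (p.2 : ZMod N)) *
      (((N : ℂ) * (p.1 * z) + p.2) ^ k)⁻¹ :=
    (h1.comp_injective (ncd_injective (N := N))).congr fun p => Hf_ncd k r z p
  have h3 : ∑' v : Fin 2 → ℤ, Hf r (red N v) * eisSummand k v z =
      ∑' p : ℤ × ℤ, ZMod.stdAddChar (r * (p.2 : ZMod N)) *
        (((N : ℂ) * (p.1 * z) + p.2) ^ k)⁻¹ := by
    rw [← tsum_congr (Hf_ncd k r z)]
    symm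
    refine (ncd_injective (N := N)).tsum_eq (f := fun v => Hf r (red N v) * eisSummand k v z) ?_
    intro v hv
    rw [Function.mem_support] at hv
    have h4 : red N v 0 = 0 := by
      by_contra hcon
      apply hv
      rw [Hf, if_neg hcon, zero_mul]
    obtain ⟨c, hc⟩ := (ZMod.intCast_zmod_eq_zero_iff_dvd _ N).mp h4
    refine ⟨(c, v 1), ?_⟩
    ext i
    fin_cases i
    · simp [ncd, hc]
    · simp [ncd]
  rw [h3]
  exact h2.hasSum.prod_fiberwise fun c => (h2.prod_factor c).hasSum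

theorem Sr_neg (k : ℕ) (r : ZMod N) (z : ℍ) (c : ℤ) :
    Sr k r z (-c) = (-1) ^ k * Sr k (-r) z c := by
  rw [Sr, Sr, ← tsum_mul_left, ← (Equiv.neg ℤ).tsum_eq]
  refine tsum_congr fun d => ?_
  simp only [Equiv.neg_apply]
  have h1 : r * ((-d : ℤ) : ZMod N) = -r * (d : ZMod N) := by push_cast; ring
  have h2 : (N : ℂ) * (((-c : ℤ) : ℂ) * z) + ((-d : ℤ) : ℂ) = -((N : ℂ) * (c * z) + d) := by
    push_cast; ring
  rw [h1, h2, neg_pow, mul_inv]
  have h3 : ((-1 : ℂ) ^ k)⁻¹ = (-1) ^ k := by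
    rcases neg_one_pow_eq_or ℂ k with h | h <;> rw [h] <;> norm_num
  rw [h3]
  ring

/-- the divisor weight -/
def omZ (k : ℕ) (r : ZMod N) (m : ℕ) : ℤ :=
  (m : ℤ) ^ (k - 1) * ((if (m : ZMod N) = -r then 1 else 0) +
    (-1) ^ k * (if (m : ZMod N) = r then 1 else 0))

theorem Sr_pos {k : ℕ} (hk : 3 ≤ k) (r : ZMod N) (z : ℍ) (c : ℕ+) :
    Sr k r z (c : ℕ) = (N : ℂ) ^ (1 - k : ℤ) * Ck k *
      ∑' m : ℕ, (if (m : ZMod N) = -r then (m : ℂ) ^ (k - 1) else 0) *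
        Complex.exp (2 * π * Complex.I * z) ^ ((c : ℕ) * m) := by
  have hc : 0 < ((c : ℕ) * (z : ℂ)).im := by
    have := z.2
    simp only [Complex.mul_im, Complex.natCast_re, Complex.natCast_im, zero_mul, add_zero]
    have h2 : (0 : ℝ) < (c : ℕ) := by exact_mod_cast c.pos
    positivity
  have h := twisted_lipschitz hk r (⟨(c : ℕ) * (z : ℂ), hc⟩ : ℍ)
  rw [Sr]
  have h2 : ((⟨(c : ℕ) * (z : ℂ), hc⟩ : ℍ) : ℂ) = (c : ℕ) * (z : ℂ) := rfl
  rw [h2] at h
  simp only [Int.cast_natCast]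
  rw [h]
  congr 1
  refine tsum_congr fun m => ?_
  congr 1
  rw [pow_mul]
  congr 1
  rw [← Complex.exp_nat_mul]
  congr 1
  ring

theorem norm_exp_lt_one (z : ℍ) : ‖Complex.exp (2 * π * Complex.I * z)‖ < 1 :=
  norm_exp_two_pi_I_lt_one z

omit [NeZero N] in
theorem norm_omega_le (k : ℕ) (r : ZMod N) (m : ℕ) :
    ‖((omZ k r m : ℤ) : ℂ)‖ ≤ 2 * (m : ℝ) ^ (k - 1) := by
  rw [omZ]
  push_cast
  rw [norm_mul, norm_pow, Complex.norm_natCast, mul_comm]
  refine mul_le_mul_of_nonneg_right ?_ (by positivity)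
  refine (norm_add_le _ _).trans ?_
  have h1 : ‖(if (m : ZMod N) = -r then (1 : ℂ) else 0)‖ ≤ 1 := by split_ifs <;> simp
  have h2 : ‖(-1 : ℂ) ^ k * (if (m : ZMod N) = r then (1 : ℂ) else 0)‖ ≤ 1 := by
    rw [norm_mul, norm_pow, norm_neg, norm_one, one_pow, one_mul]
    split_ifs <;> simp
  linarith

/-- The `q`-expansion of the full lattice sum. -/
theorem hasSum_H {k : ℕ} (hk : 3 ≤ k) (r : ZMod N) (z : ℍ) :
    HasSum (fun n : ℕ+ => (N : ℂ) ^ (1 - k : ℤ) * Ck k *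
      ((∑ p ∈ (n : ℕ).divisorsAntidiagonal, ((omZ k r p.2 : ℤ) : ℂ)) *
        Complex.exp (2 * π * Complex.I * z) ^ (n : ℕ)))
      (eisSum k (kappa k (Hf r)) z - Sr k r z 0) := by
  set q := Complex.exp (2 * π * Complex.I * z) with hq
  have hq1 : ‖q‖ < 1 := norm_exp_lt_one z
  have hk0 : k - 1 ≠ 0 := by omega
  have hmain := hasSum_divisors (j := k - 1) (A := 2) (ω := fun m => ((omZ k r m : ℤ) : ℂ))
    (norm_omega_le k r) (by simp [omZ, hk0]) hq1
  have h1 := (latSum_Hf hk r z)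
  rw [latSum_eq hk] at h1
  have h2 := tsum_int_eq_zero_add_tsum_pnat h1.summable
  rw [h1.tsum_eq] at h2
  have h3 : eisSum k (kappa k (Hf r)) z - Sr k r z 0 = (N : ℂ) ^ (1 - k : ℤ) * Ck k *
      ∑' c : ℕ+, ∑' m : ℕ, ((omZ k r m : ℤ) : ℂ) * q ^ ((c : ℕ) * m) := by
    rw [h2, add_assoc, add_sub_cancel_left, ← tsum_mul_left]
    have hs1 : Summable fun n : ℕ+ => Sr k r z (n : ℕ) :=
      h1.summable.comp_injective (i := fun n : ℕ+ => ((n : ℕ) : ℤ))
        (fun a b (h : ((a : ℕ) : ℤ) = ((b : ℕ) : ℤ)) => PNat.eq (by exact_mod_cast h))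
    have hs2 : Summable fun n : ℕ+ => Sr k r z (-((n : ℕ) : ℤ)) :=
      h1.summable.comp_injective (i := fun n : ℕ+ => -((n : ℕ) : ℤ))
        (fun a b (h : -((a : ℕ) : ℤ) = -((b : ℕ) : ℤ)) => PNat.eq (by
          have := neg_injective h
          exact_mod_cast this))
    rw [← hs1.tsum_add hs2]
    refine tsum_congr fun c => ?_
    rw [Sr_neg, Sr_pos hk, Sr_pos hk]
    rw [mul_left_comm, ← mul_add]
    congr 1
    rw [← tsum_mul_left, ← Summable.tsum_add]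
    · refine tsum_congr fun m => ?_
      rw [omZ, neg_neg]
      push_cast
      split_ifs <;> ring
    · have hs := (summable_norm_pow_mul_geometric_of_norm_lt_one (k - 1)
        (r := q ^ (c : ℕ)) (by
          rw [norm_pow]; exact pow_lt_one₀ (norm_nonneg _) hq1 c.ne_zero))
      refine Summable.of_norm_bounded hs fun m => ?_
      rw [pow_mul]
      split_ifs
      · exact le_rfl
      · rw [zero_mul, norm_zero]; positivity
    · have hs := (summable_norm_pow_mul_geometric_of_norm_lt_one (k - 1)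
        (r := q ^ (c : ℕ)) (by
          rw [norm_pow]; exact pow_lt_one₀ (norm_nonneg _) hq1 c.ne_zero))
      refine Summable.mul_left _ (Summable.of_norm_bounded hs fun m => ?_)
      rw [pow_mul]
      split_ifs
      · exact le_rfl
      · rw [zero_mul, norm_zero]; positivity
  rw [h3]
  exact hmain.mul_left _

end Fermat.Agent.DS
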