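import Fermat.Agent.DS.RatAssembly

/-!
# Eisenstein series of level `N`: full lattice sums versus sums over coprime pairs

`eisSum k c = ∑_b c(b) E_b` for `c : (ℤ/N)² → ℂ`, where `E_b` is Mathlib's Eisenstein series (sum over
coprime pairs congruent to `b`); `kappa k f` is such that the full lattice sum
`∑_v f(v) (v₀ z + v₁)^{-k}` is `eisSum k (kappa k f)`.
-/

set_option autoImplicit false

open UpperHalfPlane ModularForm MatrixGroups CongruenceSubgroup Matrix.SpecialLinearGroup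
open EisensteinSeries Filter Topology
open scoped Manifold
open Fermat.Agent.IntStr

noncomputable section

namespace Fermat.Agent.DS

variable {N : ℕ} [NeZero N]

/-! ### good level -/

instance goodLevel_Gamma1 (N : ℕ) [NeZero N] :
    GoodLevel (Gamma1 N : Subgroup (GL (Fin 2) ℝ)) where
  arith := inferInstance
  le := by
    rintro _ ⟨g, -, rfl⟩
    exact ⟨g, rfl⟩
  per := by
    rw [CongruenceSubgroup.strictPeriods_Gamma1]
    exact AddSubgroup.mem_zmultiples (1 : ℝ)

/-- reduction of an integer vector mod `N` -/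
def red (N : ℕ) (v : Fin 2 → ℤ) : Fin 2 → ZMod N := fun i => (v i : ZMod N)

/-- `∑_b c(b) E_b`, sums over coprime pairs -/
def eisSum (k : ℤ) (c : (Fin 2 → ZMod N) → ℂ) : ℍ → ℂ :=
  ∑ b : Fin 2 → ZMod N, c b • (eisensteinSeries b k : ℍ → ℂ)

theorem eisSum_apply (k : ℤ) (c : (Fin 2 → ZMod N) → ℂ) (z : ℍ) :
    eisSum k c z = ∑ b : Fin 2 → ZMod N, c b * eisensteinSeries b k z := by
  simp [eisSum]

theorem eisSum_add (k : ℤ) (c c' : (Fin 2 → ZMod N) → ℂ) :
    eisSum k (c + c') = eisSum k c + eisSum k c' := by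
  simp [eisSum, add_smul, Finset.sum_add_distrib]

theorem eisSum_smul (k : ℤ) (a : ℂ) (c : (Fin 2 → ZMod N) → ℂ) :
    eisSum k (a • c) = a • eisSum k c := by
  simp [eisSum, mul_smul, Finset.smul_sum]

theorem eisSum_sum (k : ℤ) {ι : Type*} (s : Finset ι) (c : ι → (Fin 2 → ZMod N) → ℂ) :
    eisSum k (∑ i ∈ s, c i) = ∑ i ∈ s, eisSum k (c i) := by
  classical
  induction s using Finset.induction_on with
  | empty => simp [eisSum]
  | insert a s ha ih => rw [Finset.sum_insert ha, Finset.sum_insert ha, eisSum_add, ih]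

/-- right multiplication by `γ` as a permutation of `(ℤ/N)²` -/
def vecPerm (γ : SL(2, ℤ)) : (Fin 2 → ZMod N) ≃ (Fin 2 → ZMod N) where
  toFun b := Matrix.vecMul b ((γ : SL(2, ZMod N)) : Matrix (Fin 2) (Fin 2) (ZMod N))
  invFun b := Matrix.vecMul b (((γ⁻¹ : SL(2, ℤ)) : SL(2, ZMod N)) : Matrix (Fin 2) (Fin 2) (ZMod N))
  left_inv b := by
    simp only [Matrix.vecMul_vecMul, ← Matrix.SpecialLinearGroup.coe_mul, map_inv, mul_inv_cancel,
      Matrix.SpecialLinearGroup.coe_one, Matrix.vecMul_one]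
  right_inv b := by
    simp only [Matrix.vecMul_vecMul, ← Matrix.SpecialLinearGroup.coe_mul, map_inv, inv_mul_cancel,
      Matrix.SpecialLinearGroup.coe_one, Matrix.vecMul_one]

omit [NeZero N] in
theorem eis_slash (k : ℤ) (γ : SL(2, ℤ)) (b : Fin 2 → ZMod N) :
    (eisensteinSeries b k : ℍ → ℂ) ∣[k] γ = eisensteinSeries (vecPerm γ b) k :=
  eisensteinSeries_slash_apply b k γ

theorem eisSum_slash (k : ℤ) (c : (Fin 2 → ZMod N) → ℂ) (γ : SL(2, ℤ)) :
    (eisSum k c) ∣[k] γ = eisSum k (c ∘ (vecPerm γ).symm) := by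
  rw [eisSum, SL_slash, SlashAction.sum_slash, eisSum]
  rw [← Equiv.sum_comp (vecPerm γ) (fun b => (c ∘ (vecPerm γ).symm) b •
    (eisensteinSeries b k : ℍ → ℂ))]
  refine Finset.sum_congr rfl fun b _ => ?_
  rw [← SL_slash, SL_smul_slash, eis_slash, Function.comp_apply, Equiv.symm_apply_apply]

theorem eisSum_mdiff {k : ℤ} (hk : 3 ≤ k) (c : (Fin 2 → ZMod N) → ℂ) : MDiff (eisSum k c) := by
  refine MDifferentiable.sum ?_
  intro b _
  have h := eisensteinSeriesSIF_mdifferentiable hk b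
  exact (h.const_smul (c b))

theorem eisSum_bdd {k : ℤ} (hk : 3 ≤ k) (c : (Fin 2 → ZMod N) → ℂ) :
    IsBoundedAtImInfty (eisSum k c) := by
  rw [IsBoundedAtImInfty, Filter.BoundedAtFilter, eisSum, Finset.sum_fn]
  refine Asymptotics.IsBigO.fun_sum fun b _ => ?_
  have h := isBoundedAtImInfty_eisensteinSeriesSIF b hk 1
  rw [SlashAction.slash_one] at h
  exact Asymptotics.IsBigO.const_smul_left h (c b)

/-- If `c` is invariant under `Γ`, then `eisSum k c` is a form on `Γ`. -/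
theorem isMG_eisSum {k : ℤ} (hk : 3 ≤ k) (Γ : Subgroup SL(2, ℤ))
    [(Γ : Subgroup (GL (Fin 2) ℝ)).IsArithmetic] (c : (Fin 2 → ZMod N) → ℂ)
    (hc : ∀ γ ∈ Γ, c ∘ (vecPerm γ).symm = c) :
    IsMG (Γ : Subgroup (GL (Fin 2) ℝ)) k (eisSum k c) := by
  refine ⟨{ toFun := eisSum k c
            slash_action_eq' := ?_
            holo' := eisSum_mdiff hk c
            bdd_at_cusps' := ?_ }, rfl⟩
  · rintro _ ⟨γ, hγ, rfl⟩
    have h := eisSum_slash k c γ
    rw [hc γ hγ] at h
    exact h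
  · intro x hx
    rw [Subgroup.IsArithmetic.isCusp_iff_isCusp_SL2Z] at hx
    rw [OnePoint.isBoundedAt_iff_forall_SL2Z hx]
    intro γ _
    have h := eisSum_slash k c γ
    change IsBoundedAtImInfty ((eisSum k c) ∣[k] γ)
    rw [h]
    exact eisSum_bdd hk _

end Fermat.Agent.DS
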