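import Mathlib
import Fermat.Agent.DS.EisForm
import Fermat.Agent.DS.Level

/-!
# Teichmüller characters attached to a ring homomorphism `φ : Zb → k`, and the Eisenstein series
congruent to `1`
-/

set_option autoImplicit false

open UpperHalfPlane hiding I
open Complex Filter Topology Function CongruenceSubgroup
open scoped MatrixGroups ModularForm Manifold Matrix Real

namespace Fermat.Agent.DS.Eis

variable {ℓ : ℕ} [Fact ℓ.Prime] {k : Type*} [Field k] [CharP k ℓ]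

/-- Roots of unity of order prime to `ℓ` lift uniquely. -/
theorem exists_primitive (φ : Zb →+* k) : ∃ ζ : Zb, IsPrimitiveRoot ζ (ℓ - 1) ∧
    IsPrimitiveRoot (φ ζ) (ℓ - 1) := by
  have hp : ℓ.Prime := Fact.out
  have hpos : 0 < ℓ - 1 := Nat.sub_pos_of_lt hp.one_lt
  have h1 := Complex.isPrimitiveRoot_exp (ℓ - 1) hpos.ne'
  have hint : IsIntegral ℤ (Complex.exp (2 * π * Complex.I / ((ℓ - 1 : ℕ) : ℂ))) :=
    h1.isIntegral hpos
  let ζ : Zb := ⟨_, hint⟩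
  have hζ : IsPrimitiveRoot ζ (ℓ - 1) := by
    refine IsPrimitiveRoot.of_map_of_injective (f := (algebraMap Zb ℂ)) ?_ Subtype.val_injective
    exact h1
  refine ⟨ζ, hζ, ?_⟩
  have hne : NeZero ((ℓ - 1 : ℕ) : k) := by
    refine ⟨?_⟩
    rw [Ne, CharP.cast_eq_zero_iff k ℓ]
    intro h
    have := Nat.le_of_dvd hpos h
    omega
  rw [← Polynomial.isRoot_cyclotomic_iff, ← Polynomial.map_cyclotomic (ℓ - 1) φ]
  exact (hζ.isRoot_cyclotomic hpos).map

/-- The Teichmüller character (inverse). -/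
theorem exists_teich (φ : Zb →+* k) : ∃ χ : DirichletCharacter Zb ℓ,
    ∀ a : ZMod ℓ, a ≠ 0 → φ (χ a) * (a.val : k) = 1 := by
  have hp : ℓ.Prime := Fact.out
  have hpos : 0 < ℓ - 1 := Nat.sub_pos_of_lt hp.one_lt
  have : NeZero (ℓ - 1) := ⟨hpos.ne'⟩
  obtain ⟨ζ, hζ, hφζ⟩ := exists_primitive (ℓ := ℓ) φ
  let ρ : rootsOfUnity (ℓ - 1) Zb →* rootsOfUnity (ℓ - 1) k := restrictRootsOfUnity φ (ℓ - 1)
  have hinj : Injective ρ := by
    rw [injective_iff_map_eq_one]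
    intro u hu
    have hu1 : ((u : Zbˣ) : Zb) ^ (ℓ - 1) = 1 := by
      have := u.2
      rw [_root_.mem_rootsOfUnity] at this
      rw [← Units.val_pow_eq_pow_val, this, Units.val_one]
    obtain ⟨i, _, hi⟩ := hζ.eq_pow_of_pow_eq_one hu1
    have h2 : φ ((u : Zbˣ) : Zb) = 1 := by
      exact congrArg (fun x : rootsOfUnity (ℓ - 1) k => ((x : kˣ) : k)) hu
    rw [← hi, map_pow, hφζ.pow_eq_one_iff_dvd] at h2
    have h3 : ((u : Zbˣ) : Zb) = 1 := by rw [← hi, hζ.pow_eq_one_iff_dvd]; exact h2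
    ext
    exact congrArg _ h3
  have hsurj : Surjective ρ := by
    intro v
    have hv1 : ((v : kˣ) : k) ^ (ℓ - 1) = 1 := by
      have := v.2
      rw [_root_.mem_rootsOfUnity] at this
      rw [← Units.val_pow_eq_pow_val, this, Units.val_one]
    obtain ⟨i, _, hi⟩ := hφζ.eq_pow_of_pow_eq_one hv1
    refine ⟨hζ.toRootsOfUnity ^ i, ?_⟩
    ext
    rw [← hi, map_pow]
    simp [ρ]
  let e : rootsOfUnity (ℓ - 1) Zb ≃* rootsOfUnity (ℓ - 1) k := MulEquiv.ofBijective ρ ⟨hinj, hsurj⟩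
  let c : (ZMod ℓ)ˣ →* kˣ := Units.map (ZMod.castHom (dvd_refl ℓ) k).toMonoidHom
  have hc : ∀ a, c a ∈ rootsOfUnity (ℓ - 1) k := by
    intro a
    rw [_root_.mem_rootsOfUnity, ← map_pow, ZMod.units_pow_card_sub_one_eq_one, map_one]
  let c' : (ZMod ℓ)ˣ →* rootsOfUnity (ℓ - 1) k := c.codRestrict _ hc
  let ψ : (ZMod ℓ)ˣ →* Zbˣ := (rootsOfUnity (ℓ - 1) Zb).subtype.comp (e.symm.toMonoidHom.comp c')
  refine ⟨MulChar.ofUnitHom ψ⁻¹, fun a ha => ?_⟩
  obtain ⟨u, rfl⟩ : IsUnit a := isUnit_iff_ne_zero.mpr ha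
  rw [MulChar.ofUnitHom_coe, MonoidHom.inv_apply]
  have h1 : φ ((ψ u : Zbˣ) : Zb) = ((u : ZMod ℓ).val : k) := by
    have h2 : e (e.symm (c' u)) = c' u := e.apply_symm_apply _
    have h3 := congrArg (fun x : rootsOfUnity (ℓ - 1) k => ((x : kˣ) : k)) h2
    have h4 : φ ((ψ u : Zbˣ) : Zb) = ((c u : kˣ) : k) := h3
    rw [h4]
    show ZMod.castHom (dvd_refl ℓ) k (u : ZMod ℓ) = _
    conv_lhs => rw [← ZMod.natCast_zmod_val (u : ZMod ℓ)]
    rw [map_natCast]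
  rw [← h1, ← map_mul, ← Units.val_mul, inv_mul_cancel, Units.val_one, map_one]

/-- The complex character attached to a character with values in the algebraic integers. -/
noncomputable def toC (χ : DirichletCharacter Zb ℓ) : DirichletCharacter ℂ ℓ :=
  χ.ringHomComp (algebraMap Zb ℂ)

omit [Fact ℓ.Prime] in
lemma toC_apply (χ : DirichletCharacter Zb ℓ) (a : ZMod ℓ) : toC χ a = (χ a : ℂ) := rfl

theorem odd_of_teich (hℓ : ℓ ≠ 2) {φ : Zb →+* k} {χ : DirichletCharacter Zb ℓ}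
    (h : ∀ a : ZMod ℓ, a ≠ 0 → φ (χ a) * (a.val : k) = 1) : (toC χ).Odd := by
  have hp : ℓ.Prime := Fact.out
  have h1 := h (-1) (neg_ne_zero.mpr one_ne_zero)
  have h2 : ((-1 : ZMod ℓ).val : k) = -1 := by
    have e1 : ((-1 : ZMod ℓ).val : k) = ZMod.castHom (dvd_refl ℓ) k (((-1 : ZMod ℓ).val : ℕ) : ZMod ℓ) := by
      rw [map_natCast]
    rw [e1, ZMod.natCast_zmod_val, map_neg, map_one]
  rw [h2] at h1
  have h3 : χ (-1) * χ (-1) = 1 := by rw [← map_mul, neg_mul_neg, one_mul, map_one]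
  rcases mul_self_eq_one_iff.mp h3 with h4 | h4
  · exfalso
    rw [h4, map_one, one_mul] at h1
    have h5 : ((2 : ℕ) : k) = 0 := by
      push_cast
      linear_combination -h1
    rw [CharP.cast_eq_zero_iff k ℓ] at h5
    exact hℓ ((Nat.prime_dvd_prime_iff_eq hp Nat.prime_two).mp h5)
  · show toC χ (-1) = -1
    rw [toC_apply, h4]
    simp

/-- The Bernoulli number in the algebraic integers. -/
noncomputable def bernZ (χ : DirichletCharacter Zb ℓ) : Zb := ∑ a : ZMod ℓ, (a.val : Zb) * χ a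

lemma bern_toC (χ : DirichletCharacter Zb ℓ) : bern (toC χ) = (bernZ χ : ℂ) := by
  have : ((bernZ χ : Zb) : ℂ) = algebraMap Zb ℂ (bernZ χ) := rfl
  rw [bern, this, bernZ, map_sum]
  refine Finset.sum_congr rfl fun a _ => ?_
  rw [map_mul, map_natCast]
  rfl

lemma map_bernZ {φ : Zb →+* k} {χ : DirichletCharacter Zb ℓ}
    (h : ∀ a : ZMod ℓ, a ≠ 0 → φ (χ a) * (a.val : k) = 1) : φ (bernZ χ) = -1 := by
  have hp : ℓ.Prime := Fact.out
  rw [bernZ, map_sum]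
  have h1 : ∀ a : ZMod ℓ, φ ((a.val : Zb) * χ a) = if a = 0 then 0 else 1 := by
    intro a
    split_ifs with ha
    · subst ha
      rw [MulChar.map_zero, mul_zero, map_zero]
    · rw [map_mul, map_natCast, mul_comm, h a ha]
  simp_rw [h1]
  rw [Finset.sum_ite, Finset.sum_const_zero, zero_add, Finset.sum_const, nsmul_eq_mul, mul_one]
  have h2 : (Finset.univ.filter fun a : ZMod ℓ => ¬ a = 0).card = ℓ - 1 := by
    rw [Finset.filter_not, Finset.card_sdiff_of_subset (Finset.filter_subset _ _)]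
    rw [Finset.card_univ, ZMod.card, Finset.filter_eq' Finset.univ (0 : ZMod ℓ)]
    simp
  rw [h2, Nat.cast_sub hp.one_lt.le, CharP.cast_eq_zero, Nat.cast_one, zero_sub]

/-- The coefficients in the algebraic integers. -/
noncomputable def eisCoeff (χ : DirichletCharacter Zb ℓ) (n : ℕ) : Zb :=
  if n = 0 then -bernZ χ else 2 * ℓ * ∑ d ∈ n.divisors, χ d

theorem qCoeff_eisNeg_toC (hℓ : ℓ ≠ 2) {χ : DirichletCharacter Zb ℓ} (hχ : (toC χ).Odd) (n : ℕ) :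
    ModularFormClass.qCoeff (eisNeg hℓ (toC χ)) n = (eisCoeff χ n : ℂ) := by
  rw [qCoeff_eisNeg hℓ hχ, eisCoeff]
  split_ifs
  · rw [bern_toC]; push_cast; rfl
  · have : ∀ x : Zb, (x : ℂ) = algebraMap Zb ℂ x := fun _ => rfl
    rw [this, map_mul, map_mul, map_sum]
    simp only [map_natCast, map_ofNat]
    rfl

theorem map_eisCoeff_zero {φ : Zb →+* k} {χ : DirichletCharacter Zb ℓ}
    (h : ∀ a : ZMod ℓ, a ≠ 0 → φ (χ a) * (a.val : k) = 1) : φ (eisCoeff χ 0) = 1 := by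
  rw [eisCoeff, if_pos rfl, map_neg, map_bernZ h, neg_neg]

theorem map_eisCoeff (φ : Zb →+* k) (χ : DirichletCharacter Zb ℓ) {n : ℕ} (hn : n ≠ 0) :
    φ (eisCoeff χ n) = 0 := by
  rw [eisCoeff, if_neg hn, map_mul, map_mul, map_natCast, CharP.cast_eq_zero, mul_zero, zero_mul]

/-- **The Eisenstein series congruent to one.** -/
theorem exists_eisenstein (hℓ : ℓ ≠ 2) (φ : Zb →+* k) :
    ∃ (χ : DirichletCharacter Zb ℓ) (E : ModularForm (Gamma1 ℓ) 1) (c : ℕ → Zb),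
      (∀ a : ZMod ℓ, a ≠ 0 → φ (χ a) * (a.val : k) = 1) ∧
      (∀ n, ModularFormClass.qCoeff E n = (c n : ℂ)) ∧ φ (c 0) = 1 ∧ (∀ n, n ≠ 0 → φ (c n) = 0) ∧
      ∀ γ ∈ Gamma0 ℓ, (E : ℍ → ℂ) ∣[(1 : ℤ)] γ = (χ ((γ 1 1 : ℤ) : ZMod ℓ) : ℂ) • (E : ℍ → ℂ) := by
  obtain ⟨χ, hχ⟩ := exists_teich (ℓ := ℓ) φ
  exact ⟨χ, eisNeg hℓ (toC χ), eisCoeff χ, hχ, qCoeff_eisNeg_toC hℓ (odd_of_teich hℓ hχ),
    map_eisCoeff_zero hχ, fun n hn => map_eisCoeff φ χ hn, fun γ hγ => eisNeg_slash hℓ (toC χ) γ hγ⟩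

end Fermat.Agent.DS.Eis
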