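import Fermat.Agent.DS.Hecke1Neb

/-!
# The Hecke algebra `T1 M k = ℤ[T_p, ⟨d⟩ : p ∤ M] ⊆ End S_k(Γ₁(M))` and characters from
eigenvectors modulo an ideal
-/

set_option autoImplicit false

noncomputable section

namespace Fermat.Agent.DS.Hecke1

open CongruenceSubgroup ModularForm UpperHalfPlane Matrix.SpecialLinearGroup
open scoped MatrixGroups

/-- Generators of the Hecke algebra. -/
def gens (M : ℕ) [NeZero M] (k : ℤ) : Set (Module.End ℂ (CuspForm (Gamma1 M) k)) :=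
  {T | ∃ (p : ℕ) (hp : p.Prime) (hpM : ¬ p ∣ M), T = Tp hp hpM} ∪
    {T | ∃ d : (ZMod M)ˣ, T = dia d}

/-- The Hecke algebra. -/
def T1 (M : ℕ) [NeZero M] (k : ℤ) : Subalgebra ℤ (Module.End ℂ (CuspForm (Gamma1 M) k)) :=
  Algebra.adjoin ℤ (gens M k)

variable {M : ℕ} [NeZero M] {k : ℤ} {p : ℕ}

theorem Tp_mem (hp : p.Prime) (hpM : ¬ p ∣ M) : Tp hp hpM ∈ T1 M k :=
  Algebra.subset_adjoin (Or.inl ⟨p, hp, hpM, rfl⟩)

theorem dia_mem (d : (ZMod M)ˣ) : dia d ∈ T1 M k :=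
  Algebra.subset_adjoin (Or.inr ⟨d, rfl⟩)

theorem commute_gens {T T' : Module.End ℂ (CuspForm (Gamma1 M) k)} (hT : T ∈ gens M k)
    (hT' : T' ∈ gens M k) : Commute T T' := by
  rcases hT with ⟨p, hp, hpM, rfl⟩ | ⟨d, rfl⟩ <;> rcases hT' with ⟨q, hq, hqM, rfl⟩ | ⟨e, rfl⟩
  · exact LinearMap.ext fun f => Tp_comm hp hpM hq hqM f
  · exact LinearMap.ext fun f => (dia_Tp hp hpM e f).symm
  · exact LinearMap.ext fun f => dia_Tp hq hqM d f
  · exact LinearMap.ext fun f => dia_comm d e f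

instance T1.instIsMulCommutative : IsMulCommutative (T1 M k) :=
  Algebra.isMulCommutative_adjoin ℤ fun _ hT _ hT' => commute_gens hT hT'

open scoped IsMulCommutative in
instance T1.instCommRing : CommRing (T1 M k) := inferInstance

/-- `T_p` as an element of the Hecke algebra. -/
def T1.T (hp : p.Prime) (hpM : ¬ p ∣ M) : T1 M k := ⟨Tp hp hpM, Tp_mem hp hpM⟩

/-- `⟨d⟩` as an element of the Hecke algebra. -/
def T1.D (d : (ZMod M)ˣ) : T1 M k := ⟨dia d, dia_mem d⟩

@[simp] theorem T1.coe_T (hp : p.Prime) (hpM : ¬ p ∣ M) :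
    ((T1.T hp hpM : T1 M k) : Module.End ℂ (CuspForm (Gamma1 M) k)) = Tp hp hpM := rfl

@[simp] theorem T1.coe_D (d : (ZMod M)ˣ) :
    ((T1.D d : T1 M k) : Module.End ℂ (CuspForm (Gamma1 M) k)) = dia d := rfl

theorem T1.D_mul (d e : (ZMod M)ˣ) : (T1.D (d * e) : T1 M k) = T1.D d * T1.D e :=
  Subtype.ext (dia_mul d e)

theorem T1.D_one : (T1.D 1 : T1 M k) = 1 := Subtype.ext dia_one

end Fermat.Agent.DS.Hecke1

/-! ### Characters from eigenvectors modulo an ideal -/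

namespace Fermat.Agent.DS.Eig

variable {V : Type*} [AddCommGroup V] [Module ℂ V] {κ : Type*} [CommRing κ]

/-- Let `A = ℤ[S] ⊆ End V`, `O ⊆ ℂ` a subring, `φ : O → κ`, `N ⊆ V` a subgroup stable under `O`
and `S`, `F` an eigenvector of all `t ∈ S` modulo `N` with `c F ∈ N → φ c = 0`. Then the
eigenvalues define a ring homomorphism `A → κ`. -/
theorem exists_ringHom (S : Set (Module.End ℂ V)) (O : Subring ℂ) (φ : O →+* κ)
    (N : AddSubgroup V) (hN : ∀ c ∈ O, ∀ v ∈ N, c • v ∈ N)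
    (hSN : ∀ t ∈ S, ∀ v ∈ N, t v ∈ N)
    (F : V) (hFN : ∀ c : O, (c : ℂ) • F ∈ N → φ c = 0)
    (heig : ∀ t ∈ S, ∃ c : O, t F - (c : ℂ) • F ∈ N) :
    ∃ θ : Algebra.adjoin ℤ S →+* κ, ∀ (t : Algebra.adjoin ℤ S) (c : O),
      (t : Module.End ℂ V) F - (c : ℂ) • F ∈ N → θ t = φ c := by
  -- operators preserve `N`
  have hAN : ∀ t ∈ Algebra.adjoin ℤ S, ∀ v ∈ N, t v ∈ N := by
    intro t ht
    induction ht using Algebra.adjoin_induction with
    | mem x hx => exact hSN x hx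
    | algebraMap r =>
      intro v hv
      have : (algebraMap ℤ (Module.End ℂ V) r) v = r • v := by
        rw [Module.algebraMap_end_apply]
      rw [this]
      exact N.zsmul_mem hv r
    | add x y _ _ hx hy => intro v hv; exact N.add_mem (hx v hv) (hy v hv)
    | mul x y _ _ hx hy => intro v hv; exact hx _ (hy v hv)
  have hAeig : ∀ t ∈ Algebra.adjoin ℤ S, ∃ c : O, t F - (c : ℂ) • F ∈ N := by
    intro t ht
    induction ht using Algebra.adjoin_induction with
    | mem x hx => exact heig x hx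
    | algebraMap r =>
      refine ⟨(r : O), ?_⟩
      have : (algebraMap ℤ (Module.End ℂ V) r) F = r • F := by
        rw [Module.algebraMap_end_apply]
      rw [this]
      have h2 : (((r : O) : ℂ)) • F = r • F := by
        rw [show (((r : O) : ℂ)) = (r : ℂ) by push_cast; rfl]
        exact Int.cast_smul_eq_zsmul ℂ r F
      rw [h2, sub_self]
      exact N.zero_mem
    | add x y _ _ hx hy =>
      obtain ⟨c, hc⟩ := hx
      obtain ⟨d, hd⟩ := hy
      refine ⟨c + d, ?_⟩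
      have := N.add_mem hc hd
      convert this using 1
      rw [LinearMap.add_apply]
      push_cast
      rw [add_smul]; abel
    | mul x y hx' _ hx hy =>
      obtain ⟨c, hc⟩ := hx
      obtain ⟨d, hd⟩ := hy
      refine ⟨c * d, ?_⟩
      have h1 := hAN x hx' _ hd
      have h2 := hN d d.2 _ hc
      have := N.add_mem h1 h2
      convert this using 1
      rw [Module.End.mul_apply, map_sub, map_smul, smul_sub, smul_smul]
      push_cast
      rw [mul_comm (d : ℂ) c]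
      abel
  have huniq : ∀ (t : Module.End ℂ V) (c d : O), t F - (c : ℂ) • F ∈ N → t F - (d : ℂ) • F ∈ N →
      φ c = φ d := by
    intro t c d hc hd
    have h := N.sub_mem hd hc
    have h' : ((c - d : O) : ℂ) • F ∈ N := by
      convert h using 1
      push_cast
      rw [sub_smul]; abel
    have := hFN _ h'
    rw [map_sub] at this
    exact sub_eq_zero.mp this
  choose e he using hAeig
  let θ0 : Algebra.adjoin ℤ S → κ := fun t => φ (e t t.2)
  have hθ0 : ∀ (t : Algebra.adjoin ℤ S) (c : O), (t : Module.End ℂ V) F - (c : ℂ) • F ∈ N →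
      θ0 t = φ c := fun t c hc => huniq _ _ _ (he t t.2) hc
  refine ⟨{ toFun := θ0, map_one' := ?_, map_mul' := ?_, map_zero' := ?_, map_add' := ?_ }, hθ0⟩
  · rw [hθ0 1 1, map_one]
    simp only [OneMemClass.coe_one, one_smul]
    rw [Module.End.one_apply, sub_self]
    exact N.zero_mem
  · intro x y
    change θ0 (x * y) = θ0 x * θ0 y
    rw [hθ0 (x * y) (e x x.2 * e y y.2), map_mul]
    have h1 := hAN x x.2 _ (he y y.2)
    have h2 := hN (e y y.2) (e y y.2).2 _ (he x x.2)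
    have := N.add_mem h1 h2
    convert this using 1
    rw [MulMemClass.coe_mul, Module.End.mul_apply, map_sub, map_smul, smul_sub, smul_smul]
    push_cast
    rw [mul_comm (e y y.2 : ℂ) (e x x.2)]
    abel
  · change θ0 0 = 0
    rw [hθ0 0 0, map_zero]
    simp only [ZeroMemClass.coe_zero, zero_smul, LinearMap.zero_apply, sub_self]
    exact N.zero_mem
  · intro x y
    change θ0 (x + y) = θ0 x + θ0 y
    rw [hθ0 (x + y) (e x x.2 + e y y.2), map_add]
    have := N.add_mem (he x x.2) (he y y.2)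
    convert this using 1
    rw [AddMemClass.coe_add, LinearMap.add_apply]
    push_cast
    rw [add_smul]; abel

end Fermat.Agent.DS.Eig

namespace Fermat.Agent.DS.Hecke1

open CongruenceSubgroup ModularForm UpperHalfPlane Matrix.SpecialLinearGroup
open scoped MatrixGroups

variable {M : ℕ} [NeZero M] {k : ℕ} {κ : Type*} [CommRing κ]

/-- **Eigenforms modulo an ideal give characters of the Hecke algebra.** Let `O ⊆ ℂ` be a subring,
`φ : O → κ`, `F ∈ S_k(Γ₁(M))` (`k = k' + 1 ≥ 1`) with nebentypus `χ` (values in `O`), coefficients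
`a n ∈ O`, such that the reduction of `F` is an eigenform with eigenvalues `lam p`, and
`φ (a n₀)` is a unit for some `n₀`. -/
theorem exists_theta (O : Subring ℂ) (φ : O →+* κ) (F : CuspForm (Gamma1 M) ((k : ℤ) + 1))
    (χ : (ZMod M)ˣ → O) (hχ : ∀ d, dia d F = (χ d : ℂ) • F)
    (a : ℕ → O) (ha : ∀ n, (a n : ℂ) = qc M _ n F) (n₀ : ℕ) (hn₀ : IsUnit (φ (a n₀)))
    (lam : ℕ → κ) (hlam : ∀ p, p.Prime → ¬ p ∣ M → ∃ c : O, φ c = lam p)
    (heig : ∀ (p : ℕ) (hp : p.Prime) (hpM : ¬ p ∣ M) (n : ℕ),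
      φ (a (p * n)) + (if p ∣ n then (p : κ) ^ k * φ (χ (pu hp hpM)) * φ (a (n / p)) else 0) =
        lam p * φ (a n)) :
    ∃ θ : T1 M ((k : ℤ) + 1) →+* κ,
      (∀ (p : ℕ) (hp : p.Prime) (hpM : ¬ p ∣ M), θ (T1.T hp hpM) = lam p) ∧
      ∀ d, θ (T1.D d) = φ (χ d) := by
  -- forms with nebentypus `χ` whose coefficients are in the kernel of `φ`
  let N : AddSubgroup (CuspForm (Gamma1 M) ((k : ℤ) + 1)) :=
    { carrier := {g | (∀ d, dia d g = (χ d : ℂ) • g) ∧
        ∀ n, ∃ c : O, (c : ℂ) = qc M _ n g ∧ φ c = 0}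
      add_mem' := by
        rintro g h ⟨hg1, hg2⟩ ⟨hh1, hh2⟩
        refine ⟨fun d => by rw [map_add, hg1, hh1, smul_add], fun n => ?_⟩
        obtain ⟨c, hc, hc'⟩ := hg2 n
        obtain ⟨e, he, he'⟩ := hh2 n
        exact ⟨c + e, by rw [map_add, ← hc, ← he]; rfl, by rw [map_add, hc', he', add_zero]⟩
      zero_mem' := ⟨fun d => by rw [map_zero, smul_zero], fun n => ⟨0, by rw [map_zero]; rfl, map_zero φ⟩⟩
      neg_mem' := by
        rintro g ⟨hg1, hg2⟩
        refine ⟨fun d => by rw [map_neg, hg1, smul_neg], fun n => ?_⟩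
        obtain ⟨c, hc, hc'⟩ := hg2 n
        exact ⟨-c, by rw [map_neg, ← hc]; rfl, by rw [map_neg, hc', neg_zero]⟩ }
  have hmemN : ∀ g, g ∈ N ↔ (∀ d, dia d g = (χ d : ℂ) • g) ∧
      ∀ n, ∃ c : O, (c : ℂ) = qc M _ n g ∧ φ c = 0 := fun g => Iff.rfl
  have hN : ∀ c ∈ O, ∀ v ∈ N, c • v ∈ N := by
    rintro c hc g ⟨hg1, hg2⟩
    refine ⟨fun d => by rw [map_smul, hg1, smul_comm], fun n => ?_⟩
    obtain ⟨e, he, he'⟩ := hg2 n
    exact ⟨⟨c, hc⟩ * e, by rw [map_smul, ← he]; rfl, by rw [map_mul, he', mul_zero]⟩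
  have hpk : ∀ p : ℕ, (p : ℂ) ^ (((k : ℤ) + 1) - 1) = (((p : O) ^ k : O) : ℂ) := by
    intro p
    rw [add_sub_cancel_right, zpow_natCast]
    push_cast
    rfl
  have hSN : ∀ t ∈ gens M ((k : ℤ) + 1), ∀ v ∈ N, t v ∈ N := by
    rintro t (⟨p, hp, hpM, rfl⟩ | ⟨d, rfl⟩) g ⟨hg1, hg2⟩
    · refine ⟨fun d => by rw [dia_Tp, hg1, map_smul], fun n => ?_⟩
      obtain ⟨c, hc, hc'⟩ := hg2 (n * p)
      rw [qc_Tp]
      split_ifs with hd
      · obtain ⟨e, he, he'⟩ := hg2 (n / p)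
        refine ⟨c + (p : O) ^ k * (χ (pu hp hpM) * e), ?_, ?_⟩
        · rw [hg1, map_smul, smul_eq_mul, ← hc, ← he, hpk]
          rfl
        · rw [map_add, hc', map_mul, map_mul, he', mul_zero, mul_zero, add_zero]
      · exact ⟨c, by rw [hc, add_zero], hc'⟩
    · rw [hg1 d]
      exact hN _ (χ d).2 _ ⟨hg1, hg2⟩
  have hT : ∀ (p : ℕ) (hp : p.Prime) (hpM : ¬ p ∣ M) (c : O), φ c = lam p →
      Tp hp hpM F - (c : ℂ) • F ∈ N := by
    intro p hp hpM c hc
    refine ⟨fun d => by rw [map_sub, map_smul, dia_Tp, hχ, map_smul, smul_sub, smul_comm], fun n => ?_⟩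
    have h1 := heig p hp hpM n
    rw [map_sub, map_smul, qc_Tp, smul_eq_mul]
    split_ifs at h1 ⊢ with hd
    · refine ⟨a (p * n) + (p : O) ^ k * (χ (pu hp hpM) * a (n / p)) - c * a n, ?_, ?_⟩
      · rw [hχ, map_smul, smul_eq_mul, ← ha, ← ha, ← ha, hpk, mul_comm n p]
        rfl
      · rw [map_sub, map_add, map_mul, map_mul, map_mul, map_pow, map_natCast, hc, ← h1]
        ring
    · refine ⟨a (p * n) - c * a n, ?_, ?_⟩
      · rw [← ha, ← ha, add_zero, mul_comm n p]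
        rfl
      · rw [map_sub, map_mul, hc, ← h1]
        ring
  have hD : ∀ d, dia d F - (χ d : ℂ) • F ∈ N := by
    intro d
    rw [hχ, sub_self]
    exact N.zero_mem
  obtain ⟨θ, hθ⟩ := Eig.exists_ringHom (gens M ((k : ℤ) + 1)) O φ N hN hSN F
    (fun c hc => by
      obtain ⟨e, he, he'⟩ := hc.2 n₀
      have h1 : e = c * a n₀ := by
        apply Subtype.ext
        rw [he, map_smul, smul_eq_mul, ← ha]
        rfl
      rw [h1, map_mul] at he'
      exact (hn₀.mul_left_eq_zero).mp he')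
    (by
      rintro t (⟨p, hp, hpM, rfl⟩ | ⟨d, rfl⟩)
      · obtain ⟨c, hc⟩ := hlam p hp hpM
        exact ⟨c, hT p hp hpM c hc⟩
      · exact ⟨χ d, hD d⟩)
  refine ⟨θ, fun p hp hpM => ?_, fun d => hθ _ _ (hD d)⟩
  obtain ⟨c, hc⟩ := hlam p hp hpM
  exact (hθ (T1.T hp hpM) c (hT p hp hpM c hc)).trans hc

end Fermat.Agent.DS.Hecke1
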