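import Fermat.Agent.DS.Hecke1Ops

/-!
# Forced nebentypus, finite dimensionality, the Hecke algebra of `Γ₁(M)`
-/

set_option autoImplicit false

noncomputable section

namespace Fermat.Agent.DS.Hecke1

open CongruenceSubgroup ModularForm UpperHalfPlane Matrix.SpecialLinearGroup
open scoped MatrixGroups

variable {M : ℕ} [NeZero M] {k : ℤ} {p : ℕ}

theorem qc_zero_index (f : CuspForm (Gamma1 M) k) : qc M k 0 f = 0 :=
  CuspFormClass.qExpansion_coeff_zero f one_pos one_mem_strictPeriods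

/-- Sturm bound. -/
theorem exists_sturm (M : ℕ) [NeZero M] (k : ℤ) : ∃ B : ℕ, ∀ f : CuspForm (Gamma1 M) k,
    (∀ n ≤ B, qc M k n f = 0) → f = 0 := by
  refine ⟨(k * (Gamma1 M : Subgroup (GL (Fin 2) ℝ)).relIndex 𝒮ℒ).toNat / 12, fun f hf => ?_⟩
  have h : ModularFormClass.modularForm f = (0 : ModularForm (Gamma1 M : Subgroup (GL (Fin 2) ℝ)) k) := by
    refine ModularForm.sturm_bound_of_isArithmetic one_mem_strictPeriods ?_
    refine lt_of_lt_of_le (by exact_mod_cast Nat.lt_succ_self _)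
      (PowerSeries.nat_le_order _ _ fun n hn ↦ ?_)
    exact hf n (Nat.lt_succ_iff.mp hn)
  apply DFunLike.coe_injective
  have := congrArg (fun g : ModularForm (Gamma1 M : Subgroup (GL (Fin 2) ℝ)) k => (g : ℍ → ℂ)) h
  exact this

instance finiteDimensional : FiniteDimensional ℂ (CuspForm (Gamma1 M) k) := by
  obtain ⟨B, hB⟩ := exists_sturm M k
  let L : CuspForm (Gamma1 M) k →ₗ[ℂ] (Fin (B + 1) → ℂ) := LinearMap.pi fun i => qc M k i
  refine FiniteDimensional.of_injective L ?_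
  rw [← LinearMap.ker_eq_bot, LinearMap.ker_eq_bot']
  intro f hf
  refine hB f fun n hn => ?_
  exact congrFun hf ⟨n, Nat.lt_succ_of_le hn⟩

/-! ### Forced nebentypus -/

/-- Diamond operators and `V_p`: if `h` and `h ∣ (p, 0; 0, 1)` are both forms for `Γ₁(M)`. -/
theorem dia_diag (hp : p ≠ 0) {h H : CuspForm (Gamma1 M) k}
    (hH : (⇑H : ℍ → ℂ) = ⇑h ∣[k] heckeDiagMatrix p) (d : (ZMod M)ˣ) :
    (⇑(dia d H) : ℍ → ℂ) = ⇑(dia d h) ∣[k] heckeDiagMatrix p := by
  haveI : NeZero p := ⟨hp⟩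
  haveI : NeZero (M * p) := ⟨mul_ne_zero (NeZero.ne M) hp⟩
  obtain ⟨d', hd'⟩ := ZMod.unitsMap_surjective (Nat.dvd_mul_right M p) d
  set γ := rep (M * p) d' with hγdef
  have h10 : ((M * p : ℕ) : ℤ) ∣ γ 1 0 := (ZMod.intCast_zmod_eq_zero_iff_dvd _ _).mp (rep_10 d')
  have hM : γ ∈ Gamma0 M := by
    rw [Gamma0_mem, ZMod.intCast_zmod_eq_zero_iff_dvd]
    exact (Int.natCast_dvd_natCast.mpr (Nat.dvd_mul_right M p)).trans h10
  have h11 : ((γ 1 1 : ℤ) : ZMod M) = d := by
    have h1 := rep_11 d'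
    have h2 := congrArg (ZMod.castHom (Nat.dvd_mul_right M p) (ZMod M)) h1
    rw [map_intCast] at h2
    rw [h2, ← hd']
    rfl
  obtain ⟨e, he⟩ : (p : ℤ) ∣ γ 1 0 :=
    (Int.natCast_dvd_natCast.mpr (Nat.dvd_mul_left p M)).trans h10
  have hMe : (M : ℤ) ∣ e := by
    obtain ⟨t, ht⟩ := h10
    refine ⟨t, ?_⟩
    have hp0 : (p : ℤ) ≠ 0 := by exact_mod_cast hp
    apply mul_left_cancel₀ hp0
    rw [← he, ht]; push_cast; ring
  have hdet := det_eq γ
  let γ' : SL(2, ℤ) := ⟨!![γ 0 0, p * γ 0 1; e, γ 1 1], by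
    rw [Matrix.det_fin_two_of]; linear_combination hdet + (γ 0 1) * he⟩
  have hγ' : γ' ∈ Gamma0 M := by
    rw [Gamma0_mem, ZMod.intCast_zmod_eq_zero_iff_dvd]
    exact hMe
  have hmul : heckeDiagMatrix p * (mapGL ℝ γ : GL (Fin 2) ℝ) = mapGL ℝ γ' * heckeDiagMatrix p := by
    have he' := congrArg (Int.cast : ℤ → ℝ) he
    push_cast at he'
    ext i j
    fin_cases i <;> fin_cases j
    · simp [γ', val_heckeDiagMatrix hp, Matrix.mul_apply, Fin.sum_univ_two, mul_comm]
    · simp [γ', val_heckeDiagMatrix hp, Matrix.mul_apply, Fin.sum_univ_two]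
    · simp [γ', val_heckeDiagMatrix hp, Matrix.mul_apply, Fin.sum_univ_two]
      rw [he']; ring
    · simp [γ', val_heckeDiagMatrix hp, Matrix.mul_apply, Fin.sum_univ_two]
  rw [coe_dia, coe_dia, (inv_coe H).diaF_eq hM h11, hH, ← SlashAction.slash_mul, hmul,
    SlashAction.slash_mul, (inv_coe h).diaF_eq hγ' (show ((γ 1 1 : ℤ) : ZMod M) = d from h11)]

/-- `h ∣ (p, 0; 0, 1)` is a form for `Γ₁(M)`. -/
def Dg (p : ℕ) (h : CuspForm (Gamma1 M) k) : Prop :=
  ∃ H : CuspForm (Gamma1 M) k, (⇑H : ℍ → ℂ) = ⇑h ∣[k] heckeDiagMatrix p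

theorem Dg.step (hp : p.Prime) (hpM : ¬ p ∣ M) {h H : CuspForm (Gamma1 M) k}
    (hH : (⇑H : ℍ → ℂ) = ⇑h ∣[k] heckeDiagMatrix p) : Dg p H := by
  set u := pu (M := M) hp hpM
  -- `X = T_p H - p^{k-1} h = (⟨p⟩ H) ∣ (p, 0; 0, 1)`
  have hX : (⇑(Tp hp hpM H - ((p : ℂ) ^ (k - 1)) • h) : ℍ → ℂ) =
      ⇑(dia u H) ∣[k] heckeDiagMatrix p := by
    have h1 : (heckeU k p ⇑H : ℍ → ℂ) = ((p : ℂ) ^ (k - 1)) • ⇑h := by
      refine ((good H).heckeU k p).ext ((good h).smul _) fun n => ?_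
      rw [(good H).qCoeff_heckeU k hp.ne_zero, (good h).qCoeff_smul, hH,
        (good h).qCoeff_diag k hp.ne_zero, if_pos (Dvd.intro_left n rfl),
        Nat.mul_div_cancel _ hp.pos]
    have h2 : (⇑(Tp hp hpM H - ((p : ℂ) ^ (k - 1)) • h) : ℍ → ℂ) =
        heckeU k p ⇑H + ⇑(dia u H) ∣[k] heckeDiagMatrix p - ((p : ℂ) ^ (k - 1)) • ⇑h := rfl
    rw [h2, h1]; abel
  refine ⟨dia u⁻¹ (Tp hp hpM H - ((p : ℂ) ^ (k - 1)) • h), ?_⟩
  rw [dia_diag hp.ne_zero hX u⁻¹, dia_dia, inv_mul_cancel, dia_one, LinearMap.id_apply]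

theorem Dg.eq_zero (hp : p.Prime) (hpM : ¬ p ∣ M) {h : CuspForm (Gamma1 M) k} (hh : Dg p h) :
    h = 0 := by
  obtain ⟨B, hB⟩ := exists_sturm M k
  have hp0 : ((p : ℂ) ^ (k - 1)) ≠ 0 := zpow_ne_zero _ (by exact_mod_cast hp.ne_zero)
  -- `j`-fold iteration
  have main : ∀ j : ℕ, ∃ H : CuspForm (Gamma1 M) k, Dg p H ∧
      (∀ n, n < p ^ j → qc M k n H = 0) ∧ (H = 0 → h = 0) := by
    intro j
    induction j with
    | zero =>
      refine ⟨h, hh, fun n hn => ?_, fun h => h⟩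
      have : n = 0 := by simpa using hn
      rw [this, qc_zero_index]
    | succ j ih =>
      obtain ⟨H, hH, h1, h2⟩ := ih
      obtain ⟨H', hH'⟩ := hH
      have hq : ∀ n, qc M k n H' = if p ∣ n then (p : ℂ) ^ (k - 1) * qc M k (n / p) H else 0 := by
        intro n
        rw [qc_apply, hH', (good H).qCoeff_diag k hp.ne_zero, qc_apply]
      refine ⟨H', Dg.step hp hpM hH', fun n hn => ?_, fun h0 => h2 ?_⟩
      · rw [hq]
        split_ifs with hd
        · rw [h1, mul_zero]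
          rw [Nat.div_lt_iff_lt_mul hp.pos, ← pow_succ]
          exact hn
        · rfl
      · refine ext_qc fun n => ?_
        have := hq (n * p)
        rw [h0, map_zero, if_pos (Dvd.intro_left n rfl), Nat.mul_div_cancel _ hp.pos] at this
        rw [map_zero]
        exact (mul_eq_zero.mp this.symm).resolve_left hp0
  obtain ⟨H, -, h1, h2⟩ := main (B + 1)
  refine h2 (hB H fun n hn => h1 n ?_)
  exact lt_of_le_of_lt hn ((Nat.lt_succ_self B).trans (Nat.lt_pow_self hp.one_lt))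

/-- **Forced nebentypus**: the Hecke relation at one prime `p ∤ M` determines `⟨p⟩ f`. -/
theorem dia_eq_smul_of_rel (hp : p.Prime) (hpM : ¬ p ∣ M) (f : CuspForm (Gamma1 M) k) (c lam : ℂ)
    (h : ∀ n, qc M k (n * p) f +
      (if p ∣ n then (p : ℂ) ^ (k - 1) * (c * qc M k (n / p) f) else 0) = lam * qc M k n f) :
    dia (pu hp hpM) f = c • f := by
  set g := dia (pu hp hpM) f - c • f with hg
  suffices g = 0 from sub_eq_zero.mp this
  refine Dg.eq_zero hp hpM (h := g) ⟨Tp hp hpM f - lam • f, ?_⟩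
  refine (good _).ext ((good g).diag k p) fun n => ?_
  rw [(good g).qCoeff_diag k hp.ne_zero, ← qc_apply, ← qc_apply, map_sub, map_smul, qc_Tp, smul_eq_mul,
    ← h n]
  split_ifs with hd
  · rw [hg, map_sub, map_smul, smul_eq_mul]; ring
  · ring

omit [NeZero M] in
/-- `unitOfCoprime` is multiplicative. -/
theorem unitOfCoprime_mul {a b : ℕ} (ha : a.Coprime M) (hb : b.Coprime M) :
    ZMod.unitOfCoprime (a * b) (Nat.Coprime.mul_left ha hb) =
      ZMod.unitOfCoprime a ha * ZMod.unitOfCoprime b hb := by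
  apply Units.ext
  simp

/-- **Forced nebentypus**, all diamonds: any weight. -/
theorem dia_eq_of_rel (ε : DirichletCharacter ℂ M) (f : CuspForm (Gamma1 M) k) (lam : ℕ → ℂ)
    (hT : ∀ p : ℕ, p.Prime → ¬ p ∣ M → ∀ n : ℕ, qc M k (p * n) f +
      (p : ℂ) ^ (k - 1) * (ε (p : ZMod M) * (if p ∣ n then qc M k (n / p) f else 0)) =
        lam p * qc M k n f) (d : (ZMod M)ˣ) :
    dia d f = ε (d : ZMod M) • f := by
  have key : ∀ n : ℕ, ∀ h : n.Coprime M, dia (ZMod.unitOfCoprime n h) f = ε (n : ZMod M) • f := by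
    intro n
    induction n using induction_on_primes with
    | zero =>
      intro h
      have h1 : M = 1 := by simpa using h
      subst h1
      have e1 : ZMod.unitOfCoprime 0 h = 1 := Subsingleton.elim _ _
      have e2 : ((0 : ℕ) : ZMod 1) = 1 := Subsingleton.elim _ _
      rw [e1, e2, map_one, one_smul, dia_one, LinearMap.id_apply]
    | one =>
      intro h
      have e1 : ZMod.unitOfCoprime 1 h = 1 := by apply Units.ext; simp
      rw [e1, dia_one, Nat.cast_one, map_one, one_smul, LinearMap.id_apply]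
    | prime_mul p a hp ih =>
      intro h
      have hpc : p.Coprime M := Nat.Coprime.coprime_mul_right h
      have hac : a.Coprime M := Nat.Coprime.coprime_mul_left h
      have hpM : ¬ p ∣ M := (Nat.Prime.coprime_iff_not_dvd hp).mp hpc
      have h1 : ZMod.unitOfCoprime (p * a) h = pu hp hpM * ZMod.unitOfCoprime a hac :=
        unitOfCoprime_mul hpc hac
      have h2 : dia (pu hp hpM) f = ε (p : ZMod M) • f := by
        refine dia_eq_smul_of_rel hp hpM f _ (lam p) fun n => ?_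
        rw [← hT p hp hpM n, mul_comm n p]
        split_ifs <;> ring
      rw [h1, ← dia_dia, ih hac, map_smul, h2, smul_smul, Nat.cast_mul, map_mul, mul_comm]
  have hd := key (d : ZMod M).val (ZMod.val_coe_unit_coprime d)
  have e1 : ZMod.unitOfCoprime (d : ZMod M).val (ZMod.val_coe_unit_coprime d) = d := by
    apply Units.ext
    simp
  rw [e1] at hd
  rw [hd]
  simp

/-- Forced nebentypus in the form of S48. -/
theorem dia_eq_of_weight_one (ε : DirichletCharacter ℂ M) (f : CuspForm (Gamma1 M) 1)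
    (hT : ∀ p : ℕ, p.Prime → ¬ p ∣ M → ∀ n : ℕ,
        ModularFormClass.qCoeff f (p * n) +
            ε (p : ZMod M) * (if p ∣ n then ModularFormClass.qCoeff f (n / p) else 0) =
          ModularFormClass.qCoeff f p * ModularFormClass.qCoeff f n) (d : (ZMod M)ˣ) :
    dia d f = ε (d : ZMod M) • f := by
  refine dia_eq_of_rel ε f (fun p => ModularFormClass.qCoeff f p) (fun p hp hpM n => ?_) d
  have := hT p hp hpM n
  simp only [qc_apply, sub_self, zpow_zero, one_mul]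
  exact this

theorem dia_neg_one (f : CuspForm (Gamma1 M) k) : dia (-1) f = ((-1 : ℂ) ^ k) • f := by
  have hmem : (-1 : SL(2, ℤ)) ∈ Gamma0 M := by
    rw [Gamma0_mem]; simp
  apply DFunLike.coe_injective
  rw [coe_dia, (inv_coe f).diaF_eq hmem (by simp)]
  funext τ
  have h1 : (mapGL ℝ (-1 : SL(2, ℤ)) : GL (Fin 2) ℝ) = -1 := by
    ext i j
    fin_cases i <;> fin_cases j <;> simp
  rw [h1, ModularForm.slash_apply]
  have hdet : ((-1 : GL (Fin 2) ℝ).det : ℝ) = 1 := by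
    rw [Matrix.GeneralLinearGroup.val_det_apply, Units.val_neg, Units.val_one, Matrix.det_neg]
    simp
  have hσ : UpperHalfPlane.σ (-1 : GL (Fin 2) ℝ) = .refl ℝ ℂ := by
    rw [UpperHalfPlane.σ, if_pos (by rw [hdet]; exact one_pos)]
  have hden : UpperHalfPlane.denom (-1 : GL (Fin 2) ℝ) τ = -1 := by
    simp [UpperHalfPlane.denom]
  have hsm : (-1 : GL (Fin 2) ℝ) • τ = τ := by
    simp
  rw [hdet, hσ, hden, hsm]
  simp
  rcases Int.even_or_odd k with h | h <;> simp [h.neg_one_zpow]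

theorem eps_neg_one (ε : DirichletCharacter ℂ M) (f : CuspForm (Gamma1 M) 1) (hf : f ≠ 0)
    (h : ∀ d : (ZMod M)ˣ, dia d f = ε (d : ZMod M) • f) : ε (-1) = -1 := by
  have h1 := h (-1)
  rw [dia_neg_one, zpow_one, Units.val_neg, Units.val_one] at h1
  have h2 : (ε (-1) - (-1)) • f = 0 := by rw [sub_smul, ← h1, sub_self]
  rcases smul_eq_zero.mp h2 with h3 | h3
  · exact sub_eq_zero.mp h3
  · exact absurd h3 hf

end Fermat.Agent.DS.Hecke1
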