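import Mathlib
import Fermat.Agent.DS.EisTeich
import Fermat.Agent.DS.Hecke1Alg
import Fermat.Agent.DS.Hecke1Neb
import Fermat.Agent.IntStr.Theta

/-!
# From weight one to mod `ℓ` characters of the weight two Hecke algebra of level `N ℓ`
-/

set_option autoImplicit false

open UpperHalfPlane hiding I
open Complex Filter Topology Function CongruenceSubgroup Matrix.SpecialLinearGroup
open scoped MatrixGroups ModularForm Manifold Matrix Real

noncomputable section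

namespace Fermat.Agent.DS.Eis

open Fermat.Agent.DS.Hecke1 Fermat.Agent.IntStr
open ModularFormClass (qCoeff)

/-- The algebraic integers as a subring. -/
def Osub : Subring ℂ := (integralClosure ℤ ℂ).toSubring

/-- To the subring. -/
def toO (x : Zb) : Osub := ⟨x.1, x.2⟩

/-- From the subring. -/
def ofO : Osub →+* Zb where
  toFun x := ⟨x.1, x.2⟩
  map_one' := rfl
  map_mul' _ _ := rfl
  map_zero' := rfl
  map_add' _ _ := rfl

@[simp] lemma ofO_toO (x : Zb) : ofO (toO x) = x := rfl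

@[simp] lemma coe_toO (x : Zb) : ((toO x : Osub) : ℂ) = (x : ℂ) := rfl

variable {N : ℕ} [NeZero N] {ℓ : ℕ} [Fact ℓ.Prime]

/-- The slash action of `Γ₀(N)` on a form with nebentypus. -/
theorem slash_of_dia {f : CuspForm (Gamma1 N) 1} {ε : DirichletCharacter ℂ N}
    (hneb : ∀ d : (ZMod N)ˣ, dia d f = ε (d : ZMod N) • f) {γ : SL(2, ℤ)} (hγ : γ ∈ Gamma0 N) :
    (f : ℍ → ℂ) ∣[(1 : ℤ)] γ = ε ((γ 1 1 : ℤ) : ZMod N) • (f : ℍ → ℂ) := by
  have h := slash_eq_dia f hγ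
  rw [hneb] at h
  exact h

/-- The product form. -/
def prodForm (f : CuspForm (Gamma1 N) 1) (E : ModularForm (Gamma1 ℓ) 1) (D : ℕ)
    (h1 : (Gamma1 (N * ℓ) : Subgroup (GL (Fin 2) ℝ)) ≤ Gamma1 N)
    (h2 : (Gamma1 (N * ℓ) : Subgroup (GL (Fin 2) ℝ)) ≤ Gamma1 ℓ) :
    CuspForm (Gamma1 (N * ℓ)) (((1 : ℕ) : ℤ) + 1) :=
  (D : ℂ) • CuspForm.mcast (by norm_num) ((restrictCusp h1 f).mulModularForm (restrictMod h2 E))

theorem gamma1_le {M L : ℕ} (h : L ∣ M) :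
    (Gamma1 M : Subgroup (GL (Fin 2) ℝ)) ≤ Gamma1 L := by
  rintro _ ⟨γ, hγ, rfl⟩
  refine ⟨γ, ?_, rfl⟩
  have h1 := (Gamma1_mem M γ).mp hγ
  have key : ∀ x : ℤ, ((x : ZMod M).cast : ZMod L) = (x : ZMod L) := fun x => by
    rw [ZMod.cast_intCast h]
  refine (Gamma1_mem L γ).mpr ⟨?_, ?_, ?_⟩
  · rw [← key, h1.1, ZMod.cast_one h]
  · rw [← key, h1.2.1, ZMod.cast_one h]
  · rw [← key, h1.2.2, ZMod.cast_zero]

theorem gamma0_le {M L : ℕ} (h : L ∣ M) {γ : SL(2, ℤ)} (hγ : γ ∈ Gamma0 M) : γ ∈ Gamma0 L := by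
  rw [Gamma0_mem] at hγ ⊢
  rw [← ZMod.cast_intCast h, hγ, ZMod.cast_zero]

theorem coe_prodForm (f : CuspForm (Gamma1 N) 1) (E : ModularForm (Gamma1 ℓ) 1) (D : ℕ)
    (h1 : (Gamma1 (N * ℓ) : Subgroup (GL (Fin 2) ℝ)) ≤ Gamma1 N)
    (h2 : (Gamma1 (N * ℓ) : Subgroup (GL (Fin 2) ℝ)) ≤ Gamma1 ℓ) :
    (prodForm f E D h1 h2 : ℍ → ℂ) = (D : ℂ) • ((f : ℍ → ℂ) * (E : ℍ → ℂ)) := rfl

/-- **From weight one to weight two modulo `ℓ`.** -/
theorem exists_theta_weight_one (ε : DirichletCharacter ℂ N) (f : CuspForm (Gamma1 N) 1)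
    (hf1 : qCoeff f 1 = 1)
    (hT : ∀ p : ℕ, p.Prime → ¬ p ∣ N → ∀ n : ℕ,
        qCoeff f (p * n) + ε (p : ZMod N) * (if p ∣ n then qCoeff f (n / p) else 0) =
          qCoeff f p * qCoeff f n)
    {D : ℕ} (b : ℕ → Zb) (hb : ∀ n, (b n : ℂ) = D * qCoeff f n)
    (a : ℕ → Zb) (ha : ∀ p : ℕ, p.Prime → ¬ p ∣ N → (a p : ℂ) = qCoeff f p)
    (e : ZMod N → Zb) (he : ∀ d : (ZMod N)ˣ, (e d : ℂ) = ε d)
    (hℓ : ℓ ≠ 2) (hℓD : ¬ ℓ ∣ D) {κ : Type*} [Field κ] [CharP κ ℓ] (φ : Zb →+* κ) :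
    ∃ θ : T1 (N * ℓ) 2 →+* κ, ∀ (p : ℕ) (hp : p.Prime) (hpM : ¬ p ∣ N * ℓ),
      θ (T1.T hp hpM) = φ (a p) ∧ (p : κ) * θ (T1.D (pu hp hpM)) = φ (e (p : ZMod N)) := by
  have hpℓ : ℓ.Prime := Fact.out
  have : NeZero ℓ := ⟨hpℓ.ne_zero⟩
  have : NeZero (N * ℓ) := ⟨mul_ne_zero (NeZero.ne N) hpℓ.ne_zero⟩
  obtain ⟨χ, E, c, hχ, hc, hc0, hcn, hE⟩ := exists_eisenstein hℓ φ
  have dN : N ∣ N * ℓ := dvd_mul_right N ℓ
  have dℓ : ℓ ∣ N * ℓ := dvd_mul_left ℓ N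
  have hneb := dia_eq_of_weight_one ε f hT
  set F := prodForm f E D (gamma1_le dN) (gamma1_le dℓ) with hF
  -- nebentypus
  let χ' : (ZMod (N * ℓ))ˣ → Osub := fun d =>
    toO (e ((d : ZMod (N * ℓ)).cast : ZMod N) * χ ((d : ZMod (N * ℓ)).cast : ZMod ℓ))
  have hχ' : ∀ d, dia d F = (χ' d : ℂ) • F := by
    intro d
    apply DFunLike.coe_injective
    rw [coe_dia]
    have hγ := rep_mem d
    set γ := rep (N * ℓ) d with hγdef
    have h11 : ((γ 1 1 : ℤ) : ZMod (N * ℓ)) = d := rep_11 d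
    have h11N : ((γ 1 1 : ℤ) : ZMod N) = ((d : ZMod (N * ℓ)).cast : ZMod N) := by
      rw [← h11, ZMod.cast_intCast dN]
    have h11ℓ : ((γ 1 1 : ℤ) : ZMod ℓ) = ((d : ZMod (N * ℓ)).cast : ZMod ℓ) := by
      rw [← h11, ZMod.cast_intCast dℓ]
    have e1 := slash_of_dia hneb (gamma0_le dN hγ)
    have e2 := hE γ (gamma0_le dℓ hγ)
    have e3 : diaF (N * ℓ) (((1 : ℕ) : ℤ) + 1) d (F : ℍ → ℂ) =
        ((D : ℂ) • ((f : ℍ → ℂ) * (E : ℍ → ℂ))) ∣[(1 : ℤ) + 1] γ := rfl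
    have e4 : ε ((γ 1 1 : ℤ) : ZMod N) = (e ((d : ZMod (N * ℓ)).cast : ZMod N) : ℂ) := by
      rw [h11N]
      have hu : IsUnit ((d : ZMod (N * ℓ)).cast : ZMod N) := by
        have := (ZMod.unitsMap dN d).isUnit
        rwa [ZMod.unitsMap_val] at this
      obtain ⟨u, hu⟩ := hu
      rw [← hu, he]
    have e5 : (((χ' d : ℂ) • F : CuspForm (Gamma1 (N * ℓ)) (((1 : ℕ) : ℤ) + 1)) : ℍ → ℂ) =
        (χ' d : ℂ) • ((D : ℂ) • ((f : ℍ → ℂ) * (E : ℍ → ℂ))) := rfl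
    rw [e3, e5, ModularForm.SL_smul_slash, ModularForm.mul_slash_SL2, e1, e2, e4, h11ℓ]
    funext τ
    simp only [Pi.smul_apply, Pi.mul_apply, smul_eq_mul, χ', coe_toO, MulMemClass.coe_mul]
    ring
  -- coefficients
  let A : ℕ → Zb := fun n => ∑ x ∈ Finset.HasAntidiagonal.antidiagonal n, b x.1 * c x.2
  have hA : ∀ n, ((toO (A n) : Osub) : ℂ) = qc (N * ℓ) _ n F := by
    intro n
    have h1 := ModularForm.qExpansion_mul_coe (h := 1) one_pos
      (one_mem_strictPeriods (M := N * ℓ)) (restrictCusp (gamma1_le dN) f)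
      (restrictMod (gamma1_le dℓ) E)
    have h2 : qCoeff ((f : ℍ → ℂ) * (E : ℍ → ℂ)) n =
        ∑ x ∈ Finset.HasAntidiagonal.antidiagonal n, qCoeff f x.1 * qCoeff E x.2 := by
      have h3 := congrArg (PowerSeries.coeff n) h1
      rw [PowerSeries.coeff_mul] at h3
      exact h3
    have h4 : F = (D : ℂ) • (CuspForm.mcast (by norm_num)
      ((restrictCusp (gamma1_le dN) f).mulModularForm (restrictMod (gamma1_le dℓ) E)) :
        CuspForm (Gamma1 (N * ℓ)) (((1 : ℕ) : ℤ) + 1)) := rfl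
    rw [h4, map_smul, smul_eq_mul, qc_apply, coe_toO]
    have h5 : qCoeff (CuspForm.mcast (by norm_num)
      ((restrictCusp (gamma1_le dN) f).mulModularForm (restrictMod (gamma1_le dℓ) E)) :
        CuspForm (Gamma1 (N * ℓ)) (((1 : ℕ) : ℤ) + 1)) n = qCoeff ((f : ℍ → ℂ) * (E : ℍ → ℂ)) n := rfl
    rw [h5, h2, Finset.mul_sum]
    have h6 : ((A n : Zb) : ℂ) = ∑ x ∈ Finset.HasAntidiagonal.antidiagonal n, ((b x.1 * c x.2 : Zb) : ℂ) := by
      show ((∑ x ∈ Finset.HasAntidiagonal.antidiagonal n, b x.1 * c x.2 : Zb) : ℂ) = _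
      exact map_sum (algebraMap Zb ℂ) _ _
    rw [h6]
    refine Finset.sum_congr rfl fun x _ => ?_
    rw [MulMemClass.coe_mul, hb, hc]
    ring
  have hφA : ∀ n, φ (A n) = φ (b n) := by
    intro n
    show φ (∑ x ∈ Finset.HasAntidiagonal.antidiagonal n, b x.1 * c x.2) = _
    rw [map_sum, Finset.sum_eq_single (n, 0)]
    · rw [map_mul, hc0, mul_one]
    · rintro ⟨i, j⟩ hij hne
      have hj : j ≠ 0 := by
        rintro rfl
        apply hne
        have := Finset.HasAntidiagonal.mem_antidiagonal.mp hij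
        simp at this
        rw [this]
      rw [map_mul, hcn j hj, mul_zero]
    · intro h
      exact absurd (Finset.HasAntidiagonal.mem_antidiagonal.mpr (by simp)) h
  -- the relation in the algebraic integers
  have hrel : ∀ p : ℕ, p.Prime → ¬ p ∣ N → ∀ n : ℕ,
      b (p * n) + e (p : ZMod N) * (if p ∣ n then b (n / p) else 0) = a p * b n := by
    intro p hp hpN n
    apply Subtype.val_injective
    have hu : IsUnit (p : ZMod N) := (pu hp hpN).isUnit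
    obtain ⟨u, hu⟩ := hu
    have h1 := hT p hp hpN n
    have h2 : ((e (p : ZMod N) : Zb) : ℂ) = ε (p : ZMod N) := by rw [← hu, he]
    show ((b (p * n) + e (p : ZMod N) * (if p ∣ n then b (n / p) else 0) : Zb) : ℂ) =
      ((a p * b n : Zb) : ℂ)
    rw [MulMemClass.coe_mul, hb, ha p hp hpN, AddMemClass.coe_add, MulMemClass.coe_mul, hb, h2]
    have h3 : (((if p ∣ n then b (n / p) else 0 : Zb)) : ℂ) =
        D * (if p ∣ n then qCoeff f (n / p) else 0) := by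
      split_ifs
      · rw [hb]
      · rw [mul_zero]; rfl
    rw [h3]
    linear_combination (D : ℂ) * h1
  have key := exists_theta (M := N * ℓ) (k := 1) Osub (φ.comp ofO) F χ' hχ' (fun n => toO (A n)) hA 1
    (by
      have h1 : (φ.comp ofO) (toO (A 1)) = (D : κ) := by
        show φ (A 1) = D
        rw [hφA]
        have h2 : b 1 = (D : Zb) := by
          apply Subtype.val_injective
          show ((b 1 : Zb) : ℂ) = _
          rw [hb, hf1, mul_one]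
          rfl
        rw [h2, map_natCast]
      rw [h1]
      refine IsUnit.mk0 _ fun h => hℓD ((CharP.cast_eq_zero_iff κ ℓ D).mp h))
    (fun p => φ (a p)) (fun p _ _ => ⟨toO (a p), rfl⟩)
    (by
      intro p hp hpM n
      have hpN : ¬ p ∣ N := fun h => hpM (h.mul_right ℓ)
      have hpℓ' : ¬ p ∣ ℓ := fun h => hpM (h.mul_left N)
      show φ (A (p * n)) + (if p ∣ n then (p : κ) ^ 1 * φ (e _ * χ _) * φ (A (n / p)) else 0) =
        φ (a p) * φ (A n)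
      rw [hφA, hφA, hφA, ← map_mul, ← hrel p hp hpN n, map_add, map_mul]
      congr 1
      have h1 : (((pu hp hpM : (ZMod (N * ℓ))ˣ) : ZMod (N * ℓ)).cast : ZMod N) = (p : ZMod N) := by
        rw [coe_pu, ZMod.cast_natCast dN]
      have h2 : (((pu hp hpM : (ZMod (N * ℓ))ˣ) : ZMod (N * ℓ)).cast : ZMod ℓ) = (p : ZMod ℓ) := by
        rw [coe_pu, ZMod.cast_natCast dℓ]
      have h3 : (p : ZMod ℓ) ≠ 0 := by
        rw [Ne, ZMod.natCast_eq_zero_iff]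
        intro h
        exact hpℓ' ((Nat.prime_dvd_prime_iff_eq hpℓ hp).mp h ▸ dvd_rfl)
      have h4 := hχ (p : ZMod ℓ) h3
      have h5 : (((p : ZMod ℓ).val : ℕ) : κ) = (p : κ) := by
        have := congrArg (ZMod.castHom (dvd_refl ℓ) κ) (ZMod.natCast_zmod_val (p : ZMod ℓ))
        rwa [map_natCast, map_natCast] at this
      rw [h5] at h4
      rw [h1, h2]
      split_ifs
      · rw [map_mul]
        linear_combination (φ (e (p : ZMod N)) * φ (b (n / p))) * h4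
      · rw [mul_zero, map_zero])
  have h2 : ((1 : ℕ) : ℤ) + 1 = 2 := by norm_num
  rw [h2] at key
  obtain ⟨θ, hθ1, hθ2⟩ := key
  refine ⟨θ, fun p hp hpM => ⟨hθ1 p hp hpM, ?_⟩⟩
  have hpℓ' : ¬ p ∣ ℓ := fun h => hpM (h.mul_left N)
  have h1 : (((pu hp hpM : (ZMod (N * ℓ))ˣ) : ZMod (N * ℓ)).cast : ZMod N) = (p : ZMod N) := by
    rw [coe_pu, ZMod.cast_natCast dN]
  have h2 : (((pu hp hpM : (ZMod (N * ℓ))ˣ) : ZMod (N * ℓ)).cast : ZMod ℓ) = (p : ZMod ℓ) := by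
    rw [coe_pu, ZMod.cast_natCast dℓ]
  have h3 : (p : ZMod ℓ) ≠ 0 := by
    rw [Ne, ZMod.natCast_eq_zero_iff]
    intro h
    exact hpℓ' ((Nat.prime_dvd_prime_iff_eq hpℓ hp).mp h ▸ dvd_rfl)
  have h4 := hχ (p : ZMod ℓ) h3
  have h5 : (((p : ZMod ℓ).val : ℕ) : κ) = (p : κ) := by
    have := congrArg (ZMod.castHom (dvd_refl ℓ) κ) (ZMod.natCast_zmod_val (p : ZMod ℓ))
    rwa [map_natCast, map_natCast] at this
  rw [h5] at h4
  rw [hθ2]
  show (p : κ) * φ (e _ * χ _) = _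
  rw [h1, h2, map_mul]
  linear_combination (φ (e (p : ZMod N))) * h4

end Fermat.Agent.DS.Eis
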