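import Mathlib
import Fermat.Agent.DS.EisTheta

/-!
# A weight one form congruent to one modulo two
-/

set_option autoImplicit false

open UpperHalfPlane hiding I
open EisensteinSeries Complex Filter Topology Function CongruenceSubgroup
open scoped MatrixGroups ModularForm Manifold Matrix Real

noncomputable section

namespace Fermat.Agent.DS.Eis

open ModularFormClass (qCoeff)

local notation "𝕖" => ZMod.stdAddChar

variable {ℓ : ℕ} [Fact ℓ.Prime]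

/-- The form for a single vector. -/
def vecFun (r : ZMod ℓ) (τ : ℍ) : ℂ := ℓ * wtOne ℓ ![0, (r.val : ℤ)] τ

omit [Fact ℓ.Prime] in
theorem vecFun_slash (r : ZMod ℓ) (γ : SL(2, ℤ)) :
    vecFun r ∣[(1 : ℤ)] γ =
      (ℓ : ℂ) • wtOne ℓ (![0, (r.val : ℤ)] ᵥ* (γ : Matrix (Fin 2) (Fin 2) ℤ)) := by
  have h : vecFun r = (ℓ : ℂ) • wtOne ℓ ![0, (r.val : ℤ)] := rfl
  rw [h, ModularForm.SL_smul_slash, wtOne_slash]

theorem vecFun_gamma1 (hℓ : ℓ ≠ 2) {r : ZMod ℓ} (hr : r ≠ 0) {γ : SL(2, ℤ)}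
    (hγ : γ ∈ Gamma1 ℓ) : vecFun r ∣[(1 : ℤ)] γ = vecFun r := by
  have hp : ℓ.Prime := Fact.out
  have hℓ0 : (ℓ : ℤ) ≠ 0 := by exact_mod_cast hp.ne_zero
  have h1 := (Gamma1_mem ℓ γ).mp hγ
  rw [vecFun_slash]
  have e1 : wtOne ℓ (![0, (r.val : ℤ)] ᵥ* (γ : Matrix (Fin 2) (Fin 2) ℤ)) =
      wtOne ℓ ![0, (r.val : ℤ)] := by
    refine wtOne_congr hℓ0 (adm_val hℓ hr) fun i => ?_
    rw [← ZMod.intCast_eq_intCast_iff]
    fin_cases i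
    · simp [Matrix.vecMul, dotProduct, h1.2.2]
    · simp [Matrix.vecMul, dotProduct, h1.2.1]
  rw [e1]
  rfl

/-- The modular form for a single vector. -/
def vecMF (hℓ : ℓ ≠ 2) {r : ZMod ℓ} (hr : r ≠ 0) : ModularForm (Gamma1 ℓ) 1 where
  toFun := vecFun r
  slash_action_eq' γ hγ := by
    obtain ⟨γ, hγ, rfl⟩ := hγ
    exact vecFun_gamma1 hℓ hr hγ
  holo' := by
    have hp : ℓ.Prime := Fact.out
    have hℓ0 : (ℓ : ℤ) ≠ 0 := by exact_mod_cast hp.ne_zero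
    rw [UpperHalfPlane.mdifferentiable_iff]
    have e : (vecFun r ∘ ofComplex) = fun z => ℓ * (wtOne ℓ ![0, (r.val : ℤ)] ∘ ofComplex) z := rfl
    show DifferentiableOn ℂ (vecFun r ∘ ofComplex) _
    rw [e]
    exact (UpperHalfPlane.mdifferentiable_iff.mp (wtOne_mdiff hℓ0 (adm_val hℓ hr))).const_mul _
  bdd_at_cusps' {c} hc := by
    have hp : ℓ.Prime := Fact.out
    have : NeZero ℓ := ⟨hp.ne_zero⟩
    rw [Subgroup.IsArithmetic.isCusp_iff_isCusp_SL2Z] at hc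
    rw [OnePoint.isBoundedAt_iff_forall_SL2Z hc]
    intro γ _
    show IsBoundedAtImInfty (vecFun r ∣[(1 : ℤ)] γ)
    rw [vecFun_slash]
    have h1 : IsBoundedAtImInfty
        (wtOne ℓ (![0, (r.val : ℤ)] ᵥ* (γ : Matrix (Fin 2) (Fin 2) ℤ))) :=
      wtOne_isBounded hp.pos ((adm_val hℓ hr).vecMul γ)
    have h2 : (wtOne ℓ (![0, (r.val : ℤ)] ᵥ* (γ : Matrix (Fin 2) (Fin 2) ℤ))) =O[atImInfty]
      (1 : ℍ → ℝ) := h1
    exact h2.const_mul_left _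

/-- Odd functions. -/
def sodd (r : ZMod ℓ) (n : ℕ) : ℂ := 𝕖 ((n : ZMod ℓ) * r) - 𝕖 (-((n : ZMod ℓ) * r))

/-- The model coefficients. -/
def gco (r : ZMod ℓ) (n : ℕ) : ℂ :=
  if n = 0 then π * I * (1 + 2 / (𝕖 r - 1)) else -(2 * π * I) * ∑ d ∈ n.divisors, sodd r d

theorem two_ne_zero' (hℓ : ℓ ≠ 2) : (2 : ZMod ℓ) ≠ 0 := by
  intro h
  apply hℓ
  have h3 : ((2 : ℕ) : ZMod ℓ) = 0 := by exact_mod_cast h
  rw [ZMod.natCast_eq_zero_iff] at h3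
  exact (Nat.prime_dvd_prime_iff_eq Fact.out Nat.prime_two).mp h3

theorem vec_integerCompl (hℓ : ℓ ≠ 2) {r : ZMod ℓ} (hr : r ≠ 0) :
    ((r.val / ((ℓ : ℤ) : ℝ) : ℝ) : ℂ) ∈ integerComplement ∧
    ((2 * (r.val / ((ℓ : ℤ) : ℝ)) : ℝ) : ℂ) ∈ integerComplement := by
  have hp : ℓ.Prime := Fact.out
  have hℓ0 : (ℓ : ℂ) ≠ 0 := by exact_mod_cast hp.ne_zero
  have hadm := adm_val hℓ hr
  constructor
  · rintro ⟨k, hk⟩
    apply hadm.1 ![0, -k]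
    have h3 : (k : ℂ) * ℓ = r.val := by
      push_cast at hk
      rw [hk]; field_simp
    have h4 : k * ℓ = (r.val : ℤ) := by exact_mod_cast h3
    ext i
    fin_cases i
    · simp
    · simp only [Fin.mk_one, Pi.add_apply, Pi.smul_apply, smul_eq_mul, Matrix.cons_val_one,
        Matrix.cons_val_fin_one, Pi.zero_apply]
      linarith
  · rintro ⟨k, hk⟩
    apply hadm.2 ![0, k]
    have h3 : (k : ℂ) * ℓ = 2 * r.val := by
      push_cast at hk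
      rw [hk]; field_simp
    have h4 : k * ℓ = 2 * (r.val : ℤ) := by exact_mod_cast h3
    ext i
    fin_cases i
    · simp
    · simp only [Fin.mk_one, two_nsmul, Pi.sub_apply, Pi.add_apply, Pi.smul_apply, smul_eq_mul,
        Matrix.cons_val_one, Matrix.cons_val_fin_one, Pi.zero_apply]
      linarith

theorem ex_two_val (r : ZMod ℓ) : ex ((2 * (r.val / ((ℓ : ℤ) : ℝ)) : ℝ) : ℂ) = 𝕖 (2 * r) := by
  have h5 : ((2 * (r.val / ((ℓ : ℤ) : ℝ)) : ℝ) : ℂ) =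
      ((2 : ℕ) : ℂ) * ((r.val / ((ℓ : ℤ) : ℝ) : ℝ) : ℂ) := by push_cast; ring
  rw [h5, ex_nat_mul, ex_val, stdAddChar_nsmul]
  norm_num

theorem sfun_sodd (r : ZMod ℓ) (n : ℕ) : sfun (𝕖 r) n = 2 * sodd r n - sodd (2 * r) n := by
  rw [sfun_eq, sodd, sodd]
  have e1 : -(n : ZMod ℓ) * r = -((n : ZMod ℓ) * r) := by ring
  have e2 : -(2 * n : ZMod ℓ) * r = -((n : ZMod ℓ) * (2 * r)) := by ring
  have e3 : (2 * n : ZMod ℓ) * r = (n : ZMod ℓ) * (2 * r) := by ring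
  rw [e1, e2, e3]
  ring

theorem vecMF_hasSum (hℓ : ℓ ≠ 2) {r : ZMod ℓ} (hr : r ≠ 0) (τ : ℍ) :
    HasSum (fun k : ℕ => (2 * gco r k - gco (2 * r) k) * ex τ ^ k) (vecMF hℓ hr τ) := by
  have hp : ℓ.Prime := Fact.out
  have hℓ0 : (ℓ : ℤ) ≠ 0 := by exact_mod_cast hp.ne_zero
  have hq := norm_ex_lt_one τ
  have h1 := wtOne_row ℓ (r.val : ℤ) hℓ0 (adm_val hℓ hr) τ
  have h2 : ((((r.val : ℕ) : ℤ) : ℝ)) = (r.val : ℝ) := by push_cast; rfl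
  obtain ⟨g1, g2⟩ := vec_integerCompl hℓ hr
  rw [h2, ex_val, cotm_eq_ex g1, cotm_eq_ex g2, ex_val, ex_two_val] at h1
  simp_rw [tsum_mul_left] at h1
  have h3 := h1.tsum_eq
  rw [tsum_mul_left] at h3
  have h4 := hasSum_divisor (norm_sfun_le (norm_stdAddChar r)) (sfun_zero _) hq
  have h5 : vecMF hℓ hr τ = (2 * (π * I * (1 + 2 / (𝕖 r - 1))) - π * I * (1 + 2 / (𝕖 (2 * r) - 1))) +
      -(2 * π * I) * ∑' m : ℕ, ∑' n : ℕ, sfun (𝕖 r) n * (ex τ ^ (m + 1)) ^ n := by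
    rw [h3]
    show (ℓ : ℂ) * wtOne ℓ ![0, (r.val : ℤ)] τ = _
    push_cast
    ring
  rw [h5]
  have h7 : HasSum (fun k : ℕ => if k = 0 then
      (2 * (π * I * (1 + 2 / (𝕖 r - 1))) - π * I * (1 + 2 / (𝕖 (2 * r) - 1))) else 0)
      (2 * (π * I * (1 + 2 / (𝕖 r - 1))) - π * I * (1 + 2 / (𝕖 (2 * r) - 1))) := hasSum_ite_eq 0 _
  have h8 := h7.add (h4.mul_left (-(2 * π * I)))
  convert! h8 using 1
  funext k
  by_cases hk : k = 0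
  · subst hk
    simp [gco]
  · simp only [gco, hk, if_false]
    simp_rw [sfun_sodd]
    rw [Finset.sum_sub_distrib, ← Finset.mul_sum]
    ring

/-- The doubling sequence of forms. -/
def dbl (hℓ : ℓ ≠ 2) : ℕ → ModularForm (Gamma1 ℓ) 1
  | 0 => 0
  | n + 1 => (2 : ℂ) • dbl hℓ n + vecMF hℓ (r := (2 : ZMod ℓ) ^ n) (pow_ne_zero _ (two_ne_zero' hℓ))

theorem dbl_hasSum (hℓ : ℓ ≠ 2) (n : ℕ) (τ : ℍ) :
    HasSum (fun k : ℕ => (2 ^ n * gco (1 : ZMod ℓ) k - gco ((2 : ZMod ℓ) ^ n) k) * ex τ ^ k)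
      (dbl hℓ n τ) := by
  induction n with
  | zero =>
    simp only [pow_zero, one_mul, sub_self, zero_mul]
    exact hasSum_zero
  | succ n ih =>
    have h := (ih.mul_left 2).add (vecMF_hasSum hℓ (pow_ne_zero n (two_ne_zero' hℓ)) τ)
    convert! h using 1
    funext k
    rw [pow_succ, pow_succ, mul_comm ((2 : ZMod ℓ) ^ n) 2]
    ring

/-- The form. -/
def fTwo (hℓ : ℓ ≠ 2) : ModularForm (Gamma1 ℓ) 1 :=
  (-(π * I)⁻¹ * (2 ^ (ℓ - 1) - 1)⁻¹ : ℂ) • dbl hℓ (ℓ - 1)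

theorem fTwo_hasSum (hℓ : ℓ ≠ 2) (τ : ℍ) :
    HasSum (fun k : ℕ => (-(π * I)⁻¹ * gco (1 : ZMod ℓ) k) * ex τ ^ k) (fTwo hℓ τ) := by
  have hp : ℓ.Prime := Fact.out
  have h := (dbl_hasSum hℓ (ℓ - 1) τ).mul_left (-(π * I)⁻¹ * (2 ^ (ℓ - 1) - 1)⁻¹)
  have h1 : (2 : ZMod ℓ) ^ (ℓ - 1) = 1 := ZMod.pow_card_sub_one_eq_one (two_ne_zero' hℓ)
  rw [h1] at h
  have h2 : (2 ^ (ℓ - 1) - 1 : ℂ) ≠ 0 := by
    have h3 : (2 : ℕ) ^ (ℓ - 1) ≠ 1 := by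
      have := hp.two_le
      have h4 : ℓ - 1 ≠ 0 := by omega
      exact (Nat.one_lt_pow h4 (by norm_num)).ne'
    intro h4
    apply h3
    have h5 : (2 : ℂ) ^ (ℓ - 1) = 1 := sub_eq_zero.mp h4
    exact_mod_cast h5
  convert! h using 1
  funext k
  field_simp

theorem qCoeff_fTwo (hℓ : ℓ ≠ 2) (n : ℕ) :
    qCoeff (fTwo hℓ) n = -(π * I)⁻¹ * gco (1 : ZMod ℓ) n :=
  have : NeZero ℓ := ⟨(Fact.out : ℓ.Prime).ne_zero⟩
  qCoeff_of_hasSum _ (fTwo_hasSum hℓ) n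

theorem isIntegral_stdAddChar (r : ZMod ℓ) : IsIntegral ℤ (𝕖 r : ℂ) := by
  refine IsIntegral.of_pow (n := ℓ) (Fact.out : ℓ.Prime).pos ?_
  rw [stdAddChar_nsmul, CharP.cast_eq_zero, zero_mul, AddChar.map_zero_eq_one]
  exact isIntegral_one

theorem exists_two_prime (hℓ : ℓ ≠ 2) : ∃ u : ℕ → Zb, ∀ n,
    (ℓ : ℂ) * qCoeff (fTwo hℓ) n = (if n = 0 then 1 else 0) + 2 * (u n : ℂ) := by
  have hp : ℓ.Prime := Fact.out
  have hℓ0 : (ℓ : ℂ) ≠ 0 := by exact_mod_cast hp.ne_zero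
  have hpi : (π * I : ℂ) ≠ 0 := mul_ne_zero (by exact_mod_cast Real.pi_ne_zero) I_ne_zero
  obtain ⟨c, hc⟩ : Odd ℓ := hp.odd_of_ne_two hℓ
  have key : ∀ n, ∃ v : Zb, (ℓ : ℂ) * qCoeff (fTwo hℓ) n = (if n = 0 then 1 else 0) + 2 * (v : ℂ) := by
    intro n
    rw [qCoeff_fTwo, gco]
    split_ifs with hn
    · have h1 := sum_val_stdAddChar (r := (1 : ZMod ℓ)) one_ne_zero
      have hint : IsIntegral ℤ (-(c + 1 : ℂ) - ∑ a : ZMod ℓ, (a.val : ℂ) * 𝕖 (a * 1)) := by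
        refine IsIntegral.sub ?_ (IsIntegral.sum _ fun a _ => ?_)
        · have : (-(c + 1 : ℂ)) = ((-(c + 1) : ℤ) : ℂ) := by push_cast; ring
          rw [this]
          exact isIntegral_algebraMap (R := ℤ)
        · refine IsIntegral.mul ?_ (isIntegral_stdAddChar _)
          exact_mod_cast isIntegral_algebraMap (R := ℤ) (x := ((a.val : ℕ) : ℤ))
      refine ⟨⟨_, hint⟩, ?_⟩
      show _ = 1 + 2 * (-(c + 1 : ℂ) - ∑ a : ZMod ℓ, (a.val : ℂ) * 𝕖 (a * 1))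
      rw [h1]
      have h2 : (ℓ : ℂ) = 2 * c + 1 := by exact_mod_cast hc
      have h3 : -(π * I)⁻¹ * (π * I * (1 + 2 / (𝕖 (1 : ZMod ℓ) - 1))) =
          -(1 + 2 / (𝕖 (1 : ZMod ℓ) - 1)) := by
        rw [neg_mul, ← mul_assoc, inv_mul_cancel₀ hpi, one_mul]
      rw [h3, mul_neg, mul_add, mul_one]
      have h4 : (ℓ : ℂ) * (2 / (𝕖 (1 : ZMod ℓ) - 1)) = 2 * (ℓ / (𝕖 (1 : ZMod ℓ) - 1)) := by ring
      rw [h4]
      linear_combination -h2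
    · have hint : IsIntegral ℤ (ℓ * ∑ d ∈ n.divisors, sodd (1 : ZMod ℓ) d) := by
        refine IsIntegral.mul ?_ (IsIntegral.sum _ fun d _ => ?_)
        · exact_mod_cast isIntegral_algebraMap (R := ℤ) (x := (ℓ : ℤ))
        · exact (isIntegral_stdAddChar _).sub (isIntegral_stdAddChar _)
      refine ⟨⟨_, hint⟩, ?_⟩
      show _ = 0 + 2 * (ℓ * ∑ d ∈ n.divisors, sodd (1 : ZMod ℓ) d)
      have h3 : -(π * I)⁻¹ * (-(2 * π * I) * ∑ d ∈ n.divisors, sodd (1 : ZMod ℓ) d) =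
          2 * ∑ d ∈ n.divisors, sodd (1 : ZMod ℓ) d := by
        have : -(π * I)⁻¹ * (-(2 * π * I) * ∑ d ∈ n.divisors, sodd (1 : ZMod ℓ) d) =
          ((π * I)⁻¹ * (π * I)) * (2 * ∑ d ∈ n.divisors, sodd (1 : ZMod ℓ) d) := by ring
        rw [this, inv_mul_cancel₀ hpi, one_mul]
      rw [h3]
      ring
  choose u hu using key
  exact ⟨u, hu⟩

/-- **A weight one form on `Γ₁(m)` congruent to one modulo two**, `m > 1` odd. -/
theorem exists_weight_one_two {m : ℕ} (hm : 1 < m) (hodd : Odd m) :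
    ∃ (f : ModularForm (Gamma1 m) 1) (D : ℕ) (u : ℕ → Zb), Odd D ∧
      ∀ n, (D : ℂ) * qCoeff f n = (if n = 0 then 1 else 0) + 2 * (u n : ℂ) := by
  obtain ⟨ℓ, hp, hdvd⟩ := Nat.exists_prime_and_dvd hm.ne'
  have : Fact ℓ.Prime := ⟨hp⟩
  have hℓ : ℓ ≠ 2 := by
    rintro rfl
    exact (Nat.not_even_iff_odd.mpr hodd) (even_iff_two_dvd.mpr hdvd)
  obtain ⟨u, hu⟩ := exists_two_prime (ℓ := ℓ) hℓ
  exact ⟨Fermat.Agent.IntStr.restrictMod (gamma1_le hdvd) (fTwo hℓ), ℓ, u, hp.odd_of_ne_two hℓ, hu⟩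

end Fermat.Agent.DS.Eis
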