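import Fermat.Agent.DS.GaloisSide
import Fermat.Agent.Density.Final

/-!
# Deligne–Serre: the Galois side, unconditional
-/

set_option autoImplicit false

open NumberField

namespace Fermat.Agent.DS

local notation "Γℚ" => AlgebraicClosure ℚ ≃ₐ[ℚ] AlgebraicClosure ℚ

/-- **The Galois side of Deligne–Serre.** -/
theorem galois_side_final {N : ℕ} [NeZero N] {a e : ℕ → Zb}
    (ε : ZMod N → Zb) (hε : ∀ p : ℕ, p.Prime → ¬ p ∣ N → e p = ε p) (hodd : ε (-1) = -1)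
    (K : Type) [Field K] [NumberField K] (ι : K →+* ℂ)
    (a' : ℕ → 𝓞 K) (hR : ∀ σ : K →+* ℂ, Rankin N fun p => σ (a' p))
    (ha : ∀ p, (a p : ℂ) = ι (a' p))
    (hG : ∀ B : ℕ, ∃ ℓ, B < ℓ ∧ ℓ.Prime ∧ Nonempty (ModRep N a e ℓ)) :
    ∃ ρ : Γℚ →* Matrix.GeneralLinearGroup (Fin 2) ℂ, GaloisFactorsThroughFiniteLevel ρ ∧
      (Deformation.matrixRepresentation ρ).IsIrreducible ∧
      ∀ p : ℕ, p.Prime → ¬ p ∣ N →
        ∀ A : ValuationSubring (AlgebraicClosure ℚ), A.LiesOverPrime p →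
          (∀ σ ∈ A.inertiaSubgroupIn ℚ, ρ σ = 1) ∧
          ∀ σ : Γℚ, A.IsFrobeniusAt σ p →
            ((ρ σ : Matrix.GeneralLinearGroup (Fin 2) ℂ) : Matrix (Fin 2) (Fin 2) ℂ).trace = a p ∧
            ((ρ σ : Matrix.GeneralLinearGroup (Fin 2) ℂ) : Matrix (Fin 2) (Fin 2) ℂ).det = e p :=
  galois_side Density.Final.cycloPrimeDensity ε hε hodd K ι a' hR ha hG

end Fermat.Agent.DS
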