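import Mathlib
import Fermat.Agent.DS.Complex
import Fermat.Prelude.Def_Deformations_MatrixRepresentation

/-!
# Deligne–Serre: the Galois side

From mod `ℓ` representations for infinitely many `ℓ` and the Rankin bound for all conjugates to the
complex representation.
-/

set_option autoImplicit false

open Filter Topology NumberField

namespace Fermat.Agent.DS

open Fermat.Agent.Density.Crossing Fermat.Agent.Density.Chebotarev Matrix

local notation "ℚbar" => AlgebraicClosure ℚ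
local notation "Γℚ" => AlgebraicClosure ℚ ≃ₐ[ℚ] AlgebraicClosure ℚ

/-- Rankin bounds for all conjugates imply that `a p` takes few values for most `p`. -/
theorem exists_smallOutside {N : ℕ} (K : Type) [Field K] [NumberField K] (ι : K →+* ℂ)
    (a' : ℕ → 𝓞 K) (hR : ∀ σ : K →+* ℂ, Rankin N fun p => σ (a' p)) (a : ℕ → Zb)
    (ha : ∀ p, (a p : ℂ) = ι (a' p)) : ∃ Y : Finset Zb, SmallOutside N Y a := by
  classical
  choose C hC using hR
  let D : ℝ := (Fintype.card (K →+* ℂ) : ℝ)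
  have hD : 0 < D := by
    have : Nonempty (K →+* ℂ) := ⟨ι⟩
    have h0 : 0 < Fintype.card (K →+* ℂ) := Fintype.card_pos
    exact Nat.cast_pos.mpr h0
  let B : ℝ := Real.sqrt (8 * D)
  have hfin := Embeddings.finite_of_norm_le K ℂ B
  have hfin2 : (Set.range fun x : {x : K | IsIntegral ℤ x ∧ ∀ φ : K →+* ℂ, ‖φ x‖ ≤ B} =>
      (⟨ι x.1, x.2.1.map (ι : K →+* ℂ).toIntAlgHom⟩ : Zb)).Finite := by
    have := hfin.to_subtype
    exact Set.finite_range _
  refine ⟨hfin2.toFinset, (∑ σ, C σ) / (8 * D), fun s hs hs2 P hP => ?_⟩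
  have h8D : 0 < 8 * D := by positivity
  have hbig : ∀ p ∈ P, 8 * D ≤ ∑ σ : K →+* ℂ, ‖σ (a' p)‖ ^ 2 := by
    intro p hp
    have h1 := (hP p hp).2.2
    rw [Set.Finite.mem_toFinset] at h1
    have h2 : ∃ σ : K →+* ℂ, B < ‖σ (a' p)‖ := by
      by_contra hcon
      push Not at hcon
      refine h1 ⟨⟨(a' p : K), (a' p).isIntegral_coe, hcon⟩, ?_⟩
      refine Subtype.ext ?_
      exact (ha p).symm
    obtain ⟨σ, hσ⟩ := h2
    have h3 : 8 * D ≤ ‖σ (a' p)‖ ^ 2 := by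
      have h4 : B ^ 2 = 8 * D := Real.sq_sqrt h8D.le
      rw [← h4]
      exact pow_le_pow_left₀ (Real.sqrt_nonneg _) hσ.le 2
    exact h3.trans (Finset.single_le_sum (f := fun σ : K →+* ℂ => ‖σ (a' p)‖ ^ 2)
      (fun σ _ => by positivity) (Finset.mem_univ σ))
  have h1 : (8 * D) * ∑ p ∈ P, (p : ℝ) ^ (-s) ≤
      ∑ σ : K →+* ℂ, ∑ p ∈ P, ‖σ (a' p)‖ ^ 2 * (p : ℝ) ^ (-s) := by
    rw [Finset.sum_comm, Finset.mul_sum]
    refine Finset.sum_le_sum fun p hp => ?_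
    rw [← Finset.sum_mul]
    exact mul_le_mul_of_nonneg_right (hbig p hp) (by positivity)
  have h2 : ∑ σ : K →+* ℂ, ∑ p ∈ P, ‖σ (a' p)‖ ^ 2 * (p : ℝ) ^ (-s) ≤
      D * Real.log (1 / (s - 1)) + ∑ σ, C σ := by
    refine (Finset.sum_le_sum fun σ _ => hC σ s hs hs2 P
      (fun p hp => ⟨(hP p hp).1, (hP p hp).2.1⟩)).trans (le_of_eq ?_)
    rw [Finset.sum_add_distrib, Finset.sum_const, Finset.card_univ, nsmul_eq_mul]
  have h3 := h1.trans h2
  have h4 : ∑ p ∈ P, (p : ℝ) ^ (-s) ≤ (D * Real.log (1 / (s - 1)) + ∑ σ, C σ) / (8 * D) := by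
    rw [le_div_iff₀ h8D]
    linarith
  refine h4.trans (le_of_eq ?_)
  field_simp

theorem isIrreducible_of_irr {G : Type} [Group G] (ρ : G →* GL (Fin 2) ℂ)
    (h : Irr ((Units.coeHom _).comp ρ)) :
    (Deformation.matrixRepresentation ρ).IsIrreducible := by
  have hbt : (⊥ : Subrepresentation (Deformation.matrixRepresentation ρ)) ≠ ⊤ := by
    intro hbt
    have h1 := congrArg Subrepresentation.toSubmodule hbt
    have h2 : (⊥ : Submodule ℂ (Fin 2 → ℂ)) = ⊤ := h1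
    exact bot_ne_top h2
  refine { exists_pair_ne := ⟨⊥, ⊤, hbt⟩, eq_bot_or_eq_top := fun W => ?_ }
  have h1 := h W.toSubmodule fun g x hx => by
    have := W.apply_mem_toSubmodule g hx
    rw [Deformation.matrixRepresentation_apply] at this
    exact this
  rcases h1 with h1 | h1
  · exact Or.inl (Subrepresentation.toSubmodule_injective h1)
  · exact Or.inr (Subrepresentation.toSubmodule_injective h1)

/-- **The Galois side of Deligne–Serre.** -/
theorem galois_side (hA2 : CycloPrimeDensity.{0}) {N : ℕ} [NeZero N] {a e : ℕ → Zb}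
    (ε : ZMod N → Zb) (hε : ∀ p : ℕ, p.Prime → ¬ p ∣ N → e p = ε p) (hodd : ε (-1) = -1)
    (K : Type) [Field K] [NumberField K] (ι : K →+* ℂ)
    (a' : ℕ → 𝓞 K) (hR : ∀ σ : K →+* ℂ, Rankin N fun p => σ (a' p))
    (ha : ∀ p, (a p : ℂ) = ι (a' p))
    (hG : ∀ B : ℕ, ∃ ℓ, B < ℓ ∧ ℓ.Prime ∧ Nonempty (ModRep N a e ℓ)) :
    ∃ ρ : Γℚ →* GL (Fin 2) ℂ, GaloisFactorsThroughFiniteLevel ρ ∧
      (Deformation.matrixRepresentation ρ).IsIrreducible ∧
      ∀ p : ℕ, p.Prime → ¬ p ∣ N →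
        ∀ A : ValuationSubring (AlgebraicClosure ℚ), A.LiesOverPrime p →
          (∀ σ ∈ A.inertiaSubgroupIn ℚ, ρ σ = 1) ∧
          ∀ σ : Γℚ, A.IsFrobeniusAt σ p →
            ((ρ σ : GL (Fin 2) ℂ) : Matrix (Fin 2) (Fin 2) ℂ).trace = a p ∧
            ((ρ σ : GL (Fin 2) ℂ) : Matrix (Fin 2) (Fin 2) ℂ).det = e p := by
  classical
  have hN : N ≠ 0 := NeZero.ne N
  obtain ⟨Y, hY⟩ := exists_smallOutside K ι a' hR a ha
  let Z : Finset Zb := Finset.univ.image ε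
  have hZ : ∀ p : ℕ, p.Prime → ¬ p ∣ N → e p ∈ Z := fun p hp hpN => by
    rw [hε p hp hpN]
    exact Finset.mem_image_of_mem _ (Finset.mem_univ _)
  let A₀ : ℕ := 2 * (Y.card * Z.card) ^ 4
  have hfam : ∀ B : ℕ, ∃ ℓ, B < ℓ ∧ ℓ.Prime ∧
      ∃ R : ModRep N a e ℓ, ∀ σ, R.M σ ^ (A₀.factorial) = 1 := by
    intro B
    obtain ⟨ℓ, hℓ, hℓp, ⟨R⟩⟩ := hG (max B 2)
    obtain ⟨R', hss⟩ := R.exists_ss
    have hℓ2 : ℓ ≠ 2 := (lt_of_le_of_lt (le_max_right B 2) hℓ).ne'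
    refine ⟨ℓ, lt_of_le_of_lt (le_max_left B 2) hℓ, hℓp, R', fun σ => ?_⟩
    have h1 := card_range_le_of_modRep hA2 hN Y Z hY hZ hℓp hℓ2 R' hss
    -- the range is finite
    have hfinite : Finite R'.M.toHomUnits.range := by
      obtain ⟨L, _, _, M', hM'⟩ := exists_factor R'.M R'.level
      have h2 : (Set.range fun g => M'.toHomUnits g).Finite := Set.finite_range _
      refine (h2.subset ?_).to_subtype
      rintro u ⟨σ, rfl⟩
      exact ⟨AlgEquiv.restrictNormalHom L σ, Units.ext (hM' σ)⟩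
    have h2 : Nat.card R'.M.toHomUnits.range ∣ A₀.factorial :=
      Nat.dvd_factorial Nat.card_pos h1
    obtain ⟨c, hc⟩ := h2
    have h3 : (⟨R'.M.toHomUnits σ, ⟨σ, rfl⟩⟩ : R'.M.toHomUnits.range) ^
        (Nat.card R'.M.toHomUnits.range) = 1 := pow_card_eq_one'
    have h4 : (R'.M.toHomUnits σ) ^ (A₀.factorial) = 1 := by
      have h5 := congrArg Subtype.val h3
      rw [hc, pow_mul]
      have h6 : (R'.M.toHomUnits σ) ^ (Nat.card R'.M.toHomUnits.range) = 1 := h5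
      rw [h6, one_pow]
    have h5 := congrArg Units.val h4
    simpa using h5
  obtain ⟨t, d, H, hlev, hfrob⟩ := exists_traces hA2 hN (Nat.factorial_pos A₀) hfam
  have hR' : Rankin N fun p => (a p : ℂ) := by
    obtain ⟨C, hC⟩ := hR ι
    refine ⟨C, fun s hs hs2 P hP => ?_⟩
    simp only [ha]
    exact hC s hs hs2 P hP
  obtain ⟨M, hlevM, hirr, hM⟩ := exists_complex hA2 ε hε hodd hR' t d H hlev hfrob
  refine ⟨M.toHomUnits, ?_, isIrreducible_of_irr _ ?_, fun p hp hpN A hA => ?_⟩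
  · obtain ⟨L, hL, h⟩ := hlevM
    exact ⟨L, hL, fun σ hσ => Units.ext (h σ hσ)⟩
  · exact hirr
  · obtain ⟨h1, h2⟩ := hM p hp hpN A hA
    exact ⟨fun σ hσ => Units.ext (h1 σ hσ), h2⟩

end Fermat.Agent.DS
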