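import Mathlib
import Fermat.Prelude.Def_ModularForm_HeckeOperatorForms
import Fermat.Prelude.Def_FLTPrelim_Modularity

/-!
# Diamond operators and Hecke operators for `Γ₁(M)`: function level

`Inv M k f` : invariance of `f : ℍ → ℂ` under `Γ₁(M)`; `diaF M k d f = ⟨d⟩ f`;
`TF M k p f = T_p f = ∑_j f ∣ (1, j; 0, p) + ⟨p⟩ f ∣ (p, 0; 0, 1)`.
-/

set_option autoImplicit false

noncomputable section

namespace Fermat.Agent.DS.Hecke1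

open CongruenceSubgroup ModularForm UpperHalfPlane Matrix.SpecialLinearGroup
open scoped MatrixGroups

/-- Invariance under `Γ₁(M)` in weight `k`. -/
def Inv (M : ℕ) (k : ℤ) (f : ℍ → ℂ) : Prop :=
  ∀ γ ∈ Gamma1 M, f ∣[k] (mapGL ℝ γ : GL (Fin 2) ℝ) = f

theorem det_eq (g : SL(2, ℤ)) : g 0 0 * g 1 1 - g 0 1 * g 1 0 = 1 := by
  have h := g.det_coe
  rwa [Matrix.det_fin_two] at h

theorem exists_rep (M : ℕ) [NeZero M] (d : (ZMod M)ˣ) :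
    ∃ γ : SL(2, ℤ), ((γ 1 0 : ℤ) : ZMod M) = 0 ∧ ((γ 1 1 : ℤ) : ZMod M) = d := by
  have hc : Nat.Coprime (d : ZMod M).val M := ZMod.val_coe_unit_coprime d
  have hz : IsCoprime (((d : ZMod M).val : ℕ) : ℤ) (M : ℤ) := Nat.isCoprime_iff_coprime.mpr hc
  obtain ⟨a, b, hab⟩ := hz
  refine ⟨⟨!![a, -b; (M : ℤ), (((d : ZMod M).val : ℕ) : ℤ)], ?_⟩, ?_, ?_⟩
  · rw [Matrix.det_fin_two_of]
    linear_combination hab
  · simp
  · simp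

/-- A representative in `SL₂(ℤ)` of the diamond `⟨d⟩`. -/
def rep (M : ℕ) [NeZero M] (d : (ZMod M)ˣ) : SL(2, ℤ) := (exists_rep M d).choose

section

variable {M : ℕ} [NeZero M]

theorem rep_10 (d : (ZMod M)ˣ) : ((rep M d 1 0 : ℤ) : ZMod M) = 0 := (exists_rep M d).choose_spec.1

theorem rep_11 (d : (ZMod M)ˣ) : ((rep M d 1 1 : ℤ) : ZMod M) = d := (exists_rep M d).choose_spec.2

theorem rep_mem (d : (ZMod M)ˣ) : rep M d ∈ Gamma0 M := Gamma0_mem.mpr (rep_10 d)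

omit [NeZero M] in
theorem mul_mod (g : SL(2, ℤ)) (hg : g ∈ Gamma0 M) :
    ((g 0 0 : ℤ) : ZMod M) * ((g 1 1 : ℤ) : ZMod M) = 1 := by
  have h := congrArg (Int.cast : ℤ → ZMod M) (det_eq g)
  push_cast at h
  linear_combination h + ((g 0 1 : ℤ) : ZMod M) * (Gamma0_mem.mp hg)

omit [NeZero M] in
theorem mul_11 (g h : SL(2, ℤ)) (hg : g ∈ Gamma0 M) :
    (((g * h) 1 1 : ℤ) : ZMod M) = ((g 1 1 : ℤ) : ZMod M) * ((h 1 1 : ℤ) : ZMod M) := by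
  have : (g * h) 1 1 = g 1 0 * h 0 1 + g 1 1 * h 1 1 := by
    simp [Matrix.mul_apply, Fin.sum_univ_two]
  rw [this]
  push_cast
  rw [Gamma0_mem.mp hg]
  ring

omit [NeZero M] in
theorem inv_11 (g : SL(2, ℤ)) : (g⁻¹) 1 1 = g 0 0 := by
  simp [Matrix.SpecialLinearGroup.SL2_inv_expl]

omit [NeZero M] in
theorem inv_00 (g : SL(2, ℤ)) : (g⁻¹) 0 0 = g 1 1 := by
  simp [Matrix.SpecialLinearGroup.SL2_inv_expl]

omit [NeZero M] in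
theorem mem_Gamma1_of {g : SL(2, ℤ)} (hg : g ∈ Gamma0 M) (h : ((g 1 1 : ℤ) : ZMod M) = 1) :
    g ∈ Gamma1 M := by
  rw [Gamma1_mem]
  refine ⟨?_, h, Gamma0_mem.mp hg⟩
  have := mul_mod g hg
  rwa [h, mul_one] at this

omit [NeZero M] in
theorem Gamma1_le_Gamma0' {g : SL(2, ℤ)} (hg : g ∈ Gamma1 M) : g ∈ Gamma0 M :=
  Gamma0_mem.mpr ((Gamma1_mem M g).mp hg).2.2

variable {k : ℤ} {f : ℍ → ℂ}

omit [NeZero M] in
theorem Inv.slash_eq (hf : Inv M k f) {γ δ : SL(2, ℤ)} (hγ : γ ∈ Gamma0 M) (hδ : δ ∈ Gamma0 M)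
    (h : ((γ 1 1 : ℤ) : ZMod M) = ((δ 1 1 : ℤ) : ZMod M)) :
    f ∣[k] (mapGL ℝ γ : GL (Fin 2) ℝ) = f ∣[k] (mapGL ℝ δ : GL (Fin 2) ℝ) := by
  have hmem : γ * δ⁻¹ ∈ Gamma1 M := by
    refine mem_Gamma1_of ((Gamma0 M).mul_mem hγ ((Gamma0 M).inv_mem hδ)) ?_
    rw [mul_11 _ _ hγ, h, inv_11, mul_comm, mul_mod δ hδ]
  have h1 := hf _ hmem
  have h2 : (mapGL ℝ γ : GL (Fin 2) ℝ) = mapGL ℝ (γ * δ⁻¹) * mapGL ℝ δ := by
    rw [← map_mul, inv_mul_cancel_right]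
  rw [h2, SlashAction.slash_mul, h1]

/-- `⟨d⟩ f`. -/
def diaF (M : ℕ) [NeZero M] (k : ℤ) (d : (ZMod M)ˣ) (f : ℍ → ℂ) : ℍ → ℂ :=
  f ∣[k] (mapGL ℝ (rep M d) : GL (Fin 2) ℝ)

theorem Inv.diaF_eq (hf : Inv M k f) {d : (ZMod M)ˣ} {γ : SL(2, ℤ)} (hγ : γ ∈ Gamma0 M)
    (h : ((γ 1 1 : ℤ) : ZMod M) = d) : diaF M k d f = f ∣[k] (mapGL ℝ γ : GL (Fin 2) ℝ) :=
  hf.slash_eq (rep_mem d) hγ (by rw [rep_11, h])

omit [NeZero M] in
/-- The lower right entry of an element of `Γ₀(M)` as a unit. -/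
def unit11 (γ : SL(2, ℤ)) (hγ : γ ∈ Gamma0 M) : (ZMod M)ˣ where
  val := ((γ 1 1 : ℤ) : ZMod M)
  inv := ((γ 0 0 : ℤ) : ZMod M)
  val_inv := by rw [mul_comm]; exact mul_mod γ hγ
  inv_val := mul_mod γ hγ

theorem Inv.slash_eq_diaF (hf : Inv M k f) {γ : SL(2, ℤ)} (hγ : γ ∈ Gamma0 M) :
    f ∣[k] (mapGL ℝ γ : GL (Fin 2) ℝ) = diaF M k (unit11 γ hγ) f :=
  (hf.diaF_eq hγ rfl).symm

omit [NeZero M] in
theorem Inv.slash (hf : Inv M k f) {γ : SL(2, ℤ)} (hγ : γ ∈ Gamma0 M) :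
    Inv M k (f ∣[k] (mapGL ℝ γ : GL (Fin 2) ℝ)) := by
  intro δ hδ
  rw [← SlashAction.slash_mul, ← map_mul]
  refine hf.slash_eq ((Gamma0 M).mul_mem hγ (Gamma1_le_Gamma0' hδ)) hγ ?_
  rw [mul_11 _ _ hγ, ((Gamma1_mem M δ).mp hδ).2.1, mul_one]

theorem Inv.diaF (hf : Inv M k f) (d : (ZMod M)ˣ) : Inv M k (diaF M k d f) :=
  hf.slash (rep_mem d)

theorem Inv.diaF_diaF (hf : Inv M k f) (d e : (ZMod M)ˣ) :
    Hecke1.diaF M k e (Hecke1.diaF M k d f) = Hecke1.diaF M k (d * e) f := by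
  unfold Hecke1.diaF
  rw [← SlashAction.slash_mul, ← map_mul]
  refine hf.slash_eq ((Gamma0 M).mul_mem (rep_mem d) (rep_mem e)) (rep_mem _) ?_
  rw [mul_11 _ _ (rep_mem d), rep_11, rep_11, rep_11, Units.val_mul]

theorem Inv.diaF_one (hf : Inv M k f) : Hecke1.diaF M k 1 f = f := by
  rw [hf.diaF_eq (γ := 1) (Gamma0 M).one_mem (by simp), map_one, SlashAction.slash_one]

theorem diaF_add (d : (ZMod M)ˣ) (f g : ℍ → ℂ) :
    diaF M k d (f + g) = diaF M k d f + diaF M k d g := by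
  simp [diaF, SlashAction.add_slash]

theorem diaF_smul (d : (ZMod M)ˣ) (c : ℂ) (f : ℍ → ℂ) :
    diaF M k d (c • f) = c • diaF M k d f := by
  unfold diaF
  rw [ModularForm.smul_slash]
  congr 1
  simp [UpperHalfPlane.σ]

end

end Fermat.Agent.DS.Hecke1
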