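import Fermat.Agent.DS.Hecke1Coset

/-!
# The Hecke operator `T_p` on functions invariant under `Γ₁(M)`
-/

set_option autoImplicit false

noncomputable section

namespace Fermat.Agent.DS.Hecke1

open CongruenceSubgroup ModularForm UpperHalfPlane Matrix.SpecialLinearGroup
open scoped MatrixGroups

/-! ### Integer matrices of prime determinant -/

section cosets

/-- The integral representatives. -/
def bmat (p : ℕ) (g : SL(2, ℤ)) : Option (ZMod p) → Matrix (Fin 2) (Fin 2) ℤ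
  | some j => !![1, (j.val : ℤ); 0, (p : ℤ)]
  | none => (g : Matrix (Fin 2) (Fin 2) ℤ) * !![(p : ℤ), 0; 0, 1]

theorem det_bmat (p : ℕ) (g : SL(2, ℤ)) (i : Option (ZMod p)) : (bmat p g i).det = p := by
  cases i with
  | none => simp [bmat, Matrix.det_mul, Matrix.det_fin_two_of]
  | some j => simp [bmat, Matrix.det_fin_two_of]

theorem exists_smith (A : Matrix (Fin 2) (Fin 2) ℤ) (hA : A.det ≠ 0) :
    ∃ δ : SL(2, ℤ), ∃ g b d : ℤ, A = (δ : Matrix (Fin 2) (Fin 2) ℤ) * !![g, b; 0, d] ∧ 0 < g := by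
  set a := A 0 0
  set c := A 1 0
  have hne : Int.gcd a c ≠ 0 := by
    intro h
    rw [Int.gcd_eq_zero_iff] at h
    apply hA
    rw [Matrix.det_fin_two]
    change a * A 1 1 - A 0 1 * c = 0
    rw [h.1, h.2]; ring
  obtain ⟨a', ha'⟩ : ((Int.gcd a c : ℕ) : ℤ) ∣ a := Int.gcd_dvd_left ..
  obtain ⟨c', hc'⟩ : ((Int.gcd a c : ℕ) : ℤ) ∣ c := Int.gcd_dvd_right ..
  have hbez := Int.gcd_eq_gcd_ab a c
  set u := Int.gcdA a c
  set v := Int.gcdB a c
  set g : ℤ := ((Int.gcd a c : ℕ) : ℤ) with hg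
  have hg0 : g ≠ 0 := Int.natCast_ne_zero.mpr hne
  have h1 : a' * u + c' * v = 1 := by
    apply mul_left_cancel₀ hg0
    linear_combination -hbez - u * ha' - v * hc'
  refine ⟨⟨!![a', -v; c', u], ?_⟩, g, u * A 0 1 + v * A 1 1, a' * A 1 1 - c' * A 0 1, ?_, ?_⟩
  · rw [Matrix.det_fin_two_of]; linear_combination h1
  · ext i j
    fin_cases i <;> fin_cases j
    · simp only [Matrix.mul_apply, Fin.sum_univ_two]
      simp
      change a = a' * g
      linear_combination ha'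
    · simp only [Matrix.mul_apply, Fin.sum_univ_two]
      simp
      linear_combination (-A 0 1) * h1
    · simp only [Matrix.mul_apply, Fin.sum_univ_two]
      simp
      change c = c' * g
      linear_combination hc'
    · simp only [Matrix.mul_apply, Fin.sum_univ_two]
      simp
      linear_combination (-A 1 1) * h1
  · have : (0 : ℤ) ≤ g := by positivity
    omega

theorem exists_factor {p : ℕ} (hp : p.Prime) (g₀ : SL(2, ℤ)) (A : Matrix (Fin 2) (Fin 2) ℤ)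
    (hA : A.det = p) : ∃ i : Option (ZMod p), ∃ δ : SL(2, ℤ),
      A = (δ : Matrix (Fin 2) (Fin 2) ℤ) * bmat p g₀ i := by
  haveI : Fact p.Prime := ⟨hp⟩
  haveI : NeZero p := ⟨hp.ne_zero⟩
  obtain ⟨δ, g, b, d, h, hg⟩ := exists_smith A (by rw [hA]; exact_mod_cast hp.ne_zero)
  have hdet : g * d = p := by
    rw [← hA, h, Matrix.det_mul, Matrix.det_fin_two_of, δ.det_coe]; ring
  have hgd : g ∣ (p : ℤ) := ⟨d, hdet.symm⟩
  have hgn : (g.toNat : ℤ) = g := Int.toNat_of_nonneg hg.le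
  have hgd' : g.toNat ∣ p := by
    rw [← hgn] at hgd; exact_mod_cast hgd
  rcases (Nat.dvd_prime hp).mp hgd' with h1 | h1
  · -- `g = 1`
    have hg1 : g = 1 := by rw [← hgn, h1]; rfl
    have hdp : d = p := by rw [← hdet, hg1, one_mul]
    have hmod : ∃ t : ℤ, b = (((b : ZMod p).val : ℕ) : ℤ) + t * p := by
      have : (p : ℤ) ∣ b - (((b : ZMod p).val : ℕ) : ℤ) := by
        rw [← ZMod.intCast_zmod_eq_zero_iff_dvd]
        push_cast
        rw [ZMod.natCast_zmod_val, sub_self]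
      obtain ⟨t, ht⟩ := this
      exact ⟨t, by linear_combination ht⟩
    obtain ⟨t, ht⟩ := hmod
    refine ⟨some (b : ZMod p), δ * ⟨!![1, t; 0, 1], by simp [Matrix.det_fin_two_of]⟩, ?_⟩
    rw [h, Matrix.SpecialLinearGroup.coe_mul, Matrix.mul_assoc]
    congr 1
    simp only [bmat]
    rw [Matrix.mul_fin_two, hg1, hdp]
    congr 1
    ext i j
    fin_cases i <;> fin_cases j <;> simp [-ZMod.natCast_val]
    linear_combination ht
  · have hgp : g = p := by rw [← hgn, h1]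
    have hd1 : d = 1 := by
      have : (p : ℤ) * d = p * 1 := by rw [mul_one, ← hgp]; rw [hgp]; exact hgp ▸ hdet
      exact mul_left_cancel₀ (by exact_mod_cast hp.ne_zero) this
    refine ⟨none, δ * ⟨!![1, b; 0, 1], by simp [Matrix.det_fin_two_of]⟩ * g₀⁻¹, ?_⟩
    rw [h, Matrix.SpecialLinearGroup.coe_mul, Matrix.SpecialLinearGroup.coe_mul]
    simp only [bmat]
    have hinv : ((g₀⁻¹ : SL(2, ℤ)) : Matrix (Fin 2) (Fin 2) ℤ) * (g₀ : Matrix (Fin 2) (Fin 2) ℤ) = 1 := by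
      rw [← Matrix.SpecialLinearGroup.coe_mul, inv_mul_cancel, Matrix.SpecialLinearGroup.coe_one]
    rw [← Matrix.mul_assoc, Matrix.mul_assoc (_ * _) ((g₀⁻¹ : SL(2, ℤ)) : Matrix (Fin 2) (Fin 2) ℤ), hinv,
      Matrix.mul_one, Matrix.mul_assoc]
    congr 1
    rw [Matrix.mul_fin_two, hgp, hd1]
    congr 1
    ext i j
    fin_cases i <;> fin_cases j <;> simp

theorem factor_unique {p : ℕ} (hp : p.Prime) (g₀ : SL(2, ℤ)) {i l : Option (ZMod p)} (δ : SL(2, ℤ))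
    (h : (δ : Matrix (Fin 2) (Fin 2) ℤ) * bmat p g₀ i = bmat p g₀ l) : i = l := by
  haveI : Fact p.Prime := ⟨hp⟩
  haveI : NeZero p := ⟨hp.ne_zero⟩
  have hp0 : (p : ℤ) ≠ 0 := by exact_mod_cast hp.ne_zero
  -- the case `none`, `some`
  have key : ∀ (ε : SL(2, ℤ)) (j : ZMod p),
      (ε : Matrix (Fin 2) (Fin 2) ℤ) * bmat p g₀ none ≠ bmat p g₀ (some j) := by
    intro ε j h
    simp only [bmat] at h
    rw [← Matrix.mul_assoc] at h
    have h00 := congrFun (congrFun h 0) 0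
    simp only [Matrix.mul_apply, Fin.sum_univ_two] at h00
    simp at h00
    have : (p : ℤ) ∣ 1 := ⟨_, by rw [← h00, mul_comm]⟩
    exact hp.one_lt.ne' (by exact_mod_cast Int.eq_one_of_dvd_one (by positivity) this)
  cases i with
  | none =>
    cases l with
    | none => rfl
    | some j => exact absurd h (key δ j)
  | some j =>
    cases l with
    | none =>
      exfalso
      refine key δ⁻¹ j ?_
      rw [← h, ← Matrix.mul_assoc, ← Matrix.SpecialLinearGroup.coe_mul, inv_mul_cancel,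
        Matrix.SpecialLinearGroup.coe_one, Matrix.one_mul]
    | some j' =>
      simp only [bmat] at h
      have h00 := congrFun (congrFun h 0) 0
      have h01 := congrFun (congrFun h 0) 1
      simp only [Matrix.mul_apply, Fin.sum_univ_two] at h00 h01
      simp at h00 h01
      rw [h00, one_mul] at h01
      have := congrArg (Int.cast : ℤ → ZMod p) h01
      push_cast at this
      rw [ZMod.natCast_self, mul_zero, add_zero] at this
      rw [← this]

end cosets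

/-! ### The Hecke operator -/

variable {M : ℕ} [NeZero M] {k : ℤ} {p : ℕ}

/-- `p` as a unit modulo `M`. -/
def pu (hp : p.Prime) (hpM : ¬ p ∣ M) : (ZMod M)ˣ :=
  ZMod.unitOfCoprime p ((Nat.Prime.coprime_iff_not_dvd hp).mpr hpM)

omit [NeZero M] in
theorem coe_pu (hp : p.Prime) (hpM : ¬ p ∣ M) : ((pu hp hpM : (ZMod M)ˣ) : ZMod M) = p := rfl

/-- `T_p f` -/
def TF (M : ℕ) [NeZero M] (k : ℤ) {p : ℕ} (hp : p.Prime) (hpM : ¬ p ∣ M) (f : ℍ → ℂ) : ℍ → ℂ :=
  heckeU k p f + (diaF M k (pu hp hpM) f) ∣[k] heckeDiagMatrix p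

/-- The representatives as real matrices. -/
def B (M : ℕ) [NeZero M] {p : ℕ} (hp : p.Prime) (hpM : ¬ p ∣ M) : Option (ZMod p) → GL (Fin 2) ℝ
  | some j => heckeMatrix p j.val
  | none => mapGL ℝ (rep M (pu hp hpM)) * heckeDiagMatrix p

theorem B_val (hp : p.Prime) (hpM : ¬ p ∣ M) (i : Option (ZMod p)) :
    (B M hp hpM i : Matrix (Fin 2) (Fin 2) ℝ) =
      (bmat p (rep M (pu hp hpM)) i).map (Int.cast : ℤ → ℝ) := by
  cases i with
  | some j =>
    ext a b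
    fin_cases a <;> fin_cases b <;> simp [B, bmat, val_heckeMatrix hp.ne_zero]
  | none =>
    ext a b
    fin_cases a <;> fin_cases b <;>
      simp [B, bmat, val_heckeDiagMatrix hp.ne_zero, Matrix.mul_apply, Fin.sum_univ_two]

theorem TF_eq_sum (hp : p.Prime) (hpM : ¬ p ∣ M) (f : ℍ → ℂ) [NeZero p] :
    TF M k hp hpM f = ∑ i : Option (ZMod p), f ∣[k] B M hp hpM i := by
  rw [Fintype.sum_option, TF, add_comm]
  congr 1
  · simp only [B, diaF]
    rw [SlashAction.slash_mul]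
  · rw [heckeU_def]
    exact P2MW.S_ModularForm_heckeT_slash_eq_self_of_mem_Gamma0.ModularForm.HeckeSlashInvariance.sum_range_eq_sum_zmod _

theorem bmat_mod (hp : p.Prime) (hpM : ¬ p ∣ M) (i : Option (ZMod p)) :
    ((bmat p (rep M (pu hp hpM)) i 0 0 : ℤ) : ZMod M) = 1 ∧
    ((bmat p (rep M (pu hp hpM)) i 1 0 : ℤ) : ZMod M) = 0 ∧
    ((bmat p (rep M (pu hp hpM)) i 1 1 : ℤ) : ZMod M) = p := by
  cases i with
  | some j => simp [bmat]
  | none =>
    have h1 := rep_10 (pu hp hpM)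
    have h2 := rep_11 (pu hp hpM)
    have h3 := mul_mod _ (rep_mem (pu hp hpM))
    rw [h2, coe_pu] at h3
    rw [coe_pu] at h2
    refine ⟨?_, ?_, ?_⟩
    · simp only [bmat, Matrix.mul_apply, Fin.sum_univ_two]
      simp
      exact h3
    · simp only [bmat, Matrix.mul_apply, Fin.sum_univ_two]
      simp
      rw [h1, zero_mul]
    · simp only [bmat, Matrix.mul_apply, Fin.sum_univ_two]
      simp
      exact h2

theorem factor_mod (hp : p.Prime) (hpM : ¬ p ∣ M) {i l : Option (ZMod p)} {γ δ : SL(2, ℤ)}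
    (hγ : γ ∈ Gamma0 M)
    (h : bmat p (rep M (pu hp hpM)) i * (γ : Matrix (Fin 2) (Fin 2) ℤ) =
      (δ : Matrix (Fin 2) (Fin 2) ℤ) * bmat p (rep M (pu hp hpM)) l) :
    δ ∈ Gamma0 M ∧ ((δ 1 1 : ℤ) : ZMod M) = ((γ 1 1 : ℤ) : ZMod M) := by
  obtain ⟨i1, i2, i3⟩ := bmat_mod hp hpM i
  obtain ⟨l1, l2, l3⟩ := bmat_mod hp hpM l
  have h10 := congrArg (Int.cast : ℤ → ZMod M) (congrFun (congrFun h 1) 0)
  have h11 := congrArg (Int.cast : ℤ → ZMod M) (congrFun (congrFun h 1) 1)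
  simp only [Matrix.mul_apply, Fin.sum_univ_two] at h10 h11
  push_cast at h10 h11
  rw [i2, i3, l1, l2, Gamma0_mem.mp hγ] at h10
  have hδ : ((δ 1 0 : ℤ) : ZMod M) = 0 := by
    simpa using h10.symm
  rw [i2, i3, l3, hδ] at h11
  refine ⟨Gamma0_mem.mpr hδ, ?_⟩
  have hu : IsUnit ((p : ℕ) : ZMod M) := ⟨pu hp hpM, coe_pu hp hpM⟩
  apply hu.mul_left_cancel
  linear_combination -h11

/-- Permutation of the cosets by right multiplication with an element of `Γ₀(M)`. -/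
theorem exists_perm (hp : p.Prime) (hpM : ¬ p ∣ M) [NeZero p] {γ : SL(2, ℤ)} (hγ : γ ∈ Gamma0 M) :
    ∃ σ : Equiv.Perm (Option (ZMod p)), ∀ i, ∃ δ ∈ Gamma0 M,
      ((δ 1 1 : ℤ) : ZMod M) = ((γ 1 1 : ℤ) : ZMod M) ∧
      B M hp hpM i * (mapGL ℝ γ : GL (Fin 2) ℝ) = mapGL ℝ δ * B M hp hpM (σ i) := by
  set g₀ := rep M (pu hp hpM) with hg₀
  have h1 : ∀ i, ∃ l, ∃ δ : SL(2, ℤ), bmat p g₀ i * (γ : Matrix (Fin 2) (Fin 2) ℤ) =
      (δ : Matrix (Fin 2) (Fin 2) ℤ) * bmat p g₀ l := fun i =>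
    exists_factor hp g₀ _ (by rw [Matrix.det_mul, det_bmat, γ.det_coe, mul_one])
  choose σ δ hσ using h1
  have hinj : Function.Injective σ := by
    intro i l hil
    have h2 := hσ i
    have h3 := hσ l
    rw [hil] at h2
    -- `bmat i * γ = δ i * bmat (σ l)`, `bmat l * γ = δ l * bmat (σ l)`
    refine factor_unique hp g₀ (δ l * (δ i)⁻¹) ?_
    have h4 : (((δ i)⁻¹ : SL(2, ℤ)) : Matrix (Fin 2) (Fin 2) ℤ) * (bmat p g₀ i * (γ : Matrix (Fin 2) (Fin 2) ℤ)) =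
        bmat p g₀ (σ l) := by
      rw [h2, ← Matrix.mul_assoc, ← Matrix.SpecialLinearGroup.coe_mul, inv_mul_cancel,
        Matrix.SpecialLinearGroup.coe_one, Matrix.one_mul]
    have h5 : ((δ l * (δ i)⁻¹ : SL(2, ℤ)) : Matrix (Fin 2) (Fin 2) ℤ) * bmat p g₀ i *
        (γ : Matrix (Fin 2) (Fin 2) ℤ) = bmat p g₀ l * (γ : Matrix (Fin 2) (Fin 2) ℤ) := by
      rw [Matrix.mul_assoc, Matrix.SpecialLinearGroup.coe_mul, Matrix.mul_assoc, h4, h3]
    have h6 := congrArg (· * ((γ⁻¹ : SL(2, ℤ)) : Matrix (Fin 2) (Fin 2) ℤ)) h5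
    simp only [Matrix.mul_assoc] at h6
    rw [← Matrix.SpecialLinearGroup.coe_mul, mul_inv_cancel, Matrix.SpecialLinearGroup.coe_one,
      Matrix.mul_one, Matrix.mul_one] at h6
    exact h6
  refine ⟨Equiv.ofBijective σ (Finite.injective_iff_bijective.mp hinj), fun i =>
    ⟨δ i, (factor_mod hp hpM hγ (hσ i)).1, (factor_mod hp hpM hγ (hσ i)).2, ?_⟩⟩
  · apply Units.ext
    rw [Units.val_mul, Units.val_mul, B_val, Equiv.ofBijective_apply, B_val]
    have h := congrArg (fun A : Matrix (Fin 2) (Fin 2) ℤ => A.map (Int.castRingHom ℝ)) (hσ i)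
    simp only [Matrix.map_mul] at h
    have e : ∀ g : SL(2, ℤ), ((mapGL ℝ g : GL (Fin 2) ℝ) : Matrix (Fin 2) (Fin 2) ℝ) =
        (g : Matrix (Fin 2) (Fin 2) ℤ).map (Int.castRingHom ℝ) := by
      intro g; ext a b; simp
    rw [e, e]
    exact h

/-- **Key property**: `T_p` intertwines the action of `Γ₀(M)`. -/
theorem Inv.TF_slash {f : ℍ → ℂ} (hf : Inv M k f) (hp : p.Prime) (hpM : ¬ p ∣ M) {γ : SL(2, ℤ)}
    (hγ : γ ∈ Gamma0 M) :
    (TF M k hp hpM f) ∣[k] (mapGL ℝ γ : GL (Fin 2) ℝ) =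
      TF M k hp hpM (f ∣[k] (mapGL ℝ γ : GL (Fin 2) ℝ)) := by
  haveI : NeZero p := ⟨hp.ne_zero⟩
  obtain ⟨σ, hσ⟩ := exists_perm (M := M) hp hpM hγ
  rw [TF_eq_sum, TF_eq_sum, SlashAction.sum_slash]
  rw [← Equiv.sum_comp σ fun i => (f ∣[k] (mapGL ℝ γ : GL (Fin 2) ℝ)) ∣[k] B M hp hpM i]
  refine Finset.sum_congr rfl fun i _ => ?_
  obtain ⟨δ, hδ, h11, h⟩ := hσ i
  rw [← SlashAction.slash_mul, h, SlashAction.slash_mul, hf.slash_eq hδ hγ h11]

theorem Inv.TF {f : ℍ → ℂ} (hf : Inv M k f) (hp : p.Prime) (hpM : ¬ p ∣ M) :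
    Inv M k (TF M k hp hpM f) := by
  intro γ hγ
  rw [hf.TF_slash hp hpM (Gamma1_le_Gamma0' hγ), hf γ hγ]

theorem Inv.diaF_TF {f : ℍ → ℂ} (hf : Inv M k f) (hp : p.Prime) (hpM : ¬ p ∣ M) (d : (ZMod M)ˣ) :
    Hecke1.diaF M k d (Hecke1.TF M k hp hpM f) = Hecke1.TF M k hp hpM (Hecke1.diaF M k d f) :=
  hf.TF_slash hp hpM (rep_mem d)

theorem TF_add (hp : p.Prime) (hpM : ¬ p ∣ M) (f g : ℍ → ℂ) :
    TF M k hp hpM (f + g) = TF M k hp hpM f + TF M k hp hpM g := by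
  simp only [TF, heckeU_add, diaF_add, SlashAction.add_slash]
  abel

theorem TF_smul (hp : p.Prime) (hpM : ¬ p ∣ M) (c : ℂ) (f : ℍ → ℂ) :
    TF M k hp hpM (c • f) = c • TF M k hp hpM f := by
  rw [TF, TF, heckeU_smul, diaF_smul, ModularForm.smul_slash, σ_heckeDiagMatrix,
    ContinuousAlgEquiv.refl_apply, smul_add]

end Fermat.Agent.DS.Hecke1
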