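import Fermat.Prelude.Thm_ModularForm_periodic_heckeT_comp_ofComplex
import Fermat.Prelude.Thm_ModularForm_periodic_heckeU_comp_ofComplex
import Fermat.Prelude.Thm_ModularForm_isBoundedAtImInfty_heckeT
import Fermat.Prelude.Thm_ModularForm_isBoundedAtImInfty_heckeU
import Fermat.Prelude.Thm_ModularForm_mdifferentiable_heckeT
import Fermat.Prelude.Thm_ModularForm_mdifferentiable_heckeU
import Fermat.Prelude.Thm_UpperHalfPlane_qCoeff_heckeT
import Fermat.Prelude.Thm_UpperHalfPlane_qCoeff_heckeU
import Fermat.Prelude.Thm_UpperHalfPlane_eq_of_forall_qCoeff_eq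

/-!
# Functions with a `q`-expansion
-/

set_option autoImplicit false

noncomputable section

namespace Fermat.Agent.DS.Hecke1

open ModularForm UpperHalfPlane ModularFormClass
open scoped MatrixGroups Manifold

/-- `f` is holomorphic, `1`-periodic and bounded at `i∞`. -/
structure Good (f : ℍ → ℂ) : Prop where
  per : Function.Periodic (f ∘ ofComplex) 1
  hol : MDiff f
  bdd : IsBoundedAtImInfty f

namespace Good

variable {f g : ℍ → ℂ} {k : ℤ} {p : ℕ}

theorem analyticAt (hf : Good f) : AnalyticAt ℂ (cuspFunction 1 f) 0 :=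
  analyticAt_cuspFunction_zero one_pos (by simpa using hf.per) hf.hol hf.bdd

theorem add (hf : Good f) (hg : Good g) : Good (f + g) where
  per := by
    have := hf.per.add hg.per
    exact this
  hol := hf.hol.add hg.hol
  bdd := hf.bdd.add hg.bdd

theorem smul (c : ℂ) (hf : Good f) : Good (c • f) where
  per := by
    have := hf.per.smul c
    exact this
  hol := hf.hol.const_smul c
  bdd := hf.bdd.const_mul_left c

theorem neg (hf : Good f) : Good (-f) := by
  have := hf.smul (-1)
  simpa using this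

theorem sub (hf : Good f) (hg : Good g) : Good (f - g) := by
  rw [sub_eq_add_neg]; exact hf.add hg.neg

theorem zero : Good 0 where
  per := fun x => rfl
  hol := by exact mdifferentiable_const
  bdd := Filter.const_boundedAtFilter _ (0 : ℂ)

theorem qCoeff_add (hf : Good f) (hg : Good g) (n : ℕ) :
    qCoeff (f + g) n = qCoeff f n + qCoeff g n := by
  unfold qCoeff
  rw [UpperHalfPlane.qExpansion_add hf.analyticAt hg.analyticAt, map_add]

theorem qCoeff_sub (hf : Good f) (hg : Good g) (n : ℕ) :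
    qCoeff (f - g) n = qCoeff f n - qCoeff g n := by
  unfold qCoeff
  rw [UpperHalfPlane.qExpansion_sub hf.analyticAt hg.analyticAt, map_sub]

theorem qCoeff_smul (hf : Good f) (c : ℂ) (n : ℕ) :
    qCoeff (c • f) n = c * qCoeff f n := by
  unfold qCoeff
  rw [UpperHalfPlane.qExpansion_smul hf.analyticAt]
  rfl

theorem qCoeff_zero (n : ℕ) : qCoeff (0 : ℍ → ℂ) n = 0 := by
  unfold qCoeff
  rw [qExpansion_zero, map_zero]

theorem heckeU (hf : Good f) (k : ℤ) (p : ℕ) : Good (ModularForm.heckeU k p f) where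
  per := ModularForm.periodic_heckeU_comp_ofComplex hf.per k p
  hol := ModularForm.mdifferentiable_heckeU hf.hol k p
  bdd := ModularForm.isBoundedAtImInfty_heckeU hf.bdd k p

theorem heckeT (hf : Good f) (k : ℤ) (p : ℕ) : Good (ModularForm.heckeT k p f) where
  per := ModularForm.periodic_heckeT_comp_ofComplex hf.per k p
  hol := ModularForm.mdifferentiable_heckeT hf.hol k p
  bdd := ModularForm.isBoundedAtImInfty_heckeT hf.bdd k p

theorem diag_eq (f : ℍ → ℂ) (k : ℤ) (p : ℕ) :
    f ∣[k] heckeDiagMatrix p = ModularForm.heckeT k p f - ModularForm.heckeU k p f := by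
  rw [heckeT_eq_heckeU_add]; abel

theorem diag (hf : Good f) (k : ℤ) (p : ℕ) : Good (f ∣[k] heckeDiagMatrix p) := by
  rw [diag_eq]
  exact (hf.heckeT k p).sub (hf.heckeU k p)

theorem qCoeff_heckeU (hf : Good f) (k : ℤ) (hp : p ≠ 0) (n : ℕ) :
    qCoeff (ModularForm.heckeU k p f) n = qCoeff f (n * p) :=
  UpperHalfPlane.qCoeff_heckeU hf.per hf.hol hf.bdd k hp n

theorem qCoeff_diag (hf : Good f) (k : ℤ) (hp : p ≠ 0) (n : ℕ) :
    qCoeff (f ∣[k] heckeDiagMatrix p) n =
      if p ∣ n then (p : ℂ) ^ (k - 1) * qCoeff f (n / p) else 0 := by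
  rw [diag_eq, (hf.heckeT k p).qCoeff_sub (hf.heckeU k p), hf.qCoeff_heckeU k hp,
    UpperHalfPlane.qCoeff_heckeT hf.per hf.hol hf.bdd k hp, coeffHeckeT_apply]
  ring

theorem ext (hf : Good f) (hg : Good g) (h : ∀ n, qCoeff f n = qCoeff g n) : f = g :=
  UpperHalfPlane.eq_of_forall_qCoeff_eq hf.per hf.hol hf.bdd hg.per hg.hol hg.bdd h

theorem of_form {F : Type*} [FunLike F ℍ ℂ] {Γ : Subgroup (GL (Fin 2) ℝ)} {k : ℤ}
    [ModularFormClass F Γ k] [Γ.IsArithmetic] (hΓ : (1 : ℝ) ∈ Γ.strictPeriods) (f : F) : Good ⇑f where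
  per := by simpa using SlashInvariantFormClass.periodic_comp_ofComplex f hΓ
  hol := ModularFormClass.holo f
  bdd := ModularFormClass.bdd_at_infty f

end Good

end Fermat.Agent.DS.Hecke1
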