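import Fermat.Agent.DS.Hecke1Fun
import Fermat.Agent.DS.Hecke1Good
import Fermat.Prelude.Thm_ModularForm_sturm_bound_of_isArithmetic

/-!
# Diamond and Hecke operators on `S_k(Γ₁(M))`
-/

set_option autoImplicit false

noncomputable section

namespace Fermat.Agent.DS.Hecke1

open CongruenceSubgroup ModularForm UpperHalfPlane Matrix.SpecialLinearGroup
open scoped MatrixGroups

variable {M : ℕ} [NeZero M] {k : ℤ} {p : ℕ}

omit [NeZero M] in
theorem inv_coe (f : CuspForm (Gamma1 M) k) : Inv M k ⇑f := fun γ hγ =>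
  SlashInvariantFormClass.slash_action_eq f _ ⟨γ, hγ, rfl⟩

omit [NeZero M] in
theorem inv_coe' (f : ModularForm (Gamma1 M) k) : Inv M k ⇑f := fun γ hγ =>
  SlashInvariantFormClass.slash_action_eq f _ ⟨γ, hγ, rfl⟩

theorem mapGL_eq_rat (γ : SL(2, ℤ)) : (mapGL ℝ γ : GL (Fin 2) ℝ) =
    Matrix.GeneralLinearGroup.map (Rat.castHom ℝ) (mapGL ℚ γ) := by
  ext i j
  simp

omit [NeZero M] in
theorem isZeroAt_slash [NeZero M] (f : CuspForm (Gamma1 M) k) (γ : SL(2, ℤ)) {c : OnePoint ℝ}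
    (hc : IsCusp c (Gamma1 M : Subgroup (GL (Fin 2) ℝ))) :
    c.IsZeroAt (⇑f ∣[k] (mapGL ℝ γ : GL (Fin 2) ℝ)) k := by
  rw [mapGL_eq_rat]
  exact P2MW.S_CuspFormClass_isZeroAt_heckeT.ModularForm.S06W2.isZeroAt_slash_ratCast f _ hc

/-- The diamond operator `⟨d⟩` on `S_k(Γ₁(M))`. -/
def dia (d : (ZMod M)ˣ) : CuspForm (Gamma1 M) k →ₗ[ℂ] CuspForm (Gamma1 M) k where
  toFun f :=
    { toFun := diaF M k d ⇑f
      slash_action_eq' := by
        rintro _ ⟨γ, hγ, rfl⟩
        exact (inv_coe f).diaF d γ hγ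
      holo' := (CuspFormClass.holo f).slash k _
      zero_at_cusps' := fun hc => isZeroAt_slash f _ hc }
  map_add' f g := DFunLike.coe_injective (diaF_add d ⇑f ⇑g)
  map_smul' c f := DFunLike.coe_injective (diaF_smul d c ⇑f)

@[simp] theorem coe_dia (d : (ZMod M)ˣ) (f : CuspForm (Gamma1 M) k) :
    ⇑(dia d f) = diaF M k d ⇑f := rfl

theorem dia_one : dia (k := k) (1 : (ZMod M)ˣ) = LinearMap.id :=
  LinearMap.ext fun f => DFunLike.coe_injective (inv_coe f).diaF_one

theorem dia_mul (d e : (ZMod M)ˣ) : dia (k := k) (d * e) = dia d ∘ₗ dia e :=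
  LinearMap.ext fun f => DFunLike.coe_injective (by
    rw [LinearMap.comp_apply, coe_dia, coe_dia, coe_dia, (inv_coe f).diaF_diaF, mul_comm])

theorem dia_dia (d e : (ZMod M)ˣ) (f : CuspForm (Gamma1 M) k) : dia d (dia e f) = dia (d * e) f := by
  rw [dia_mul, LinearMap.comp_apply]

theorem dia_comm (d e : (ZMod M)ˣ) (f : CuspForm (Gamma1 M) k) : dia d (dia e f) = dia e (dia d f) := by
  rw [dia_dia, dia_dia, mul_comm]

theorem slash_eq_dia (f : CuspForm (Gamma1 M) k) {γ : SL(2, ℤ)} (hγ : γ ∈ Gamma0 M) :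
    ⇑f ∣[k] (mapGL ℝ γ : GL (Fin 2) ℝ) = dia (unit11 γ hγ) f :=
  (inv_coe f).slash_eq_diaF hγ

/-- The Hecke operator `T_p`, `p ∤ M`, on `S_k(Γ₁(M))`. -/
def Tp (hp : p.Prime) (hpM : ¬ p ∣ M) : CuspForm (Gamma1 M) k →ₗ[ℂ] CuspForm (Gamma1 M) k where
  toFun f :=
    { toFun := TF M k hp hpM ⇑f
      slash_action_eq' := by
        rintro _ ⟨γ, hγ, rfl⟩
        exact (inv_coe f).TF hp hpM γ hγ
      holo' := by
        refine (mdifferentiable_heckeU (CuspFormClass.holo f) k p).add ?_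
        exact (CuspFormClass.holo (dia (pu hp hpM) f)).slash k _
      zero_at_cusps' := fun {c} hc => by
        refine (CuspFormClass.isZeroAt_heckeU f p hc).add ?_
        obtain ⟨g, hg⟩ := P2MW.S_CuspFormClass_isZeroAt_heckeT.ModularForm.S06W2.exists_heckeDiagMatrix_eq_map p
        rw [hg]
        exact P2MW.S_CuspFormClass_isZeroAt_heckeT.ModularForm.S06W2.isZeroAt_slash_ratCast
          (dia (pu hp hpM) f) g hc }
  map_add' f g := DFunLike.coe_injective (TF_add hp hpM ⇑f ⇑g)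
  map_smul' c f := DFunLike.coe_injective (TF_smul hp hpM c ⇑f)

@[simp] theorem coe_Tp (hp : p.Prime) (hpM : ¬ p ∣ M) (f : CuspForm (Gamma1 M) k) :
    ⇑(Tp hp hpM f) = TF M k hp hpM ⇑f := rfl

theorem dia_Tp (hp : p.Prime) (hpM : ¬ p ∣ M) (d : (ZMod M)ˣ) (f : CuspForm (Gamma1 M) k) :
    dia d (Tp hp hpM f) = Tp hp hpM (dia d f) :=
  DFunLike.coe_injective ((inv_coe f).diaF_TF hp hpM d)

/-! ### `q`-expansions -/

omit [NeZero M] in
theorem one_mem_strictPeriods :
    (1 : ℝ) ∈ (Gamma1 M : Subgroup (GL (Fin 2) ℝ)).strictPeriods := by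
  have h : (Gamma1 M : Subgroup (GL (Fin 2) ℝ)).strictPeriods = AddSubgroup.zmultiples 1 := by
    simp
  rw [h]
  exact AddSubgroup.mem_zmultiples 1

theorem good (f : CuspForm (Gamma1 M) k) : Good ⇑f := Good.of_form one_mem_strictPeriods f

theorem good' (f : ModularForm (Gamma1 M) k) : Good ⇑f := Good.of_form one_mem_strictPeriods f

/-- the `n`-th coefficient as a linear functional -/
def qc (M : ℕ) [NeZero M] (k : ℤ) (n : ℕ) : CuspForm (Gamma1 M) k →ₗ[ℂ] ℂ where
  toFun f := ModularFormClass.qCoeff f n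
  map_add' f g := (good f).qCoeff_add (good g) n
  map_smul' c f := (good f).qCoeff_smul c n

theorem qc_apply (n : ℕ) (f : CuspForm (Gamma1 M) k) :
    qc M k n f = ModularFormClass.qCoeff f n := rfl

theorem ext_qc {f g : CuspForm (Gamma1 M) k} (h : ∀ n, qc M k n f = qc M k n g) : f = g :=
  DFunLike.coe_injective ((good f).ext (good g) h)

theorem qc_Tp (hp : p.Prime) (hpM : ¬ p ∣ M) (f : CuspForm (Gamma1 M) k) (n : ℕ) :
    qc M k n (Tp hp hpM f) = qc M k (n * p) f +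
      if p ∣ n then (p : ℂ) ^ (k - 1) * qc M k (n / p) (dia (pu hp hpM) f) else 0 := by
  simp only [qc_apply]
  rw [coe_Tp, TF, ← coe_dia, ((good f).heckeU k p).qCoeff_add ((good (dia (pu hp hpM) f)).diag k p),
    (good f).qCoeff_heckeU k hp.ne_zero, (good (dia (pu hp hpM) f)).qCoeff_diag k hp.ne_zero]

/-- Commutation of the Hecke operators. -/
theorem Tp_comm {l : ℕ} (hp : p.Prime) (hpM : ¬ p ∣ M) (hl : l.Prime) (hlM : ¬ l ∣ M)
    (f : CuspForm (Gamma1 M) k) :
    Tp hp hpM (Tp hl hlM f) = Tp hl hlM (Tp hp hpM f) := by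
  rcases eq_or_ne p l with rfl | hne
  · rfl
  have hcop : Nat.Coprime p l := (Nat.coprime_primes hp hl).mpr hne
  refine ext_qc fun n => ?_
  rw [qc_Tp, qc_Tp, dia_Tp, qc_Tp, qc_Tp, qc_Tp, dia_Tp, qc_Tp, dia_comm]
  have e1 : l ∣ n * p ↔ l ∣ n := by
    rw [Nat.Coprime.dvd_mul_right hcop.symm]
  have e2 : p ∣ n * l ↔ p ∣ n := by
    rw [Nat.Coprime.dvd_mul_right hcop]
  simp only [e1, e2]
  by_cases h1 : p ∣ n <;> by_cases h2 : l ∣ n
  · obtain ⟨a, ha⟩ := Nat.Coprime.mul_dvd_of_dvd_of_dvd hcop h1 h2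
    have hp0 := hp.pos
    have hl0 := hl.pos
    have f1 : n * p / l = p * a * p := by
      rw [ha]; rw [show p * l * a * p = l * (p * a * p) by ring, Nat.mul_div_cancel_left _ hl0]
    have f2 : n * l / p = l * a * l := by
      rw [ha]; rw [show p * l * a * l = p * (l * a * l) by ring, Nat.mul_div_cancel_left _ hp0]
    have f3 : n / p = l * a := by rw [ha, mul_assoc, Nat.mul_div_cancel_left _ hp0]
    have f4 : n / l = p * a := by
      rw [ha, show p * l * a = l * (p * a) by ring, Nat.mul_div_cancel_left _ hl0]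
    have f5 : l ∣ n / p := by rw [f3]; exact Dvd.intro _ rfl
    have f6 : p ∣ n / l := by rw [f4]; exact Dvd.intro _ rfl
    simp only [h1, h2, f5, f6, if_true]
    rw [f1, f2, f3, f4, Nat.mul_div_cancel_left _ hl0, Nat.mul_div_cancel_left _ hp0]
    rw [show n * p * l = n * l * p by ring, show l * a * l = l * a * l from rfl]
    ring
  · have f5 : ¬ l ∣ n / p := by
      intro h
      exact h2 ((Nat.dvd_div_iff_mul_dvd h1).mp h |> dvd_of_mul_left_dvd)
    simp only [h1, h2, f5, if_true, if_false]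
    have f2 : n * l / p = n / p * l := by
      rw [Nat.mul_comm n l, Nat.mul_div_assoc _ h1, Nat.mul_comm]
    rw [f2, show n * p * l = n * l * p by ring]
    ring
  · have f6 : ¬ p ∣ n / l := by
      intro h
      exact h1 ((Nat.dvd_div_iff_mul_dvd h2).mp h |> dvd_of_mul_left_dvd)
    simp only [h1, h2, f6, if_true, if_false]
    have f1 : n * p / l = n / l * p := by
      rw [Nat.mul_comm n p, Nat.mul_div_assoc _ h2, Nat.mul_comm]
    rw [f1, show n * p * l = n * l * p by ring]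
    ring
  · simp only [h1, h2, if_false]
    rw [show n * p * l = n * l * p by ring]

end Fermat.Agent.DS.Hecke1
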