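import Mathlib
import Fermat.Prelude.Def_FLTPrelim_Modularity

/-!
# Mean square of the Fourier coefficients of weight one cusp forms

`∑_{n ≤ X} |a_n|² ≤ C X` for a weight one cusp form, by Parseval on horocycles.
-/

set_option autoImplicit false

open UpperHalfPlane CongruenceSubgroup MeasureTheory
open scoped MatrixGroups Real

namespace Fermat.Agent.DS

/-- Bessel's inequality on the horocycle of height `t`. -/
theorem bessel {Γ : Subgroup (GL (Fin 2) ℝ)} {k : ℤ} {F : Type*} [FunLike F ℍ ℂ]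
    [ModularFormClass F Γ k] (hΓ : (1 : ℝ) ∈ Γ.strictPeriods) (f : F) {t B : ℝ} (ht : 0 < t)
    (hB : ∀ τ : ℍ, τ.im = t → ‖f τ‖ ≤ B) (S : Finset ℕ) :
    ∑ n ∈ S, ‖(qExpansion 1 f).coeff n‖ ^ 2 * Real.exp (-4 * π * n * t) ≤ B ^ 2 := by
  let g : ℝ → ℂ := fun u => f ⟨(u : ℂ) + t * Complex.I, by simpa using ht⟩
  have hcont : Continuous g := by
    have h1 : Continuous (f : ℍ → ℂ) := (ModularFormClass.holo f).continuous
    refine h1.comp ?_
    rw [UpperHalfPlane.isEmbedding_coe.continuous_iff]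
    change Continuous fun u : ℝ => (u : ℂ) + t * Complex.I
    fun_prop
  have hgB : ∀ u, ‖g u‖ ≤ B := fun u => hB _ (by
    change ((u : ℂ) + t * Complex.I).im = t
    simp)
  have hB0 : 0 ≤ B := (norm_nonneg _).trans (hgB 0)
  have hL2 : MemLp g 2 (volume.restrict (Set.Ioc (0 : ℝ) 1)) := by
    refine MemLp.of_bound hcont.aestronglyMeasurable B ?_
    exact Filter.Eventually.of_forall hgB
  have hsum := hasSum_sq_fourierCoeffOn (a := 0) (b := 1) zero_lt_one hL2
  have hint : (1 - 0 : ℝ)⁻¹ • ∫ x in (0 : ℝ)..1, ‖g x‖ ^ 2 ≤ B ^ 2 := by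
    rw [sub_zero, inv_one, one_smul]
    have h1 : ∫ x in (0 : ℝ)..1, ‖g x‖ ^ 2 ≤ ∫ _ in (0 : ℝ)..1, B ^ 2 := by
      refine intervalIntegral.integral_mono_on zero_le_one
        ((hcont.norm.pow 2).intervalIntegrable _ _) (intervalIntegrable_const) fun x _ => ?_
      exact pow_le_pow_left₀ (norm_nonneg _) (hgB x) 2
    simpa using h1
  have hcoef : ∀ n : ℕ, ‖fourierCoeffOn (zero_lt_one' ℝ) g (n : ℤ)‖ ^ 2 =
      ‖(qExpansion 1 f).coeff n‖ ^ 2 * Real.exp (-4 * π * n * t) := by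
    intro n
    have h1 := ModularFormClass.qExpansion_coeff_eq_intervalIntegral f (h := 1) one_pos hΓ n ht
    have h2 := fourierCoeffOn_eq_integral g (n : ℤ) (zero_lt_one' ℝ)
    have h3 : ∀ u : ℝ, (1 : ℂ) / Function.Periodic.qParam 1 ((u : ℂ) + t * Complex.I) ^ n * g u =
        (Real.exp (2 * π * n * t) : ℂ) *
          (fourier (-(n : ℤ)) (u : AddCircle ((1 : ℝ) - 0)) • g u) := by
      intro u
      rw [fourier_coe_apply, smul_eq_mul, Function.Periodic.qParam, ← mul_assoc, ← Complex.exp_nat_mul,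
        one_div, ← Complex.exp_neg, Complex.ofReal_exp, ← Complex.exp_add]
      congr 2
      push_cast
      have hI : Complex.I * Complex.I = -1 := Complex.I_mul_I
      linear_combination (-2 * π * n * t : ℂ) * hI
    have h4 : (qExpansion 1 f).coeff n = (Real.exp (2 * π * n * t) : ℂ) *
        fourierCoeffOn (zero_lt_one' ℝ) g (n : ℤ) := by
      have h10 : (1 / ((1 : ℝ) - 0)) = 1 := by norm_num
      rw [h1, h2, h10, one_div, Complex.ofReal_one, inv_one, one_mul,
        one_smul, ← intervalIntegral.integral_const_mul]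
      refine intervalIntegral.integral_congr fun u _ => ?_
      exact h3 u
    rw [h4, norm_mul, mul_pow, Complex.norm_real, Real.norm_eq_abs, abs_of_pos (Real.exp_pos _),
      mul_right_comm, ← Real.exp_nat_mul, ← Real.exp_add]
    have : ((2 : ℕ) : ℝ) * (2 * π * n * t) + -4 * π * n * t = 0 := by push_cast; ring
    rw [this, Real.exp_zero, one_mul]
  have hle : ∑ n ∈ S, ‖fourierCoeffOn (zero_lt_one' ℝ) g (n : ℤ)‖ ^ 2 ≤
      (1 - 0 : ℝ)⁻¹ • ∫ x in (0 : ℝ)..1, ‖g x‖ ^ 2 := by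
    have h1 := sum_le_hasSum (S.map ⟨fun n : ℕ => (n : ℤ), Nat.cast_injective⟩)
      (fun i _ => by positivity) hsum
    rw [Finset.sum_map] at h1
    exact h1
  simp only [← hcoef]
  exact hle.trans hint

theorem sum_sq_le_of_weight_one (N : ℕ) [NeZero N] (f : CuspForm (Gamma1 N) 1) :
    ∃ C : ℝ, 0 ≤ C ∧ ∀ X : ℕ, ∑ n ∈ Finset.range (X + 1),
      ‖ModularFormClass.qCoeff f n‖ ^ 2 ≤ C * X := by
  obtain ⟨C, hC⟩ := CuspFormClass.exists_bound f
  have hΓ : (1 : ℝ) ∈ ((Gamma1 N : Subgroup SL(2, ℤ)) : Subgroup (GL (Fin 2) ℝ)).strictPeriods := by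
    simp
  refine ⟨Real.exp (4 * π) * C ^ 2, by positivity, fun X => ?_⟩
  rcases Nat.eq_zero_or_pos X with rfl | hX
  · have h0 : ModularFormClass.qCoeff f 0 = 0 := CuspFormClass.qExpansion_coeff_zero f one_pos hΓ
    simp [h0]
  have hXr : (0 : ℝ) < X := by exact_mod_cast hX
  have ht : (0 : ℝ) < 1 / X := by positivity
  have hC0 : ∀ τ : ℍ, τ.im = 1 / (X : ℝ) → ‖f τ‖ ≤ C * Real.sqrt X := by
    intro τ hτ
    refine (hC τ).trans (le_of_eq ?_)
    rw [hτ, Int.cast_one, Real.sqrt_eq_rpow, one_div, Real.inv_rpow hXr.le]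
    rw [div_inv_eq_mul]
  have h1 := bessel hΓ f ht hC0 (Finset.range (X + 1))
  rw [mul_pow, Real.sq_sqrt hXr.le] at h1
  have h2 : ∀ n ∈ Finset.range (X + 1), ‖ModularFormClass.qCoeff f n‖ ^ 2 ≤
      Real.exp (4 * π) * (‖(qExpansion 1 f).coeff n‖ ^ 2 *
        Real.exp (-4 * π * n * (1 / X))) := by
    intro n hn
    have hn' : (n : ℝ) ≤ X := by exact_mod_cast Nat.lt_succ_iff.mp (Finset.mem_range.mp hn)
    have h3 : (n : ℝ) * (1 / X) ≤ 1 := by
      rw [mul_one_div, div_le_one hXr]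
      exact hn'
    have h4 : 1 ≤ Real.exp (4 * π) * Real.exp (-4 * π * n * (1 / X)) := by
      rw [← Real.exp_add]
      apply Real.one_le_exp
      have : 4 * π + -4 * π * n * (1 / X) = 4 * π * (1 - n * (1 / X)) := by ring
      rw [this]
      have := Real.pi_pos
      have h5 : 0 ≤ 1 - (n : ℝ) * (1 / X) := by linarith
      positivity
    calc ‖ModularFormClass.qCoeff f n‖ ^ 2 = ‖(qExpansion 1 f).coeff n‖ ^ 2 * 1 := by
          rw [mul_one]; rfl
      _ ≤ ‖(qExpansion 1 f).coeff n‖ ^ 2 *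
          (Real.exp (4 * π) * Real.exp (-4 * π * n * (1 / X))) :=
        mul_le_mul_of_nonneg_left h4 (by positivity)
      _ = _ := by ring
  refine (Finset.sum_le_sum h2).trans ?_
  rw [← Finset.mul_sum, mul_assoc]
  exact mul_le_mul_of_nonneg_left h1 (Real.exp_pos _).le

end Fermat.Agent.DS
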