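import Mathlib
import Fermat.Agent.DS.MeanSquare
import Fermat.Agent.DS.Complex

/-!
# The Rankin type bound
-/

set_option autoImplicit false

open Finset

namespace Fermat.Agent.DS

theorem abel_le {d w : ℕ → ℝ} (hw : Antitone w) (hw0 : ∀ n, 0 ≤ w n)
    (hd : ∀ n, 0 ≤ ∑ i ∈ range n, d i) (n : ℕ) : 0 ≤ ∑ i ∈ range n, d i * w i := by
  rcases n with - | n
  · simp
  have h : ∀ n, w n * ∑ i ∈ range (n + 1), d i ≤ ∑ i ∈ range (n + 1), d i * w i := by
    intro n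
    induction n with
    | zero => simp [mul_comm]
    | succ n ih =>
      rw [sum_range_succ (fun i => d i * w i) (n + 1), sum_range_succ d (n + 1)]
      have h1 : w (n + 1) * ∑ i ∈ range (n + 1), d i ≤ w n * ∑ i ∈ range (n + 1), d i :=
        mul_le_mul_of_nonneg_right (hw (Nat.le_succ n)) (hd _)
      linarith
  exact (mul_nonneg (hw0 n) (hd _)).trans (h n)

/-- `∑_{i < n} (i+1)^{-s} ≤ 1 + 1/(s-1)`. -/
theorem sum_rpow_le {s : ℝ} (hs : 1 < s) (n : ℕ) :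
    ∑ i ∈ range n, ((i : ℝ) + 1) ^ (-s) ≤ 1 + 1 / (s - 1) := by
  have hs0 : 0 < s - 1 := by linarith
  have key : ∀ i : ℕ, ((i : ℝ) + 2) ^ (-s) ≤
      1 / (s - 1) * (((i : ℝ) + 1) ^ (1 - s) - ((i : ℝ) + 2) ^ (1 - s)) := by
    intro i
    have h1 : (0 : ℝ) < (i : ℝ) + 1 := by positivity
    have h2 : (0 : ℝ) < (i : ℝ) + 2 := by positivity
    -- `(i+1)^{1-s} ≥ (i+2)^{1-s} (1 + (s-1)/(i+2))`
    have h3 : ((i : ℝ) + 2) ^ (1 - s) * (1 + (s - 1) / ((i : ℝ) + 2)) ≤ ((i : ℝ) + 1) ^ (1 - s) := by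
      have h4 : ((i : ℝ) + 1) ^ (1 - s) = ((i : ℝ) + 2) ^ (1 - s) *
          (((i : ℝ) + 1) / ((i : ℝ) + 2)) ^ (1 - s) := by
        rw [← Real.mul_rpow h2.le (by positivity)]
        congr 1
        field_simp
      rw [h4]
      refine mul_le_mul_of_nonneg_left ?_ (by positivity)
      rw [Real.rpow_def_of_pos (by positivity)]
      have h5 : Real.log (((i : ℝ) + 1) / ((i : ℝ) + 2)) ≤ -(1 / ((i : ℝ) + 2)) := by
        have h6 := Real.log_le_sub_one_of_pos (x := ((i : ℝ) + 1) / ((i : ℝ) + 2)) (by positivity)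
        refine h6.trans (le_of_eq ?_)
        field_simp
        ring
      have h7 : (s - 1) / ((i : ℝ) + 2) ≤
          Real.log (((i : ℝ) + 1) / ((i : ℝ) + 2)) * (1 - s) := by
        have h8 : (s - 1) * (1 / ((i : ℝ) + 2)) ≤
            (s - 1) * -(Real.log (((i : ℝ) + 1) / ((i : ℝ) + 2))) :=
          mul_le_mul_of_nonneg_left (by linarith) hs0.le
        have h9 : (s - 1) / ((i : ℝ) + 2) = (s - 1) * (1 / ((i : ℝ) + 2)) := by ring
        rw [h9]
        linarith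
      have h10 := Real.add_one_le_exp (Real.log (((i : ℝ) + 1) / ((i : ℝ) + 2)) * (1 - s))
      linarith
    have h4 : ((i : ℝ) + 2) ^ (-s) = ((i : ℝ) + 2) ^ (1 - s) * (1 / ((i : ℝ) + 2)) := by
      rw [show -s = (1 - s) - 1 by ring, Real.rpow_sub_one h2.ne']
      ring
    rw [h4, one_div (s - 1), inv_mul_eq_div, le_div_iff₀ hs0]
    have h5 : ((i : ℝ) + 2) ^ (1 - s) * (1 + (s - 1) / ((i : ℝ) + 2)) =
        ((i : ℝ) + 2) ^ (1 - s) + ((i : ℝ) + 2) ^ (1 - s) * (1 / ((i : ℝ) + 2)) * (s - 1) := by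
      ring
    linarith
  rcases n with - | n
  · simp
    positivity
  rw [sum_range_succ']
  have h1 : ∑ i ∈ range n, (((i + 1 : ℕ) : ℝ) + 1) ^ (-s) ≤ 1 / (s - 1) := by
    have h2 : ∀ i ∈ range n, (((i + 1 : ℕ) : ℝ) + 1) ^ (-s) ≤
        1 / (s - 1) * (((i : ℝ) + 1) ^ (1 - s) - (((i + 1 : ℕ) : ℝ) + 1) ^ (1 - s)) := by
      intro i _
      have := key i
      push_cast
      rw [show (i : ℝ) + 1 + 1 = (i : ℝ) + 2 by ring]
      exact this
    refine (sum_le_sum h2).trans ?_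
    rw [← mul_sum, Finset.sum_range_sub' (fun i : ℕ => ((i : ℝ) + 1) ^ (1 - s))]
    have h3 : (0 : ℝ) ≤ ((n : ℝ) + 1) ^ (1 - s) := by positivity
    have h4 : (((0 : ℕ) : ℝ) + 1) ^ (1 - s) = 1 := by simp
    rw [h4]
    have h5 : 0 < 1 / (s - 1) := by positivity
    nlinarith
  have h2 : (((0 : ℕ) : ℝ) + 1) ^ (-s) = 1 := by simp
  rw [h2, add_comm]
  exact add_le_add le_rfl h1

/-- **Local factor**. -/
theorem local_factor {u : ℕ → ℂ} {s e : ℂ} (he : ‖e‖ = 1) (h0 : u 0 = 1) (h1 : u 1 = s)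
    (hrec : ∀ r, u (r + 2) = s * u (r + 1) - e * u r) {X : ℝ} (hX0 : 0 < X) (hX1 : X ≤ 1)
    (hsum : Summable fun r => ‖u r‖ ^ 2 * X ^ r) :
    (1 - X ^ 2) * Real.exp (‖s‖ ^ 2 * X - X ^ 2) ≤ ∑' r, ‖u r‖ ^ 2 * X ^ r := by
  set F : ℝ := ∑' r, ‖u r‖ ^ 2 * X ^ r with hF
  have hsum1 : Summable fun r => ‖u (r + 1)‖ ^ 2 * X ^ (r + 1) :=
    (summable_nat_add_iff (f := fun r => ‖u r‖ ^ 2 * X ^ r) 1).mpr hsum
  have hsum1' : Summable fun r => ‖u (r + 1)‖ ^ 2 * X ^ r := by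
    refine (hsum1.mul_left X⁻¹).congr fun r => ?_
    rw [pow_succ]
    field_simp
    try ring
  have hG0 : Summable fun r => u (r + 1) * (starRingEnd ℂ) (u r) * (X : ℂ) ^ r := by
    refine Summable.of_norm_bounded (hsum1'.add hsum) fun r => ?_
    rw [norm_mul, norm_mul, norm_pow, RCLike.norm_conj, Complex.norm_real, Real.norm_eq_abs,
      abs_of_pos hX0, ← add_mul]
    refine mul_le_mul_of_nonneg_right ?_ (by positivity)
    nlinarith [sq_nonneg (‖u (r + 1)‖ - ‖u r‖), norm_nonneg (u (r + 1)), norm_nonneg (u r),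
      mul_nonneg (norm_nonneg (u (r + 1))) (norm_nonneg (u r))]
  set G : ℂ := ∑' r, u (r + 1) * (starRingEnd ℂ) (u r) * (X : ℂ) ^ r with hG
  have hFs : F = 1 + ∑' r, ‖u (r + 1)‖ ^ 2 * X ^ (r + 1) := by
    rw [hF, hsum.tsum_eq_zero_add, h0]
    simp
  have hFss : ∑' r, ‖u (r + 1)‖ ^ 2 * X ^ (r + 1) = ‖s‖ ^ 2 * X +
      ∑' r, ‖u (r + 2)‖ ^ 2 * X ^ (r + 2) := by
    rw [hsum1.tsum_eq_zero_add, h1]
    simp
  -- first equation
  have eq1 : F = 1 + ‖s‖ ^ 2 * X * F + X ^ 2 * F -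
      2 * X ^ 2 * (s * (starRingEnd ℂ) e * G).re := by
    have h2 : ∀ r, ‖u (r + 2)‖ ^ 2 * X ^ (r + 2) =
        ‖s‖ ^ 2 * X * (‖u (r + 1)‖ ^ 2 * X ^ (r + 1)) + X ^ 2 * (‖u r‖ ^ 2 * X ^ r) -
          2 * X ^ 2 * (s * (starRingEnd ℂ) e *
            (u (r + 1) * (starRingEnd ℂ) (u r) * (X : ℂ) ^ r)).re := by
      intro r
      rw [hrec, ← Complex.normSq_eq_norm_sq, Complex.normSq_sub, Complex.normSq_mul,
        Complex.normSq_mul, Complex.normSq_eq_norm_sq, Complex.normSq_eq_norm_sq,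
        Complex.normSq_eq_norm_sq, Complex.normSq_eq_norm_sq, he, map_mul]
      have h3 : (s * (starRingEnd ℂ) e * (u (r + 1) * (starRingEnd ℂ) (u r) * (X : ℂ) ^ r)).re =
          (s * u (r + 1) * ((starRingEnd ℂ) e * (starRingEnd ℂ) (u r))).re * X ^ r := by
        rw [← Complex.ofReal_pow, show s * (starRingEnd ℂ) e *
          (u (r + 1) * (starRingEnd ℂ) (u r) * ((X ^ r : ℝ) : ℂ)) =
          (s * u (r + 1) * ((starRingEnd ℂ) e * (starRingEnd ℂ) (u r))) * ((X ^ r : ℝ) : ℂ) by ring,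
          Complex.re_mul_ofReal]
      rw [h3]
      ring
    have h4 : ∑' r, ‖u (r + 2)‖ ^ 2 * X ^ (r + 2) =
        ‖s‖ ^ 2 * X * (∑' r, ‖u (r + 1)‖ ^ 2 * X ^ (r + 1)) + X ^ 2 * F -
          2 * X ^ 2 * (s * (starRingEnd ℂ) e * G).re := by
      have hG1 : Summable fun r => s * (starRingEnd ℂ) e *
          (u (r + 1) * (starRingEnd ℂ) (u r) * (X : ℂ) ^ r) := hG0.mul_left _
      have hre := Complex.hasSum_re (hG1.hasSum)
      rw [tsum_congr h2, Summable.tsum_sub ((hsum1.mul_left _).add (hsum.mul_left _))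
        (hre.summable.mul_left _), Summable.tsum_add (hsum1.mul_left _) (hsum.mul_left _),
        tsum_mul_left, tsum_mul_left, tsum_mul_left, hre.tsum_eq, tsum_mul_left]
    rw [hFss, h4] at hFs
    have h5 : ∑' r, ‖u (r + 1)‖ ^ 2 * X ^ (r + 1) = F - 1 := by
      rw [hF, hsum.tsum_eq_zero_add, h0]
      simp
    rw [h5] at hFs
    linarith
  -- second equation
  have eq2 : G = s * F - e * X * (starRingEnd ℂ) G := by
    have hconj : HasSum (fun r => (starRingEnd ℂ) (u (r + 1) * (starRingEnd ℂ) (u r) * (X : ℂ) ^ r))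
        ((starRingEnd ℂ) G) := hG0.hasSum.star
    have hFc : HasSum (fun r => ((‖u (r + 1)‖ ^ 2 * X ^ (r + 1) : ℝ) : ℂ)) ((F : ℂ) - 1) := by
      have h5 : ∑' r, ‖u (r + 1)‖ ^ 2 * X ^ (r + 1) = F - 1 := by
        rw [hF, hsum.tsum_eq_zero_add, h0]
        simp
      have := Complex.hasSum_ofReal.mpr (h5 ▸ hsum1.hasSum)
      simpa using this
    have h2 : ∀ r, u (r + 1 + 1) * (starRingEnd ℂ) (u (r + 1)) * (X : ℂ) ^ (r + 1) =
        s * ((‖u (r + 1)‖ ^ 2 * X ^ (r + 1) : ℝ) : ℂ) -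
        e * X * (starRingEnd ℂ) (u (r + 1) * (starRingEnd ℂ) (u r) * (X : ℂ) ^ r) := by
      intro r
      rw [show r + 1 + 1 = r + 2 by ring, hrec, map_mul, map_mul, map_pow, Complex.conj_conj,
        Complex.conj_ofReal]
      have h3 : ((‖u (r + 1)‖ ^ 2 * X ^ (r + 1) : ℝ) : ℂ) =
          u (r + 1) * (starRingEnd ℂ) (u (r + 1)) * (X : ℂ) ^ (r + 1) := by
        rw [Complex.mul_conj, Complex.normSq_eq_norm_sq]
        push_cast
        ring
      rw [h3]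
      ring
    have h3 := (hFc.mul_left s).sub (hconj.mul_left (e * X))
    have h4 : G = s + (s * ((F : ℂ) - 1) - e * X * (starRingEnd ℂ) G) := by
      rw [← h3.tsum_eq, ← tsum_congr h2, hG, hG0.tsum_eq_zero_add, zero_add, h1, h0, map_one,
        pow_zero, mul_one, mul_one]
    linear_combination h4
  have hee : e * (starRingEnd ℂ) e = 1 := by
    rw [Complex.mul_conj, Complex.normSq_eq_norm_sq, he]
    simp
  have hss : s * (starRingEnd ℂ) s = ((‖s‖ ^ 2 : ℝ) : ℂ) := by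
    rw [Complex.mul_conj, Complex.normSq_eq_norm_sq]
  have eq3 : (1 - (X : ℂ) ^ 2) * G = (s - e * X * (starRingEnd ℂ) s) * F := by
    have h2 := congrArg (starRingEnd ℂ) eq2
    rw [map_sub, map_mul, map_mul, map_mul, Complex.conj_ofReal, Complex.conj_ofReal,
      Complex.conj_conj] at h2
    linear_combination eq2 - e * X * h2 + (X : ℂ) ^ 2 * G * hee
  set R : ℝ := (s ^ 2 * (starRingEnd ℂ) e).re with hR
  have hRle : R ≤ ‖s‖ ^ 2 := by
    refine (Complex.re_le_norm _).trans (le_of_eq ?_)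
    rw [norm_mul, norm_pow, RCLike.norm_conj, he, mul_one]
  have eq4 : (1 - X ^ 2) * (s * (starRingEnd ℂ) e * G).re = (R - X * ‖s‖ ^ 2) * F := by
    have h2 : (1 - (X : ℂ) ^ 2) * (s * (starRingEnd ℂ) e * G) =
        (s ^ 2 * (starRingEnd ℂ) e - ((X * ‖s‖ ^ 2 : ℝ) : ℂ)) * F := by
      have h3 : ((X * ‖s‖ ^ 2 : ℝ) : ℂ) = X * (s * (starRingEnd ℂ) s) := by
        rw [hss]
        push_cast
        ring
      rw [h3]
      linear_combination (s * (starRingEnd ℂ) e) * eq3 - X * s * (starRingEnd ℂ) s * F * hee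
    have h3 := congrArg Complex.re h2
    rw [show (1 - (X : ℂ) ^ 2) = ((1 - X ^ 2 : ℝ) : ℂ) by push_cast; ring, Complex.re_ofReal_mul,
      Complex.re_mul_ofReal, Complex.sub_re, Complex.ofReal_re] at h3
    exact h3
  have eq5 : F * (1 - ‖s‖ ^ 2 * X + (2 * R - 2) * X ^ 2 - ‖s‖ ^ 2 * X ^ 3 + X ^ 4) = 1 - X ^ 2 := by
    linear_combination (1 - X ^ 2) * eq1 - 2 * X ^ 2 * eq4
  have hF1 : 0 < F := by
    rw [hFs]
    have : 0 ≤ ∑' r, ‖u (r + 1)‖ ^ 2 * X ^ (r + 1) := tsum_nonneg fun r => by positivity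
    linarith
  have hQ : 1 - ‖s‖ ^ 2 * X + (2 * R - 2) * X ^ 2 - ‖s‖ ^ 2 * X ^ 3 + X ^ 4 ≤
      Real.exp (-(‖s‖ ^ 2 * X - X ^ 2)) := by
    have h2 : 1 - ‖s‖ ^ 2 * X + (2 * R - 2) * X ^ 2 - ‖s‖ ^ 2 * X ^ 3 + X ^ 4 ≤
        (1 - X) ^ 2 * (1 + ((2 - ‖s‖ ^ 2) * X + X ^ 2)) := by
      nlinarith [mul_le_mul_of_nonneg_right hRle (sq_nonneg X)]
    have h3 : (1 - X) ^ 2 * (1 + ((2 - ‖s‖ ^ 2) * X + X ^ 2)) ≤
        (1 - X) ^ 2 * Real.exp ((2 - ‖s‖ ^ 2) * X + X ^ 2) := by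
      refine mul_le_mul_of_nonneg_left ?_ (sq_nonneg _)
      have := Real.add_one_le_exp ((2 - ‖s‖ ^ 2) * X + X ^ 2)
      linarith
    have h4 : (1 - X) ^ 2 ≤ Real.exp (-2 * X) := by
      have h5 := Real.add_one_le_exp (-X)
      have h6 : (1 - X) ^ 2 ≤ (Real.exp (-X)) ^ 2 :=
        pow_le_pow_left₀ (by linarith) (by linarith) 2
      rw [← Real.exp_nat_mul] at h6
      refine h6.trans (le_of_eq ?_)
      congr 1
      push_cast
      ring
    refine h2.trans (h3.trans ?_)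
    refine (mul_le_mul_of_nonneg_right h4 (Real.exp_pos _).le).trans (le_of_eq ?_)
    rw [← Real.exp_add]
    congr 1
    ring
  have h2 : 1 - X ^ 2 ≤ F * Real.exp (-(‖s‖ ^ 2 * X - X ^ 2)) := by
    rw [← eq5]
    exact mul_le_mul_of_nonneg_left hQ hF1.le
  rw [Real.exp_neg, ← div_eq_mul_inv, le_div_iff₀ (Real.exp_pos _)] at h2
  exact h2

/-- Hecke relations away from `N`. -/
structure HeckeRelC (N : ℕ) (a e : ℕ → ℂ) : Prop where
  one : a 1 = 1
  rel : ∀ p : ℕ, p.Prime → ¬ p ∣ N → ∀ n : ℕ,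
    a (p * n) + e p * (if p ∣ n then a (n / p) else 0) = a p * a n

namespace HeckeRelC

variable {N : ℕ} {a e : ℕ → ℂ} (H : HeckeRelC N a e)

include H

theorem mul_notDvd {p : ℕ} (hp : p.Prime) (hpN : ¬ p ∣ N) {m : ℕ} (hm : ¬ p ∣ m) :
    a (p * m) = a p * a m := by
  have := H.rel p hp hpN m
  rwa [if_neg hm, mul_zero, add_zero] at this

theorem mul_dvd {p : ℕ} (hp : p.Prime) (hpN : ¬ p ∣ N) (m : ℕ) :
    a (p * (p * m)) = a p * a (p * m) - e p * a m := by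
  have := H.rel p hp hpN (p * m)
  rw [if_pos (dvd_mul_right p m), Nat.mul_div_cancel_left m hp.pos] at this
  linear_combination this

theorem pow_rec {p : ℕ} (hp : p.Prime) (hpN : ¬ p ∣ N) (r : ℕ) :
    a (p ^ (r + 2)) = a p * a (p ^ (r + 1)) - e p * a (p ^ r) := by
  have := H.mul_dvd hp hpN (p ^ r)
  rwa [← pow_succ', ← pow_succ'] at this

theorem pow_mul {p : ℕ} (hp : p.Prime) (hpN : ¬ p ∣ N) {m : ℕ} (hm : ¬ p ∣ m) (r : ℕ) :
    a (p ^ r * m) = a (p ^ r) * a m := by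
  induction r using Nat.twoStepInduction with
  | zero => rw [pow_zero, one_mul, H.one, one_mul]
  | one => rw [pow_one, H.mul_notDvd hp hpN hm]
  | more r ih1 ih2 =>
    have h1 := H.mul_dvd hp hpN (p ^ r * m)
    rw [← mul_assoc p (p ^ r) m, ← pow_succ', ← mul_assoc, ← pow_succ', ih1, ih2] at h1
    rw [h1, H.pow_rec hp hpN]
    ring

theorem mul_coprime (m : ℕ) : m.Coprime N → ∀ n : ℕ, m.Coprime n → a (m * n) = a m * a n := by
  induction m using Nat.recOnPosPrimePosCoprime with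
  | prime_pow p r hp hr =>
    intro hN n hn
    have hpN : ¬ p ∣ N := fun h => by
      have h1 : p.Coprime N := Nat.Coprime.coprime_dvd_left (dvd_pow_self p hr.ne') hN
      exact (Nat.Prime.coprime_iff_not_dvd hp).mp h1 h
    have hpn : ¬ p ∣ n := fun h => by
      have h1 : p.Coprime n := Nat.Coprime.coprime_dvd_left (dvd_pow_self p hr.ne') hn
      exact (Nat.Prime.coprime_iff_not_dvd hp).mp h1 h
    exact H.pow_mul hp hpN hpn r
  | zero =>
    intro _ n hn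
    rw [Nat.coprime_zero_left] at hn
    rw [hn, H.one, mul_one, mul_one]
  | one =>
    intro _ n _
    rw [one_mul, H.one, one_mul]
  | coprime x y hx hy hxy ihx ihy =>
    intro hN n hn
    have hxN : x.Coprime N := Nat.Coprime.coprime_dvd_left (dvd_mul_right x y) hN
    have hyN : y.Coprime N := Nat.Coprime.coprime_dvd_left (dvd_mul_left y x) hN
    have hxn : x.Coprime n := Nat.Coprime.coprime_dvd_left (dvd_mul_right x y) hn
    have hyn : y.Coprime n := Nat.Coprime.coprime_dvd_left (dvd_mul_left y x) hn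
    rw [mul_assoc, ihx hxN (y * n) (Nat.Coprime.mul_right hxy hxn), ihy hyN n hyn,
      ihx hxN y hxy, mul_assoc]

end HeckeRelC

/-- **The Rankin type bound** from the mean square bound and the Hecke relations. -/
theorem rankin_of_sum_le {N : ℕ} {a e : ℕ → ℂ} (H : HeckeRelC N a e)
    (he : ∀ p : ℕ, p.Prime → ¬ p ∣ N → ‖e p‖ = 1) {C : ℝ}
    (hC : ∀ X : ℕ, ∑ n ∈ range (X + 1), ‖a n‖ ^ 2 ≤ C * X) : Rankin N a := by
  classical
  have hC1 : 1 ≤ C := by
    have h1 := hC 1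
    rw [sum_range_succ, sum_range_one, H.one, norm_one, Nat.cast_one, mul_one] at h1
    have : 0 ≤ ‖a 0‖ ^ 2 := by positivity
    linarith
  let K : ℝ := 3 * ∑' n : ℕ, (n : ℝ) ^ (-2 : ℝ)
  refine ⟨Real.log (2 * C) + K, fun s hs hs2 P hP => ?_⟩
  have hs0 : 0 < s - 1 := by linarith
  -- the total Dirichlet series
  let f : ℕ → ℝ := fun n => if n.Coprime N then ‖a n‖ ^ 2 * (n : ℝ) ^ (-s) else 0
  have hf0 : ∀ n, 0 ≤ f n := fun n => by
    change 0 ≤ if n.Coprime N then ‖a n‖ ^ 2 * (n : ℝ) ^ (-s) else 0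
    split_ifs
    · positivity
    · exact le_rfl
  have hf00 : f 0 = 0 := by
    change (if Nat.Coprime 0 N then ‖a 0‖ ^ 2 * ((0 : ℕ) : ℝ) ^ (-s) else 0) = 0
    rw [Nat.cast_zero, Real.zero_rpow (by linarith), mul_zero, ite_self]
  have hpartial : ∀ n, ∑ i ∈ range n, f i ≤ C * (1 + 1 / (s - 1)) := by
    intro n
    rcases n with - | n
    · simp
      positivity
    rw [sum_range_succ', hf00, add_zero]
    have h1 : ∑ i ∈ range n, f (i + 1) ≤ ∑ i ∈ range n, ‖a (i + 1)‖ ^ 2 * ((i : ℝ) + 1) ^ (-s) := by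
      refine sum_le_sum fun i _ => ?_
      change (if Nat.Coprime (i + 1) N then ‖a (i + 1)‖ ^ 2 * ((i + 1 : ℕ) : ℝ) ^ (-s) else 0) ≤ _
      split_ifs
      · push_cast
        exact le_rfl
      · positivity
    have h2 := abel_le (d := fun i => C - ‖a (i + 1)‖ ^ 2) (w := fun i => ((i : ℝ) + 1) ^ (-s))
      (by
        intro i j hij
        refine Real.rpow_le_rpow_of_nonpos (by positivity) ?_ (by linarith)
        have : (i : ℝ) ≤ j := by exact_mod_cast hij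
        linarith)
      (fun i => by positivity)
      (fun m => by
        rw [sum_sub_distrib, sum_const, card_range, nsmul_eq_mul]
        have h3 := hC m
        rw [sum_range_succ'] at h3
        have h4 : 0 ≤ ‖a 0‖ ^ 2 := by positivity
        linarith) n
    have h3 : ∑ i ∈ range n, (C - ‖a (i + 1)‖ ^ 2) * ((i : ℝ) + 1) ^ (-s) =
        C * ∑ i ∈ range n, ((i : ℝ) + 1) ^ (-s) -
          ∑ i ∈ range n, ‖a (i + 1)‖ ^ 2 * ((i : ℝ) + 1) ^ (-s) := by
      rw [mul_sum, ← sum_sub_distrib]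
      exact sum_congr rfl fun i _ => by ring
    have h4 := mul_le_mul_of_nonneg_left (sum_rpow_le hs n) (by linarith : (0 : ℝ) ≤ C)
    have h5 : 0 ≤ ∑ i ∈ range n, (C - ‖a (i + 1)‖ ^ 2) * ((i : ℝ) + 1) ^ (-s) := h2
    linarith
  have hsumm : Summable f := summable_of_sum_range_le hf0 hpartial
  have htsum : ∑' n, f n ≤ C * (1 + 1 / (s - 1)) := Real.tsum_le_of_sum_range_le hf0 hpartial
  -- Euler product
  have hf1 : f 1 = 1 := by
    change (if Nat.Coprime 1 N then ‖a 1‖ ^ 2 * ((1 : ℕ) : ℝ) ^ (-s) else 0) = 1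
    rw [if_pos (Nat.coprime_one_left N), H.one]
    simp
  have hmul : ∀ {m n : ℕ}, m.Coprime n → f (m * n) = f m * f n := by
    intro m n hmn
    change (if Nat.Coprime (m * n) N then ‖a (m * n)‖ ^ 2 * ((m * n : ℕ) : ℝ) ^ (-s) else 0) =
      (if Nat.Coprime m N then ‖a m‖ ^ 2 * (m : ℝ) ^ (-s) else 0) *
      (if Nat.Coprime n N then ‖a n‖ ^ 2 * (n : ℝ) ^ (-s) else 0)
    by_cases hm : m.Coprime N
    · by_cases hn : n.Coprime N
      · rw [if_pos hm, if_pos hn, if_pos (Nat.Coprime.mul_left hm hn), H.mul_coprime m hm n hmn,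
          norm_mul, Nat.cast_mul, Real.mul_rpow (Nat.cast_nonneg _) (Nat.cast_nonneg _)]
        ring
      · rw [if_neg hn, mul_zero, if_neg]
        exact fun h => hn (Nat.Coprime.coprime_dvd_left (dvd_mul_left n m) h)
    · rw [if_neg hm, zero_mul, if_neg]
      exact fun h => hm (Nat.Coprime.coprime_dvd_left (dvd_mul_right m n) h)
  have hsp : ∀ {p : ℕ}, p.Prime → Summable fun n : ℕ => ‖f (p ^ n)‖ := by
    intro p hp
    have h1 := hsumm.comp_injective (Nat.pow_right_injective hp.two_le)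
    refine h1.congr fun n => ?_
    rw [Real.norm_eq_abs, abs_of_nonneg (hf0 _)]
    rfl
  let M : ℕ := P.sup id + 1
  obtain ⟨hs1, hprod⟩ :=
    EulerProduct.summable_and_hasSum_smoothNumbers_prod_primesBelow_tsum hf1 hmul hsp M
  have hsub : P ⊆ M.primesBelow := by
    intro p hp
    rw [Nat.mem_primesBelow]
    exact ⟨Nat.lt_succ_of_le (Finset.le_sup (f := id) hp), (hP p hp).1⟩
  have hge1 : ∀ p : ℕ, p.Prime → 1 ≤ ∑' n : ℕ, f (p ^ n) := by
    intro p hp
    have h1 : Summable fun n : ℕ => f (p ^ n) := (hsp hp).of_norm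
    have h2 := h1.le_tsum 0 fun n _ => hf0 _
    rwa [pow_zero, hf1] at h2
  have hprodle : ∏ p ∈ P, ∑' n : ℕ, f (p ^ n) ≤ C * (1 + 1 / (s - 1)) := by
    calc ∏ p ∈ P, ∑' n : ℕ, f (p ^ n) ≤ ∏ p ∈ M.primesBelow, ∑' n : ℕ, f (p ^ n) := by
          rw [← Finset.prod_sdiff hsub]
          refine le_mul_of_one_le_left ?_ ?_
          · exact Finset.prod_nonneg fun p _ => tsum_nonneg fun n => hf0 _
          · exact Finset.prod_induction _ (fun x => 1 ≤ x)
              (fun x y hx hy => one_le_mul_of_one_le_of_one_le hx hy) le_rfl fun p hp =>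
              hge1 p (Nat.prime_of_mem_primesBelow (Finset.mem_sdiff.mp hp).1)
      _ = ∑' m : M.smoothNumbers, f m := hprod.tsum_eq.symm
      _ ≤ ∑' n, f n := Summable.tsum_subtype_le f _ hf0 hsumm
      _ ≤ _ := htsum
  -- local factors
  have hlocal : ∀ p ∈ P, ‖a p‖ ^ 2 * (p : ℝ) ^ (-s) - 3 * (p : ℝ) ^ (-2 : ℝ) ≤
      Real.log (∑' n : ℕ, f (p ^ n)) := by
    intro p hp
    obtain ⟨hpp, hpN⟩ := hP p hp
    have hp2 : (2 : ℝ) ≤ p := by exact_mod_cast hpp.two_le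
    have hp0 : (0 : ℝ) < p := by linarith
    let X : ℝ := (p : ℝ) ^ (-s)
    have hX0 : 0 < X := by positivity
    have hXp : X ≤ (p : ℝ) ^ (-1 : ℝ) :=
      Real.rpow_le_rpow_of_exponent_le (by linarith) (by linarith)
    have hXinv : (p : ℝ) ^ (-1 : ℝ) = (p : ℝ)⁻¹ := Real.rpow_neg_one _
    have hX2 : X ≤ 1 / 2 := by
      refine hXp.trans ?_
      rw [hXinv, one_div]
      exact inv_anti₀ (by norm_num) hp2
    have hfp : ∀ n : ℕ, f (p ^ n) = ‖a (p ^ n)‖ ^ 2 * X ^ n := by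
      intro n
      change (if Nat.Coprime (p ^ n) N then ‖a (p ^ n)‖ ^ 2 * ((p ^ n : ℕ) : ℝ) ^ (-s) else 0) = _
      rw [if_pos (Nat.Coprime.pow_left n ((Nat.Prime.coprime_iff_not_dvd hpp).mpr hpN)),
        Nat.cast_pow, ← Real.rpow_pow_comm hp0.le]
    have hsX : Summable fun r => ‖a (p ^ r)‖ ^ 2 * X ^ r :=
      ((hsp hpp).of_norm).congr fun n => hfp n
    have h1 := local_factor (u := fun r => a (p ^ r)) (s := a p) (e := e p) (he p hpp hpN)
      (by rw [pow_zero, H.one]) (by rw [pow_one]) (H.pow_rec hpp hpN) hX0 (by linarith) hsX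
    rw [tsum_congr hfp]
    have hX2' : X ^ 2 ≤ (p : ℝ) ^ (-2 : ℝ) := by
      have h2 : X ^ 2 ≤ ((p : ℝ) ^ (-1 : ℝ)) ^ 2 := pow_le_pow_left₀ hX0.le hXp 2
      refine h2.trans (le_of_eq ?_)
      rw [← Real.rpow_natCast, ← Real.rpow_mul hp0.le]
      norm_num
    have hXX : X ^ 2 ≤ 1 / 4 := by nlinarith
    have hlog : -2 * X ^ 2 ≤ Real.log (1 - X ^ 2) := by
      have h2 := Real.one_sub_inv_le_log_of_pos (x := 1 - X ^ 2) (by linarith)
      refine le_trans ?_ h2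
      have h3 : (0 : ℝ) < 1 - X ^ 2 := by linarith
      rw [le_sub_iff_add_le, ← le_sub_iff_add_le', inv_le_comm₀ h3 (by nlinarith),
        ← one_div, div_le_iff₀ (by nlinarith)]
      nlinarith
    have hpos : 0 < (1 - X ^ 2) * Real.exp (‖a p‖ ^ 2 * X - X ^ 2) :=
      mul_pos (by linarith) (Real.exp_pos _)
    have h2 := Real.log_le_log hpos h1
    rw [Real.log_mul (by linarith) (Real.exp_pos _).ne', Real.log_exp] at h2
    change ‖a p‖ ^ 2 * X - 3 * (p : ℝ) ^ (-2 : ℝ) ≤ _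
    linarith
  have hsumlog : ∑ p ∈ P, (‖a p‖ ^ 2 * (p : ℝ) ^ (-s) - 3 * (p : ℝ) ^ (-2 : ℝ)) ≤
      Real.log (C * (1 + 1 / (s - 1))) := by
    refine (sum_le_sum hlocal).trans ?_
    rw [← Real.log_prod fun p hp => (lt_of_lt_of_le one_pos (hge1 p (hP p hp).1)).ne']
    refine Real.log_le_log ?_ hprodle
    exact Finset.prod_pos fun p hp => lt_of_lt_of_le one_pos (hge1 p (hP p hp).1)
  have hlog2 : Real.log (C * (1 + 1 / (s - 1))) ≤ Real.log (2 * C) + Real.log (1 / (s - 1)) := by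
    rw [← Real.log_mul (by linarith) (by positivity)]
    refine Real.log_le_log (by positivity) ?_
    have h1 : 1 ≤ 1 / (s - 1) := by
      rw [le_div_iff₀ hs0]
      linarith
    nlinarith
  have hK : ∑ p ∈ P, 3 * (p : ℝ) ^ (-2 : ℝ) ≤ K := by
    rw [← mul_sum]
    refine mul_le_mul_of_nonneg_left ?_ (by norm_num)
    exact (Real.summable_nat_rpow.mpr (by norm_num)).sum_le_tsum P fun n _ => by positivity
  rw [sum_sub_distrib] at hsumlog
  linarith

/-- **The Rankin type bound** for weight one forms. -/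
theorem rankin_of_form (N : ℕ) [NeZero N] (f : CuspForm (CongruenceSubgroup.Gamma1 N) 1)
    (e : ℕ → ℂ) (he : ∀ p : ℕ, p.Prime → ¬ p ∣ N → ‖e p‖ = 1)
    (H : HeckeRelC N (ModularFormClass.qCoeff f) e) : Rankin N (ModularFormClass.qCoeff f) := by
  obtain ⟨C, -, hC⟩ := sum_sq_le_of_weight_one N f
  exact rankin_of_sum_le H he hC

end Fermat.Agent.DS
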