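import Fermat.Agent.DS.RatConj

/-!
# `Aut(ℂ)`-stability and integral structure of spaces of modular forms on a good level

Generic version of `IntStr.Assembly`.
-/

set_option autoImplicit false

open UpperHalfPlane ModularForm MatrixGroups CongruenceSubgroup Matrix.SpecialLinearGroup
open scoped Manifold
open Fermat.Agent.IntStr

noncomputable section

namespace Fermat.Agent.DS

/-- `f` is a modular form on `𝒢` of weight `k`. -/
def IsMG (𝒢 : Subgroup (GL (Fin 2) ℝ)) (k : ℤ) (f : ℍ → ℂ) : Prop :=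
  ∃ F : ModularForm 𝒢 k, ⇑F = f

/-- `f` is a cusp form on `𝒢` of weight `k`. -/
def IsCG (𝒢 : Subgroup (GL (Fin 2) ℝ)) (k : ℤ) (f : ℍ → ℂ) : Prop :=
  ∃ F : CuspForm 𝒢 k, ⇑F = f

variable {𝒢 : Subgroup (GL (Fin 2) ℝ)} [GoodLevel 𝒢] {k l : ℤ} {f g : ℍ → ℂ}

theorem IsMG.anQ (h : IsMG 𝒢 k f) : AnQ f := by
  obtain ⟨F, rfl⟩ := h
  exact ModularFormClass.analyticAt_cuspFunction_zero F one_pos GoodLevel.per

theorem IsMG.of_isL1 (h : IsL1 k f) : IsMG 𝒢 k f := by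
  obtain ⟨F, rfl⟩ := h
  exact ⟨restrictMod GoodLevel.le F, rfl⟩

omit [GoodLevel 𝒢] in
theorem IsCG.isMG (h : IsCG 𝒢 k f) : IsMG 𝒢 k f := by
  obtain ⟨F, rfl⟩ := h
  exact ⟨(F : ModularForm _ k), rfl⟩

omit [GoodLevel 𝒢] in
theorem IsMG.add (hf : IsMG 𝒢 k f) (hg : IsMG 𝒢 k g) : IsMG 𝒢 k (f + g) := by
  obtain ⟨F, rfl⟩ := hf
  obtain ⟨G, rfl⟩ := hg
  exact ⟨F + G, rfl⟩

omit [GoodLevel 𝒢] in
theorem IsCG.add (hf : IsCG 𝒢 k f) (hg : IsCG 𝒢 k g) : IsCG 𝒢 k (f + g) := by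
  obtain ⟨F, rfl⟩ := hf
  obtain ⟨G, rfl⟩ := hg
  exact ⟨F + G, rfl⟩

theorem IsMG.smul (c : ℂ) (hf : IsMG 𝒢 k f) : IsMG 𝒢 k (c • f) := by
  obtain ⟨F, rfl⟩ := hf
  exact ⟨c • F, rfl⟩

theorem IsCG.smul (c : ℂ) (hf : IsCG 𝒢 k f) : IsCG 𝒢 k (c • f) := by
  obtain ⟨F, rfl⟩ := hf
  exact ⟨c • F, rfl⟩

theorem IsMG.mul (hf : IsMG 𝒢 k f) (hg : IsMG 𝒢 l g) : IsMG 𝒢 (k + l) (f * g) := by
  obtain ⟨F, rfl⟩ := hf
  obtain ⟨G, rfl⟩ := hg
  exact ⟨F.mul G, rfl⟩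

omit [GoodLevel 𝒢] in
theorem IsMG.zero (𝒢 : Subgroup (GL (Fin 2) ℝ)) (k : ℤ) : IsMG 𝒢 k 0 := ⟨0, rfl⟩

omit [GoodLevel 𝒢] in
theorem IsCG.zero (𝒢 : Subgroup (GL (Fin 2) ℝ)) (k : ℤ) : IsCG 𝒢 k 0 := ⟨0, rfl⟩

theorem IsMG.one (𝒢 : Subgroup (GL (Fin 2) ℝ)) [GoodLevel 𝒢] : IsMG 𝒢 0 1 :=
  IsMG.of_isL1 IsL1.one

omit [GoodLevel 𝒢] in
theorem IsMG.cast (hf : IsMG 𝒢 k f) (h : k = l) : IsMG 𝒢 l f := h ▸ hf

theorem IsMG.pow (hf : IsMG 𝒢 k f) (n : ℕ) : IsMG 𝒢 (n * k) (f ^ n) := by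
  induction n with
  | zero => exact (IsMG.one 𝒢).cast (by simp)
  | succ n ih => rw [pow_succ]; exact (ih.mul hf).cast (by push_cast; ring)

omit [GoodLevel 𝒢] in
theorem IsMG.sum {ι : Type*} {s : Finset ι} {f : ι → ℍ → ℂ} (hf : ∀ i ∈ s, IsMG 𝒢 k (f i)) :
    IsMG 𝒢 k (∑ i ∈ s, f i) := by
  classical
  induction s using Finset.induction_on with
  | empty => simpa using IsMG.zero 𝒢 k
  | insert a s ha ih =>
    rw [Finset.sum_insert ha]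
    exact (hf a (Finset.mem_insert_self _ _)).add (ih fun i hi => hf i (Finset.mem_insert_of_mem hi))

theorem IsMG.sub (hf : IsMG 𝒢 k f) (hg : IsMG 𝒢 k g) : IsMG 𝒢 k (f - g) := by
  have := hf.add (hg.smul (-1))
  simpa [sub_eq_add_neg] using this

theorem IsMG.eq_zero_of_qExp (hf : IsMG 𝒢 k f) (h : qExpansion 1 f = 0) : f = 0 := by
  obtain ⟨F, rfl⟩ := hf
  have := (ModularForm.qExpansion_eq_zero_iff one_pos GoodLevel.per F).1 h
  rw [this]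
  rfl

theorem IsMG.eq_of_qExp (hf : IsMG 𝒢 k f) (hg : IsMG 𝒢 k g)
    (h : qExpansion 1 f = qExpansion 1 g) : f = g := by
  have h2 : qExpansion 1 (f - g) = 0 := by
    rw [UpperHalfPlane.qExpansion_sub hf.anQ hg.anQ, h, sub_self]
  exact sub_eq_zero.1 ((hf.sub hg).eq_zero_of_qExp h2)

/-- product of forms is zero iff one of them is -/
theorem IsMG.mul_eq_zero (hf : IsMG 𝒢 k f) (hg : IsMG 𝒢 l g) (h : f * g = 0) :
    f = 0 ∨ g = 0 := by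
  obtain ⟨F, rfl⟩ := hf
  obtain ⟨G, rfl⟩ := hg
  exact (UpperHalfPlane.mul_eq_zero_iff F.holo' G.holo').1 h

/-! ### The span of integral forms -/

/-- the `ℂ`-span of the integral forms -/
def VG (𝒢 : Subgroup (GL (Fin 2) ℝ)) (k : ℤ) : Submodule ℂ (ℍ → ℂ) :=
  Submodule.span ℂ {g | IsMG 𝒢 k g ∧ IntQ g}

theorem VG.isMG (hf : f ∈ VG 𝒢 k) : IsMG 𝒢 k f := by
  refine Submodule.span_induction (fun x hx => hx.1) (IsMG.zero 𝒢 k) (fun x y _ _ => IsMG.add)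
    (fun c x _ => IsMG.smul c) hf

theorem VG.tame (hf : f ∈ VG 𝒢 k) : qExpansion 1 f ∈ tame := by
  have : f ∈ VG 𝒢 k ∧ qExpansion 1 f ∈ IntStr.tame := by
    refine Submodule.span_induction (p := fun x _ => x ∈ VG 𝒢 k ∧ qExpansion 1 x ∈ IntStr.tame)
      ?_ ?_ ?_ ?_ hf
    · intro x hx
      refine ⟨Submodule.subset_span hx, ?_⟩
      obtain ⟨a, ha⟩ := hx.2.exists_map
      rw [← ha]
      exact Submodule.subset_span ⟨a, rfl⟩
    · refine ⟨zero_mem _, ?_⟩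
      rw [UpperHalfPlane.qExpansion_zero]
      exact zero_mem _
    · rintro x y _ _ ⟨hx, hx'⟩ ⟨hy, hy'⟩
      refine ⟨add_mem hx hy, ?_⟩
      rw [qExp_add (VG.isMG hx).anQ (VG.isMG hy).anQ]
      exact add_mem hx' hy'
    · rintro c x _ ⟨hx, hx'⟩
      refine ⟨Submodule.smul_mem _ _ hx, ?_⟩
      rw [UpperHalfPlane.qExpansion_smul (VG.isMG hx).anQ]
      exact Submodule.smul_mem _ _ hx'
  exact this.2

theorem VG.mul (hf : f ∈ VG 𝒢 k) (hg : g ∈ VG 𝒢 l) : f * g ∈ VG 𝒢 (k + l) := by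
  refine Submodule.span_induction ?_ ?_ ?_ ?_ hf
  · intro x hx
    refine Submodule.span_induction ?_ ?_ ?_ ?_ hg
    · intro y hy
      refine Submodule.subset_span ⟨hx.1.mul hy.1, ?_⟩
      rw [intQ_iff, qExp_mul hx.1.anQ hy.1.anQ]
      exact IntP.mul hx.2 hy.2
    · rw [mul_zero]; exact zero_mem _
    · intro y z _ _ hy hz
      rw [mul_add]; exact add_mem hy hz
    · intro c y _ hy
      rw [mul_smul_comm]; exact Submodule.smul_mem _ _ hy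
  · rw [zero_mul]; exact zero_mem _
  · intro y z _ _ hy hz
    rw [add_mul]; exact add_mem hy hz
  · intro c y _ hy
    rw [smul_mul_assoc]; exact Submodule.smul_mem _ _ hy

theorem VG.one : (1 : ℍ → ℂ) ∈ VG 𝒢 0 := by
  refine Submodule.subset_span ⟨IsMG.one 𝒢, ?_⟩
  rw [intQ_iff, qExpansion_one]
  exact IntP.one

omit [GoodLevel 𝒢] in
theorem VG.cast (hf : f ∈ VG 𝒢 k) (h : k = l) : f ∈ VG 𝒢 l := h ▸ hf

theorem VG.pow (hf : f ∈ VG 𝒢 k) (n : ℕ) : f ^ n ∈ VG 𝒢 (n * k) := by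
  induction n with
  | zero => rw [pow_zero]; exact VG.cast VG.one (by simp)
  | succ n ih => rw [pow_succ]; exact VG.cast (VG.mul ih hf) (by push_cast; ring)

theorem VG.of_isL1 (h : IsL1 k f) : f ∈ VG 𝒢 k := by
  refine Submodule.span_mono ?_ (isL1_span h)
  rintro g ⟨h1, h2⟩
  exact ⟨IsMG.of_isL1 h1, h2⟩

/-- conjugates of elements of `VG`. -/
theorem VG.conj (σ : ℂ →+* ℂ) (hf : f ∈ VG 𝒢 k) :
    ∃ g ∈ VG 𝒢 k, qExpansion 1 g = PowerSeries.map σ (qExpansion 1 f) := by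
  have : f ∈ VG 𝒢 k ∧ ∃ g ∈ VG 𝒢 k, qExpansion 1 g = PowerSeries.map σ (qExpansion 1 f) := by
    refine Submodule.span_induction (p := fun x _ => x ∈ VG 𝒢 k ∧
      ∃ g ∈ VG 𝒢 k, qExpansion 1 g = PowerSeries.map σ (qExpansion 1 x)) ?_ ?_ ?_ ?_ hf
    · intro x hx
      refine ⟨Submodule.subset_span hx, x, Submodule.subset_span hx, ?_⟩
      ext n
      obtain ⟨m, hm⟩ := hx.2 n
      rw [PowerSeries.coeff_map, hm]
      simp
    · refine ⟨zero_mem _, 0, zero_mem _, ?_⟩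
      rw [UpperHalfPlane.qExpansion_zero, map_zero]
    · rintro x y _ _ ⟨hx, x', hx', ex⟩ ⟨hy, y', hy', ey⟩
      refine ⟨add_mem hx hy, x' + y', add_mem hx' hy', ?_⟩
      rw [qExp_add (VG.isMG hx).anQ (VG.isMG hy).anQ, qExp_add (VG.isMG hx').anQ (VG.isMG hy').anQ,
        ex, ey, map_add]
    · rintro c x _ ⟨hx, x', hx', ex⟩
      refine ⟨Submodule.smul_mem _ _ hx, σ c • x', Submodule.smul_mem _ _ hx', ?_⟩
      rw [UpperHalfPlane.qExpansion_smul (VG.isMG hx).anQ,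
        UpperHalfPlane.qExpansion_smul (VG.isMG hx').anQ, ex]
      ext n
      simp
  exact this.2

/-- conjugates of level one forms -/
theorem isL1_conj (σ : ℂ →+* ℂ) (hf : IsL1 k f) :
    ∃ g, IsL1 k g ∧ qExpansion 1 g = PowerSeries.map σ (qExpansion 1 f) := by
  have : IsL1 k f ∧ ∃ g, IsL1 k g ∧
      qExpansion 1 g = PowerSeries.map σ (qExpansion 1 f) := by
    refine Submodule.span_induction (p := fun x _ => IsL1 k x ∧
      ∃ g, IsL1 k g ∧ qExpansion 1 g = PowerSeries.map σ (qExpansion 1 x)) ?_ ?_ ?_ ?_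
      (isL1_span hf)
    · intro x hx
      refine ⟨hx.1, x, hx.1, ?_⟩
      ext n
      obtain ⟨m, hm⟩ := hx.2 n
      rw [PowerSeries.coeff_map, hm]
      simp
    · refine ⟨IsL1.zero k, 0, IsL1.zero k, ?_⟩
      rw [UpperHalfPlane.qExpansion_zero, map_zero]
    · rintro x y _ _ ⟨hx, x', hx', ex⟩ ⟨hy, y', hy', ey⟩
      refine ⟨hx.add hy, x' + y', hx'.add hy', ?_⟩
      rw [qExp_add hx.anQ hy.anQ, qExp_add hx'.anQ hy'.anQ, ex, ey, map_add]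
    · rintro c x _ ⟨hx, x', hx', ex⟩
      refine ⟨hx.smul c, σ c • x', hx'.smul _, ?_⟩
      rw [UpperHalfPlane.qExpansion_smul hx.anQ,
        UpperHalfPlane.qExpansion_smul hx'.anQ, ex]
      ext n
      simp
  exact this.2

/-! ### Algebraic relations of a form over level one -/

/-- The relations satisfied by a form `f`: integral over level one forms (of the class `P`), and
a quotient of forms in the span of integral forms. -/
structure HasRelG (𝒢 : Subgroup (GL (Fin 2) ℝ)) (k : ℤ) (P : ℤ → (ℍ → ℂ) → Prop)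
    (f : ℍ → ℂ) : Prop where
  monic : ∃ (n : ℕ) (c : ℕ → ℍ → ℂ), 0 < n ∧ (∀ i ∈ Finset.Icc 1 n, P (k * i) (c i)) ∧
    f ^ n + ∑ i ∈ Finset.Icc 1 n, c i * f ^ (n - i) = 0
  quot : ∃ (l : ℤ) (A B : ℍ → ℂ), A ∈ VG 𝒢 (k + l) ∧ B ∈ VG 𝒢 l ∧ B ≠ 0 ∧ B * f = A

/-- the key computation: conjugating the relation -/
theorem exists_conj_aux (σ : ℂ →+* ℂ) {P : ℤ → (ℍ → ℂ) → Prop} (hP : ∀ k f, P k f → IsL1 k f)
    (hPσ : ∀ k f, P k f → ∃ g, P k g ∧ qExpansion 1 g = PowerSeries.map σ (qExpansion 1 f))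
    {Q : (ℍ → ℂ) → Prop} (hQ : ∀ (l : ℤ) (A : ModularForm 𝒢 (k + l)) (B : ModularForm 𝒢 l) (n : ℕ)
      (c : ℕ → ℍ → ℂ), B ≠ 0 → (∀ i ∈ Finset.Icc 1 n, P (k * i) (c i)) →
      (⇑A) ^ n + ∑ i ∈ Finset.Icc 1 n, c i * (⇑A) ^ (n - i) * (⇑B) ^ i = 0 →
      ∃ G : ModularForm 𝒢 k, Q G ∧ ⇑G * ⇑B = ⇑A)
    (hfM : IsMG 𝒢 k f) (hrel : HasRelG 𝒢 k P f) :
    ∃ g, IsMG 𝒢 k g ∧ Q g ∧ qExpansion 1 g = PowerSeries.map σ (qExpansion 1 f) := by
  obtain ⟨n, c, hn, hc, hmonic⟩ := hrel.monic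
  obtain ⟨l, A, B, hA, hB, hB0, hBf⟩ := hrel.quot
  -- homogeneous relation
  have hhom : A ^ n + ∑ i ∈ Finset.Icc 1 n, c i * A ^ (n - i) * B ^ i = 0 := by
    have h1 : B ^ n * (f ^ n + ∑ i ∈ Finset.Icc 1 n, c i * f ^ (n - i)) = 0 := by
      rw [hmonic, mul_zero]
    rw [← h1, ← hBf, mul_add, mul_pow, Finset.mul_sum]
    congr 1
    refine Finset.sum_congr rfl fun i hi => ?_
    rw [Finset.mem_Icc] at hi
    have h5 : B ^ n = B ^ (n - i) * B ^ i := by rw [← pow_add]; congr 1; omega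
    rw [h5]
    ring
  -- conjugates
  obtain ⟨A', hA', eA⟩ := VG.conj σ hA
  obtain ⟨B', hB', eB⟩ := VG.conj σ hB
  choose! c' hc' ec using fun i (hi : i ∈ Finset.Icc 1 n) => hPσ _ _ (hc i hi)
  have hq := qExp_relation (n := n) (c := c) (VG.isMG hA).anQ (VG.isMG hB).anQ
    (fun i hi => (hP _ _ (hc i hi)).anQ)
  rw [hhom, UpperHalfPlane.qExpansion_zero] at hq
  have hq' := qExp_relation (n := n) (c := c') (VG.isMG hA').anQ (VG.isMG hB').anQ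
    (fun i hi => (hP _ _ (hc' i hi)).anQ)
  have hmap := congrArg (PowerSeries.map σ) hq
  rw [map_zero, map_add, map_sum, map_pow, ← eA] at hmap
  have hsum : ∑ i ∈ Finset.Icc 1 n, (PowerSeries.map σ) (qExpansion 1 (c i) *
      qExpansion 1 A ^ (n - i) * qExpansion 1 B ^ i) = ∑ i ∈ Finset.Icc 1 n,
        qExpansion 1 (c' i) * (qExpansion 1 A') ^ (n - i) * (qExpansion 1 B') ^ i := by
    refine Finset.sum_congr rfl fun i hi => ?_
    rw [map_mul, map_mul, map_pow, map_pow, ← eA, ← eB, ← ec i hi]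
  rw [hsum, ← hq'] at hmap
  -- the conjugate relation as functions
  have hM : IsMG 𝒢 (n * (k + l))
      (A' ^ n + ∑ i ∈ Finset.Icc 1 n, c' i * A' ^ (n - i) * B' ^ i) := by
    refine ((VG.isMG hA').pow n).add (IsMG.sum fun i hi => ?_)
    refine (((((IsMG.of_isL1 (hP _ _ (hc' i hi))).mul ((VG.isMG hA').pow (n - i))).mul
      ((VG.isMG hB').pow i)))).cast ?_
    rw [Finset.mem_Icc] at hi
    have : ((n - i : ℕ) : ℤ) = (n : ℤ) - i := by omega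
    rw [this]
    ring
  have hrel' := hM.eq_zero_of_qExp hmap.symm
  obtain ⟨FA, hFA⟩ := VG.isMG hA'
  obtain ⟨FB, hFB⟩ := VG.isMG hB'
  have hqB : qExpansion 1 B ≠ 0 := fun h => hB0 ((VG.isMG hB).eq_zero_of_qExp h)
  have hqB' : qExpansion 1 B' ≠ 0 := by
    rw [eB]
    intro h
    apply hqB
    have : Function.Injective (PowerSeries.map σ) := PowerSeries.map_injective _ σ.injective
    exact this (by rw [h, map_zero])
  have hFB0 : FB ≠ 0 := by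
    rintro rfl
    apply hqB'
    rw [← hFB]
    exact UpperHalfPlane.qExpansion_zero 1
  obtain ⟨G, hGQ, hG⟩ := hQ l FA FB n c' hFB0 hc' (by rw [hFA, hFB]; exact hrel')
  refine ⟨G, ⟨G, rfl⟩, hGQ, ?_⟩
  have hGan : AnQ G := IsMG.anQ (𝒢 := 𝒢) (k := k) ⟨G, rfl⟩
  rw [hFA, hFB] at hG
  have h1 : qExpansion 1 (G : ℍ → ℂ) * qExpansion 1 B' = qExpansion 1 A' := by
    rw [← qExp_mul hGan (VG.isMG hB').anQ, hG]
  have h2 : qExpansion 1 B * qExpansion 1 f = qExpansion 1 A := by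
    rw [← qExp_mul (VG.isMG hB).anQ hfM.anQ, hBf]
  have h3 : qExpansion 1 (G : ℍ → ℂ) * qExpansion 1 B' =
      PowerSeries.map σ (qExpansion 1 f) * qExpansion 1 B' := by
    rw [h1, eA, ← h2, map_mul, eB, mul_comm]
  exact mul_right_cancel₀ hqB' h3

/-- **`Aut(ℂ)`-stability** of the space of cusp forms. -/
theorem exists_conj_of_hasRelG (σ : ℂ →+* ℂ) (hf : IsCG 𝒢 k f) (hrel : HasRelG 𝒢 k IsL1Cusp f) :
    ∃ g, IsCG 𝒢 k g ∧ qExpansion 1 g = PowerSeries.map σ (qExpansion 1 f) := by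
  obtain ⟨g, -, hg, hg'⟩ := exists_conj_aux (𝒢 := 𝒢) σ (P := IsL1Cusp)
    (fun k f h => h.isL1) (fun k f h => IsL1Cusp.conj σ h) (Q := IsCG 𝒢 k)
    (fun l A B n c hB hc hr => by
      obtain ⟨G, hG, -⟩ := exists_cuspForm_of_relation A B hB (n := n) (c := c) hc hr
      exact ⟨(G : ModularForm 𝒢 k), ⟨G, rfl⟩, hG⟩) hf.isMG hrel
  exact ⟨g, hg, hg'⟩

/-- **`Aut(ℂ)`-stability** of the space of modular forms. -/
theorem exists_conj_mod_of_hasRelG (σ : ℂ →+* ℂ) (hf : IsMG 𝒢 k f)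
    (hrel : HasRelG 𝒢 k IsL1 f) :
    ∃ g, IsMG 𝒢 k g ∧ qExpansion 1 g = PowerSeries.map σ (qExpansion 1 f) := by
  obtain ⟨g, hg, -, hg'⟩ := exists_conj_aux (𝒢 := 𝒢) σ (P := IsL1)
    (fun k f h => h) (fun k f h => isL1_conj σ h) (Q := fun _ => True)
    (fun l A B n c hB hc hr => by
      obtain ⟨G, hG, -⟩ := exists_modularForm_of_relation A B hB (n := n) (c := c) hc hr
      exact ⟨G, trivial, hG⟩) hf hrel
  exact ⟨g, hg, hg'⟩

/-- A form satisfying the relations with rational `q`-expansion has bounded denominators. -/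
theorem exists_zsmul_integralG {P : ℤ → (ℍ → ℂ) → Prop} (hP : ∀ k f, P k f → IsL1 k f)
    (hfM : IsMG 𝒢 k f) (hrel : HasRelG 𝒢 k P f)
    (hrat : ∀ n, ∃ r : ℚ, (qExpansion 1 f).coeff n = (r : ℂ)) :
    ∃ D : ℤ, D ≠ 0 ∧ IntQ ((D : ℂ) • f) := by
  obtain ⟨n, c, hn, hc, hmonic⟩ := hrel.monic
  obtain ⟨l, A, B, hA, hB, hB0, hBf⟩ := hrel.quot
  choose r hr using hrat
  let F : PowerSeries ℚ := PowerSeries.mk r
  have hF : PowerSeries.map (algebraMap ℚ ℂ) F = qExpansion 1 f := by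
    ext j
    rw [PowerSeries.coeff_map, hr]
    simp [F]
  have hq := qExp_relation (n := n) (c := c) (A := f) (B := 1) hfM.anQ AnQ.one
    (fun i hi => (hP _ _ (hc i hi)).anQ)
  simp only [one_pow, mul_one] at hq
  rw [hmonic, UpperHalfPlane.qExpansion_zero] at hq
  simp only [qExpansion_one, one_pow, mul_one] at hq
  obtain ⟨D, g, hD, hg⟩ := exists_int_of_tame_relations (f := F) (A := qExpansion 1 A)
    (B := qExpansion 1 B) (VG.tame hA) (VG.tame hB)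
    (fun h => hB0 ((VG.isMG hB).eq_zero_of_qExp h))
    (by rw [hF, ← qExp_mul (VG.isMG hB).anQ hfM.anQ, hBf]) (n := n)
    (c := fun i => qExpansion 1 (c i))
    (fun i hi => VG.tame (𝒢 := 𝒢) (VG.of_isL1 (hP _ _ (hc i hi)))) (by rw [hF]; exact hq.symm)
  refine ⟨D, hD, fun j => ⟨g.coeff j, ?_⟩⟩
  rw [UpperHalfPlane.qExpansion_smul hfM.anQ, PowerSeries.coeff_smul, hr]
  have h2 := congrArg (PowerSeries.coeff j) hg
  rw [PowerSeries.coeff_map] at h2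
  have h4 : PowerSeries.coeff j ((D : PowerSeries ℚ) * F) = (D : ℚ) * r j := by
    have : (D : PowerSeries ℚ) = PowerSeries.C (D : ℚ) := by simp
    rw [this, PowerSeries.coeff_C_mul]
    simp [F]
  rw [h4] at h2
  have h5 := congrArg (fun x : ℚ => (x : ℂ)) h2
  simp only [eq_intCast, Rat.cast_intCast, Rat.cast_mul] at h5
  rw [smul_eq_mul, ← h5]

/-! ### The relations from a separating form -/

/-- A separating form in the span of integral forms. -/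
class HasSep (𝒢 : Subgroup (GL (Fin 2) ℝ)) : Prop where
  exists_sep : ∃ (w : ℤ) (θ : ℍ → ℂ), θ ∈ VG 𝒢 w ∧ Separates 𝒢 w θ

theorem exists_quotG [HasSep 𝒢] (f : ModularForm 𝒢 k) :
    ∃ (l : ℤ) (A B : ℍ → ℂ), A ∈ VG 𝒢 (k + l) ∧ B ∈ VG 𝒢 l ∧ B ≠ 0 ∧ B * (⇑f : ℍ → ℂ) = A := by
  obtain ⟨w, θ, hθ, hs⟩ := HasSep.exists_sep (𝒢 := 𝒢)
  obtain ⟨Θ, rfl⟩ := VG.isMG hθ
  obtain ⟨m, l, D, hD, hD0, h⟩ := lagrange_universalG Θ hs
  obtain ⟨a, ha, hf⟩ := h k f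
  refine ⟨l, _, D, ?_, VG.of_isL1 hD, hD0, hf⟩
  refine Submodule.sum_mem _ fun i hi => ?_
  rw [Finset.mem_range] at hi
  exact VG.cast (VG.mul (VG.of_isL1 (ha i hi)) (VG.pow hθ i)) (by ring)

theorem hasRelG_cusp [HasSep 𝒢] (f : CuspForm 𝒢 k) : HasRelG 𝒢 k IsL1Cusp f :=
  ⟨exists_monic_relationG f, exists_quotG (ModularFormClass.modularForm f)⟩

theorem hasRelG_mod [HasSep 𝒢] (f : ModularForm 𝒢 k) : HasRelG 𝒢 k IsL1 f :=
  ⟨exists_monic_relation_modG f, exists_quotG f⟩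

/-! ### The main results -/

section main

variable (𝒢) [HasSep 𝒢]

/-- **`Aut(ℂ)` acts on cusp forms** through `q`-expansions. -/
theorem exists_conjG (σ : ℂ →+* ℂ) (f : CuspForm 𝒢 k) :
    ∃ g : CuspForm 𝒢 k, qExpansion 1 g = PowerSeries.map σ (qExpansion 1 f) := by
  obtain ⟨_, ⟨G, rfl⟩, hg⟩ := exists_conj_of_hasRelG (𝒢 := 𝒢) σ ⟨f, rfl⟩ (hasRelG_cusp f)
  exact ⟨G, hg⟩

/-- **`Aut(ℂ)` acts on modular forms** through `q`-expansions. -/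
theorem exists_conj_modG (σ : ℂ →+* ℂ) (f : ModularForm 𝒢 k) :
    ∃ g : ModularForm 𝒢 k, qExpansion 1 g = PowerSeries.map σ (qExpansion 1 f) := by
  obtain ⟨_, ⟨G, rfl⟩, hg⟩ := exists_conj_mod_of_hasRelG (𝒢 := 𝒢) σ ⟨f, rfl⟩ (hasRelG_mod f)
  exact ⟨G, hg⟩

end main

/-- the `q`-expansion as a linear map to sequences -/
def qSeqG (𝒢 : Subgroup (GL (Fin 2) ℝ)) [GoodLevel 𝒢] (k : ℤ) : CuspForm 𝒢 k →ₗ[ℂ] (ℕ → ℂ) where
  toFun f n := (qExpansion 1 (f : ℍ → ℂ)).coeff n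
  map_add' f g := by
    funext n
    have h : (⇑(f + g) : ℍ → ℂ) = ⇑f + ⇑g := rfl
    rw [h, qExp_add (IsCG.isMG (𝒢 := 𝒢) ⟨f, rfl⟩).anQ (IsCG.isMG (𝒢 := 𝒢) ⟨g, rfl⟩).anQ]
    simp
  map_smul' c f := by
    funext n
    have h : (⇑(c • f) : ℍ → ℂ) = c • ⇑f := rfl
    rw [h, UpperHalfPlane.qExpansion_smul (IsCG.isMG (𝒢 := 𝒢) ⟨f, rfl⟩).anQ]
    simp

@[simp] theorem qSeqG_apply (f : CuspForm 𝒢 k) (n : ℕ) :
    qSeqG 𝒢 k f n = (qExpansion 1 (f : ℍ → ℂ)).coeff n := rfl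

theorem qSeqG_injective : Function.Injective (qSeqG 𝒢 k) := by
  refine (injective_iff_map_eq_zero _).mpr fun f hf => ?_
  have h : (⇑f : ℍ → ℂ) = 0 := by
    refine IsMG.eq_zero_of_qExp (IsCG.isMG (𝒢 := 𝒢) ⟨f, rfl⟩) ?_
    ext n
    exact congrFun hf n
  exact DFunLike.coe_injective h

/-- the `q`-expansion of modular forms as a linear map to sequences -/
def qSeqM (𝒢 : Subgroup (GL (Fin 2) ℝ)) [GoodLevel 𝒢] (k : ℤ) :
    ModularForm 𝒢 k →ₗ[ℂ] (ℕ → ℂ) where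
  toFun f n := (qExpansion 1 (f : ℍ → ℂ)).coeff n
  map_add' f g := by
    funext n
    have h : (⇑(f + g) : ℍ → ℂ) = ⇑f + ⇑g := rfl
    rw [h, qExp_add (IsMG.anQ (𝒢 := 𝒢) (k := k) ⟨f, rfl⟩) (IsMG.anQ (𝒢 := 𝒢) (k := k) ⟨g, rfl⟩)]
    simp
  map_smul' c f := by
    funext n
    have h : (⇑(c • f) : ℍ → ℂ) = c • ⇑f := rfl
    rw [h, UpperHalfPlane.qExpansion_smul (IsMG.anQ (𝒢 := 𝒢) (k := k) ⟨f, rfl⟩)]
    simp

@[simp] theorem qSeqM_apply (f : ModularForm 𝒢 k) (n : ℕ) :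
    qSeqM 𝒢 k f n = (qExpansion 1 (f : ℍ → ℂ)).coeff n := rfl

theorem qSeqM_injective : Function.Injective (qSeqM 𝒢 k) := by
  refine (injective_iff_map_eq_zero _).mpr fun f hf => ?_
  have h : (⇑f : ℍ → ℂ) = 0 := by
    refine IsMG.eq_zero_of_qExp (⟨f, rfl⟩ : IsMG 𝒢 k f) ?_
    ext n
    exact congrFun hf n
  exact DFunLike.coe_injective h

/-- Sturm bound: the first `B + 1` coefficients determine the form. -/
theorem sturmG (f : ModularForm 𝒢 k)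
    (h : ∀ n ≤ (k * 𝒢.relIndex 𝒮ℒ).toNat / 12, (qExpansion 1 (f : ℍ → ℂ)).coeff n = 0) :
    f = 0 := by
  refine ModularForm.sturm_bound_of_isArithmetic GoodLevel.per ?_
  by_contra hcon
  rw [not_lt] at hcon
  have hne : qExpansion 1 (f : ℍ → ℂ) ≠ 0 := by
    intro h0
    rw [h0, PowerSeries.order_zero] at hcon
    exact absurd hcon (by simp)
  have hfin := PowerSeries.coeff_order hne
  apply hfin
  apply h
  have h1 : ((qExpansion 1 (f : ℍ → ℂ)).order.toNat : ℕ∞) = (qExpansion 1 (f : ℍ → ℂ)).order :=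
    PowerSeries.coe_toNat_order hne
  rw [← h1] at hcon
  exact_mod_cast hcon

instance finiteDimensional_modularFormG (𝒢 : Subgroup (GL (Fin 2) ℝ)) [GoodLevel 𝒢] (k : ℤ) :
    FiniteDimensional ℂ (ModularForm 𝒢 k) := by
  let B : ℕ := (k * 𝒢.relIndex 𝒮ℒ).toNat / 12
  let T : ModularForm 𝒢 k →ₗ[ℂ] (Fin (B + 1) → ℂ) :=
    (LinearMap.funLeft ℂ ℂ (fun i : Fin (B + 1) => (i : ℕ))).comp (qSeqM 𝒢 k)
  refine FiniteDimensional.of_injective T ?_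
  refine (injective_iff_map_eq_zero _).mpr fun f hf => ?_
  exact sturmG f fun n hn => congrFun hf ⟨n, Nat.lt_succ_of_le hn⟩

instance finiteDimensional_cuspFormG (𝒢 : Subgroup (GL (Fin 2) ℝ)) [GoodLevel 𝒢] (k : ℤ) :
    FiniteDimensional ℂ (CuspForm 𝒢 k) := by
  let B : ℕ := (k * 𝒢.relIndex 𝒮ℒ).toNat / 12
  let T : CuspForm 𝒢 k →ₗ[ℂ] (Fin (B + 1) → ℂ) :=
    (LinearMap.funLeft ℂ ℂ (fun i : Fin (B + 1) => (i : ℕ))).comp (qSeqG 𝒢 k)
  refine FiniteDimensional.of_injective T ?_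
  refine (injective_iff_map_eq_zero _).mpr fun f hf => ?_
  have h1 : (ModularFormClass.modularForm f : ModularForm 𝒢 k) = 0 :=
    sturmG _ fun n hn => congrFun hf ⟨n, Nat.lt_succ_of_le hn⟩
  have h2 : (⇑f : ℍ → ℂ) = 0 := by
    have := congrArg (fun F : ModularForm 𝒢 k => (⇑F : ℍ → ℂ)) h1
    exact this
  exact DFunLike.coe_injective h2

/-- **Integral structure on cusp forms.** -/
theorem span_int_cusp (𝒢 : Subgroup (GL (Fin 2) ℝ)) [GoodLevel 𝒢] [HasSep 𝒢] (k : ℤ) :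
    Submodule.span ℂ {f : CuspForm 𝒢 k | IntQ f} = ⊤ := by
  let V : Submodule ℂ (ℕ → ℂ) := LinearMap.range (qSeqG 𝒢 k)
  have hV : ∀ σ : ℂ ≃+* ℂ, ∀ v ∈ V, (fun n => σ (v n)) ∈ V := by
    rintro σ _ ⟨f, rfl⟩
    obtain ⟨G, hg⟩ := exists_conjG 𝒢 (σ : ℂ →+* ℂ) f
    refine ⟨G, ?_⟩
    funext n
    rw [qSeqG_apply, hg, PowerSeries.coeff_map]
    rfl
  have hspan := span_rational_of_stable V hV
  rw [eq_top_iff]
  rintro f -
  have h1 : qSeqG 𝒢 k f ∈ V := ⟨f, rfl⟩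
  rw [← hspan] at h1
  have h2 : Submodule.span ℂ {v | v ∈ V ∧ ∀ n, ∃ r : ℚ, v n = (r : ℂ)} ≤
      (Submodule.span ℂ {f : CuspForm 𝒢 k | IntQ f}).map (qSeqG 𝒢 k) := by
    rw [Submodule.span_le]
    rintro _ ⟨⟨g, rfl⟩, hg⟩
    refine ⟨g, ?_, rfl⟩
    obtain ⟨D, hD, hDg⟩ := exists_zsmul_integralG (𝒢 := 𝒢) (P := IsL1Cusp)
      (fun k f h => h.isL1) (IsCG.isMG ⟨g, rfl⟩) (hasRelG_cusp g) hg
    have h3 : g = (D : ℂ)⁻¹ • ((D : ℂ) • g) := by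
      rw [smul_smul, inv_mul_cancel₀ (by exact_mod_cast hD), one_smul]
    rw [h3]
    exact Submodule.smul_mem _ _ (Submodule.subset_span hDg)
  obtain ⟨g, hg, hgf⟩ := h2 h1
  rw [← qSeqG_injective hgf]
  exact hg

/-- **Integral structure on modular forms.** -/
theorem span_int_mod (𝒢 : Subgroup (GL (Fin 2) ℝ)) [GoodLevel 𝒢] [HasSep 𝒢] (k : ℤ) :
    Submodule.span ℂ {f : ModularForm 𝒢 k | IntQ f} = ⊤ := by
  let V : Submodule ℂ (ℕ → ℂ) := LinearMap.range (qSeqM 𝒢 k)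
  have hV : ∀ σ : ℂ ≃+* ℂ, ∀ v ∈ V, (fun n => σ (v n)) ∈ V := by
    rintro σ _ ⟨f, rfl⟩
    obtain ⟨G, hg⟩ := exists_conj_modG 𝒢 (σ : ℂ →+* ℂ) f
    refine ⟨G, ?_⟩
    funext n
    rw [qSeqM_apply, hg, PowerSeries.coeff_map]
    rfl
  have hspan := span_rational_of_stable V hV
  rw [eq_top_iff]
  rintro f -
  have h1 : qSeqM 𝒢 k f ∈ V := ⟨f, rfl⟩
  rw [← hspan] at h1
  have h2 : Submodule.span ℂ {v | v ∈ V ∧ ∀ n, ∃ r : ℚ, v n = (r : ℂ)} ≤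
      (Submodule.span ℂ {f : ModularForm 𝒢 k | IntQ f}).map (qSeqM 𝒢 k) := by
    rw [Submodule.span_le]
    rintro _ ⟨⟨g, rfl⟩, hg⟩
    refine ⟨g, ?_, rfl⟩
    obtain ⟨D, hD, hDg⟩ := exists_zsmul_integralG (𝒢 := 𝒢) (P := IsL1)
      (fun k f h => h) (⟨g, rfl⟩ : IsMG 𝒢 k g) (hasRelG_mod g) hg
    have h3 : g = (D : ℂ)⁻¹ • ((D : ℂ) • g) := by
      rw [smul_smul, inv_mul_cancel₀ (by exact_mod_cast hD), one_smul]
    rw [h3]
    exact Submodule.smul_mem _ _ (Submodule.subset_span hDg)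
  obtain ⟨g, hg, hgf⟩ := h2 h1
  rw [← qSeqM_injective hgf]
  exact hg

/-- every modular form is in the span of integral forms -/
theorem IsMG.mem_VG [HasSep 𝒢] (hf : IsMG 𝒢 k f) : f ∈ VG 𝒢 k := by
  obtain ⟨F, rfl⟩ := hf
  have h : F ∈ Submodule.span ℂ {f : ModularForm 𝒢 k | IntQ f} := by
    rw [span_int_mod 𝒢 k]; trivial
  refine Submodule.span_induction (p := fun (x : ModularForm 𝒢 k) _ => (⇑x : ℍ → ℂ) ∈ VG 𝒢 k)
    ?_ ?_ ?_ ?_ h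
  · intro x hx
    exact Submodule.subset_span ⟨⟨x, rfl⟩, hx⟩
  · exact zero_mem _
  · intro x y _ _ hx hy
    exact add_mem hx hy
  · intro c x _ hx
    exact Submodule.smul_mem _ _ hx

end Fermat.Agent.DS
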