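import Fermat.Agent.IntStr.Conj
import Fermat.Agent.IntStr.Lagrange
import Fermat.Agent.IntStr.Assembly
import Fermat.Prelude.Thm_ModularForm_sturm_bound_of_isArithmetic

/-!
# Conjugates of modular forms over level one, for a general arithmetic subgroup of `SL₂(ℤ)`

Generic version of `IntStr.Conj` and `IntStr.Lagrange`: a *good level* is an arithmetic subgroup
`𝒢 ≤ SL₂(ℤ)` containing `T`; a *separating form* is a form `θ` on `𝒢` (any weight, odd allowed)
whose conjugates are pairwise distinct.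
-/

set_option autoImplicit false

open UpperHalfPlane ModularForm MatrixGroups CongruenceSubgroup Matrix.SpecialLinearGroup
open SlashInvariantForm
open scoped Pointwise Manifold
open Fermat.Agent.IntStr

noncomputable section

namespace Fermat.Agent.DS

/-- A *good level*: an arithmetic subgroup of `SL₂(ℤ)` (inside `GL₂(ℝ)`) containing `T`. -/
class GoodLevel (𝒢 : Subgroup (GL (Fin 2) ℝ)) : Prop where
  arith : 𝒢.IsArithmetic
  le : 𝒢 ≤ 𝒮ℒ
  per : (1 : ℝ) ∈ 𝒢.strictPeriods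

variable (𝒢 : Subgroup (GL (Fin 2) ℝ))

instance [GoodLevel 𝒢] : 𝒢.IsArithmetic := GoodLevel.arith

instance [GoodLevel 𝒢] : 𝒢.HasDetOne where
  det_eq {g} hg := by
    obtain ⟨γ, rfl⟩ := GoodLevel.le (𝒢 := 𝒢) hg
    ext
    simp

/-- The coset space `SL₂(ℤ) / 𝒢`. -/
abbrev CosG : Type :=
  (𝒮ℒ : Subgroup (GL (Fin 2) ℝ)) ⧸ (𝒢.subgroupOf 𝒮ℒ)

instance [GoodLevel 𝒢] : Finite (CosG 𝒢) := by
  unfold CosG
  infer_instance

instance [GoodLevel 𝒢] : Fintype (CosG 𝒢) := Fintype.ofFinite _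

/-- the trivial coset -/
def cosG1 : CosG 𝒢 := QuotientGroup.mk 1

variable {𝒢}

theorem quotientFunc_cosG1 {k : ℤ} {F : Type*} [FunLike F ℍ ℂ]
    [SlashInvariantFormClass F 𝒢 k] (f : F) :
    quotientFunc f (cosG1 𝒢) = (f : ℍ → ℂ) := by
  have := quotientFunc_mk (𝒢 := 𝒢) f (1 : (𝒮ℒ : Subgroup (GL (Fin 2) ℝ)))
  refine this.trans ?_
  simp

theorem quotientFunc_mk_SL' {k : ℤ} {F : Type*} [FunLike F ℍ ℂ]
    [SlashInvariantFormClass F 𝒢 k] (f : F) (g : SL(2, ℤ)) :
    quotientFunc f (QuotientGroup.mk ⟨mapGL ℝ g, ⟨g, rfl⟩⟩ : CosG 𝒢) =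
      (f : ℍ → ℂ) ∣[k] (g⁻¹ : SL(2, ℤ)) := by
  change (f : ℍ → ℂ) ∣[k] (mapGL ℝ g)⁻¹ = (f : ℍ → ℂ) ∣[k] (mapGL ℝ g⁻¹)
  rw [map_inv]

variable [GoodLevel 𝒢]

theorem conjFam_quotientFuncG {k : ℤ} {F : Type*} [FunLike F ℍ ℂ]
    [ModularFormClass F 𝒢 k] (f : F) :
    ConjFam k (fun q : CosG 𝒢 => quotientFunc f q) where
  slash h q := quotientFunc_smul f h.2 q
  holo := Quotient.forall.mpr fun ⟨r, hr⟩ => (ModularForm.translate f r⁻¹).holo'
  bdd := Quotient.forall.mpr fun ⟨r, hr⟩ => by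
    obtain ⟨g, rfl⟩ := hr
    have := ModularFormClass.bdd_at_infty_slash f g⁻¹
    rw [← quotientFunc_mk_SL'] at this
    exact this

theorem isZero_quotientFuncG {k : ℤ} (f : CuspForm 𝒢 k)
    (q : CosG 𝒢) : IsZeroAtImInfty (quotientFunc f q) := by
  revert q
  refine Quotient.forall.mpr fun ⟨r, hr⟩ => ?_
  obtain ⟨g, rfl⟩ := hr
  have := CuspFormClass.zero_at_infty_slash f g⁻¹
  rw [← quotientFunc_mk_SL'] at this
  exact this

theorem exists_monic_relation_modG {k : ℤ} (f : ModularForm 𝒢 k) :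
    ∃ (n : ℕ) (c : ℕ → ℍ → ℂ), 0 < n ∧ (∀ i ∈ Finset.Icc 1 n, IsL1 (k * i) (c i)) ∧
      (⇑f : ℍ → ℂ) ^ n + ∑ i ∈ Finset.Icc 1 n, c i * (⇑f : ℍ → ℂ) ^ (n - i) = 0 := by
  have hF := conjFam_quotientFuncG f
  refine ⟨Fintype.card (CosG 𝒢),
    fun i => (-1) ^ i * esymmFam (fun q : CosG 𝒢 => quotientFunc f q) i,
    Fintype.card_pos_iff.mpr ⟨cosG1 𝒢⟩, fun i _ => ?_, ?_⟩
  · have h := hF.esymm_isL1 i
    rcases neg_one_pow_eq_or (ℍ → ℂ) i with h1 | h1
    · simp only [h1, one_mul]; exact h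
    · simp only [h1, neg_one_mul]; exact h.neg
  · have := ConjFam.relation (fun q : CosG 𝒢 => quotientFunc f q) (cosG1 𝒢)
    rw [quotientFunc_cosG1] at this
    exact this

theorem exists_monic_relationG {k : ℤ} (f : CuspForm 𝒢 k) :
    ∃ (n : ℕ) (c : ℕ → ℍ → ℂ), 0 < n ∧ (∀ i ∈ Finset.Icc 1 n, IsL1Cusp (k * i) (c i)) ∧
      (⇑f : ℍ → ℂ) ^ n + ∑ i ∈ Finset.Icc 1 n, c i * (⇑f : ℍ → ℂ) ^ (n - i) = 0 := by
  have hF := conjFam_quotientFuncG f
  refine ⟨Fintype.card (CosG 𝒢),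
    fun i => (-1) ^ i * esymmFam (fun q : CosG 𝒢 => quotientFunc f q) i,
    Fintype.card_pos_iff.mpr ⟨cosG1 𝒢⟩, fun i hi => ?_, ?_⟩
  · have h := hF.esymm_isL1Cusp (isZero_quotientFuncG f) (i := i)
      (by simp only [Finset.mem_Icc] at hi; omega)
    rcases neg_one_pow_eq_or (ℍ → ℂ) i with h1 | h1
    · simp only [h1, one_mul]; exact h
    · simp only [h1, neg_one_mul]
      simpa using h.smul (-1)
  · have := ConjFam.relation (fun q : CosG 𝒢 => quotientFunc f q) (cosG1 𝒢)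
    rw [quotientFunc_cosG1] at this
    exact this

/-! ### Weighted determinants of level one forms -/

theorem isL1_det_weighted {n : ℕ} (r c : Fin n → ℤ) (A : Matrix (Fin n) (Fin n) (ℍ → ℂ))
    (h : ∀ i j, IsL1 (r i + c j) (A i j)) : IsL1 (∑ i, r i + ∑ j, c j) A.det := by
  rw [Matrix.det_apply]
  refine IsL1.sum fun σ _ => ?_
  have h1 : IsL1 (∑ i, (r (σ i) + c i)) (∏ i, A (σ i) i) := IsL1.prod fun i _ => h _ _
  have h2 : ∑ i, (r (σ i) + c i) = ∑ i, r i + ∑ j, c j := by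
    rw [Finset.sum_add_distrib, Equiv.sum_comp σ r]
  rw [h2] at h1
  rcases Int.units_eq_one_or (Equiv.Perm.sign σ) with hs | hs
  · rw [hs, one_smul]; exact h1
  · rw [hs]
    have : (-1 : ℤˣ) • (∏ i, A (σ i) i) = -(∏ i, A (σ i) i) := by
      rw [Units.neg_smul, one_smul]
    rw [this]
    exact h1.neg

theorem isL1_adjugate_weighted {n : ℕ} (r c : Fin n → ℤ) (A : Matrix (Fin n) (Fin n) (ℍ → ℂ))
    (h : ∀ i j, IsL1 (r i + c j) (A i j)) (i j : Fin n) :
    IsL1 (∑ i, r i + ∑ j, c j - r j - c i) (A.adjugate i j) := by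
  classical
  rw [Matrix.adjugate_apply]
  have h1 : ∀ a b, IsL1 (Function.update r j (-c i) a + c b)
      (A.updateRow j (Pi.single i 1) a b) := by
    intro a b
    by_cases ha : a = j
    · subst ha
      rw [Matrix.updateRow_self, Function.update_self]
      by_cases hb : b = i
      · subst hb
        rw [Pi.single_eq_same]
        exact IsL1.one.cast (by ring)
      · rw [Pi.single_eq_of_ne hb]
        exact IsL1.zero _
    · rw [Matrix.updateRow_ne ha, Function.update_of_ne ha]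
      exact h a b
  refine (isL1_det_weighted _ _ _ h1).cast ?_
  have h2 : ∑ a, Function.update r j (-c i) a = ∑ a, r a - r j - c i := by
    rw [Finset.sum_update_of_mem (Finset.mem_univ j), ← Finset.add_sum_erase _ r (Finset.mem_univ j),
      Finset.sdiff_singleton_eq_erase]
    ring
  rw [h2]
  ring

/-! ### Separation and Lagrange interpolation -/

/-- `θ` separates the cosets of `𝒢`. -/
def Separates (𝒢 : Subgroup (GL (Fin 2) ℝ)) (w : ℤ) (θ : ℍ → ℂ) : Prop :=
  ∀ g : SL(2, ℤ), θ ∣[w] g = θ → mapGL ℝ g ∈ 𝒢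

theorem conj_injectiveG {w : ℤ} (θ : ModularForm 𝒢 w) (hθ : Separates 𝒢 w θ) :
    Function.Injective (fun q : CosG 𝒢 => (quotientFunc θ q : ℍ → ℂ)) := by
  intro q q' h
  obtain ⟨⟨_, g, rfl⟩, rfl⟩ := QuotientGroup.mk_surjective q
  obtain ⟨⟨_, g', rfl⟩, rfl⟩ := QuotientGroup.mk_surjective q'
  simp only at h
  rw [quotientFunc_mk_SL', quotientFunc_mk_SL'] at h
  have h1 : (⇑θ : ℍ → ℂ) ∣[w] (g⁻¹ * g') = θ := by
    rw [SlashAction.slash_mul, h, ← SlashAction.slash_mul, inv_mul_cancel, SlashAction.slash_one]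
  have h2 := hθ _ h1
  rw [QuotientGroup.eq, Subgroup.mem_subgroupOf]
  simpa using h2

/-- **Universal Lagrange interpolation**: there is a nonzero level one form `D` such that for any
form `f` on `𝒢`, `D f` is a combination of `θ^i` with level one coefficients. -/
theorem lagrange_universalG {w : ℤ} (θ : ModularForm 𝒢 w) (hθ : Separates 𝒢 w θ) :
    ∃ (m : ℕ) (l : ℤ) (D : ℍ → ℂ), IsL1 l D ∧ D ≠ 0 ∧
      ∀ (k : ℤ) (f : ModularForm 𝒢 k),
        ∃ a : ℕ → ℍ → ℂ, (∀ i < m, IsL1 (k + l - w * i) (a i)) ∧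
          D * (⇑f : ℍ → ℂ) = ∑ i ∈ Finset.range m, a i * (⇑θ : ℍ → ℂ) ^ i := by
  classical
  obtain ⟨n, hn⟩ : ∃ n, Fintype.card (CosG 𝒢) = n := ⟨_, rfl⟩
  let e : Fin n ≃ CosG 𝒢 := (Fintype.equivFinOfCardEq hn).symm
  let th : CosG 𝒢 → ℍ → ℂ := fun q => quotientFunc θ q
  have hth : ConjFam w th := conjFam_quotientFuncG θ
  let Mf : Fin n → CosG 𝒢 → ℍ → ℂ := fun j q => th q ^ j.1
  have hMf : ∀ j : Fin n, ConjFam (j.1 * w) (Mf j) := fun j => hth.pow j.1
  let M : Matrix (Fin n) (Fin n) (ℍ → ℂ) := Matrix.vandermonde (fun i => th (e i))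
  have hM : ∀ i j, M i j = Mf j (e i) := fun i j => rfl
  let r : Fin n → ℤ := fun j => j.1 * w
  -- the Gram matrix
  have hG : ∀ i j, IsL1 (r i + r j) ((M.transpose * M) i j) := by
    intro i j
    rw [Matrix.mul_apply]
    simp only [Matrix.transpose_apply, hM]
    rw [Equiv.sum_comp e (fun q => Mf i q * Mf j q)]
    exact ((hMf i).mul (hMf j)).sum_isL1
  refine ⟨n, ∑ i, r i + ∑ j, r j, (M.transpose * M).det,
    isL1_det_weighted _ _ _ hG, ?_, ?_⟩
  · -- nonvanishing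
    rw [Matrix.det_mul, Matrix.det_transpose]
    have hdet : M.det = ∏ i : Fin n, ∏ j ∈ Finset.Ioi i, (th (e j) - th (e i)) :=
      Matrix.det_vandermonde _
    have hfac : ∀ i j, MDiff (th (e j) - th (e i)) := fun i j =>
      (hth.holo _).sub (hth.holo _)
    have hin : ∀ i : Fin n, MDiff (∏ j ∈ Finset.Ioi i, (th (e j) - th (e i))) := by
      intro i
      refine MDifferentiable.prod ?_
      intro j _
      exact hfac i j
    have hne : M.det ≠ 0 := by
      rw [hdet]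
      intro h0
      rw [UpperHalfPlane.prod_eq_zero_iff (fun i _ => hin i)] at h0
      obtain ⟨i, -, hi⟩ := h0
      rw [UpperHalfPlane.prod_eq_zero_iff (fun j _ => hfac i j)] at hi
      obtain ⟨j, hj, hij⟩ := hi
      have := conj_injectiveG θ hθ (sub_eq_zero.mp hij)
      have := e.injective this
      rw [Finset.mem_Ioi] at hj
      exact absurd this hj.ne'
    have hMD : MDiff M.det := by
      rw [hdet]
      refine MDifferentiable.prod ?_
      intro i _
      exact hin i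
    intro h0
    rw [UpperHalfPlane.mul_eq_zero_iff hMD hMD] at h0
    exact h0.elim hne hne
  · intro k f
    let F : Fin n → ℍ → ℂ := fun i => quotientFunc f (e i)
    let t : Fin n → ℍ → ℂ := M.transpose.mulVec F
    let y : Fin n → ℍ → ℂ := (M.transpose * M).adjugate.mulVec t
    have ht : ∀ j, IsL1 (r j + k) (t j) := by
      intro j
      have : t j = ∑ q, Mf j q * quotientFunc f q := by
        change ∑ i, M i j * F i = _
        exact Equiv.sum_comp e (fun q => Mf j q * quotientFunc f q)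
      rw [this]
      exact ((hMf j).mul (conjFam_quotientFuncG f)).sum_isL1
    have hy : ∀ j, IsL1 (∑ i, r i + ∑ j, r j - r j + k) (y j) := by
      intro j
      change IsL1 _ (∑ i, (M.transpose * M).adjugate j i * t i)
      exact IsL1.sum fun i _ =>
        ((isL1_adjugate_weighted _ _ _ hG j i).mul (ht i)).cast (by ring)
    have hlag := lagrange_matrix M F
    have h1 := congrFun hlag (e.symm (cosG1 𝒢))
    have hF1 : F (e.symm (cosG1 𝒢)) = ⇑f := by
      change quotientFunc f (e (e.symm (cosG1 𝒢))) = _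
      rw [Equiv.apply_symm_apply, quotientFunc_cosG1]
    have hM1 : ∀ j, M (e.symm (cosG1 𝒢)) j = (⇑θ : ℍ → ℂ) ^ j.1 := by
      intro j
      rw [hM]
      change th (e (e.symm (cosG1 𝒢))) ^ j.1 = _
      rw [Equiv.apply_symm_apply]
      change (quotientFunc θ (cosG1 𝒢)) ^ j.1 = _
      rw [quotientFunc_cosG1]
    rw [Pi.smul_apply, hF1, smul_eq_mul] at h1
    refine ⟨fun i => if h : i < n then y ⟨i, h⟩ else 0, fun i hi => ?_, ?_⟩
    · simp only [hi, dif_pos]
      refine (hy ⟨i, hi⟩).cast ?_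
      simp only [r]
      ring
    · rw [← h1]
      rw [Finset.sum_range]
      change ∑ j, M (e.symm (cosG1 𝒢)) j * y j = _
      refine Finset.sum_congr rfl fun j _ => ?_
      beta_reduce
      rw [hM1 j, dif_pos j.2]
      ring

end Fermat.Agent.DS
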