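import Fermat.Agent.DS.EisInt

/-!
# Rationality of modular forms on `Γ₁(N)`: main results
-/

set_option autoImplicit false

open UpperHalfPlane ModularForm MatrixGroups CongruenceSubgroup Matrix.SpecialLinearGroup
open EisensteinSeries Filter Topology
open scoped Manifold Real Nat
open Fermat.Agent.IntStr

noncomputable section

namespace Fermat.Agent.DS

variable {N : ℕ} [NeZero N]

theorem Gamma0_le_Gamma1 (hN : N ≤ 2) : Gamma0 N ≤ Gamma1 N := by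
  intro g hg
  have hN0 : 0 < N := Nat.pos_of_ne_zero (NeZero.ne N)
  rw [Gamma0_mem] at hg
  rw [Gamma1_mem]
  have hdet := g.det_coe
  rw [Matrix.det_fin_two] at hdet
  have h4 := congrArg (fun x : ℤ => (x : ZMod N)) hdet
  simp only [Int.cast_sub, Int.cast_mul, hg, mul_zero, sub_zero, Int.cast_one] at h4
  have hu : ∀ x y : ZMod N, x * y = 1 → x = 1 := by
    have : N = 1 ∨ N = 2 := by omega
    rcases this with rfl | rfl
    · intro x y _; exact Subsingleton.elim _ _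
    · decide
  exact ⟨hu _ _ h4, hu _ _ (by rw [mul_comm]; exact h4), hg⟩

instance hasSep_Gamma1 (N : ℕ) [NeZero N] :
    HasSep (Gamma1 N : Subgroup (GL (Fin 2) ℝ)) := by
  rcases le_or_gt 3 N with hN | hN
  · refine ⟨⟨((3 : ℕ) : ℤ), _, eis_mem_VG (N := N) (le_refl 3), ?_⟩⟩
    exact separates_eis hN (by norm_num) (by decide)
  · have hle : (Gamma1 N : Subgroup (GL (Fin 2) ℝ)) ≤ (Gamma0 N : Subgroup (GL (Fin 2) ℝ)) :=
      Subgroup.map_mono (Gamma1_in_Gamma0 N)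
    refine ⟨⟨12, theta N, ?_, ?_⟩⟩
    · exact Submodule.subset_span
        ⟨⟨restrictMod hle (theta N : ModularForm _ 12), rfl⟩, intQ_theta N⟩
    · intro g hg
      have h1 := mem_Gamma0_of_theta_slash g hg
      exact ⟨g, Gamma0_le_Gamma1 (by omega) h1, rfl⟩

/-- `Aut(ℂ)` (in fact any ring endomorphism of `ℂ`) acts on `S_k(Γ₁(N))` through
`q`-expansions, in all weights. -/
theorem exists_conj_Gamma1 (N : ℕ) [NeZero N] {k : ℤ} (σ : ℂ →+* ℂ)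
    (f : CuspForm (Gamma1 N : Subgroup (GL (Fin 2) ℝ)) k) :
    ∃ g : CuspForm (Gamma1 N : Subgroup (GL (Fin 2) ℝ)) k,
      ∀ n, ModularFormClass.qCoeff g n = σ (ModularFormClass.qCoeff f n) := by
  obtain ⟨g, hg⟩ := exists_conjG _ σ f
  refine ⟨g, fun n => ?_⟩
  simp only [ModularFormClass.qCoeff, hg, PowerSeries.coeff_map]

/-- `S_k(Γ₁(N))` is spanned by forms with integral `q`-expansions, in all weights. -/
theorem span_int_Gamma1 (N : ℕ) [NeZero N] (k : ℤ) :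
    Submodule.span ℂ {f : CuspForm (Gamma1 N : Subgroup (GL (Fin 2) ℝ)) k |
      ∀ n, ∃ m : ℤ, ModularFormClass.qCoeff f n = (m : ℂ)} = ⊤ :=
  span_int_cusp (Gamma1 N : Subgroup (GL (Fin 2) ℝ)) k

/-! ### Compatibility of conjugation with the diamond operators -/

section compat

variable {𝒢 : Subgroup (GL (Fin 2) ℝ)} [GoodLevel 𝒢]

/-- `g` is the `σ`-conjugate of `f`. -/
def IsConj' (σ : ℂ →+* ℂ) (f g : ℍ → ℂ) : Prop :=
  qExpansion 1 g = PowerSeries.map σ (qExpansion 1 f)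

theorem isConj_mul {σ : ℂ →+* ℂ} {f g f' g' : ℍ → ℂ} (hf : AnQ f) (hg : AnQ g) (hf' : AnQ f')
    (hg' : AnQ g') (h : IsConj' σ f f') (h' : IsConj' σ g g') : IsConj' σ (f * g) (f' * g') := by
  unfold IsConj' at *
  rw [qExp_mul hf' hg', qExp_mul hf hg, map_mul, h, h']

theorem isConj_pow {σ : ℂ →+* ℂ} {f f' : ℍ → ℂ} (hf : AnQ f) (hf' : AnQ f')
    (h : IsConj' σ f f') (n : ℕ) : IsConj' σ (f ^ n) (f' ^ n) := by
  unfold IsConj' at *
  rw [qExp_pow hf', qExp_pow hf, map_pow, h]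

theorem isConj_sum {σ : ℂ →+* ℂ} {ι : Type*} {s : Finset ι} {f f' : ι → ℍ → ℂ}
    (hf : ∀ i ∈ s, AnQ (f i)) (hf' : ∀ i ∈ s, AnQ (f' i)) (h : ∀ i ∈ s, IsConj' σ (f i) (f' i)) :
    IsConj' σ (∑ i ∈ s, f i) (∑ i ∈ s, f' i) := by
  unfold IsConj' at *
  rw [qExp_sum hf', qExp_sum hf, map_sum]
  exact Finset.sum_congr rfl fun i hi => h i hi

/-- normaliser condition for `γ ∈ SL₂(ℤ)` -/
def Normalizes (𝒢 : Subgroup (GL (Fin 2) ℝ)) (γ : SL(2, ℤ)) : Prop :=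
  ∀ h ∈ 𝒢, mapGL ℝ γ * h * (mapGL ℝ γ)⁻¹ ∈ 𝒢

/-- slashing by a normalising element preserves forms -/
theorem IsMG.slash_of_normalizes {k : ℤ} {f : ℍ → ℂ} (hf : IsMG 𝒢 k f) {γ : SL(2, ℤ)}
    (hγ : Normalizes 𝒢 γ) : IsMG 𝒢 k (f ∣[k] γ) := by
  obtain ⟨F, rfl⟩ := hf
  refine ⟨{ toFun := (⇑F : ℍ → ℂ) ∣[k] (mapGL ℝ γ)
            slash_action_eq' := ?_
            holo' := ?_
            bdd_at_cusps' := ?_ }, rfl⟩
  · intro h hh
    have h1 := F.slash_action_eq' _ (hγ h hh)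
    change (⇑F : ℍ → ℂ) ∣[k] (mapGL ℝ γ * h * (mapGL ℝ γ)⁻¹) = ⇑F at h1
    rw [← SlashAction.slash_mul]
    rw [show mapGL ℝ γ * h = (mapGL ℝ γ * h * (mapGL ℝ γ)⁻¹) * mapGL ℝ γ by group,
      SlashAction.slash_mul, h1]
  · exact (ModularForm.translate F (mapGL ℝ γ)).holo'
  · intro x hx
    rw [Subgroup.IsArithmetic.isCusp_iff_isCusp_SL2Z] at hx
    rw [OnePoint.isBoundedAt_iff_forall_SL2Z hx]
    intro δ _
    have h1 := ModularFormClass.bdd_at_infty_slash F (γ * δ)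
    rw [SlashAction.slash_mul] at h1
    exact h1

theorem IsL1.slash {k : ℤ} {f : ℍ → ℂ} (hf : IsL1 k f) (γ : SL(2, ℤ)) : f ∣[k] γ = f := by
  obtain ⟨F, rfl⟩ := hf
  exact F.slash_action_eq' _ ⟨γ, rfl⟩

theorem pow_slash_SL {k : ℤ} (f : ℍ → ℂ) (γ : SL(2, ℤ)) (n : ℕ) :
    (f ^ n) ∣[(n * k : ℤ)] γ = (f ∣[k] γ) ^ n := by
  induction n with
  | zero =>
    simp only [pow_zero, Nat.cast_zero, zero_mul]
    exact ModularForm.is_invariant_one γ
  | succ n ih =>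
    rw [pow_succ, pow_succ, ← ih]
    have : ((n + 1 : ℕ) : ℤ) * k = n * k + k := by push_cast; ring
    rw [this, ModularForm.mul_slash_SL2]

/-- **Conjugation commutes with normalising elements**, provided it does so for one separating
form. -/
theorem conj_slash_of_sep {w : ℤ} {θ θ' : ℍ → ℂ} (hθ : IsMG 𝒢 w θ) (hθ' : IsMG 𝒢 w θ')
    (hsep : Separates 𝒢 w θ) (σ : ℂ →+* ℂ) {γ : SL(2, ℤ)} (hγ : Normalizes 𝒢 γ)
    (h1 : IsConj' σ θ θ') (h2 : IsConj' σ (θ ∣[w] γ) (θ' ∣[w] γ))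
    {k : ℤ} {f f' : ℍ → ℂ} (hf : IsMG 𝒢 k f) (hf' : IsMG 𝒢 k f') (hff : IsConj' σ f f') :
    IsConj' σ (f ∣[k] γ) (f' ∣[k] γ) := by
  obtain ⟨Θ, rfl⟩ := hθ
  obtain ⟨m, l, D, hD, hD0, h⟩ := lagrange_universalG Θ hsep
  obtain ⟨F, rfl⟩ := hf
  obtain ⟨a, ha, hfa⟩ := h k F
  have hΘ : IsMG 𝒢 w Θ := ⟨Θ, rfl⟩
  have hF : IsMG 𝒢 k F := ⟨F, rfl⟩
  -- conjugates of the level one forms
  obtain ⟨D', hD', eD⟩ := isL1_conj σ hD
  choose! a' ha' ea using fun i (hi : i < m) => isL1_conj σ (ha i hi)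
  have hs : ∀ {g : ℍ → ℂ}, IsMG 𝒢 w g → ∀ {b : ℕ → ℍ → ℂ}, (∀ i < m, IsL1 (k + l - w * i) (b i)) →
      ∀ i ∈ Finset.range m, IsMG 𝒢 (l + k) (b i * g ^ i) := by
    intro g hg b hb i hi
    rw [Finset.mem_range] at hi
    exact ((IsMG.of_isL1 (hb i hi)).mul (hg.pow i)).cast (by ring)
  -- the conjugate relation
  have hrel' : D' * f' = ∑ i ∈ Finset.range m, a' i * θ' ^ i := by
    refine IsMG.eq_of_qExp (𝒢 := 𝒢) (k := l + k) ((IsMG.of_isL1 hD').mul hf')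
      (IsMG.sum (hs hθ' ha')) ?_
    have e1 : IsConj' σ (D * ⇑F) (D' * f') := isConj_mul hD.anQ hF.anQ hD'.anQ hf'.anQ eD hff
    have e2 : IsConj' σ (∑ i ∈ Finset.range m, a i * (⇑Θ : ℍ → ℂ) ^ i)
        (∑ i ∈ Finset.range m, a' i * θ' ^ i) := by
      refine isConj_sum (fun i hi => (hs hΘ ha i hi).anQ) (fun i hi => (hs hθ' ha' i hi).anQ) ?_
      intro i hi
      rw [Finset.mem_range] at hi
      exact isConj_mul (ha i hi).anQ (hΘ.pow i).anQ (ha' i hi).anQ (hθ'.pow i).anQ (ea i hi)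
        (isConj_pow hΘ.anQ hθ'.anQ h1 i)
    unfold IsConj' at e1 e2
    rw [e1, e2, hfa]
  -- slash both relations
  have slashrel : ∀ {g : ℍ → ℂ} {b : ℕ → ℍ → ℂ} {E u : ℍ → ℂ}, IsL1 l E →
      (∀ i < m, IsL1 (k + l - w * i) (b i)) → E * u = ∑ i ∈ Finset.range m, b i * g ^ i →
      E * (u ∣[k] γ) = ∑ i ∈ Finset.range m, b i * (g ∣[w] γ) ^ i := by
    intro g b E u hE hb hr
    have e1 := congrArg (fun F : ℍ → ℂ => F ∣[(l + k : ℤ)] γ) hr
    rw [ModularForm.mul_slash_SL2, IsL1.slash hE] at e1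
    rw [e1, SL_slash, SlashAction.sum_slash]
    refine Finset.sum_congr rfl fun i hi => ?_
    rw [Finset.mem_range] at hi
    rw [← SL_slash]
    have e2 : (l + k : ℤ) = (k + l - w * i) + i * w := by ring
    rw [e2, ModularForm.mul_slash_SL2, IsL1.slash (hb i hi), pow_slash_SL]
  have s1 := slashrel hD ha hfa
  have s2 := slashrel hD' ha' hrel'
  -- compare
  have hΘγ := hΘ.slash_of_normalizes hγ
  have hθγ := hθ'.slash_of_normalizes hγ
  have hFγ := hF.slash_of_normalizes hγ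
  have hfγ := hf'.slash_of_normalizes hγ
  have e2 : IsConj' σ (∑ i ∈ Finset.range m, a i * ((⇑Θ : ℍ → ℂ) ∣[w] γ) ^ i)
      (∑ i ∈ Finset.range m, a' i * (θ' ∣[w] γ) ^ i) := by
    refine isConj_sum (fun i hi => (hs hΘγ ha i hi).anQ) (fun i hi => (hs hθγ ha' i hi).anQ) ?_
    intro i hi
    rw [Finset.mem_range] at hi
    exact isConj_mul (ha i hi).anQ (hΘγ.pow i).anQ (ha' i hi).anQ (hθγ.pow i).anQ (ea i hi)
      (isConj_pow hΘγ.anQ hθγ.anQ h2 i)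
  rw [← s1, ← s2] at e2
  unfold IsConj' at e2 ⊢
  rw [qExp_mul hD'.anQ hfγ.anQ, qExp_mul hD.anQ hFγ.anQ, map_mul, ← eD] at e2
  have hD'0 : qExpansion 1 D' ≠ 0 := by
    rw [eD]
    intro h0
    apply hD0
    refine (IsMG.of_isL1 (𝒢 := 𝒢) hD).eq_zero_of_qExp ?_
    have : Function.Injective (PowerSeries.map σ) := PowerSeries.map_injective _ σ.injective
    exact this (by rw [h0, map_zero])
  exact mul_left_cancel₀ hD'0 e2

end compat

omit [NeZero N] in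
/-- `Γ₀(N)` normalises `Γ₁(N)`. -/
theorem normalizes_Gamma1 {γ : SL(2, ℤ)} (hγ : γ ∈ Gamma0 N) :
    Normalizes (Gamma1 N : Subgroup (GL (Fin 2) ℝ)) γ := by
  rintro _ ⟨h, hh, rfl⟩
  refine ⟨γ * h * γ⁻¹, ?_, by simp⟩
  have hh' : h ∈ Gamma1 N := hh
  change γ * h * γ⁻¹ ∈ Gamma1 N
  rw [Gamma1_mem] at hh' ⊢
  rw [Gamma0_mem] at hγ
  obtain ⟨h00, h11, h10⟩ := hh'
  have hdet := γ.det_coe
  rw [Matrix.det_fin_two] at hdet
  have h4 := congrArg (fun x : ℤ => (x : ZMod N)) hdet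
  simp only [Int.cast_sub, Int.cast_mul, hγ, mul_zero, sub_zero, Int.cast_one] at h4
  simp only [Matrix.SpecialLinearGroup.coe_mul, Matrix.SpecialLinearGroup.coe_inv,
    Matrix.mul_apply, Fin.sum_univ_two, Matrix.adjugate_fin_two, Matrix.of_apply,
    Matrix.cons_val_zero, Matrix.cons_val_one, Matrix.cons_val_fin_one, Matrix.cons_val',
    Int.cast_add, Int.cast_mul, Int.cast_neg, h00, h11, h10, hγ]
  refine ⟨?_, ?_, ?_⟩
  · linear_combination h4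
  · linear_combination h4
  · ring

theorem IsMG.slash_Gamma0 {k : ℤ} {f : ℍ → ℂ}
    (hf : IsMG (Gamma1 N : Subgroup (GL (Fin 2) ℝ)) k f) {γ : SL(2, ℤ)} (hγ : γ ∈ Gamma0 N) :
    IsMG (Gamma1 N : Subgroup (GL (Fin 2) ℝ)) k (f ∣[k] γ) :=
  hf.slash_of_normalizes (normalizes_Gamma1 hγ)

theorem isConj_Hr {k : ℕ} (hk : 3 ≤ k) (σ : ℂ →+* ℂ) (r : ZMod N) :
    IsConj' σ (Hr N k r) (Hr N k r) := by
  obtain ⟨ρ, hρ⟩ := qExp_Hr hk r
  unfold IsConj'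
  ext n
  rw [PowerSeries.coeff_map, hρ]
  split_ifs <;> simp

/-- **Diamond operators commute with `Aut(ℂ)`**: for `γ ∈ Γ₀(N)` and `f, f' ∈ M_k(Γ₁(N))` with
`f' = f^σ`, one has `f' | γ = (f | γ)^σ`. -/
theorem isConj_slash_Gamma0 (σ : ℂ →+* ℂ) {γ : SL(2, ℤ)} (hγ : γ ∈ Gamma0 N) {k : ℤ}
    {f f' : ℍ → ℂ} (hf : IsMG (Gamma1 N : Subgroup (GL (Fin 2) ℝ)) k f)
    (hf' : IsMG (Gamma1 N : Subgroup (GL (Fin 2) ℝ)) k f') (h : IsConj' σ f f') :
    IsConj' σ (f ∣[k] γ) (f' ∣[k] γ) := by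
  rcases le_or_gt 3 N with hN | hN
  · have h3 : (3 : ℕ) ≤ 3 := le_refl 3
    have hmem := eis_mem_span (N := N) h3
    rw [spanHr, Submodule.mem_span_range_iff_exists_fun] at hmem
    obtain ⟨c, hc⟩ := hmem
    have hMHr : ∀ r : ZMod N, IsMG (Gamma1 N : Subgroup (GL (Fin 2) ℝ)) (3 : ℕ) (Hr N 3 r) :=
      fun r => isMG_Hr h3 r
    have hcomb : ∀ (c : ZMod N → ℂ) (pp : ZMod N → ZMod N), IsConj' σ (∑ r, c r • Hr N 3 (pp r))
        (∑ r, σ (c r) • Hr N 3 (pp r)) := by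
      intro c pp
      refine isConj_sum (fun r _ => ((hMHr _).smul _).anQ) (fun r _ => ((hMHr _).smul _).anQ) ?_
      intro r _
      have h5 := isConj_Hr h3 σ (pp r)
      unfold IsConj' at h5 ⊢
      rw [UpperHalfPlane.qExpansion_smul (hMHr _).anQ, UpperHalfPlane.qExpansion_smul (hMHr _).anQ]
      ext n
      have h6 := congrArg (PowerSeries.coeff n) h5
      rw [PowerSeries.coeff_map] at h6
      rw [PowerSeries.coeff_map, PowerSeries.coeff_smul, PowerSeries.coeff_smul, smul_eq_mul,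
        smul_eq_mul, map_mul, ← h6]
    have hslash : ∀ c : ZMod N → ℂ, (∑ r, c r • Hr N 3 r) ∣[((3 : ℕ) : ℤ)] γ =
        ∑ r, c r • Hr N 3 (r * ((γ 0 0 : ℤ) : ZMod N)) := by
      intro c
      rw [SL_slash, SlashAction.sum_slash]
      refine Finset.sum_congr rfl fun r _ => ?_
      rw [← SL_slash, SL_smul_slash, Hr_slash 3 hγ]
    refine conj_slash_of_sep (𝒢 := (Gamma1 N : Subgroup (GL (Fin 2) ℝ))) (w := ((3 : ℕ) : ℤ))
      (θ := eisensteinSeries (![0, 1] : Fin 2 → ZMod N) ((3 : ℕ) : ℤ))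
      (θ' := ∑ r, σ (c r) • Hr N 3 r) ?_ ?_ (separates_eis hN (by norm_num) (by decide)) σ
      (normalizes_Gamma1 hγ) ?_ ?_ hf hf' h
    · rw [← hc]
      exact IsMG.sum fun r _ => (hMHr r).smul _
    · exact IsMG.sum fun r _ => (hMHr r).smul _
    · rw [← hc]
      exact hcomb c id
    · rw [← hc, hslash, hslash]
      exact hcomb c _
  · have h1 : γ ∈ Gamma1 N := Gamma0_le_Gamma1 (by omega) hγ
    obtain ⟨F, rfl⟩ := hf
    obtain ⟨F', rfl⟩ := hf'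
    have e1 : (⇑F : ℍ → ℂ) ∣[k] γ = F := F.slash_action_eq' _ ⟨γ, h1, rfl⟩
    have e2 : (⇑F' : ℍ → ℂ) ∣[k] γ = F' := F'.slash_action_eq' _ ⟨γ, h1, rfl⟩
    rw [e1, e2]
    exact h

end Fermat.Agent.DS
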